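/-
CAR (helper52) — the LOCAL GLUING CORE (pure commutative algebra, Mathlib only).

Setting of the application: `R = O_P` the (regular) local ring of the arithmetic surface at a
closed point `P` of the special fibre, `S ⊇ R` the semilocal ring of the vertical valuations
through `P`, `q` the uniformiser of the base, `ρ i : S → κ i` the reductions to the residue
fields of the branches through `P`.  A Kummer generator `g ≡ 1 mod q S` of an `m`-torsion class
is locally `g = u · h ^ m` with `u ∈ Rˣ`; put `b := h⁻¹ ∈ S`, so `b ^ m ≡ u mod q S`.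

`exists_sub_mem_span_of_glue` : if the values of `b` at `P` on ALL branches agree (the "gluing
datum" of the class is trivial at `P`: `ρ i b ≡ ρ i c` modulo the maximal ideal for one `c ∈ R`),
then `b ∈ R + q S`.  Consequently every local section `s = a · b` (`a ∈ R`) of the line bundle
`O(D)` reduces modulo `q` to a function which is REGULAR at `P`.

No henselisation: in `S / q S` the ring `M = R[b]` is finite over `R`, the element
`e = ∑_{j<m} b^j c^(m-1-j)` is a unit of `M` (every maximal ideal of `M` contains the kernel of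
one of the `ρ i`, and `ρ i e ≡ m c^(m-1)` is a unit), `(b - c) e = u - c^m ∈ 𝔪`, hence
`M = R + 𝔪 M` and Nakayama gives `M = R`.
-/
import Mathlib

set_option autoImplicit false

namespace Fermat.Agent.CAR.Glue

open IsLocalRing Polynomial

section Core

variable {R S : Type*} [CommRing R] [IsLocalRing R] [CommRing S] [Algebra R S]

/-- **Local gluing core.**  See the file header. -/
theorem exists_sub_mem_span_of_glue
    {ι : Type*} [Finite ι] [Nonempty ι] {κ : ι → Type*} [∀ i, CommRing (κ i)]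
    [∀ i, Nontrivial (κ i)] (ρ : ∀ i, S →+* κ i)
    (q : R) (hρq : ∀ i, ρ i (algebraMap R S q) = 0)
    (hnil : ∀ z : S, (∀ i, ρ i z = 0) → ∃ N : ℕ, z ^ N ∈ Ideal.span {algebraMap R S q})
    (m : ℕ) (hm : IsUnit (m : R))
    (b : S) (u : R) (hu : IsUnit u)
    (hb : b ^ m - algebraMap R S u ∈ Ideal.span {algebraMap R S q})
    (c : R) (hglue : ∀ i, ∃ t ∈ maximalIdeal R, ρ i b = ρ i (algebraMap R S (c + t))) :
    ∃ r : R, b - algebraMap R S r ∈ Ideal.span {algebraMap R S q} := by
  classical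
  cases nonempty_fintype ι
  have hm0 : m ≠ 0 := by
    rintro rfl
    rw [Nat.cast_zero] at hm
    exact not_isUnit_zero hm
  set I : Ideal S := Ideal.span {algebraMap R S q} with hI
  let π : S →ₐ[R] S ⧸ I := Ideal.Quotient.mkₐ R I
  have hπ : Function.Surjective π := Ideal.Quotient.mkₐ_surjective R I
  have hπ0 : ∀ z : S, π z = 0 ↔ z ∈ I := fun z => Ideal.Quotient.eq_zero_iff_mem
  have hρI : ∀ i, ∀ a ∈ I, ρ i a = 0 := by
    intro i a ha
    obtain ⟨s, rfl⟩ := Ideal.mem_span_singleton'.1 ha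
    rw [map_mul, hρq, mul_zero]
  let ρb : ∀ i, S ⧸ I →+* κ i := fun i => Ideal.Quotient.lift I (ρ i) (hρI i)
  have hρb : ∀ i z, ρb i (π z) = ρ i z := fun i z => Ideal.Quotient.lift_mk I (ρ i) (hρI i)
  let g : ∀ i, R →+* κ i := fun i => (ρ i).comp (algebraMap R S)
  have hρbalg : ∀ i (r : R), ρb i (algebraMap R (S ⧸ I) r) = g i r := by
    intro i r
    rw [← π.commutes r, hρb]
    rfl
  have hgunit : ∀ i (r : R), g i r = 0 → r ∈ maximalIdeal R := by
    intro i r hr
    rw [mem_maximalIdeal, mem_nonunits_iff]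
    intro hru
    have := hru.map (g i)
    rw [hr] at this
    exact not_isUnit_zero this
  -- the elements of the quotient
  set bb : S ⧸ I := π b with hbb
  set cb : S ⧸ I := algebraMap R (S ⧸ I) c with hcb
  have hbbm : bb ^ m = algebraMap R (S ⧸ I) u := by
    have := (hπ0 _).2 hb
    rw [map_sub, map_pow, π.commutes, sub_eq_zero] at this
    exact this
  -- `c` is a unit and `u - c ^ m ∈ 𝔪`
  obtain ⟨i₀⟩ := ‹Nonempty ι›
  obtain ⟨t₀, ht₀, hbt₀⟩ := hglue i₀
  have hρbm : ρ i₀ (b ^ m) = g i₀ u := by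
    have := hρI i₀ _ hb
    rw [map_sub, sub_eq_zero] at this
    exact this
  have h1 : u - (c + t₀) ^ m ∈ maximalIdeal R := by
    apply hgunit i₀
    rw [map_sub, map_pow, ← hρbm, map_pow, hbt₀]
    show ρ i₀ (algebraMap R S (c + t₀)) ^ m - ρ i₀ (algebraMap R S (c + t₀)) ^ m = 0
    exact sub_self _
  have hpowsub : ∀ (t : R), t ∈ maximalIdeal R → ∀ j : ℕ, (c + t) ^ j - c ^ j ∈ maximalIdeal R := by
    intro t ht j
    obtain ⟨k, hk⟩ := sub_dvd_pow_sub_pow (c + t) c j
    rw [hk, add_sub_cancel_left]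
    exact Ideal.mul_mem_right _ _ ht
  have hucm : u - c ^ m ∈ maximalIdeal R := by
    have : u - c ^ m = (u - (c + t₀) ^ m) + ((c + t₀) ^ m - c ^ m) := by ring
    rw [this]
    exact Ideal.add_mem _ h1 (hpowsub t₀ ht₀ m)
  have hcunit : IsUnit c := by
    by_contra hc
    have hc' : c ∈ maximalIdeal R := by rwa [mem_maximalIdeal, mem_nonunits_iff]
    have : u ∈ maximalIdeal R := by
      have e : u = (u - c ^ m) + c ^ m := by ring
      rw [e]
      exact Ideal.add_mem _ hucm (Ideal.pow_mem_of_mem _ hc' m (Nat.pos_of_ne_zero hm0))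
    rw [mem_maximalIdeal, mem_nonunits_iff] at this
    exact this hu
  -- the finite `R`-algebra `M = R[bb]`
  set M : Subalgebra R (S ⧸ I) := Algebra.adjoin R {bb} with hM
  have hbbM : bb ∈ M := Algebra.subset_adjoin (Set.mem_singleton bb)
  have hcbM : cb ∈ M := M.algebraMap_mem c
  have hintg : IsIntegral R bb := by
    refine ⟨X ^ m - C u, monic_X_pow_sub_C u hm0, ?_⟩
    rw [eval₂_sub, eval₂_pow, eval₂_X, eval₂_C, hbbm, sub_self]
  have hfg : (Subalgebra.toSubmodule M).FG := hintg.fg_adjoin_singleton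
  -- the geometric sum
  set e : S ⧸ I := ∑ j ∈ Finset.range m, bb ^ j * cb ^ (m - 1 - j) with he
  have heM : e ∈ M :=
    Subalgebra.sum_mem _ fun j _ => M.mul_mem (M.pow_mem hbbM _) (M.pow_mem hcbM _)
  have hgeo : e * (bb - cb) = algebraMap R (S ⧸ I) (u - c ^ m) := by
    rw [he, (Commute.all bb cb).geom_sum₂_mul m, hbbm, map_sub, map_pow]
  -- `e` is a unit of `M`
  have hunit : IsUnit (⟨e, heM⟩ : M) := by
    by_contra hne
    obtain ⟨𝔫, h𝔫max, he𝔫⟩ := exists_max_ideal_of_mem_nonunits (mem_nonunits_iff.2 hne)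
    let ψ : ∀ i, M →+* κ i := fun i => (ρb i).comp M.val.toRingHom
    have hψ : ∀ i (y : M), ψ i y = ρb i (y : S ⧸ I) := fun i y => rfl
    have hprod : ∏ i, RingHom.ker (ψ i) ≤ 𝔫 := by
      intro y hy
      have hy' : ∀ i, ψ i y = 0 := by
        intro i
        have := Ideal.prod_le_inf hy
        rw [Submodule.mem_finsetInf] at this
        exact (RingHom.mem_ker).1 (this i (Finset.mem_univ i))
      obtain ⟨z, hz⟩ := hπ (y : S ⧸ I)
      obtain ⟨N, hN⟩ := hnil z (fun i => by rw [← hρb, hz, ← hψ]; exact hy' i)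
      have hyN : y ^ N = 0 := by
        apply Subtype.ext
        rw [SubmonoidClass.coe_pow, ← hz, ← map_pow]
        exact (hπ0 _).2 hN
      have : y ^ N ∈ 𝔫 := by rw [hyN]; exact 𝔫.zero_mem
      exact h𝔫max.isPrime.mem_of_pow_mem N this
    obtain ⟨i, -, hi⟩ := (h𝔫max.isPrime.prod_le).1 hprod
    obtain ⟨t, ht, hbt⟩ := hglue i
    set w : R := ∑ j ∈ Finset.range m, (c + t) ^ j * c ^ (m - 1 - j) with hw
    have hψe : ψ i ⟨e, heM⟩ = g i w := by
      rw [hψ]
      show ρb i e = g i w
      rw [he, hw, map_sum, map_sum]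
      refine Finset.sum_congr rfl fun j _ => ?_
      rw [map_mul, map_pow, map_pow, hbb, hρb, hbt, hcb, hρbalg, map_mul, map_pow, map_pow]
      rfl
    have hwunit : IsUnit w := by
      by_contra hwn
      have hw' : w ∈ maximalIdeal R := by rwa [mem_maximalIdeal, mem_nonunits_iff]
      have hsum : w - (m : R) * c ^ (m - 1)
          = ∑ j ∈ Finset.range m, ((c + t) ^ j - c ^ j) * c ^ (m - 1 - j) := by
        have e1 : ∑ j ∈ Finset.range m, c ^ j * c ^ (m - 1 - j) = (m : R) * c ^ (m - 1) := by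
          have e0 : ∑ j ∈ Finset.range m, c ^ j * c ^ (m - 1 - j)
              = ∑ _j ∈ Finset.range m, c ^ (m - 1) := by
            refine Finset.sum_congr rfl fun j hj => ?_
            rw [← pow_add]
            congr 1
            have := Finset.mem_range.1 hj
            omega
          rw [e0, Finset.sum_const, Finset.card_range, nsmul_eq_mul]
        rw [hw, ← e1, ← Finset.sum_sub_distrib]
        refine Finset.sum_congr rfl fun j _ => ?_
        ring
      have h2 : w - (m : R) * c ^ (m - 1) ∈ maximalIdeal R := by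
        rw [hsum]
        exact Ideal.sum_mem _ fun j _ => Ideal.mul_mem_right _ _ (hpowsub t ht j)
      have h3 : (m : R) * c ^ (m - 1) ∈ maximalIdeal R := by
        have e2 : (m : R) * c ^ (m - 1) = w - (w - (m : R) * c ^ (m - 1)) := by ring
        rw [e2]
        exact Ideal.sub_mem _ hw' h2
      rw [mem_maximalIdeal, mem_nonunits_iff] at h3
      exact h3 (hm.mul (hcunit.pow _))
    have hker : algebraMap R M w - ⟨e, heM⟩ ∈ RingHom.ker (ψ i) := by
      rw [RingHom.mem_ker, map_sub, hψe, hψ]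
      show ρb i (algebraMap R (S ⧸ I) w) - g i w = 0
      rw [hρbalg, sub_self]
    have hmem : algebraMap R M w ∈ 𝔫 := by
      have e3 : algebraMap R M w = (algebraMap R M w - ⟨e, heM⟩) + ⟨e, heM⟩ := by ring
      rw [e3]
      exact 𝔫.add_mem (hi hker) he𝔫
    exact h𝔫max.ne_top (Ideal.eq_top_of_isUnit_mem _ hmem (hwunit.map (algebraMap R M)))
  obtain ⟨eu, heu⟩ := hunit
  set e'' : M := (↑eu⁻¹ : M) with he''
  have hee'' : (e'' : S ⧸ I) * e = 1 := by
    have h := eu.inv_mul
    rw [heu] at h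
    have := congrArg (Subtype.val : M → S ⧸ I) h
    simpa using this
  have hd : bb - cb = (u - c ^ m) • (e'' : S ⧸ I) := by
    calc bb - cb = ((e'' : S ⧸ I) * e) * (bb - cb) := by rw [hee'', one_mul]
      _ = (e'' : S ⧸ I) * algebraMap R (S ⧸ I) (u - c ^ m) := by rw [mul_assoc, hgeo]
      _ = (u - c ^ m) • (e'' : S ⧸ I) := by rw [Algebra.smul_def, mul_comm]
  -- Nakayama
  have hNN : Subalgebra.toSubmodule M ≤
      LinearMap.range (Algebra.linearMap R (S ⧸ I)) ⊔
        maximalIdeal R • Subalgebra.toSubmodule M := by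
    intro y hy
    have hy' : y ∈ (aeval bb : R[X] →ₐ[R] S ⧸ I).range := by
      rw [← Algebra.adjoin_singleton_eq_range_aeval]
      exact hy
    obtain ⟨p, hpy⟩ := (AlgHom.mem_range _).1 hy'
    rw [← hpy]
    set p₁ : R[X] := (p - C (p.eval c)) /ₘ (X - C c) with hp₁
    have hroot : IsRoot (p - C (p.eval c)) c := by
      rw [IsRoot, eval_sub, eval_C, sub_self]
    have hp : (X - C c) * p₁ = p - C (p.eval c) := mul_divByMonic_eq_iff_isRoot.2 hroot
    have hp' : (bb - cb) * aeval bb p₁ = aeval bb p - algebraMap R (S ⧸ I) (p.eval c) := by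
      have := congrArg (aeval bb) hp
      simp only [map_mul, map_sub, aeval_X, aeval_C] at this
      exact this
    have hp₁M : aeval bb p₁ ∈ M := by
      rw [hM, Algebra.adjoin_singleton_eq_range_aeval]
      exact ⟨p₁, rfl⟩
    have hsplit : aeval bb p = algebraMap R (S ⧸ I) (p.eval c)
        + (u - c ^ m) • ((e'' : S ⧸ I) * aeval bb p₁) := by
      rw [← smul_mul_assoc, ← hd, hp']
      ring
    rw [hsplit]
    exact Submodule.add_mem_sup ⟨p.eval c, rfl⟩
      (Submodule.smul_mem_smul hucm (M.mul_mem e''.2 hp₁M))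
  have hle := Submodule.le_of_le_smul_of_le_jacobson_bot hfg
    (le_of_eq (jacobson_eq_maximalIdeal (⊥ : Ideal R) bot_ne_top).symm) hNN
  obtain ⟨r, hr⟩ := hle hbbM
  refine ⟨r, ?_⟩
  rw [← hπ0, map_sub, π.commutes, sub_eq_zero]
  exact hr.symm

/-- **Section form.**  `g` a Kummer generator with `g ≡ 1 mod q S`, locally `g = u · h ^ m`
(`u ∈ Rˣ`), written with `h' = h⁻¹ ∈ S` as `h' ^ m * g = u`; trivial gluing datum at the point
(`hglue`).  Then every local section `s = a · h'` (`a ∈ R`) of `O(D)` lies in `R + q S`. -/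
theorem exists_sub_mem_span_of_glue_section
    {ι : Type*} [Finite ι] [Nonempty ι] {κ : ι → Type*} [∀ i, CommRing (κ i)]
    [∀ i, Nontrivial (κ i)] (ρ : ∀ i, S →+* κ i)
    (q : R) (hρq : ∀ i, ρ i (algebraMap R S q) = 0)
    (hnil : ∀ z : S, (∀ i, ρ i z = 0) → ∃ N : ℕ, z ^ N ∈ Ideal.span {algebraMap R S q})
    (m : ℕ) (hm : IsUnit (m : R))
    (g h' : S) (u : R) (hu : IsUnit u)
    (hg : g - 1 ∈ Ideal.span {algebraMap R S q})
    (hgh : h' ^ m * g = algebraMap R S u)
    (c : R) (hglue : ∀ i, ∃ t ∈ maximalIdeal R, ρ i h' = ρ i (algebraMap R S (c + t)))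
    (s : S) (a : R) (hs : s = algebraMap R S a * h') :
    ∃ r : R, s - algebraMap R S r ∈ Ideal.span {algebraMap R S q} := by
  have hb : h' ^ m - algebraMap R S u ∈ Ideal.span {algebraMap R S q} := by
    have e : h' ^ m - algebraMap R S u = -(h' ^ m) * (g - 1) := by rw [← hgh]; ring
    rw [e]
    exact Ideal.mul_mem_left _ _ hg
  obtain ⟨r₀, hr₀⟩ := exists_sub_mem_span_of_glue ρ q hρq hnil m hm h' u hu hb c hglue
  refine ⟨a * r₀, ?_⟩
  have e : s - algebraMap R S (a * r₀) = algebraMap R S a * (h' - algebraMap R S r₀) := by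
    rw [hs, map_mul]; ring
  rw [e]
  exact Ideal.mul_mem_left _ _ hr₀

end Core

/-! ### Local–global: membership in `B + q O` can be tested at the maximal ideals over `q` -/

/-- Let `T` be a `B`-submodule of a `B`-module `O` containing `q • O`.  If for every maximal
ideal `𝔪 ∋ q` of `B` some `d ∉ 𝔪` has `d • o ∈ T`, then `o ∈ T`.  (Application: `B` the chart
ring, `O` the tri-integral ring, `T = B + q O`: a reduction which is regular at every closed
point of the special fibre of the chart is regular on the chart.) -/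
theorem mem_of_forall_maximal {B O : Type*} [CommRing B] [AddCommGroup O] [Module B O]
    (q : B) (T : Submodule B O) (hT : ∀ o : O, q • o ∈ T) (o : O)
    (h : ∀ 𝔪 : Ideal B, 𝔪.IsMaximal → q ∈ 𝔪 → ∃ d : B, d ∉ 𝔪 ∧ d • o ∈ T) : o ∈ T := by
  set J : Ideal B :=
    { carrier := {d | d • o ∈ T}
      add_mem' := fun {a b} ha hb => by
        show (a + b) • o ∈ T
        rw [add_smul]; exact T.add_mem ha hb
      zero_mem' := by
        show (0 : B) • o ∈ T
        rw [zero_smul]; exact T.zero_mem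
      smul_mem' := fun c {a} ha => by
        show (c • a) • o ∈ T
        rw [smul_eq_mul, mul_smul]; exact T.smul_mem c ha } with hJ
  have hJtop : J = ⊤ := by
    by_contra hne
    obtain ⟨𝔪, h𝔪, hle⟩ := Ideal.exists_le_maximal J hne
    obtain ⟨d, hd, hdo⟩ := h 𝔪 h𝔪 (hle (hT o))
    exact hd (hle hdo)
  have : (1 : B) ∈ J := by rw [hJtop]; exact Submodule.mem_top
  have h1 : (1 : B) • o ∈ T := this
  rwa [one_smul] at h1

/-! ### The ratio computation (combinatorics of the two degeneracy maps) -/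

/-- Gluing values `a, b, c` (on the branches `(2,0)`, `(1,1)`, `(0,2)` at a triple point), with
`q = n + 1`.  If the push-forwards under `α` and `β` have gluing ratios `A`, `B`
(`a b^(q-1) = A c^q`, `a^q = B b^(q-1) c`), then `(a/c)^(q+1) = A B` and
`(b/c)^(q²-1) = A^q / B`: the `(q² - 1)`-th powers of the ratios do not depend on the point. -/
theorem ratio_pow_eq {k : Type*} [Field k] (n : ℕ) {a b c A B : k} (hb : b ≠ 0) (hc : c ≠ 0)
    (hα : a * b ^ n = A * c ^ (n + 1)) (hβ : a ^ (n + 1) = B * b ^ n * c) :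
    a ^ (n + 2) = A * B * c ^ (n + 2) ∧
      B * b ^ (n * (n + 2)) = A ^ (n + 1) * c ^ (n * (n + 2)) := by
  constructor
  · have h1 : a ^ (n + 2) * b ^ n = (A * B * c ^ (n + 2)) * b ^ n := by
      calc a ^ (n + 2) * b ^ n = a ^ (n + 1) * (a * b ^ n) := by ring
        _ = (B * b ^ n * c) * (A * c ^ (n + 1)) := by rw [hα, hβ]
        _ = (A * B * c ^ (n + 2)) * b ^ n := by ring
    exact mul_right_cancel₀ (pow_ne_zero n hb) h1
  · have h2 : (B * b ^ (n * (n + 2))) * c = (A ^ (n + 1) * c ^ (n * (n + 2))) * c := by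
      calc (B * b ^ (n * (n + 2))) * c = (B * b ^ n * c) * b ^ (n * (n + 1)) := by ring
        _ = a ^ (n + 1) * b ^ (n * (n + 1)) := by rw [hβ]
        _ = (a * b ^ n) ^ (n + 1) := by ring
        _ = (A * c ^ (n + 1)) ^ (n + 1) := by rw [hα]
        _ = (A ^ (n + 1) * c ^ (n * (n + 2))) * c := by ring
    exact mul_right_cancel₀ hc h2

end Fermat.Agent.CAR.Glue
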