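/-
CAR-13 (helper75), part (b) — LOCAL FACTORISATION at a factorial point.

* `LStart.primeVal F π hπ` : the valuation ring `R_(π) ⊆ F = Frac R` of a prime element `π` of a
  domain `R` with well-founded divisibility; `isUnif_primeVal` : `π` is a uniformiser of it
  (helper47's `Formal.IsUnif`).
* `exists_unit_mul_pow_of_forall_prime` (pure UFD): an element of a factorial domain all of whose
  prime multiplicities are divisible by `m` is `unit * X ^ m`.
* `exists_unit_mul_pow` : `R` factorial, `f ∈ Fˣ`; if for every prime `π` of `R` the element `f` is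
  an `m`-th power times a unit of `R_(π)` ("`m ∣ ord_π f`"), then `f = u * h ^ m`, `u ∈ Rˣ`.
* `exists_factor` (**(b)**): the chart ring `A`, a point `P` with `A_P` factorial, the vertical
  family `O i` (all primes of `A` minimal over `q` and contained in `P` are centres of the `O i`),
  `f` a unit of every `O i` through `P`, and `m ∣ ord_V f` for every discrete valuation ring `V` of
  `F` containing `A` and `q⁻¹` (the horizontal primes) ⟹ `f = u * h ^ m` with `u ∈ (A_P)ˣ`.
-/
import Mathlib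
import Fermat.Agent.CAR.Local.LocalThm
import Fermat.Agent.CAR.Local.Divisorial
import Fermat.Agent.CAR.Formal.DiscVal

set_option autoImplicit false

namespace Fermat.Agent.CAR.Glue.LStart

open IsLocalRing Fermat.Agent.CAR.Local

/-! ### The valuation ring of a prime element -/

section PrimeVal

variable {R : Type*} (F : Type*) [CommRing R] [IsDomain R] [WfDvdMonoid R] [Field F]
  [Algebra R F] [IsFractionRing R F]

/-- The valuation ring `R_(π)` of a prime element `π` of `R`, inside the fraction field `F`. -/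
noncomputable def primeVal (π : R) (hπ : Prime π) : ValuationSubring F :=
  haveI : (Ideal.span {π}).IsPrime := (Ideal.span_singleton_prime hπ.ne_zero).2 hπ
  { (pointRing F (Ideal.span {π})).toSubring with
    mem_or_inv_mem' := by
      intro z
      by_cases hz : z = 0
      · left
        rw [hz]
        exact (pointRing F (Ideal.span {π})).zero_mem
      obtain ⟨n, a, b, ha, hb, hzn⟩ := exists_zpow_mul_div (F := F) hπ.not_isUnit hπ.ne_zero hz
      have hinj : Function.Injective (algebraMap R F) := IsFractionRing.injective R F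
      have hπF : algebraMap R F π ≠ 0 := fun h => hπ.ne_zero (hinj (by rw [h, map_zero]))
      rcases le_or_gt 0 n with hn | hn
      · left
        obtain ⟨k, rfl⟩ := Int.eq_ofNat_of_zero_le hn
        refine mem_pointRing_iff.2 ⟨π ^ k * a, b, fun hb' => hb (Ideal.mem_span_singleton.1 hb'), ?_⟩
        rw [hzn, zpow_natCast, map_mul, map_pow, div_eq_mul_inv, mul_assoc]
      · right
        obtain ⟨k, hk⟩ := Int.eq_ofNat_of_zero_le (neg_nonneg.2 hn.le)
        refine mem_pointRing_iff.2 ⟨π ^ k * b, a, fun ha' => ha (Ideal.mem_span_singleton.1 ha'), ?_⟩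
        have hn' : n = -(k : ℤ) := by omega
        rw [hzn, hn', zpow_neg, zpow_natCast, map_mul, map_pow, mul_inv, inv_inv, inv_div,
          div_eq_mul_inv, mul_assoc] }

variable {F}

theorem mem_primeVal_iff (π : R) (hπ : Prime π) (z : F) :
    z ∈ primeVal F π hπ ↔ ∃ a b : R, ¬ π ∣ b ∧ z = algebraMap R F a / algebraMap R F b := by
  have : (Ideal.span {π}).IsPrime := (Ideal.span_singleton_prime hπ.ne_zero).2 hπ
  have h0 : z ∈ primeVal F π hπ ↔ z ∈ pointRing F (Ideal.span {π}) := Iff.rfl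
  rw [h0, mem_pointRing_iff]
  constructor
  · rintro ⟨a, s, hs, rfl⟩
    exact ⟨a, s, fun h => hs (Ideal.mem_span_singleton.2 h), by rw [div_eq_mul_inv]⟩
  · rintro ⟨a, s, hs, rfl⟩
    exact ⟨a, s, fun h => hs (Ideal.mem_span_singleton.1 h), by rw [div_eq_mul_inv]⟩

theorem algebraMap_mem_primeVal (π : R) (hπ : Prime π) (r : R) :
    algebraMap R F r ∈ primeVal F π hπ :=
  (mem_primeVal_iff π hπ _).2 ⟨r, 1, fun h => hπ.not_isUnit (isUnit_of_dvd_one h), by simp⟩

theorem inv_algebraMap_mem_primeVal (π : R) (hπ : Prime π) {r : R} (hr : ¬ π ∣ r) :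
    (algebraMap R F r)⁻¹ ∈ primeVal F π hπ :=
  (mem_primeVal_iff π hπ _).2 ⟨1, r, hr, by simp⟩

theorem div_mem_primeVal (π : R) (hπ : Prime π) (a : R) {b : R} (hb : ¬ π ∣ b) :
    algebraMap R F a / algebraMap R F b ∈ primeVal F π hπ :=
  (mem_primeVal_iff π hπ _).2 ⟨a, b, hb, rfl⟩

/-- `π` is a uniformiser of `R_(π)`. -/
theorem isUnif_primeVal (π : R) (hπ : Prime π) :
    Formal.IsUnif (primeVal F π hπ) (algebraMap R F π) := by
  have hinj : Function.Injective (algebraMap R F) := IsFractionRing.injective R F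
  have hπF : algebraMap R F π ≠ 0 := fun h => hπ.ne_zero (hinj (by rw [h, map_zero]))
  refine ⟨algebraMap_mem_primeVal π hπ π, ?_, ?_⟩
  · intro h
    obtain ⟨a, b, hb, hab⟩ := (mem_primeVal_iff π hπ _).1 h
    have hbF : algebraMap R F b ≠ 0 := by
      intro h0
      apply hb
      have : b = 0 := hinj (by rw [h0, map_zero])
      rw [this]
      exact dvd_zero _
    apply hb
    refine ⟨a, hinj ?_⟩
    rw [map_mul]
    field_simp at hab
    linear_combination hab
  · intro x hx
    obtain ⟨n, a, b, ha, hb, hxn⟩ := exists_zpow_mul_div (F := F) hπ.not_isUnit hπ.ne_zero hx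
    refine ⟨n, algebraMap R F a / algebraMap R F b, div_mem_primeVal π hπ a hb, ?_, hxn⟩
    rw [inv_div]
    exact div_mem_primeVal π hπ b ha

end PrimeVal

/-! ### Factorial domains: `m`-divisible divisors -/

section UFD

variable {R : Type*} [CommRing R] [IsDomain R] [UniqueFactorizationMonoid R]

/-- In a factorial domain, a nonzero element all of whose prime multiplicities are divisible by
`m` is a unit times an `m`-th power. -/
theorem exists_unit_mul_pow_of_forall_prime (m : ℕ) (x : R) :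
    x ≠ 0 →
    (∀ π : R, Prime π → π ∣ x → ∃ (k : ℕ) (x' : R), x = π ^ (m * k) * x' ∧ ¬ π ∣ x') →
    ∃ (v : Rˣ) (X : R), X ≠ 0 ∧ x = v * X ^ m := by
  induction x using UniqueFactorizationMonoid.induction_on_coprime with
  | h0 => intro h; exact absurd rfl h
  | h1 hx => intro _ _; exact ⟨hx.unit, 1, one_ne_zero, by simp⟩
  | hpr i hp =>
    rename_i p
    intro _ h
    rcases Nat.eq_zero_or_pos i with rfl | hi
    · exact ⟨1, 1, one_ne_zero, by simp⟩
    · obtain ⟨k, x', hx', hnd⟩ := h p hp (dvd_pow_self p hi.ne')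
      have hik : i = m * k := by
        rcases lt_trichotomy i (m * k) with hlt | heq | hgt
        · exfalso
          have h1 : p ^ i * 1 = p ^ i * (p ^ (m * k - i) * x') := by
            rw [mul_one, ← mul_assoc, ← pow_add, Nat.add_sub_cancel' hlt.le]
            exact hx'
          have h2 := mul_left_cancel₀ (pow_ne_zero i hp.ne_zero) h1
          have h3 : p ∣ 1 := by
            rw [h2]
            exact Dvd.dvd.mul_right (dvd_pow_self p (Nat.sub_ne_zero_of_lt hlt)) x'
          exact hp.not_isUnit (isUnit_of_dvd_one h3)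
        · exact heq
        · exfalso
          have h1 : p ^ (m * k) * p ^ (i - m * k) = p ^ (m * k) * x' := by
            rw [← pow_add, Nat.add_sub_cancel' hgt.le]
            exact hx'
          have h2 := mul_left_cancel₀ (pow_ne_zero _ hp.ne_zero) h1
          exact hnd (h2 ▸ dvd_pow_self p (Nat.sub_ne_zero_of_lt hgt))
      exact ⟨1, p ^ k, pow_ne_zero _ hp.ne_zero,
        by rw [hik, Units.val_one, one_mul, ← pow_mul, mul_comm]⟩
  | hcp hrel ih₁ ih₂ =>
    rename_i x y
    intro hxy h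
    have hx0 : x ≠ 0 := left_ne_zero_of_mul hxy
    have hy0 : y ≠ 0 := right_ne_zero_of_mul hxy
    have hx : ∀ π : R, Prime π → π ∣ x →
        ∃ (k : ℕ) (x' : R), x = π ^ (m * k) * x' ∧ ¬ π ∣ x' := by
      intro π hπ hπx
      obtain ⟨k, z, hz, hnd⟩ := h π hπ (Dvd.dvd.mul_right hπx y)
      have hπy : ¬ π ∣ y := fun hπy => hπ.not_isUnit (hrel hπx hπy)
      have hdvd : π ^ (m * k) ∣ x := hπ.pow_dvd_of_dvd_mul_right _ hπy ⟨z, hz⟩
      obtain ⟨x₁, hx₁⟩ := hdvd
      refine ⟨k, x₁, hx₁, fun hπx₁ => hnd ?_⟩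
      have h1 : π ^ (m * k) * (x₁ * y) = π ^ (m * k) * z := by
        rw [← hz, hx₁, mul_assoc]
      rw [← mul_left_cancel₀ (pow_ne_zero _ hπ.ne_zero) h1]
      exact Dvd.dvd.mul_right hπx₁ y
    have hy : ∀ π : R, Prime π → π ∣ y →
        ∃ (k : ℕ) (x' : R), y = π ^ (m * k) * x' ∧ ¬ π ∣ x' := by
      intro π hπ hπy
      obtain ⟨k, z, hz, hnd⟩ := h π hπ (Dvd.dvd.mul_left hπy x)
      have hπx : ¬ π ∣ x := fun hπx => hπ.not_isUnit (hrel hπx hπy)
      have hdvd : π ^ (m * k) ∣ y := hπ.pow_dvd_of_dvd_mul_left _ hπx ⟨z, hz⟩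
      obtain ⟨y₁, hy₁⟩ := hdvd
      refine ⟨k, y₁, hy₁, fun hπy₁ => hnd ?_⟩
      have h1 : π ^ (m * k) * (x * y₁) = π ^ (m * k) * z := by
        rw [← hz, hy₁]
        ring
      rw [← mul_left_cancel₀ (pow_ne_zero _ hπ.ne_zero) h1]
      exact Dvd.dvd.mul_left hπy₁ x
    obtain ⟨v₁, X₁, hX₁, e₁⟩ := ih₁ hx0 hx
    obtain ⟨v₂, X₂, hX₂, e₂⟩ := ih₂ hy0 hy
    refine ⟨v₁ * v₂, X₁ * X₂, mul_ne_zero hX₁ hX₂, ?_⟩
    rw [e₁, e₂, Units.val_mul]
    ring

variable {F : Type*} [Field F] [Algebra R F] [IsFractionRing R F]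

/-- **Factorisation in a factorial domain.**  If `f ∈ Fˣ` is, for every prime element `π` of
`R`, an `m`-th power times a unit of the valuation ring `R_(π)`, then `f = u * h ^ m` with
`u ∈ Rˣ`. -/
theorem exists_unit_mul_pow (m : ℕ) (f : F) (hf : f ≠ 0)
    (h : ∀ (π : R) (hπ : Prime π), ∃ g : F, g ≠ 0 ∧ g ^ m * f ∈ primeVal F π hπ ∧
      (g ^ m * f)⁻¹ ∈ primeVal F π hπ) :
    ∃ (u : Rˣ) (h : F), h ≠ 0 ∧ f = algebraMap R F u * h ^ m := by
  have hinj : Function.Injective (algebraMap R F) := IsFractionRing.injective R F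
  have hne : ∀ r : R, r ≠ 0 → algebraMap R F r ≠ 0 := fun r hr h0 =>
    hr (hinj (by rw [h0, map_zero]))
  obtain ⟨x₀, ⟨y₀, hy₀⟩, hrel, hxy⟩ := IsFractionRing.exists_reduced_fraction (A := R) (K := F) f
  rw [IsFractionRing.mk'_eq_div] at hxy
  have hxy' : f = algebraMap R F x₀ / algebraMap R F y₀ := hxy.symm
  have hy₀0 : y₀ ≠ 0 := nonZeroDivisors.ne_zero hy₀
  have hx₀0 : x₀ ≠ 0 := by
    rintro rfl
    rw [map_zero, zero_div] at hxy'
    exact hf hxy'
  -- `m ∣ ord_π f` for every prime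
  have hord : ∀ (π : R) (hπ : Prime π), (m : ℤ) ∣ (isUnif_primeVal (F := F) π hπ).ord f := by
    intro π hπ
    obtain ⟨g, hg0, hw, hw'⟩ := h π hπ
    have hU := isUnif_primeVal (F := F) π hπ
    have h1 : hU.ord (g ^ m * f) = 0 := hU.ord_unit hw hw' (mul_ne_zero (pow_ne_zero _ hg0) hf)
    rw [hU.ord_mul (pow_ne_zero _ hg0) hf, hU.ord_pow] at h1
    exact ⟨-hU.ord g, by linarith⟩
  have hX : ∀ π : R, Prime π → π ∣ x₀ →
      ∃ (k : ℕ) (x' : R), x₀ = π ^ (m * k) * x' ∧ ¬ π ∣ x' := by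
    intro π hπ hπx
    have hπy : ¬ π ∣ y₀ := fun hπy => hπ.not_isUnit (hrel hπx hπy)
    obtain ⟨n, x', hx', hnd⟩ := exists_eq_pow_mul_not_dvd hπ.not_isUnit hx₀0
    have hU := isUnif_primeVal (F := F) π hπ
    have hx'0 : x' ≠ 0 := fun h0 => hnd (h0 ▸ dvd_zero _)
    have h1 : hU.ord f = (n : ℤ) := by
      refine hU.ord_eq (u := algebraMap R F x' / algebraMap R F y₀)
        (div_mem_primeVal π hπ x' hπy) ?_ (div_ne_zero (hne _ hx'0) (hne _ hy₀0)) ?_
      · rw [inv_div]
        exact div_mem_primeVal π hπ y₀ hnd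
      · rw [hxy', hx', map_mul, map_pow, zpow_natCast, mul_div_assoc]
    obtain ⟨k, hk⟩ := Int.natCast_dvd_natCast.1 (h1 ▸ hord π hπ)
    exact ⟨k, x', by rw [← hk]; exact hx', hnd⟩
  have hY : ∀ π : R, Prime π → π ∣ y₀ →
      ∃ (k : ℕ) (x' : R), y₀ = π ^ (m * k) * x' ∧ ¬ π ∣ x' := by
    intro π hπ hπy
    have hπx : ¬ π ∣ x₀ := fun hπx => hπ.not_isUnit (hrel hπx hπy)
    obtain ⟨n, y', hy', hnd⟩ := exists_eq_pow_mul_not_dvd hπ.not_isUnit hy₀0
    have hU := isUnif_primeVal (F := F) π hπ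
    have hy'0 : y' ≠ 0 := fun h0 => hnd (h0 ▸ dvd_zero _)
    have hπF : algebraMap R F π ≠ 0 := hne _ hπ.ne_zero
    have h1 : hU.ord f = -(n : ℤ) := by
      refine hU.ord_eq (u := algebraMap R F x₀ / algebraMap R F y')
        (div_mem_primeVal π hπ x₀ hnd) ?_ (div_ne_zero (hne _ hx₀0) (hne _ hy'0)) ?_
      · rw [inv_div]
        exact div_mem_primeVal π hπ y' hπx
      · rw [hxy', hy', map_mul, map_pow, zpow_neg, zpow_natCast]
        field_simp
    have h2 : (m : ℤ) ∣ (n : ℤ) := by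
      have := hord π hπ
      rw [h1] at this
      exact (Int.dvd_neg).1 this
    obtain ⟨k, hk⟩ := Int.natCast_dvd_natCast.1 h2
    exact ⟨k, y', by rw [← hk]; exact hy', hnd⟩
  obtain ⟨v₁, X, hX0, eX⟩ := exists_unit_mul_pow_of_forall_prime m x₀ hx₀0 hX
  obtain ⟨v₂, Y, hY0, eY⟩ := exists_unit_mul_pow_of_forall_prime m y₀ hy₀0 hY
  refine ⟨v₁ * v₂⁻¹, algebraMap R F X / algebraMap R F Y,
    div_ne_zero (hne _ hX0) (hne _ hY0), ?_⟩
  have hv₂ : algebraMap R F (v₂ : R) * algebraMap R F ((v₂⁻¹ : Rˣ) : R) = 1 := by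
    rw [← map_mul, Units.mul_inv, map_one]
  have hv₂0 : algebraMap R F (v₂ : R) ≠ 0 := hne _ v₂.ne_zero
  have hYF : algebraMap R F Y ≠ 0 := hne _ hY0
  rw [hxy', eX, eY, Units.val_mul, map_mul, map_mul, map_mul, map_pow, map_pow, div_pow]
  have e : algebraMap R F ((v₂⁻¹ : Rˣ) : R) = (algebraMap R F (v₂ : R))⁻¹ :=
    eq_inv_of_mul_eq_one_right hv₂
  rw [e]
  field_simp

end UFD

/-! ### (b) at a factorial point of the chart -/

section Factor

variable {A F : Type*} [CommRing A] [IsDomain A] [Field F] [Algebra A F] [IsFractionRing A F]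

/-- **(b) LOCAL FACTORISATION.**  `A` the chart ring, `P` a point whose local ring `A_P` is
factorial, `O i` the vertical valuation rings (every prime of `A` minimal over `q` and contained
in `P` is the centre of one of them).  Let `f ∈ Fˣ` be a unit of every `O i` through `P`, and
assume `m ∣ ord_V f` for every discrete valuation ring `V` of `F` containing `A` and `q⁻¹` (the
horizontal prime divisors).  Then `f = u * h ^ m` with `u` a unit of `A_P`. -/
theorem exists_factor {ι : Type*} (O : ι → ValuationSubring F)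
    (hAO : ∀ i a, algebraMap A F a ∈ O i) (P : Ideal A) [P.IsPrime]
    (hUFM : UniqueFactorizationMonoid (pointRing F P)) {q : A} (hq0 : q ≠ 0)
    (hmin : ∀ 𝔮 ∈ (Ideal.span {q}).minimalPrimes, 𝔮 ≤ P → ∃ i, 𝔮 = centre (O i) (hAO i))
    (m : ℕ) (f : F) (hf0 : f ≠ 0)
    (htri : ∀ i, centre (O i) (hAO i) ≤ P → f ∈ O i ∧ f⁻¹ ∈ O i)
    (hhor : ∀ (V : ValuationSubring F) (t : F), Formal.IsUnif V t →
      (∀ a : A, algebraMap A F a ∈ V) → (algebraMap A F q)⁻¹ ∈ V →
      ∃ g : F, g ≠ 0 ∧ g ^ m * f ∈ V ∧ (g ^ m * f)⁻¹ ∈ V) :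
    ∃ u h : F, u ∈ pointRing F P ∧ u⁻¹ ∈ pointRing F P ∧ h ≠ 0 ∧ f = u * h ^ m := by
  have := hUFM
  have hq' : algebraMap A (pointRing F P) q ≠ 0 := fun h0 =>
    hq0 (LThm.algebraMap_injective (F := F) P (by rw [h0, map_zero]))
  have hall : ∀ (π : pointRing F P) (hπ : Prime π), ∃ g : F, g ≠ 0 ∧
      g ^ m * f ∈ primeVal F π hπ ∧ (g ^ m * f)⁻¹ ∈ primeVal F π hπ := by
    intro π hπ
    by_cases hπq : π ∣ algebraMap A (pointRing F P) q
    · -- a vertical prime: `R_(π)` is one of the `O i` through `P`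
      refine ⟨1, one_ne_zero, ?_⟩
      rw [one_pow, one_mul]
      have hprime : (Ideal.span {π}).IsPrime := (Ideal.span_singleton_prime hπ.ne_zero).2 hπ
      have hmem : Ideal.span {π} ∈
          (Ideal.span {algebraMap A (pointRing F P) q}).minimalPrimes := by
        refine ⟨⟨hprime, (Ideal.span_singleton_le_iff_mem _).2 (Ideal.mem_span_singleton.2 hπq)⟩,
          ?_⟩
        rintro 𝔮' ⟨h𝔮', hq𝔮'⟩ hle'
        have hne : 𝔮' ≠ ⊥ := by
          rintro rfl
          exact hq' ((Ideal.mem_bot).1 ((Ideal.span_singleton_le_iff_mem _).1 hq𝔮'))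
        obtain ⟨π', hπ'mem, hπ'⟩ := h𝔮'.exists_mem_prime_of_ne_bot hne
        have hdvd : π ∣ π' := Ideal.mem_span_singleton.1 (hle' hπ'mem)
        obtain ⟨w, hw⟩ := (hπ.irreducible.associated_of_dvd hπ'.irreducible hdvd).symm
        rw [Ideal.span_singleton_le_iff_mem, ← hw]
        exact Ideal.mul_mem_right _ _ hπ'mem
      obtain ⟨h1, h2, h3⟩ := LThm.comap_mem_minimalPrimes P hmem
      obtain ⟨i, hi⟩ := hmin _ h1 h2
      have hiP : centre (O i) (hAO i) ≤ P := hi ▸ h2
      have hc : ∀ r : pointRing F P,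
          algebraMap (pointRing F P) F r ∈ (O i).nonunits ↔ π ∣ r := by
        intro r
        rw [LThm.algebraMap_pointRing_apply,
          LThm.mem_nonunits_iff_mem_map_centre P (O i) (hAO i) hiP r, ← hi, h3,
          Ideal.mem_span_singleton]
      have hV : ∀ r : pointRing F P, algebraMap (pointRing F P) F r ∈ O i := fun r =>
        pointRing_le_of_centre_le P (O i) (hAO i) hiP r
      have key : ∀ z : F, z ∈ O i ↔ z ∈ primeVal F π hπ := fun z => by
        rw [mem_iff_of_centre (O i) hV hπ.ne_zero hc z, mem_primeVal_iff]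
      exact ⟨(key _).1 (htri i hiP).1, (key _).1 (htri i hiP).2⟩
    · -- a horizontal prime
      refine hhor (primeVal F π hπ) (algebraMap (pointRing F P) F π) (isUnif_primeVal π hπ)
        ?_ ?_
      · intro a
        have := algebraMap_mem_primeVal (F := F) π hπ (algebraMap A (pointRing F P) a)
        rwa [← IsScalarTower.algebraMap_apply] at this
      · have := inv_algebraMap_mem_primeVal (F := F) π hπ hπq
        rwa [← IsScalarTower.algebraMap_apply] at this
  obtain ⟨u, h, hh0, hfu⟩ := exists_unit_mul_pow (R := pointRing F P) (F := F) m f hf0 hall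
  refine ⟨algebraMap (pointRing F P) F u, h, ?_, ?_, hh0, hfu⟩
  · rw [LThm.algebraMap_pointRing_apply]
    exact (u : pointRing F P).2
  · have e : (algebraMap (pointRing F P) F (u : pointRing F P))⁻¹ =
        algebraMap (pointRing F P) F ((u⁻¹ : (pointRing F P)ˣ) : pointRing F P) := by
      symm
      apply eq_inv_of_mul_eq_one_left
      rw [← map_mul, Units.inv_mul, map_one]
    rw [e, LThm.algebraMap_pointRing_apply]
    exact ((u⁻¹ : (pointRing F P)ˣ) : pointRing F P).2

end Factor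

end Fermat.Agent.CAR.Glue.LStart
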