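/-
CAR-13 (helper75), part (a) and the abstract core of part (c).

* `LStart.exists_sub_mem_of_glue_radical` : the RADICAL FORM of helper52's local gluing core
  `Glue.exists_sub_mem_span_of_glue` (CAR/Glue/LocalCore.lean): the ideal `(q)` of `S` is replaced
  by an arbitrary ideal `I` with `ρ i (I) = 0` and `⋂ ker ρ i ⊆ rad I`.  The proof is helper52's,
  verbatim, with `I` general.
* `LStart.exists_sub_mem_nonunits_of_glue` : the same statement for a local ring `R` mapping to
  finitely many valuation rings `O i` of a field `F`: if `b ∈ ⋂ O i` satisfies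
  `b ^ m ≡ u` (`u ∈ Rˣ`) modulo every maximal ideal `𝔪 (O i)` and `b ≡ c + t_i` (`t_i ∈ 𝔪_R`)
  modulo `𝔪 (O i)` for one `c ∈ R` ("the gluing values of `b` coincide"), then `b ≡ r` modulo
  every `𝔪 (O i)` for some unit `r` of `R`.
* small lemmas on `ValuationSubring.nonunits`.
-/
import Mathlib

set_option autoImplicit false

namespace Fermat.Agent.CAR.Glue.LStart

open IsLocalRing Polynomial

section Core

variable {R S : Type*} [CommRing R] [IsLocalRing R] [CommRing S] [Algebra R S]

/-- **Local gluing core, radical form** (CAR-13 (a)).  helper52's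
`Glue.exists_sub_mem_span_of_glue` with the ideal `(q)` of `S` replaced by an arbitrary ideal `I`
killed by all the `ρ i` and such that every element killed by all the `ρ i` is nilpotent modulo
`I` (instance: `I = ⋂ ker ρ i`).  Same proof. -/
theorem exists_sub_mem_of_glue_radical
    {ι : Type*} [Finite ι] [Nonempty ι] {κ : ι → Type*} [∀ i, CommRing (κ i)]
    [∀ i, Nontrivial (κ i)] (ρ : ∀ i, S →+* κ i)
    (I : Ideal S) (hρI' : ∀ a ∈ I, ∀ i, ρ i a = 0)
    (hnil : ∀ z : S, (∀ i, ρ i z = 0) → ∃ N : ℕ, z ^ N ∈ I)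
    (m : ℕ) (hm : IsUnit (m : R))
    (b : S) (u : R) (hu : IsUnit u)
    (hb : b ^ m - algebraMap R S u ∈ I)
    (c : R) (hglue : ∀ i, ∃ t ∈ maximalIdeal R, ρ i b = ρ i (algebraMap R S (c + t))) :
    ∃ r : R, b - algebraMap R S r ∈ I := by
  classical
  cases nonempty_fintype ι
  have hm0 : m ≠ 0 := by
    rintro rfl
    rw [Nat.cast_zero] at hm
    exact not_isUnit_zero hm
  let π : S →ₐ[R] S ⧸ I := Ideal.Quotient.mkₐ R I
  have hπ : Function.Surjective π := Ideal.Quotient.mkₐ_surjective R I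
  have hπ0 : ∀ z : S, π z = 0 ↔ z ∈ I := fun z => Ideal.Quotient.eq_zero_iff_mem
  have hρI : ∀ i, ∀ a ∈ I, ρ i a = 0 := fun i a ha => hρI' a ha i
  let ρb : ∀ i, S ⧸ I →+* κ i := fun i => Ideal.Quotient.lift I (ρ i) (hρI i)
  have hρb : ∀ i z, ρb i (π z) = ρ i z := fun i z => Ideal.Quotient.lift_mk I (ρ i) (hρI i)
  let g : ∀ i, R →+* κ i := fun i => (ρ i).comp (algebraMap R S)
  have hρbalg : ∀ i (r : R), ρb i (algebraMap R (S ⧸ I) r) = g i r := by
    intro i r
    rw [← π.commutes r, hρb]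
    rfl
  have hgunit : ∀ i (r : R), g i r = 0 → r ∈ maximalIdeal R := by
    intro i r hr
    rw [mem_maximalIdeal, mem_nonunits_iff]
    intro hru
    have := hru.map (g i)
    rw [hr] at this
    exact not_isUnit_zero this
  -- the elements of the quotient
  set bb : S ⧸ I := π b with hbb
  set cb : S ⧸ I := algebraMap R (S ⧸ I) c with hcb
  have hbbm : bb ^ m = algebraMap R (S ⧸ I) u := by
    have := (hπ0 _).2 hb
    rw [map_sub, map_pow, π.commutes, sub_eq_zero] at this
    exact this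
  -- `c` is a unit and `u - c ^ m ∈ 𝔪`
  obtain ⟨i₀⟩ := ‹Nonempty ι›
  obtain ⟨t₀, ht₀, hbt₀⟩ := hglue i₀
  have hρbm : ρ i₀ (b ^ m) = g i₀ u := by
    have := hρI i₀ _ hb
    rw [map_sub, sub_eq_zero] at this
    exact this
  have h1 : u - (c + t₀) ^ m ∈ maximalIdeal R := by
    apply hgunit i₀
    rw [map_sub, map_pow, ← hρbm, map_pow, hbt₀]
    show ρ i₀ (algebraMap R S (c + t₀)) ^ m - ρ i₀ (algebraMap R S (c + t₀)) ^ m = 0
    exact sub_self _
  have hpowsub : ∀ (t : R), t ∈ maximalIdeal R → ∀ j : ℕ, (c + t) ^ j - c ^ j ∈ maximalIdeal R := by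
    intro t ht j
    obtain ⟨k, hk⟩ := sub_dvd_pow_sub_pow (c + t) c j
    rw [hk, add_sub_cancel_left]
    exact Ideal.mul_mem_right _ _ ht
  have hucm : u - c ^ m ∈ maximalIdeal R := by
    have : u - c ^ m = (u - (c + t₀) ^ m) + ((c + t₀) ^ m - c ^ m) := by ring
    rw [this]
    exact Ideal.add_mem _ h1 (hpowsub t₀ ht₀ m)
  have hcunit : IsUnit c := by
    by_contra hc
    have hc' : c ∈ maximalIdeal R := by rwa [mem_maximalIdeal, mem_nonunits_iff]
    have : u ∈ maximalIdeal R := by
      have e : u = (u - c ^ m) + c ^ m := by ring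
      rw [e]
      exact Ideal.add_mem _ hucm (Ideal.pow_mem_of_mem _ hc' m (Nat.pos_of_ne_zero hm0))
    rw [mem_maximalIdeal, mem_nonunits_iff] at this
    exact this hu
  -- the finite `R`-algebra `M = R[bb]`
  set M : Subalgebra R (S ⧸ I) := Algebra.adjoin R {bb} with hM
  have hbbM : bb ∈ M := Algebra.subset_adjoin (Set.mem_singleton bb)
  have hcbM : cb ∈ M := M.algebraMap_mem c
  have hintg : IsIntegral R bb := by
    refine ⟨X ^ m - C u, monic_X_pow_sub_C u hm0, ?_⟩
    rw [eval₂_sub, eval₂_pow, eval₂_X, eval₂_C, hbbm, sub_self]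
  have hfg : (Subalgebra.toSubmodule M).FG := hintg.fg_adjoin_singleton
  -- the geometric sum
  set e : S ⧸ I := ∑ j ∈ Finset.range m, bb ^ j * cb ^ (m - 1 - j) with he
  have heM : e ∈ M :=
    Subalgebra.sum_mem _ fun j _ => M.mul_mem (M.pow_mem hbbM _) (M.pow_mem hcbM _)
  have hgeo : e * (bb - cb) = algebraMap R (S ⧸ I) (u - c ^ m) := by
    rw [he, (Commute.all bb cb).geom_sum₂_mul m, hbbm, map_sub, map_pow]
  -- `e` is a unit of `M`
  have hunit : IsUnit (⟨e, heM⟩ : M) := by
    by_contra hne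
    obtain ⟨𝔫, h𝔫max, he𝔫⟩ := exists_max_ideal_of_mem_nonunits (mem_nonunits_iff.2 hne)
    let ψ : ∀ i, M →+* κ i := fun i => (ρb i).comp M.val.toRingHom
    have hψ : ∀ i (y : M), ψ i y = ρb i (y : S ⧸ I) := fun i y => rfl
    have hprod : ∏ i, RingHom.ker (ψ i) ≤ 𝔫 := by
      intro y hy
      have hy' : ∀ i, ψ i y = 0 := by
        intro i
        have := Ideal.prod_le_inf hy
        rw [Submodule.mem_finsetInf] at this
        exact (RingHom.mem_ker).1 (this i (Finset.mem_univ i))
      obtain ⟨z, hz⟩ := hπ (y : S ⧸ I)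
      obtain ⟨N, hN⟩ := hnil z (fun i => by rw [← hρb, hz, ← hψ]; exact hy' i)
      have hyN : y ^ N = 0 := by
        apply Subtype.ext
        rw [SubmonoidClass.coe_pow, ← hz, ← map_pow]
        exact (hπ0 _).2 hN
      have : y ^ N ∈ 𝔫 := by rw [hyN]; exact 𝔫.zero_mem
      exact h𝔫max.isPrime.mem_of_pow_mem N this
    obtain ⟨i, -, hi⟩ := (h𝔫max.isPrime.prod_le).1 hprod
    obtain ⟨t, ht, hbt⟩ := hglue i
    set w : R := ∑ j ∈ Finset.range m, (c + t) ^ j * c ^ (m - 1 - j) with hw
    have hψe : ψ i ⟨e, heM⟩ = g i w := by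
      rw [hψ]
      show ρb i e = g i w
      rw [he, hw, map_sum, map_sum]
      refine Finset.sum_congr rfl fun j _ => ?_
      rw [map_mul, map_pow, map_pow, hbb, hρb, hbt, hcb, hρbalg, map_mul, map_pow, map_pow]
      rfl
    have hwunit : IsUnit w := by
      by_contra hwn
      have hw' : w ∈ maximalIdeal R := by rwa [mem_maximalIdeal, mem_nonunits_iff]
      have hsum : w - (m : R) * c ^ (m - 1)
          = ∑ j ∈ Finset.range m, ((c + t) ^ j - c ^ j) * c ^ (m - 1 - j) := by
        have e1 : ∑ j ∈ Finset.range m, c ^ j * c ^ (m - 1 - j) = (m : R) * c ^ (m - 1) := by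
          have e0 : ∑ j ∈ Finset.range m, c ^ j * c ^ (m - 1 - j)
              = ∑ _j ∈ Finset.range m, c ^ (m - 1) := by
            refine Finset.sum_congr rfl fun j hj => ?_
            rw [← pow_add]
            congr 1
            have := Finset.mem_range.1 hj
            omega
          rw [e0, Finset.sum_const, Finset.card_range, nsmul_eq_mul]
        rw [hw, ← e1, ← Finset.sum_sub_distrib]
        refine Finset.sum_congr rfl fun j _ => ?_
        ring
      have h2 : w - (m : R) * c ^ (m - 1) ∈ maximalIdeal R := by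
        rw [hsum]
        exact Ideal.sum_mem _ fun j _ => Ideal.mul_mem_right _ _ (hpowsub t ht j)
      have h3 : (m : R) * c ^ (m - 1) ∈ maximalIdeal R := by
        have e2 : (m : R) * c ^ (m - 1) = w - (w - (m : R) * c ^ (m - 1)) := by ring
        rw [e2]
        exact Ideal.sub_mem _ hw' h2
      rw [mem_maximalIdeal, mem_nonunits_iff] at h3
      exact h3 (hm.mul (hcunit.pow _))
    have hker : algebraMap R M w - ⟨e, heM⟩ ∈ RingHom.ker (ψ i) := by
      rw [RingHom.mem_ker, map_sub, hψe, hψ]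
      show ρb i (algebraMap R (S ⧸ I) w) - g i w = 0
      rw [hρbalg, sub_self]
    have hmem : algebraMap R M w ∈ 𝔫 := by
      have e3 : algebraMap R M w = (algebraMap R M w - ⟨e, heM⟩) + ⟨e, heM⟩ := by ring
      rw [e3]
      exact 𝔫.add_mem (hi hker) he𝔫
    exact h𝔫max.ne_top (Ideal.eq_top_of_isUnit_mem _ hmem (hwunit.map (algebraMap R M)))
  obtain ⟨eu, heu⟩ := hunit
  set e'' : M := (↑eu⁻¹ : M) with he''
  have hee'' : (e'' : S ⧸ I) * e = 1 := by
    have h := eu.inv_mul
    rw [heu] at h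
    have := congrArg (Subtype.val : M → S ⧸ I) h
    simpa using this
  have hd : bb - cb = (u - c ^ m) • (e'' : S ⧸ I) := by
    calc bb - cb = ((e'' : S ⧸ I) * e) * (bb - cb) := by rw [hee'', one_mul]
      _ = (e'' : S ⧸ I) * algebraMap R (S ⧸ I) (u - c ^ m) := by rw [mul_assoc, hgeo]
      _ = (u - c ^ m) • (e'' : S ⧸ I) := by rw [Algebra.smul_def, mul_comm]
  -- Nakayama
  have hNN : Subalgebra.toSubmodule M ≤
      LinearMap.range (Algebra.linearMap R (S ⧸ I)) ⊔
        maximalIdeal R • Subalgebra.toSubmodule M := by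
    intro y hy
    have hy' : y ∈ (aeval bb : R[X] →ₐ[R] S ⧸ I).range := by
      rw [← Algebra.adjoin_singleton_eq_range_aeval]
      exact hy
    obtain ⟨p, hpy⟩ := (AlgHom.mem_range _).1 hy'
    rw [← hpy]
    set p₁ : R[X] := (p - C (p.eval c)) /ₘ (X - C c) with hp₁
    have hroot : IsRoot (p - C (p.eval c)) c := by
      rw [IsRoot, eval_sub, eval_C, sub_self]
    have hp : (X - C c) * p₁ = p - C (p.eval c) := mul_divByMonic_eq_iff_isRoot.2 hroot
    have hp' : (bb - cb) * aeval bb p₁ = aeval bb p - algebraMap R (S ⧸ I) (p.eval c) := by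
      have := congrArg (aeval bb) hp
      simp only [map_mul, map_sub, aeval_X, aeval_C] at this
      exact this
    have hp₁M : aeval bb p₁ ∈ M := by
      rw [hM, Algebra.adjoin_singleton_eq_range_aeval]
      exact ⟨p₁, rfl⟩
    have hsplit : aeval bb p = algebraMap R (S ⧸ I) (p.eval c)
        + (u - c ^ m) • ((e'' : S ⧸ I) * aeval bb p₁) := by
      rw [← smul_mul_assoc, ← hd, hp']
      ring
    rw [hsplit]
    exact Submodule.add_mem_sup ⟨p.eval c, rfl⟩
      (Submodule.smul_mem_smul hucm (M.mul_mem e''.2 hp₁M))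
  have hle := Submodule.le_of_le_smul_of_le_jacobson_bot hfg
    (le_of_eq (jacobson_eq_maximalIdeal (⊥ : Ideal R) bot_ne_top).symm) hNN
  obtain ⟨r, hr⟩ := hle hbbM
  refine ⟨r, ?_⟩
  rw [← hπ0, map_sub, π.commutes, sub_eq_zero]
  exact hr.symm


end Core

/-! ### Non-units of a valuation ring -/

section Nonunits

variable {F : Type*} [Field F]

theorem zero_mem_nonunits (V : ValuationSubring F) : (0 : F) ∈ V.nonunits := by
  rw [ValuationSubring.mem_nonunits_iff, map_zero]
  exact zero_lt_one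

theorem add_mem_nonunits (V : ValuationSubring F) {x y : F} (hx : x ∈ V.nonunits)
    (hy : y ∈ V.nonunits) : x + y ∈ V.nonunits := by
  rw [ValuationSubring.mem_nonunits_iff] at *
  exact lt_of_le_of_lt (V.valuation.map_add x y) (max_lt hx hy)

theorem neg_mem_nonunits (V : ValuationSubring F) {x : F} (hx : x ∈ V.nonunits) :
    -x ∈ V.nonunits := by
  rw [ValuationSubring.mem_nonunits_iff] at *
  rwa [Valuation.map_neg]

theorem sub_mem_nonunits (V : ValuationSubring F) {x y : F} (hx : x ∈ V.nonunits)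
    (hy : y ∈ V.nonunits) : x - y ∈ V.nonunits := by
  rw [sub_eq_add_neg]
  exact add_mem_nonunits V hx (neg_mem_nonunits V hy)

theorem mem_of_mem_nonunits (V : ValuationSubring F) {x : F} (hx : x ∈ V.nonunits) : x ∈ V :=
  (V.valuation_le_one_iff x).1 ((ValuationSubring.mem_nonunits_iff V).1 hx).le

theorem mul_mem_nonunits_left (V : ValuationSubring F) {x y : F} (hx : x ∈ V)
    (hy : y ∈ V.nonunits) : x * y ∈ V.nonunits := by
  rw [ValuationSubring.mem_nonunits_iff, map_mul]
  have h1 : V.valuation x ≤ 1 := (V.valuation_le_one_iff x).2 hx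
  have h2 : V.valuation y < 1 := (ValuationSubring.mem_nonunits_iff V).1 hy
  calc V.valuation x * V.valuation y ≤ 1 * V.valuation y := by gcongr
    _ = V.valuation y := one_mul _
    _ < 1 := h2

theorem mul_mem_nonunits_right (V : ValuationSubring F) {x y : F} (hx : x ∈ V.nonunits)
    (hy : y ∈ V) : x * y ∈ V.nonunits := by
  rw [mul_comm]
  exact mul_mem_nonunits_left V hy hx

/-- A unit of a valuation ring is not a non-unit. -/
theorem notMem_nonunits_of_inv_mem (V : ValuationSubring F) {x : F} (hx0 : x ≠ 0)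
    (hx' : x⁻¹ ∈ V) : x ∉ V.nonunits := by
  intro hx
  have h1 : x * x⁻¹ ∈ V.nonunits := mul_mem_nonunits_right V hx hx'
  rw [mul_inv_cancel₀ hx0, ValuationSubring.mem_nonunits_iff, map_one] at h1
  exact lt_irrefl _ h1

/-- An element of a valuation ring which is not a non-unit is a unit. -/
theorem inv_mem_of_notMem_nonunits (V : ValuationSubring F) {x : F}
    (hx : x ∉ V.nonunits) : x⁻¹ ∈ V := by
  rw [ValuationSubring.mem_nonunits_iff, not_lt] at hx
  rw [← V.valuation_le_one_iff, map_inv₀]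
  exact inv_le_one_of_one_le₀ hx

/-- Valuation rings are root closed. -/
theorem mem_of_pow_mem (V : ValuationSubring F) {x : F} {m : ℕ} (hm : m ≠ 0) (h : x ^ m ∈ V) :
    x ∈ V := by
  rcases V.mem_or_inv_mem x with hx | hx
  · exact hx
  · by_cases hx0 : x = 0
    · rw [hx0]
      exact V.zero_mem
    have e : x = x ^ m * x⁻¹ ^ (m - 1) := by
      obtain ⟨k, rfl⟩ := Nat.exists_eq_succ_of_ne_zero hm
      rw [Nat.succ_sub_one, pow_succ, inv_pow]
      field_simp
    rw [e]
    exact V.mul_mem _ _ h (V.pow_mem hx _)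

theorem residue_eq_zero_iff_mem_nonunits (V : ValuationSubring F) (x : V) :
    IsLocalRing.residue V x = 0 ↔ (x : F) ∈ V.nonunits := by
  rw [IsLocalRing.residue_eq_zero_iff, ValuationSubring.mem_nonunits_iff_exists_mem_maximalIdeal]
  exact ⟨fun h => ⟨x.2, h⟩, fun ⟨_, h⟩ => h⟩

end Nonunits

/-! ### The gluing core for a local ring inside finitely many valuation rings -/

section GlueVal

variable {R F : Type*} [CommRing R] [IsLocalRing R] [Field F] [Algebra R F]

omit [IsLocalRing R] in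
/-- The image of a unit of `R` in a valuation ring containing the image of `R` is not a
non-unit. -/
theorem algebraMap_notMem_nonunits_of_isUnit (V : ValuationSubring F)
    (hRV : ∀ r : R, algebraMap R F r ∈ V) {r : R} (hr : IsUnit r) :
    algebraMap R F r ∉ V.nonunits := by
  obtain ⟨w, rfl⟩ := hr
  have h1 : algebraMap R F (w : R) * algebraMap R F ((w⁻¹ : Rˣ) : R) = 1 := by
    rw [← map_mul, Units.mul_inv, map_one]
  have h0 : algebraMap R F (w : R) ≠ 0 := left_ne_zero_of_mul_eq_one h1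
  refine notMem_nonunits_of_inv_mem V h0 ?_
  rw [← eq_inv_of_mul_eq_one_right h1]
  exact hRV _

/-- An element of `R` whose image is a non-unit of a valuation ring containing the image of `R`
lies in the maximal ideal. -/
theorem mem_maximalIdeal_of_algebraMap_mem_nonunits (V : ValuationSubring F)
    (hRV : ∀ r : R, algebraMap R F r ∈ V) {r : R} (hr : algebraMap R F r ∈ V.nonunits) :
    r ∈ maximalIdeal R := by
  rw [mem_maximalIdeal, mem_nonunits_iff]
  exact fun h => algebraMap_notMem_nonunits_of_isUnit V hRV h hr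

/-- **Gluing core, valuation form** (CAR-13 (c), abstract).  `R` a local ring mapping to
finitely many valuation rings `O i` of a field `F`, `m` invertible in `R`.  Let `b ∈ ⋂ O i` with
`b ^ m ≡ u` modulo every `𝔪 (O i)` for a unit `u` of `R`, and suppose the gluing values of `b`
coincide: there is `c ∈ R` with `b ≡ c + t_i` modulo `𝔪 (O i)`, `t_i ∈ 𝔪_R`.  Then `b ≡ r`
modulo every `𝔪 (O i)` for a unit `r` of `R`. -/
theorem exists_sub_mem_nonunits_of_glue
    {τ : Type*} [Finite τ] [Nonempty τ] (O : τ → ValuationSubring F)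
    (hRO : ∀ i (r : R), algebraMap R F r ∈ O i)
    (m : ℕ) (hm : IsUnit (m : R))
    (b : F) (hb : ∀ i, b ∈ O i)
    (u : R) (hu : IsUnit u) (hbu : ∀ i, b ^ m - algebraMap R F u ∈ (O i).nonunits)
    (c : R)
    (hglue : ∀ i, ∃ t ∈ maximalIdeal R, b - algebraMap R F (c + t) ∈ (O i).nonunits) :
    ∃ r : R, IsUnit r ∧ ∀ i, b - algebraMap R F r ∈ (O i).nonunits := by
  classical
  have hm0 : m ≠ 0 := by
    rintro rfl
    rw [Nat.cast_zero] at hm
    exact not_isUnit_zero hm
  -- the semilocal ring `S = ⋂ O i`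
  let S : Subring F := ⨅ i, (O i).toSubring
  have hS : ∀ z : F, z ∈ S ↔ ∀ i, z ∈ O i := fun z => by
    simp only [S, Subring.mem_iInf]
    rfl
  let φ : R →+* S := (algebraMap R F).codRestrict S (fun r => (hS _).2 (fun i => hRO i r))
  let _ : Algebra R S := φ.toAlgebra
  have hφ : ∀ r : R, ((algebraMap R S r : S) : F) = algebraMap R F r := fun r => rfl
  let ρ : ∀ i, S →+* ResidueField (O i) := fun i =>
    (IsLocalRing.residue (O i)).comp
      ((Subring.subtype S).codRestrict (O i) (fun z => (hS _).1 z.2 i))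
  have hρ : ∀ i (z : S), ρ i z = 0 ↔ (z : F) ∈ (O i).nonunits := fun i z =>
    residue_eq_zero_iff_mem_nonunits (O i) _
  let I : Ideal S := ⨅ i, RingHom.ker (ρ i)
  have hI : ∀ z : S, z ∈ I ↔ ∀ i, (z : F) ∈ (O i).nonunits := fun z => by
    simp only [I, Ideal.mem_iInf, RingHom.mem_ker, hρ]
  obtain ⟨r, hr⟩ := exists_sub_mem_of_glue_radical (R := R) (S := S) ρ I
    (fun a ha i => (hρ i a).2 ((hI a).1 ha i))
    (fun z hz => ⟨1, by rw [pow_one]; exact (hI z).2 (fun i => (hρ i z).1 (hz i))⟩)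
    m hm ⟨b, (hS b).2 hb⟩ u hu ((hI _).2 (fun i => hbu i)) c
    (fun i => by
      obtain ⟨t, ht, hbt⟩ := hglue i
      refine ⟨t, ht, ?_⟩
      rw [← sub_eq_zero, ← map_sub, hρ]
      exact hbt)
  have hr' : ∀ i, b - algebraMap R F r ∈ (O i).nonunits := fun i => (hI _).1 hr i
  refine ⟨r, ?_, hr'⟩
  -- `r` is a unit: `r ^ m ≡ u` modulo the maximal ideal
  by_contra hru
  have hrm : r ∈ maximalIdeal R := by rwa [mem_maximalIdeal, mem_nonunits_iff]
  obtain ⟨i₀⟩ := ‹Nonempty τ›
  have hgeo := (Commute.all b (algebraMap R F r)).mul_geom_sum₂ m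
  have hsum : ∑ j ∈ Finset.range m, b ^ j * algebraMap R F r ^ (m - 1 - j) ∈ O i₀ :=
    (O i₀).sum_mem fun j _ => (O i₀).mul_mem _ _ ((O i₀).pow_mem (hb i₀) _)
      ((O i₀).pow_mem (hRO i₀ r) _)
  have h1 : b ^ m - algebraMap R F r ^ m ∈ (O i₀).nonunits := by
    rw [← hgeo]
    exact mul_mem_nonunits_right (O i₀) (hr' i₀) hsum
  have h2 : algebraMap R F (u - r ^ m) ∈ (O i₀).nonunits := by
    have e : algebraMap R F (u - r ^ m) =
        (b ^ m - algebraMap R F r ^ m) - (b ^ m - algebraMap R F u) := by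
      rw [map_sub, map_pow]
      ring
    rw [e]
    exact sub_mem_nonunits (O i₀) h1 (hbu i₀)
  have h3 : u - r ^ m ∈ maximalIdeal R :=
    mem_maximalIdeal_of_algebraMap_mem_nonunits (O i₀) (hRO i₀) h2
  have h4 : u ∈ maximalIdeal R := by
    have e : u = (u - r ^ m) + r ^ m := by ring
    rw [e]
    exact Ideal.add_mem _ h3 (Ideal.pow_mem_of_mem _ hrm m (Nat.pos_of_ne_zero hm0))
  rw [mem_maximalIdeal, mem_nonunits_iff] at h4
  exact h4 hu

end GlueVal

end Fermat.Agent.CAR.Glue.LStart
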