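/-
CAR-13 (helper75), parts (c)–(e): from the local factorisation `f = u * h ^ m` at a point `P`
of the chart to the local input of helper18's Newton–Čech theorem
(`CAR/Glob/NewtonCech.exists_global_root_of_local`, hypothesis `hlocal`).

Setting: `A` the chart ring (a domain with fraction field `F`), `O i` the vertical valuation
rings (`ι` finite), `P` a prime of `A`; for every `i` with `centre (O i) ≤ P` ("a branch through
`P`") a reduction `red i : O i → κ i` and a place `Vs i` of `κ i` such that `P` is the point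
`(O i, Vs i)` (`pointIdeal (O i) (red i) (hred i) (Vs i) hA = P`), with LIFT in helper36's shape.

* `unit_composite_of_factor` : if `f ≡ 1` modulo `𝔪 (O i)` and `f = u * h ^ m`, `u ∈ (A_P)ˣ`,
  then `h` is a unit of the composite valuation ring `(O i, Vs i)` for every branch through `P`
  ("`ρ_i(h) ∈ Vs_iˣ`").
* `exists_unit_sub_mem_nonunits` (**(c)**): if moreover the gluing values of `h⁻¹` on the branches
  through `P` coincide, i.e. `h⁻¹ - c ∈ 𝔪 (O i, Vs i)` for one `c ∈ A_P` and all branches, then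
  `h⁻¹ ≡ r` modulo `𝔪 (O i)` on all branches through `P`, for a unit `r` of `A_P`.
* `exists_glue_of_unique_branch` : with one branch through `P` the gluing condition is automatic.
* `glue_of_factor_indep`, `glue_mul`, `glue_kill` : the gluing condition does not depend on the
  choice of `(u, h)`, is multiplicative, and can be killed by a function with prescribed values.
* `exists_local_pair_of_sub_mem` (**(d)**, clearing denominators), `exists_local_pair`
  (= (c) + (d)), `exists_local_pair_of_unique_branch`, `exists_local_pair_of_mem_pointRing`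
  (**(e)**, `f ∈ A_P`): the pair `(s, g)`, `s ^ m * f ∈ A`, `g ∈ A ∖ P`, `s - g ∈ 𝔪 (O i)` for ALL
  `i`.
* `local_pair_subalgebra` : the same in the literal shape of `hlocal` (subalgebras `R ≤ O` of
  `F`, `𝔫 : Ideal O`).
* `hlocal_at_point`, `hlocal_at_point_of_unique_branch` : (b) + (c) + (d) at one point of a
  chart, conclusion = `hlocal` at that point.
-/
import Mathlib
import Fermat.Agent.CAR.Glue.LocalRadical
import Fermat.Agent.CAR.Glue.LocalFactor
import Fermat.Agent.CAR.Local.PointRegular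

set_option autoImplicit false

namespace Fermat.Agent.CAR.Glue.LStart

open IsLocalRing Fermat.Agent.CAR.Local

/-! ### One branch through the point -/

section Branch

variable {A F κ : Type*} [CommRing A] [IsDomain A] [Field F] [Algebra A F] [IsFractionRing A F]
  [Field κ] (O : ValuationSubring F) (red : O →+* κ)
  (hred : ∀ x : O, red x = 0 ↔ x ∈ maximalIdeal O) (hAO : ∀ a : A, algebraMap A F a ∈ O)
  (Vs : ValuationSubring κ) (hA : ∀ a : A, algebraMap A F a ∈ compositeSubring O red hred Vs)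
  (P : Ideal A) [P.IsPrime] (hP : pointIdeal O red hred Vs hA = P)

include hP in
/-- `A_P` is contained in the composite valuation ring of a branch through `P`. -/
theorem mem_composite_of_mem_pointRing {r : F} (hr : r ∈ pointRing F P) :
    r ∈ compositeSubring O red hred Vs := by
  subst hP
  exact pointRing_le_compositeSubring O red hred Vs hA ⟨r, hr⟩

include hP in
/-- The composite valuation ring of a branch through `P` dominates `A_P`. -/
theorem mem_maximalIdeal_iff_mem_nonunits_composite (r : pointRing F P) :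
    r ∈ maximalIdeal (pointRing F P) ↔
      (r : F) ∈ (compositeSubring O red hred Vs).nonunits := by
  subst hP
  rw [mem_maximalIdeal_pointRing_iff, mem_nonunits_compositeSubring_iff]

include hP in
/-- **LIFT at the point, values.**  Every element of the composite ring is congruent modulo
`𝔪 (O)` to an element of `A_P`. -/
theorem exists_sub_mem_nonunits_of_mem_composite
    (hlift : ∀ c ∈ Vs, ∃ a b : A, redOn O red hAO b ∉ Vs.nonunits ∧
      redOn O red hAO a = c * redOn O red hAO b)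
    {y : F} (hy : y ∈ compositeSubring O red hred Vs) :
    ∃ r : pointRing F P, y - (r : F) ∈ O.nonunits := by
  subst hP
  obtain ⟨hyO, hyV⟩ := (mem_compositeSubring_iff O red hred Vs y).1 hy
  obtain ⟨r, hr⟩ := exists_redPt_eq O red hred Vs hA hAO hlift _ hyV
  refine ⟨r, ?_⟩
  have hrO : (r : F) ∈ O := (pointRing_le_component O red hred Vs hA r).fst
  have h0 : red (⟨y, hyO⟩ - ⟨(r : F), hrO⟩) = 0 := by
    rw [map_sub, ← redPt_apply O red hred Vs hA r, hr, sub_self]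
  exact (ValuationSubring.mem_nonunits_iff_exists_mem_maximalIdeal).2
    ⟨O.sub_mem hyO hrO, (hred _).1 h0⟩

include hP in
/-- **LIFT at the point, non-units.**  Every non-unit of the composite ring is congruent modulo
`𝔪 (O)` to an element of the maximal ideal of `A_P`. -/
theorem exists_mem_maximalIdeal_sub_mem_nonunits
    (hlift : ∀ c ∈ Vs, ∃ a b : A, redOn O red hAO b ∉ Vs.nonunits ∧
      redOn O red hAO a = c * redOn O red hAO b)
    {y : F} (hy : y ∈ (compositeSubring O red hred Vs).nonunits) :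
    ∃ t ∈ maximalIdeal (pointRing F P), y - (t : F) ∈ O.nonunits := by
  obtain ⟨r, hr⟩ := exists_sub_mem_nonunits_of_mem_composite O red hred hAO Vs hA P hP hlift
    (mem_of_mem_nonunits _ hy)
  refine ⟨r, ?_, hr⟩
  rw [mem_maximalIdeal_iff_mem_nonunits_composite O red hred Vs hA P hP]
  have hle : O.nonunits ≤ (compositeSubring O red hred Vs).nonunits :=
    ValuationSubring.nonunits_le_nonunits.2 (compositeSubring_le O red hred Vs)
  have e : (r : F) = y - (y - (r : F)) := by ring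
  rw [e]
  exact sub_mem_nonunits _ hy (hle hr)

end Branch

/-! ### The family of vertical valuation rings at a point -/

section Family

variable {A F : Type*} [CommRing A] [IsDomain A] [Field F] [Algebra A F] [IsFractionRing A F]
  {ι : Type*} (O : ι → ValuationSubring F) (hAO : ∀ i a, algebraMap A F a ∈ O i)
  (P : Ideal A) [P.IsPrime]
  {κ : ι → Type*} [∀ i, Field (κ i)] (red : ∀ i, O i →+* κ i)
  (hred : ∀ i, ∀ x : O i, red i x = 0 ↔ x ∈ maximalIdeal (O i))
  (Vs : ∀ i, ValuationSubring (κ i))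

omit [IsDomain A] [IsFractionRing A F] [P.IsPrime] in
/-- Non-units of `O i` are non-units of the composite ring `(O i, Vs i)`. -/
theorem nonunits_le_nonunits_composite (i : ι) :
    (O i).nonunits ≤ (compositeSubring (O i) (red i) (hred i) (Vs i)).nonunits :=
  ValuationSubring.nonunits_le_nonunits.2 (compositeSubring_le (O i) (red i) (hred i) (Vs i))

/-- If `f ≡ 1` modulo `𝔪 (O i)` and `f = u * h ^ m` with `u` a unit of `A_P`, `m ≠ 0`, then `h`
is a unit of the composite valuation ring `(O i, Vs i)` of every branch through `P`. -/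
theorem unit_composite_of_factor
    (hbr : ∀ i, centre (O i) (hAO i) ≤ P →
      ∃ hA : ∀ a : A, algebraMap A F a ∈ compositeSubring (O i) (red i) (hred i) (Vs i),
        pointIdeal (O i) (red i) (hred i) (Vs i) hA = P)
    (m : ℕ) (hm0 : m ≠ 0) (f : F)
    (u h : F) (hu : u ∈ pointRing F P) (hu' : u⁻¹ ∈ pointRing F P) (hfuh : f = u * h ^ m)
    (i : ι) (hi : centre (O i) (hAO i) ≤ P) (hf : f - 1 ∈ (O i).nonunits) :
    h ∈ compositeSubring (O i) (red i) (hred i) (Vs i) ∧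
      h⁻¹ ∈ compositeSubring (O i) (red i) (hred i) (Vs i) := by
  obtain ⟨hA, hP⟩ := hbr i hi
  set V := compositeSubring (O i) (red i) (hred i) (Vs i) with hV
  have hf1 : f - 1 ∈ V.nonunits := nonunits_le_nonunits_composite O red hred Vs i hf
  have hfV : f ∈ V := by
    have e : f = (f - 1) + 1 := by ring
    rw [e]
    exact V.add_mem _ _ (mem_of_mem_nonunits V hf1) V.one_mem
  have hfn : f ∉ V.nonunits := by
    intro hfn
    have h1 : (1 : F) ∈ V.nonunits := by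
      have e : (1 : F) = f - (f - 1) := by ring
      rw [e]
      exact sub_mem_nonunits V hfn hf1
    rw [ValuationSubring.mem_nonunits_iff, map_one] at h1
    exact lt_irrefl _ h1
  have hf0 : f ≠ 0 := fun h0 => hfn (h0 ▸ zero_mem_nonunits V)
  have hfV' : f⁻¹ ∈ V := inv_mem_of_notMem_nonunits V hfn
  have hu0 : u ≠ 0 := by
    rintro rfl
    rw [zero_mul] at hfuh
    exact hf0 hfuh
  have huV : u ∈ V := mem_composite_of_mem_pointRing (O i) (red i) (hred i) (Vs i) hA P hP hu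
  have huV' : u⁻¹ ∈ V :=
    mem_composite_of_mem_pointRing (O i) (red i) (hred i) (Vs i) hA P hP hu'
  constructor
  · refine mem_of_pow_mem V hm0 ?_
    have e : h ^ m = f * u⁻¹ := by
      rw [hfuh]
      field_simp
    rw [e]
    exact V.mul_mem _ _ hfV huV'
  · refine mem_of_pow_mem V hm0 ?_
    have hh0 : h ^ m ≠ 0 := by
      intro h0
      rw [h0, mul_zero] at hfuh
      exact hf0 hfuh
    have e : h⁻¹ ^ m = u * f⁻¹ := by
      rw [hfuh, inv_pow]
      field_simp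
    rw [e]
    exact V.mul_mem _ _ huV hfV'

/-- **(c) GLUING VALUES.**  `f ≡ 1` modulo `𝔪 (O i)` on the branches through `P`,
`f = u * h ^ m` with `u` a unit of `A_P`, `m ∉ P`.  If the gluing values of `h⁻¹` coincide
(`h⁻¹ - c` is a non-unit of every composite ring `(O i, Vs i)` through `P`, for one `c ∈ A_P`),
then `h⁻¹ ≡ r` modulo `𝔪 (O i)` on every branch through `P`, for a unit `r` of `A_P`. -/
theorem exists_unit_sub_mem_nonunits [Finite ι]
    (hbr : ∀ i, centre (O i) (hAO i) ≤ P →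
      ∃ hA : ∀ a : A, algebraMap A F a ∈ compositeSubring (O i) (red i) (hred i) (Vs i),
        pointIdeal (O i) (red i) (hred i) (Vs i) hA = P)
    (hlift : ∀ i, centre (O i) (hAO i) ≤ P → ∀ c ∈ Vs i, ∃ a b : A,
      redOn (O i) (red i) (hAO i) b ∉ (Vs i).nonunits ∧
      redOn (O i) (red i) (hAO i) a = c * redOn (O i) (red i) (hAO i) b)
    (hT : ∃ i, centre (O i) (hAO i) ≤ P)
    (m : ℕ) (hm : (m : A) ∉ P)
    (f : F) (hf : ∀ i, centre (O i) (hAO i) ≤ P → f - 1 ∈ (O i).nonunits)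
    (u h : F) (hu : u ∈ pointRing F P) (hu' : u⁻¹ ∈ pointRing F P) (hfuh : f = u * h ^ m)
    (c : F) (hcR : c ∈ pointRing F P)
    (hc : ∀ i, centre (O i) (hAO i) ≤ P →
      h⁻¹ - c ∈ (compositeSubring (O i) (red i) (hred i) (Vs i)).nonunits) :
    ∃ r : F, r ∈ pointRing F P ∧ r⁻¹ ∈ pointRing F P ∧ r ≠ 0 ∧
      ∀ i, centre (O i) (hAO i) ≤ P → h⁻¹ - r ∈ (O i).nonunits := by
  classical
  obtain ⟨i₁, hi₁⟩ := hT
  have hm0 : m ≠ 0 := by
    rintro rfl
    exact hm (by rw [Nat.cast_zero]; exact P.zero_mem)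
  have hf0 : f ≠ 0 := by
    intro h0
    have h1 := neg_mem_nonunits _ (hf i₁ hi₁)
    rw [h0, zero_sub, neg_neg, ValuationSubring.mem_nonunits_iff, map_one] at h1
    exact lt_irrefl _ h1
  have hu0 : u ≠ 0 := by
    rintro rfl
    rw [zero_mul] at hfuh
    exact hf0 hfuh
  have hh0 : h ≠ 0 := by
    rintro rfl
    rw [zero_pow hm0, mul_zero] at hfuh
    exact hf0 hfuh
  have hne : Nonempty {i : ι // centre (O i) (hAO i) ≤ P} := ⟨⟨i₁, hi₁⟩⟩
  have hRO : ∀ (i : {i : ι // centre (O i) (hAO i) ≤ P}) (r : pointRing F P),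
      algebraMap (pointRing F P) F r ∈ O i.1 := fun i r =>
    pointRing_le_of_centre_le P (O i.1) (hAO i.1) i.2 r
  have hmR : IsUnit ((m : ℕ) : pointRing F P) := by
    have := LThm.isUnit_algebraMap (F := F) P hm
    rwa [map_natCast] at this
  have huR : IsUnit (⟨u, hu⟩ : pointRing F P) :=
    isUnit_iff_exists_inv.2 ⟨⟨u⁻¹, hu'⟩, Subtype.ext (mul_inv_cancel₀ hu0)⟩
  have hb : ∀ i : {i : ι // centre (O i) (hAO i) ≤ P}, h⁻¹ ∈ O i.1 := by
    intro i
    have h1 : h⁻¹ - c ∈ O i.1 :=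
      compositeSubring_le _ _ _ _ (mem_of_mem_nonunits _ (hc i.1 i.2))
    have h2 : c ∈ O i.1 := pointRing_le_of_centre_le P (O i.1) (hAO i.1) i.2 ⟨c, hcR⟩
    have e : h⁻¹ = (h⁻¹ - c) + c := by ring
    rw [e]
    exact (O i.1).add_mem _ _ h1 h2
  have hbu : ∀ i : {i : ι // centre (O i) (hAO i) ≤ P},
      h⁻¹ ^ m - algebraMap (pointRing F P) F ⟨u, hu⟩ ∈ (O i.1).nonunits := by
    intro i
    have e : h⁻¹ ^ m - u = -((f - 1) * h⁻¹ ^ m) := by
      rw [hfuh, inv_pow]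
      field_simp
      ring
    show h⁻¹ ^ m - u ∈ _
    rw [e]
    exact neg_mem_nonunits _
      (mul_mem_nonunits_right _ (hf i.1 i.2) ((O i.1).pow_mem (hb i) _))
  have hglue : ∀ i : {i : ι // centre (O i) (hAO i) ≤ P},
      ∃ t ∈ maximalIdeal (pointRing F P),
        h⁻¹ - algebraMap (pointRing F P) F (⟨c, hcR⟩ + t) ∈ (O i.1).nonunits := by
    intro i
    obtain ⟨hA, hP⟩ := hbr i.1 i.2
    obtain ⟨t, ht, hyt⟩ := exists_mem_maximalIdeal_sub_mem_nonunits (O i.1) (red i.1)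
      (hred i.1) (hAO i.1) (Vs i.1) hA P hP (hlift i.1 i.2) (hc i.1 i.2)
    refine ⟨t, ht, ?_⟩
    have e : h⁻¹ - algebraMap (pointRing F P) F (⟨c, hcR⟩ + t) = h⁻¹ - c - (t : F) := by
      show h⁻¹ - (c + (t : F)) = _
      ring
    rw [e]
    exact hyt
  obtain ⟨r, hru, hr⟩ := exists_sub_mem_nonunits_of_glue (R := pointRing F P) (F := F)
    (fun i : {i : ι // centre (O i) (hAO i) ≤ P} => O i.1) hRO m hmR h⁻¹ hb ⟨u, hu⟩ huR hbu
    ⟨c, hcR⟩ hglue
  obtain ⟨r', hr'⟩ := isUnit_iff_exists_inv.1 hru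
  have hrr' : (r : F) * (r' : F) = 1 := congrArg Subtype.val hr'
  refine ⟨(r : F), r.2, ?_, left_ne_zero_of_mul_eq_one hrr', fun i hi => hr ⟨i, hi⟩⟩
  rw [← eq_inv_of_mul_eq_one_right hrr']
  exact r'.2

/-- **(d) CLEARING DENOMINATORS.**  `b ∈ F` with `b ^ m * f ∈ A_P` and `b ≡ r` modulo
`𝔪 (O i)` on the branches through `P`, `r` a unit of `A_P`; `f` a unit of every `O i`.  Then
there are `s ∈ F` and `g ∈ A ∖ P` with `s ^ m * f ∈ A`, `s ∈ ⋂ O i` and `s ≡ g` modulo
`𝔪 (O i)` for ALL `i`: the local input of the Newton–Čech theorem. -/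
theorem exists_local_pair_of_sub_mem [Finite ι]
    (m : ℕ) (hm0 : m ≠ 0) (f : F) (hf0 : f ≠ 0) (hf : ∀ i, f⁻¹ ∈ O i)
    (b : F) (hbf : b ^ m * f ∈ pointRing F P)
    (r : F) (hr : r ∈ pointRing F P) (hr' : r⁻¹ ∈ pointRing F P) (hr0 : r ≠ 0)
    (hbr : ∀ i, centre (O i) (hAO i) ≤ P → b - r ∈ (O i).nonunits) :
    ∃ g : A, g ∉ P ∧ ∃ s : F, (∃ a : A, s ^ m * f = algebraMap A F a) ∧ (∀ i, s ∈ O i) ∧
      ∀ i, s - algebraMap A F g ∈ (O i).nonunits := by
  classical
  cases nonempty_fintype ι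
  have hPprime : P.IsPrime := inferInstance
  obtain ⟨au, su, hsu, hu_eq⟩ := mem_pointRing_iff.1 hbf
  obtain ⟨ar, sr, hsr, hr_eq⟩ := mem_pointRing_iff.1 hr
  obtain ⟨ar', sr', hsr', hr'_eq⟩ := mem_pointRing_iff.1 hr'
  have hinj : Function.Injective (algebraMap A F) := IsFractionRing.injective A F
  have hne : ∀ a : A, a ∉ P → algebraMap A F a ≠ 0 := by
    intro a ha h0
    apply ha
    have : a = 0 := hinj (by rw [h0, map_zero])
    rw [this]
    exact P.zero_mem
  have hu1 : b ^ m * f * algebraMap A F su = algebraMap A F au := by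
    rw [hu_eq, mul_assoc, inv_mul_cancel₀ (hne su hsu), mul_one]
  have hr1 : r * algebraMap A F sr = algebraMap A F ar := by
    rw [hr_eq, mul_assoc, inv_mul_cancel₀ (hne sr hsr), mul_one]
  have hr1' : r⁻¹ * algebraMap A F sr' = algebraMap A F ar' := by
    rw [hr'_eq, mul_assoc, inv_mul_cancel₀ (hne sr' hsr'), mul_one]
  have har : ar ∉ P := by
    intro har
    have h1 : sr * sr' = ar * ar' := by
      apply hinj
      rw [map_mul, map_mul, ← hr1, ← hr1']
      field_simp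
    have h2 : sr * sr' ∈ P := by
      rw [h1]
      exact P.mul_mem_right _ har
    rcases hPprime.mem_or_mem h2 with h3 | h3
    · exact hsr h3
    · exact hsr' h3
  -- an element of all the centres not contained in `P`, outside `P`
  have hx : ∀ j, ∃ x : A, x ∉ P ∧ (¬ centre (O j) (hAO j) ≤ P → x ∈ centre (O j) (hAO j)) := by
    intro j
    by_cases hj : centre (O j) (hAO j) ≤ P
    · exact ⟨1, fun h1 => hPprime.ne_top ((Ideal.eq_top_iff_one _).2 h1), fun h => absurd hj h⟩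
    · obtain ⟨x, hx, hxP⟩ := SetLike.not_le_iff_exists.1 hj
      exact ⟨x, hxP, fun _ => hx⟩
  choose x hxP hxc using hx
  set d₂ : A := ∏ j, x j with hd₂
  have hd₂P : d₂ ∉ P := by
    rw [hd₂, Ideal.IsPrime.prod_mem_iff]
    rintro ⟨j, -, hj⟩
    exact hxP j hj
  have hd₂c : ∀ j, ¬ centre (O j) (hAO j) ≤ P → d₂ ∈ centre (O j) (hAO j) := fun j hj =>
    Ideal.mem_of_dvd _ (Finset.dvd_prod_of_mem x (Finset.mem_univ j)) (hxc j hj)
  obtain ⟨k, rfl⟩ : ∃ k, m = k + 1 := ⟨m - 1, by omega⟩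
  set s₁ : F := algebraMap A F (su * sr) * b with hs₁def
  have hs₁ : s₁ ^ (k + 1) * f = algebraMap A F (sr ^ (k + 1) * su ^ k * au) := by
    simp only [hs₁def, map_mul, map_pow]
    rw [← hu1]
    ring
  have hs₁O : ∀ i, s₁ ∈ O i := by
    intro i
    refine mem_of_pow_mem (O i) (Nat.succ_ne_zero k) ?_
    have e : s₁ ^ (k + 1) = (s₁ ^ (k + 1) * f) * f⁻¹ := by
      rw [mul_assoc, mul_inv_cancel₀ hf0, mul_one]
    rw [e, hs₁]
    exact (O i).mul_mem _ _ (hAO i _) (hf i)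
  refine ⟨su * ar * d₂, ?_, algebraMap A F d₂ * s₁,
    ⟨d₂ ^ (k + 1) * (sr ^ (k + 1) * su ^ k * au), ?_⟩,
    fun i => (O i).mul_mem _ _ (hAO i _) (hs₁O i), ?_⟩
  · intro hmem
    rcases hPprime.mem_or_mem hmem with h1 | h1
    · rcases hPprime.mem_or_mem h1 with h2 | h2
      · exact hsu h2
      · exact har h2
    · exact hd₂P h1
  · rw [mul_pow, mul_assoc, hs₁, map_mul (algebraMap A F) (d₂ ^ (k + 1)), map_pow]
  · intro i
    by_cases hi : centre (O i) (hAO i) ≤ P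
    · have e : algebraMap A F d₂ * s₁ - algebraMap A F (su * ar * d₂) =
          algebraMap A F (d₂ * su * sr) * (b - r) := by
        simp only [hs₁def, map_mul]
        rw [← hr1]
        ring
      rw [e]
      exact mul_mem_nonunits_left (O i) (hAO i _) (hbr i hi)
    · have hd : algebraMap A F d₂ ∈ (O i).nonunits :=
        (mem_centre_iff (O i) (hAO i) d₂).1 (hd₂c i hi)
      refine sub_mem_nonunits (O i) (mul_mem_nonunits_right (O i) hd (hs₁O i)) ?_
      rw [map_mul]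
      exact mul_mem_nonunits_left (O i) (hAO i _) hd

/-- **(c) + (d): the local pair at a factorial point with trivial gluing.** -/
theorem exists_local_pair [Finite ι]
    (hbr : ∀ i, centre (O i) (hAO i) ≤ P →
      ∃ hA : ∀ a : A, algebraMap A F a ∈ compositeSubring (O i) (red i) (hred i) (Vs i),
        pointIdeal (O i) (red i) (hred i) (Vs i) hA = P)
    (hlift : ∀ i, centre (O i) (hAO i) ≤ P → ∀ c ∈ Vs i, ∃ a b : A,
      redOn (O i) (red i) (hAO i) b ∉ (Vs i).nonunits ∧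
      redOn (O i) (red i) (hAO i) a = c * redOn (O i) (red i) (hAO i) b)
    (hT : ∃ i, centre (O i) (hAO i) ≤ P)
    (m : ℕ) (hm : (m : A) ∉ P)
    (f : F) (hf : ∀ i, f - 1 ∈ (O i).nonunits)
    (u h : F) (hu : u ∈ pointRing F P) (hu' : u⁻¹ ∈ pointRing F P) (hfuh : f = u * h ^ m)
    (c : F) (hcR : c ∈ pointRing F P)
    (hc : ∀ i, centre (O i) (hAO i) ≤ P →
      h⁻¹ - c ∈ (compositeSubring (O i) (red i) (hred i) (Vs i)).nonunits) :
    ∃ g : A, g ∉ P ∧ ∃ s : F, (∃ a : A, s ^ m * f = algebraMap A F a) ∧ (∀ i, s ∈ O i) ∧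
      ∀ i, s - algebraMap A F g ∈ (O i).nonunits := by
  obtain ⟨i₁, hi₁⟩ := hT
  have hm0 : m ≠ 0 := by
    rintro rfl
    exact hm (by rw [Nat.cast_zero]; exact P.zero_mem)
  have hfn : ∀ i, f ∉ (O i).nonunits := by
    intro i hfn
    have h1 : (1 : F) ∈ (O i).nonunits := by
      have e : (1 : F) = f - (f - 1) := by ring
      rw [e]
      exact sub_mem_nonunits (O i) hfn (hf i)
    rw [ValuationSubring.mem_nonunits_iff, map_one] at h1
    exact lt_irrefl _ h1
  have hf0 : f ≠ 0 := fun h0 => hfn i₁ (h0 ▸ zero_mem_nonunits (O i₁))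
  have hh0 : h ≠ 0 := by
    rintro rfl
    rw [zero_pow hm0, mul_zero] at hfuh
    exact hf0 hfuh
  obtain ⟨r, hr, hr', hr0, hbr'⟩ := exists_unit_sub_mem_nonunits O hAO P red hred Vs hbr hlift
    ⟨i₁, hi₁⟩ m hm f (fun i _ => hf i) u h hu hu' hfuh c hcR hc
  refine exists_local_pair_of_sub_mem O hAO P m hm0 f hf0
    (fun i => inv_mem_of_notMem_nonunits (O i) (hfn i)) h⁻¹ ?_ r hr hr' hr0 hbr'
  have e : h⁻¹ ^ m * f = u := by
    rw [hfuh, inv_pow]
    field_simp
  rw [e]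
  exact hu

/-- With exactly one branch through `P` the gluing condition is automatic. -/
theorem exists_glue_of_unique_branch
    (hbr : ∀ i, centre (O i) (hAO i) ≤ P →
      ∃ hA : ∀ a : A, algebraMap A F a ∈ compositeSubring (O i) (red i) (hred i) (Vs i),
        pointIdeal (O i) (red i) (hred i) (Vs i) hA = P)
    (hlift : ∀ i, centre (O i) (hAO i) ≤ P → ∀ c ∈ Vs i, ∃ a b : A,
      redOn (O i) (red i) (hAO i) b ∉ (Vs i).nonunits ∧
      redOn (O i) (red i) (hAO i) a = c * redOn (O i) (red i) (hAO i) b)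
    (i₀ : ι) (hi₀ : centre (O i₀) (hAO i₀) ≤ P)
    (hone : ∀ i, centre (O i) (hAO i) ≤ P → i = i₀)
    (m : ℕ) (hm0 : m ≠ 0) (f : F) (hf : f - 1 ∈ (O i₀).nonunits)
    (u h : F) (hu : u ∈ pointRing F P) (hu' : u⁻¹ ∈ pointRing F P) (hfuh : f = u * h ^ m) :
    ∃ c : F, c ∈ pointRing F P ∧ ∀ i, centre (O i) (hAO i) ≤ P →
      h⁻¹ - c ∈ (compositeSubring (O i) (red i) (hred i) (Vs i)).nonunits := by
  obtain ⟨hA, hP⟩ := hbr i₀ hi₀
  have hunit := unit_composite_of_factor O hAO P red hred Vs hbr m hm0 f u h hu hu' hfuh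
    i₀ hi₀ hf
  obtain ⟨r, hr⟩ := exists_sub_mem_nonunits_of_mem_composite (O i₀) (red i₀) (hred i₀)
    (hAO i₀) (Vs i₀) hA P hP (hlift i₀ hi₀) hunit.2
  refine ⟨(r : F), r.2, fun i hi => ?_⟩
  obtain rfl := hone i hi
  exact nonunits_le_nonunits_composite O red hred Vs i hr

/-- **The local pair at a factorial point lying on one component only.** -/
theorem exists_local_pair_of_unique_branch [Finite ι]
    (hbr : ∀ i, centre (O i) (hAO i) ≤ P →
      ∃ hA : ∀ a : A, algebraMap A F a ∈ compositeSubring (O i) (red i) (hred i) (Vs i),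
        pointIdeal (O i) (red i) (hred i) (Vs i) hA = P)
    (hlift : ∀ i, centre (O i) (hAO i) ≤ P → ∀ c ∈ Vs i, ∃ a b : A,
      redOn (O i) (red i) (hAO i) b ∉ (Vs i).nonunits ∧
      redOn (O i) (red i) (hAO i) a = c * redOn (O i) (red i) (hAO i) b)
    (i₀ : ι) (hi₀ : centre (O i₀) (hAO i₀) ≤ P)
    (hone : ∀ i, centre (O i) (hAO i) ≤ P → i = i₀)
    (m : ℕ) (hm : (m : A) ∉ P)
    (f : F) (hf : ∀ i, f - 1 ∈ (O i).nonunits)
    (u h : F) (hu : u ∈ pointRing F P) (hu' : u⁻¹ ∈ pointRing F P) (hfuh : f = u * h ^ m) :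
    ∃ g : A, g ∉ P ∧ ∃ s : F, (∃ a : A, s ^ m * f = algebraMap A F a) ∧ (∀ i, s ∈ O i) ∧
      ∀ i, s - algebraMap A F g ∈ (O i).nonunits := by
  have hm0 : m ≠ 0 := by
    rintro rfl
    exact hm (by rw [Nat.cast_zero]; exact P.zero_mem)
  obtain ⟨c, hcR, hc⟩ := exists_glue_of_unique_branch O hAO P red hred Vs hbr hlift i₀ hi₀
    hone m hm0 f (hf i₀) u h hu hu' hfuh
  exact exists_local_pair O hAO P red hred Vs hbr hlift ⟨i₀, hi₀⟩ m hm f hf u h hu hu' hfuh
    c hcR hc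

include hAO in
/-- **(e) TRIVIAL CASE.**  If `f ∈ A_P` (no pole of `f` through `P`), the local pair exists with
`s = g`. -/
theorem exists_local_pair_of_mem_pointRing
    (m : ℕ) (hm0 : m ≠ 0) (f : F) (hfR : f ∈ pointRing F P) :
    ∃ g : A, g ∉ P ∧ ∃ s : F, (∃ a : A, s ^ m * f = algebraMap A F a) ∧ (∀ i, s ∈ O i) ∧
      ∀ i, s - algebraMap A F g ∈ (O i).nonunits := by
  obtain ⟨a, s, hs, hf_eq⟩ := mem_pointRing_iff.1 hfR
  have hinj : Function.Injective (algebraMap A F) := IsFractionRing.injective A F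
  have hs0 : algebraMap A F s ≠ 0 := by
    intro h0
    apply hs
    have : s = 0 := hinj (by rw [h0, map_zero])
    rw [this]
    exact P.zero_mem
  obtain ⟨k, rfl⟩ : ∃ k, m = k + 1 := ⟨m - 1, by omega⟩
  refine ⟨s, hs, algebraMap A F s, ⟨s ^ k * a, ?_⟩, fun i => hAO i s, fun i => ?_⟩
  · rw [hf_eq, map_mul, map_pow, pow_succ]
    field_simp
  · rw [sub_self]
    exact zero_mem_nonunits (O i)

/-- **Independence of the choice.**  If `f = u * h ^ m = u' * h' ^ m` with `u, u'` units of the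
integrally closed ring `A_P`, the gluing condition for `h` implies the gluing condition for
`h'` (`h' / h` is a unit of `A_P`). -/
theorem glue_of_factor_indep [IsIntegrallyClosed A]
    (hbr : ∀ i, centre (O i) (hAO i) ≤ P →
      ∃ hA : ∀ a : A, algebraMap A F a ∈ compositeSubring (O i) (red i) (hred i) (Vs i),
        pointIdeal (O i) (red i) (hred i) (Vs i) hA = P)
    (m : ℕ) (hm0 : m ≠ 0) (f : F) (hf0 : f ≠ 0)
    (u h : F) (hu : u ∈ pointRing F P) (hu' : u⁻¹ ∈ pointRing F P) (hfuh : f = u * h ^ m)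
    (u₁ h₁ : F) (hu₁ : u₁ ∈ pointRing F P) (hu₁' : u₁⁻¹ ∈ pointRing F P)
    (hfuh₁ : f = u₁ * h₁ ^ m)
    (c : F) (hcR : c ∈ pointRing F P)
    (hc : ∀ i, centre (O i) (hAO i) ≤ P →
      h⁻¹ - c ∈ (compositeSubring (O i) (red i) (hred i) (Vs i)).nonunits) :
    ∃ c₁ : F, c₁ ∈ pointRing F P ∧ ∀ i, centre (O i) (hAO i) ≤ P →
      h₁⁻¹ - c₁ ∈ (compositeSubring (O i) (red i) (hred i) (Vs i)).nonunits := by
  have hh0 : h ≠ 0 := by
    rintro rfl
    rw [zero_pow hm0, mul_zero] at hfuh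
    exact hf0 hfuh
  have hh₁0 : h₁ ≠ 0 := by
    rintro rfl
    rw [zero_pow hm0, mul_zero] at hfuh₁
    exact hf0 hfuh₁
  have hu0 : u ≠ 0 := by
    rintro rfl
    rw [zero_mul] at hfuh
    exact hf0 hfuh
  have hu₁0 : u₁ ≠ 0 := by
    rintro rfl
    rw [zero_mul] at hfuh₁
    exact hf0 hfuh₁
  -- `w := h / h₁` is integral over `A_P`
  have hw : (h / h₁) ^ m =
      algebraMap (pointRing F P) F ⟨u₁ * u⁻¹, (pointRing F P).mul_mem hu₁ hu'⟩ := by
    show (h / h₁) ^ m = u₁ * u⁻¹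
    have e1 : h ^ m = f * u⁻¹ := by
      rw [hfuh]
      field_simp
    have e2 : h₁ ^ m = f * u₁⁻¹ := by
      rw [hfuh₁]
      field_simp
    rw [div_pow, e1, e2]
    field_simp
  obtain ⟨w, hw'⟩ := IsIntegrallyClosed.exists_algebraMap_eq_of_isIntegral_pow
    (R := pointRing F P) (K := F) (Nat.pos_of_ne_zero hm0) (hw ▸ isIntegral_algebraMap)
  have hwF : (w : F) = h / h₁ := hw'
  refine ⟨c * (w : F), (pointRing F P).mul_mem hcR w.2, fun i hi => ?_⟩
  obtain ⟨hA, hP⟩ := hbr i hi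
  have hwV : (w : F) ∈ compositeSubring (O i) (red i) (hred i) (Vs i) :=
    mem_composite_of_mem_pointRing (O i) (red i) (hred i) (Vs i) hA P hP w.2
  have e : h₁⁻¹ - c * (w : F) = (w : F) * (h⁻¹ - c) := by
    rw [hwF]
    field_simp
  rw [e]
  exact mul_mem_nonunits_left _ hwV (hc i hi)

/-- **Multiplicativity** of the gluing condition. -/
theorem glue_mul
    (hbr : ∀ i, centre (O i) (hAO i) ≤ P →
      ∃ hA : ∀ a : A, algebraMap A F a ∈ compositeSubring (O i) (red i) (hred i) (Vs i),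
        pointIdeal (O i) (red i) (hred i) (Vs i) hA = P)
    (h₁ h₂ c₁ c₂ : F) (hc₁R : c₁ ∈ pointRing F P) (hc₂R : c₂ ∈ pointRing F P)
    (hc₁ : ∀ i, centre (O i) (hAO i) ≤ P →
      h₁⁻¹ - c₁ ∈ (compositeSubring (O i) (red i) (hred i) (Vs i)).nonunits)
    (hc₂ : ∀ i, centre (O i) (hAO i) ≤ P →
      h₂⁻¹ - c₂ ∈ (compositeSubring (O i) (red i) (hred i) (Vs i)).nonunits) :
    c₁ * c₂ ∈ pointRing F P ∧ ∀ i, centre (O i) (hAO i) ≤ P →
      (h₁ * h₂)⁻¹ - c₁ * c₂ ∈ (compositeSubring (O i) (red i) (hred i) (Vs i)).nonunits := by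
  refine ⟨(pointRing F P).mul_mem hc₁R hc₂R, fun i hi => ?_⟩
  obtain ⟨hA, hP⟩ := hbr i hi
  set V := compositeSubring (O i) (red i) (hred i) (Vs i) with hV
  have hc₁V : c₁ ∈ V := mem_composite_of_mem_pointRing (O i) (red i) (hred i) (Vs i) hA P hP hc₁R
  have hc₂V : c₂ ∈ V := mem_composite_of_mem_pointRing (O i) (red i) (hred i) (Vs i) hA P hP hc₂R
  have hh₁V : h₁⁻¹ ∈ V := by
    have e : h₁⁻¹ = (h₁⁻¹ - c₁) + c₁ := by ring
    rw [e]
    exact V.add_mem _ _ (mem_of_mem_nonunits V (hc₁ i hi)) hc₁V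
  have e : (h₁ * h₂)⁻¹ - c₁ * c₂ = h₁⁻¹ * (h₂⁻¹ - c₂) + c₂ * (h₁⁻¹ - c₁) := by
    rw [mul_inv]
    ring
  rw [e]
  exact add_mem_nonunits V (mul_mem_nonunits_left V hh₁V (hc₂ i hi))
    (mul_mem_nonunits_left V hc₂V (hc₁ i hi))

omit [IsDomain A] [IsFractionRing A F] [P.IsPrime] in
/-- **Killing the gluing datum.**  If `h⁻¹` has the values `d i` on the branches through `P`
and `φ⁻¹ * d i` has the common value `c`, then `h * φ` satisfies the gluing condition
(with `c`). -/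
theorem glue_kill (h φ c : F) (d : ι → F)
    (hh : ∀ i, centre (O i) (hAO i) ≤ P →
      h⁻¹ - d i ∈ (compositeSubring (O i) (red i) (hred i) (Vs i)).nonunits)
    (hφ : ∀ i, centre (O i) (hAO i) ≤ P →
      φ⁻¹ ∈ compositeSubring (O i) (red i) (hred i) (Vs i) ∧
      φ⁻¹ * d i - c ∈ (compositeSubring (O i) (red i) (hred i) (Vs i)).nonunits) :
    ∀ i, centre (O i) (hAO i) ≤ P →
      (h * φ)⁻¹ - c ∈ (compositeSubring (O i) (red i) (hred i) (Vs i)).nonunits := by
  intro i hi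
  have e : (h * φ)⁻¹ - c = φ⁻¹ * (h⁻¹ - d i) + (φ⁻¹ * d i - c) := by
    rw [mul_inv]
    ring
  rw [e]
  exact add_mem_nonunits _ (mul_mem_nonunits_left _ (hφ i hi).1 (hh i hi)) (hφ i hi).2

end Family

/-! ### The literal shape of `NewtonCech.exists_global_root_of_local` -/

section Subalgebra

variable {W F : Type*} [CommRing W] [Field F] [Algebra W F]

/-- The local pair in the shape of the hypothesis `hlocal` of helper18's
`Glob.exists_global_root_of_local`: `R ≤ O` subalgebras of `F` (`O` contains `⋂ Os i`), `𝔫` an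
ideal of `O` containing the tri-radical. -/
theorem local_pair_subalgebra (R O : Subalgebra W F) (hRO : R ≤ O) (𝔫 : Ideal O)
    {ι : Type*} (Os : ι → ValuationSubring F)
    (hO : ∀ y : F, (∀ i, y ∈ Os i) → y ∈ O)
    (h𝔫 : ∀ y : O, (∀ i, (y : F) ∈ (Os i).nonunits) → y ∈ 𝔫)
    (Q : Ideal R) (m : ℕ) (f : F)
    (hpair : ∃ g : R, g ∉ Q ∧ ∃ s : F, (∃ a : R, s ^ m * f = algebraMap R F a) ∧
      (∀ i, s ∈ Os i) ∧ ∀ i, s - algebraMap R F g ∈ (Os i).nonunits) :
    ∃ h : R, h ∉ Q ∧ ∃ s : O, (s : F) ^ m * f ∈ R ∧ s - ⟨h, hRO h.2⟩ ∈ 𝔫 := by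
  obtain ⟨g, hg, s, ⟨a, ha⟩, hsO, hsg⟩ := hpair
  refine ⟨g, hg, ⟨s, hO s hsO⟩, ?_, h𝔫 _ (fun i => hsg i)⟩
  show s ^ m * f ∈ R
  rw [ha]
  exact a.2

/-- **(b) + (c) + (d) at a point of a chart, in the shape of `hlocal`.**  `R ≤ O` subalgebras of
`F` with `Frac R = F`, `Os i` the vertical valuation rings (`⋂ Os i ⊆ O`, the tri-radical
contained in `𝔫`), `f ≡ 1` modulo every `𝔪 (Os i)`, `m ∣ ord_V f` for the horizontal discrete
valuation rings `V` (`hhor`).  Let `Q ∋ q` be a prime of `R` with `m ∉ Q` whose local ring is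
factorial, with its branch data `Vs`, LIFT, and trivial gluing datum for (every) factorisation
`f = u * h ^ m`.  Then the local pair of the Newton–Čech theorem exists at `Q`. -/
theorem hlocal_at_point (q : W) (m : ℕ) (R O : Subalgebra W F) (hRO : R ≤ O) (𝔫 : Ideal O)
    [IsFractionRing R F] {ι : Type*} [Finite ι] (Os : ι → ValuationSubring F)
    (hAO : ∀ i (a : R), algebraMap R F a ∈ Os i)
    (hO : ∀ y : F, (∀ i, y ∈ Os i) → y ∈ O)
    (h𝔫 : ∀ y : O, (∀ i, (y : F) ∈ (Os i).nonunits) → y ∈ 𝔫)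
    {κ : ι → Type*} [∀ i, Field (κ i)] (red : ∀ i, Os i →+* κ i)
    (hred : ∀ i, ∀ x : Os i, red i x = 0 ↔ x ∈ maximalIdeal (Os i))
    (f : O) (hf : ∀ i, (f : F) - 1 ∈ (Os i).nonunits)
    (hq0 : algebraMap W R q ≠ 0)
    (hmin : ∀ 𝔮 ∈ (Ideal.span {algebraMap W R q}).minimalPrimes,
      ∃ i, 𝔮 = centre (Os i) (hAO i))
    (hhor : ∀ (V : ValuationSubring F) (t : F), Formal.IsUnif V t →
      (∀ a : R, algebraMap R F a ∈ V) → (algebraMap R F (algebraMap W R q))⁻¹ ∈ V →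
      ∃ g : F, g ≠ 0 ∧ g ^ m * (f : F) ∈ V ∧ (g ^ m * (f : F))⁻¹ ∈ V)
    (Q : Ideal R) [Q.IsPrime] (hqQ : algebraMap W R q ∈ Q) (hmQ : (m : R) ∉ Q)
    (hUFM : UniqueFactorizationMonoid (pointRing F Q))
    (Vs : ∀ i, ValuationSubring (κ i))
    (hbr : ∀ i, centre (Os i) (hAO i) ≤ Q →
      ∃ hA : ∀ a : R, algebraMap R F a ∈ compositeSubring (Os i) (red i) (hred i) (Vs i),
        pointIdeal (Os i) (red i) (hred i) (Vs i) hA = Q)
    (hlift : ∀ i, centre (Os i) (hAO i) ≤ Q → ∀ c ∈ Vs i, ∃ a b : R,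
      redOn (Os i) (red i) (hAO i) b ∉ (Vs i).nonunits ∧
      redOn (Os i) (red i) (hAO i) a = c * redOn (Os i) (red i) (hAO i) b)
    (hglue : ∀ u h : F, u ∈ pointRing F Q → u⁻¹ ∈ pointRing F Q → (f : F) = u * h ^ m →
      ∃ c : F, c ∈ pointRing F Q ∧ ∀ i, centre (Os i) (hAO i) ≤ Q →
        h⁻¹ - c ∈ (compositeSubring (Os i) (red i) (hred i) (Vs i)).nonunits) :
    ∃ h : R, h ∉ Q ∧ ∃ s : O, (s : F) ^ m * f ∈ R ∧ s - ⟨h, hRO h.2⟩ ∈ 𝔫 := by
  have hfn : ∀ i, (f : F) ∉ (Os i).nonunits := by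
    intro i hfn
    have h1 : (1 : F) ∈ (Os i).nonunits := by
      have e : (1 : F) = (f : F) - ((f : F) - 1) := by ring
      rw [e]
      exact sub_mem_nonunits (Os i) hfn (hf i)
    rw [ValuationSubring.mem_nonunits_iff, map_one] at h1
    exact lt_irrefl _ h1
  obtain ⟨i₁, hi₁⟩ := exists_centre_le_of_mem Os hAO (algebraMap W R q) hmin Q hqQ
  have hf0 : (f : F) ≠ 0 := fun h0 => hfn i₁ (h0 ▸ zero_mem_nonunits (Os i₁))
  obtain ⟨u, h, hu, hu', -, hfuh⟩ := exists_factor Os hAO Q hUFM hq0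
    (fun 𝔮 h𝔮 _ => hmin 𝔮 h𝔮) m (f : F) hf0
    (fun i _ => ⟨by
      have e : (f : F) = ((f : F) - 1) + 1 := by ring
      rw [e]
      exact (Os i).add_mem _ _ (mem_of_mem_nonunits _ (hf i)) (Os i).one_mem,
      inv_mem_of_notMem_nonunits (Os i) (hfn i)⟩) hhor
  obtain ⟨c, hcR, hc⟩ := hglue u h hu hu' hfuh
  exact local_pair_subalgebra R O hRO 𝔫 Os hO h𝔫 Q m (f : F)
    (exists_local_pair Os hAO Q red hred Vs hbr hlift ⟨i₁, hi₁⟩ m hmQ (f : F) hf
      u h hu hu' hfuh c hcR hc)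

/-- **(b) + (c) + (d) at a point of a chart lying on one component only** (no gluing
condition). -/
theorem hlocal_at_point_of_unique_branch (q : W) (m : ℕ) (R O : Subalgebra W F) (hRO : R ≤ O)
    (𝔫 : Ideal O) [IsFractionRing R F] {ι : Type*} [Finite ι] (Os : ι → ValuationSubring F)
    (hAO : ∀ i (a : R), algebraMap R F a ∈ Os i)
    (hO : ∀ y : F, (∀ i, y ∈ Os i) → y ∈ O)
    (h𝔫 : ∀ y : O, (∀ i, (y : F) ∈ (Os i).nonunits) → y ∈ 𝔫)
    {κ : ι → Type*} [∀ i, Field (κ i)] (red : ∀ i, Os i →+* κ i)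
    (hred : ∀ i, ∀ x : Os i, red i x = 0 ↔ x ∈ maximalIdeal (Os i))
    (f : O) (hf : ∀ i, (f : F) - 1 ∈ (Os i).nonunits)
    (hq0 : algebraMap W R q ≠ 0)
    (hmin : ∀ 𝔮 ∈ (Ideal.span {algebraMap W R q}).minimalPrimes,
      ∃ i, 𝔮 = centre (Os i) (hAO i))
    (hhor : ∀ (V : ValuationSubring F) (t : F), Formal.IsUnif V t →
      (∀ a : R, algebraMap R F a ∈ V) → (algebraMap R F (algebraMap W R q))⁻¹ ∈ V →
      ∃ g : F, g ≠ 0 ∧ g ^ m * (f : F) ∈ V ∧ (g ^ m * (f : F))⁻¹ ∈ V)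
    (Q : Ideal R) [Q.IsPrime] (hmQ : (m : R) ∉ Q)
    (hUFM : UniqueFactorizationMonoid (pointRing F Q))
    (Vs : ∀ i, ValuationSubring (κ i))
    (hbr : ∀ i, centre (Os i) (hAO i) ≤ Q →
      ∃ hA : ∀ a : R, algebraMap R F a ∈ compositeSubring (Os i) (red i) (hred i) (Vs i),
        pointIdeal (Os i) (red i) (hred i) (Vs i) hA = Q)
    (hlift : ∀ i, centre (Os i) (hAO i) ≤ Q → ∀ c ∈ Vs i, ∃ a b : R,
      redOn (Os i) (red i) (hAO i) b ∉ (Vs i).nonunits ∧
      redOn (Os i) (red i) (hAO i) a = c * redOn (Os i) (red i) (hAO i) b)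
    (i₀ : ι) (hi₀ : centre (Os i₀) (hAO i₀) ≤ Q)
    (hone : ∀ i, centre (Os i) (hAO i) ≤ Q → i = i₀) :
    ∃ h : R, h ∉ Q ∧ ∃ s : O, (s : F) ^ m * f ∈ R ∧ s - ⟨h, hRO h.2⟩ ∈ 𝔫 := by
  have hfn : ∀ i, (f : F) ∉ (Os i).nonunits := by
    intro i hfn
    have h1 : (1 : F) ∈ (Os i).nonunits := by
      have e : (1 : F) = (f : F) - ((f : F) - 1) := by ring
      rw [e]
      exact sub_mem_nonunits (Os i) hfn (hf i)
    rw [ValuationSubring.mem_nonunits_iff, map_one] at h1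
    exact lt_irrefl _ h1
  have hf0 : (f : F) ≠ 0 := fun h0 => hfn i₀ (h0 ▸ zero_mem_nonunits (Os i₀))
  obtain ⟨u, h, hu, hu', -, hfuh⟩ := exists_factor Os hAO Q hUFM hq0
    (fun 𝔮 h𝔮 _ => hmin 𝔮 h𝔮) m (f : F) hf0
    (fun i _ => ⟨by
      have e : (f : F) = ((f : F) - 1) + 1 := by ring
      rw [e]
      exact (Os i).add_mem _ _ (mem_of_mem_nonunits _ (hf i)) (Os i).one_mem,
      inv_mem_of_notMem_nonunits (Os i) (hfn i)⟩) hhor
  exact local_pair_subalgebra R O hRO 𝔫 Os hO h𝔫 Q m (f : F)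
    (exists_local_pair_of_unique_branch Os hAO Q red hred Vs hbr hlift i₀ hi₀ hone m hmQ
      (f : F) hf u h hu hu' hfuh)

end Subalgebra

end Fermat.Agent.CAR.Glue.LStart
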