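import Mathlib
import Fermat.Agent.CAR.Glue.LocalStart
import Fermat.Agent.CAR.Local.Inst.Points
import Fermat.Agent.CAR.Local.Inst.MeetContract

/-!
# CAR: the local pair of the Newton–Čech endgame at every closed point of the finite chart

Composition of
* `Inst.Contract.ufm_pointRing` (helper38: the local rings of the finite chart at the closed
  points of the special fibre are factorial),
* `Inst.Meet.point_cases` (a closed point is a triple point over a supersingular place, or lies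
  on exactly one component),
* `LStart.exists_factor`, `LStart.exists_local_pair`, `LStart.exists_local_pair_of_unique_branch`
  (helper75: factorisation `f = u * h ^ m` and the local pair).

`exists_local_pair_of_contract` : for `H : Inst.Contract …`, a tri-unit `f ≡ 1` on the three
components whose horizontal divisor is divisible by `m` (`hhor`), and a gluing datum at every
supersingular place (`hglue`, the output of CAR-14), the local pair exists at every maximal ideal
`Q ∋ q` of the chart with `m ∉ Q`.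

`hlocal_of_contract` : the same for a chart `R : Subalgebra W F`, in the literal shape of the
hypothesis `hlocal` of `Glob.exists_global_root_of_valuations_inf`.
-/

set_option autoImplicit false

namespace Fermat.Agent.CAR.Glue.LInst

open IsLocalRing Fermat.Agent.CAR.Local Fermat.Agent.CAR.Local.Inst Fermat.Agent.CAR.Glue.LStart

section General

variable {B B' F κ : Type*} [CommRing B] [IsDomain B] [Field F] [Algebra B F]
  [IsFractionRing B F] [Field κ] [CommRing B'] [IsNoetherianRing B] [IsIntegrallyClosed B]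
variable {O : Fin 3 → ValuationSubring F} {red : ∀ i, O i →+* κ}
  {hred : ∀ i, ∀ x : O i, red i x = 0 ↔ x ∈ maximalIdeal (O i)}
  {hBO : ∀ i, ∀ b : B, algebraMap B F b ∈ O i}
  {red' : B' →+* κ} {π₀ π₂ : B' →+* B} {D : κ → κ}
  {q : B} {x' : B'} {u u₁ v₁ h : B} {Db G : κ} {N e : ℕ}

/-- **The local pair at every closed point of the special fibre of the finite chart.** -/
theorem exists_local_pair_of_contract
    (H : Contract O red hred hBO red' π₀ π₂ D q x' u u₁ v₁ h Db G N e)
    (hell : ∀ Vs : ValuationSubring κ, IsFinPlace red' Vs →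
      ∃ y : B', D (red' y) ≠ 0 ∧ D (red' y) ^ 12 * G ∉ Vs.nonunits)
    (m : ℕ) (f : F) (hf : ∀ i, f - 1 ∈ (O i).nonunits)
    (hhor : ∀ (V : ValuationSubring F) (t : F), Formal.IsUnif V t →
      (∀ a : B, algebraMap B F a ∈ V) → (algebraMap B F q)⁻¹ ∈ V →
      ∃ g : F, g ≠ 0 ∧ g ^ m * f ∈ V ∧ (g ^ m * f)⁻¹ ∈ V)
    (hglue : ∀ (Vs : ValuationSubring κ) (hVs : IsFinPlace red' Vs), Db ∈ Vs.nonunits →
      ∀ u₀ h₀ : F, u₀ ∈ pointRing F (Meet.pt H 1 Vs hVs) →
        u₀⁻¹ ∈ pointRing F (Meet.pt H 1 Vs hVs) → f = u₀ * h₀ ^ m →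
        ∃ c : F, c ∈ pointRing F (Meet.pt H 1 Vs hVs) ∧
          ∀ i, h₀⁻¹ - c ∈ (compositeSubring (O i) (red i) (hred i) Vs).nonunits)
    (Q : Ideal B) [hQ : Q.IsMaximal] (hqQ : q ∈ Q) (hmQ : (m : B) ∉ Q) :
    ∃ g : B, g ∉ Q ∧ ∃ s : F, (∃ a : B, s ^ m * f = algebraMap B F a) ∧ (∀ i, s ∈ O i) ∧
      ∀ i, s - algebraMap B F g ∈ (O i).nonunits := by
  have hUFM : UniqueFactorizationMonoid (pointRing F Q) := H.ufm_pointRing hell Q hqQ
  have hfn : ∀ i, f ∉ (O i).nonunits := by
    intro i hfn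
    have h1 : (1 : F) ∈ (O i).nonunits := by
      have e1 : (1 : F) = f - (f - 1) := by ring
      rw [e1]
      exact sub_mem_nonunits (O i) hfn (hf i)
    rw [ValuationSubring.mem_nonunits_iff, map_one] at h1
    exact lt_irrefl _ h1
  have hf0 : f ≠ 0 := fun h0 => hfn 0 (h0 ▸ zero_mem_nonunits (O 0))
  obtain ⟨u₀, h₀, hu, hu', -, hfuh⟩ := exists_factor O hBO Q hUFM H.q_ne
    (fun 𝔮 h𝔮 _ => H.hmin 𝔮 h𝔮) m f hf0
    (fun i _ => ⟨by
      have e1 : f = (f - 1) + 1 := by ring
      rw [e1]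
      exact (O i).add_mem _ _ (mem_of_mem_nonunits _ (hf i)) (O i).one_mem,
      inv_mem_of_notMem_nonunits (O i) (hfn i)⟩) hhor
  rcases Meet.point_cases H Q hqQ with ⟨Vs, hVs, hDb, hall⟩ | ⟨i₀, Vs, hVs, -, hP, hone⟩
  · -- a triple point over a supersingular place
    have h1 := hall 1
    subst h1
    obtain ⟨c, hcR, hc⟩ := hglue Vs hVs hDb u₀ h₀ hu hu' hfuh
    exact exists_local_pair (κ := fun _ => κ) O hBO (Meet.pt H 1 Vs hVs) red hred (fun _ => Vs)
      (fun i _ => ⟨Meet.hA_of_isFinPlace H i Vs hVs, hall i⟩)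
      (fun i _ => H.toV3Base.lift i Vs hVs.1 (H.fin i Vs hVs))
      ⟨1, Meet.centre_le_pt H 1 Vs hVs⟩ m hmQ f hf u₀ h₀ hu hu' hfuh c hcR (fun i _ => hc i)
  · -- a point on exactly one component
    subst hP
    have hone' : ∀ i, centre (O i) (hBO i) ≤ Meet.pt H i₀ Vs hVs → i = i₀ := by
      intro i hi
      by_contra hne
      exact hone i hne hi
    exact exists_local_pair_of_unique_branch (κ := fun _ => κ) O hBO (Meet.pt H i₀ Vs hVs) red
      hred (fun _ => Vs)
      (fun i hi => by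
        have hii := hone' i hi
        subst hii
        exact ⟨Meet.hA_of_isFinPlace H i Vs hVs, rfl⟩)
      (fun i _ => H.toV3Base.lift i Vs hVs.1 (H.fin i Vs hVs))
      i₀ (Meet.centre_le_pt H i₀ Vs hVs) hone' m hmQ f hf u₀ h₀ hu hu' hfuh

end General

section Subalgebra

variable {W F κ B' : Type*} [CommRing W] [Field F] [Algebra W F] [Field κ] [CommRing B']

/-- **`hlocal` for the finite chart**, in the literal shape of
`Glob.exists_global_root_of_valuations_inf`: `R` the chart ring (a `W`-subalgebra of `F` with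
fraction field `F`, Noetherian and integrally closed), `m` invertible in `W`. -/
theorem hlocal_of_contract (q : W) (m : ℕ) (m' : W) (hmm : (m : W) * m' = 1)
    (R : Subalgebra W F) [IsFractionRing R F] [IsNoetherianRing R] [IsIntegrallyClosed R]
    {O : Fin 3 → ValuationSubring F} {red : ∀ i, O i →+* κ}
    {hred : ∀ i, ∀ x : O i, red i x = 0 ↔ x ∈ maximalIdeal (O i)}
    {hBO : ∀ i, ∀ b : R, algebraMap R F b ∈ O i}
    {red' : B' →+* κ} {π₀ π₂ : B' →+* R} {D : κ → κ}
    {x' : B'} {u u₁ v₁ h : R} {Db G : κ} {N e : ℕ}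
    (H : Contract O red hred hBO red' π₀ π₂ D (algebraMap W R q) x' u u₁ v₁ h Db G N e)
    (hell : ∀ Vs : ValuationSubring κ, IsFinPlace red' Vs →
      ∃ y : B', D (red' y) ≠ 0 ∧ D (red' y) ^ 12 * G ∉ Vs.nonunits)
    (f : F) (hf : ∀ i, f - 1 ∈ (O i).nonunits)
    (hhor : ∀ (V : ValuationSubring F) (t : F), Formal.IsUnif V t →
      (∀ a : R, algebraMap R F a ∈ V) → (algebraMap R F (algebraMap W R q))⁻¹ ∈ V →
      ∃ g : F, g ≠ 0 ∧ g ^ m * f ∈ V ∧ (g ^ m * f)⁻¹ ∈ V)
    (hglue : ∀ (Vs : ValuationSubring κ) (hVs : IsFinPlace red' Vs), Db ∈ Vs.nonunits →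
      ∀ u₀ h₀ : F, u₀ ∈ pointRing F (Meet.pt H 1 Vs hVs) →
        u₀⁻¹ ∈ pointRing F (Meet.pt H 1 Vs hVs) → f = u₀ * h₀ ^ m →
        ∃ c : F, c ∈ pointRing F (Meet.pt H 1 Vs hVs) ∧
          ∀ i, h₀⁻¹ - c ∈ (compositeSubring (O i) (red i) (hred i) Vs).nonunits) :
    ∀ Q : Ideal R, Q.IsMaximal → algebraMap W R q ∈ Q →
      ∃ h : R, h ∉ Q ∧ ∃ s : F, s ^ m * f ∈ R ∧ ∀ i, s - h ∈ (O i).nonunits := by
  intro Q hQ hqQ
  have hmQ : (m : R) ∉ Q := by
    intro hm
    apply hQ.ne_top
    rw [Ideal.eq_top_iff_one]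
    have h1 : (1 : R) = (m : R) * algebraMap W R m' := by
      rw [← map_natCast (algebraMap W R), ← map_mul, hmm, map_one]
    rw [h1]
    exact Q.mul_mem_right _ hm
  obtain ⟨g, hg, s, ⟨a, ha⟩, -, hs⟩ :=
    exists_local_pair_of_contract H hell m f hf hhor hglue Q hqQ hmQ
  refine ⟨g, hg, s, ?_, hs⟩
  rw [ha]
  exact a.2

end Subalgebra

end Fermat.Agent.CAR.Glue.LInst
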