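import Mathlib
import Fermat.Agent.CAR.Glue.LocalStart
import Fermat.Agent.CAR.Local.InstCusp

/-!
# CAR: the local pair of the Newton–Čech endgame at the cusps of the chart at infinity

Composition of
* `InstCusp.ufm_pointRing_cusp`, `InstCusp.V3Cusp.exists_point` (helper12: the local ring of the
  chart at infinity `B_∞` at a maximal ideal containing `q` and `x⁻¹` is factorial, and such a
  point lies on exactly one component),
* `LStart.exists_factor`, `LStart.exists_local_pair_of_unique_branch` (helper75).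

`exists_local_pair_of_cusp` : the local pair at every maximal ideal `Q ∋ q, x⁻¹` with `m ∉ Q`
(no gluing condition: at the cusps the three components are disjoint).

`hlocal'_of_cusp` : the same for a chart `R' : Subalgebra W F`, in the literal shape of the
hypothesis `hlocal'` of `Glob.exists_global_root_of_valuations_inf`.
-/

set_option autoImplicit false

namespace Fermat.Agent.CAR.Glue.LInst

open IsLocalRing Fermat.Agent.CAR.Local Fermat.Agent.CAR.Local.Inst
  Fermat.Agent.CAR.Local.InstCusp Fermat.Agent.CAR.Glue.LStart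

section General

variable {B F κ : Type*} [CommRing B] [IsDomain B] [Field F] [Algebra B F] [IsFractionRing B F]
  [Field κ] [IsNoetherianRing B] [IsIntegrallyClosed B]
  {O : Fin 3 → ValuationSubring F} {red : ∀ i, O i →+* κ}
  {hred : ∀ i, ∀ x : O i, red i x = 0 ↔ x ∈ maximalIdeal (O i)}
  {hBO : ∀ i, ∀ b : B, algebraMap B F b ∈ O i} {q xinv y₀ y₁ y₂ y₃ : B} {e : F} {m₀ n N : ℕ}
  {yb g : κ}

/-- **The local pair at every cusp of the chart at infinity.** -/
theorem exists_local_pair_of_cusp (H : V3Base O red hred hBO q)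
    (C : V3Cusp O red hBO xinv y₀ y₁ y₂ y₃ yb)
    (M : V3CuspMid O red hBO q y₁ y₂ e m₀ n N yb g)
    (m : ℕ) (f : F) (hf : ∀ i, f - 1 ∈ (O i).nonunits)
    (hhor : ∀ (V : ValuationSubring F) (t : F), Formal.IsUnif V t →
      (∀ a : B, algebraMap B F a ∈ V) → (algebraMap B F q)⁻¹ ∈ V →
      ∃ g : F, g ≠ 0 ∧ g ^ m * f ∈ V ∧ (g ^ m * f)⁻¹ ∈ V)
    (Q : Ideal B) [hQ : Q.IsMaximal] (hqQ : q ∈ Q) (hxQ : xinv ∈ Q) (hmQ : (m : B) ∉ Q) :
    ∃ g : B, g ∉ Q ∧ ∃ s : F, (∃ a : B, s ^ m * f = algebraMap B F a) ∧ (∀ i, s ∈ O i) ∧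
      ∀ i, s - algebraMap B F g ∈ (O i).nonunits := by
  have hUFM : UniqueFactorizationMonoid (pointRing F Q) := ufm_pointRing_cusp H C M Q hqQ hxQ
  have hfn : ∀ i, f ∉ (O i).nonunits := by
    intro i hfn
    have h1 : (1 : F) ∈ (O i).nonunits := by
      have e1 : (1 : F) = f - (f - 1) := by ring
      rw [e1]
      exact sub_mem_nonunits (O i) hfn (hf i)
    rw [ValuationSubring.mem_nonunits_iff, map_one] at h1
    exact lt_irrefl _ h1
  have hf0 : f ≠ 0 := fun h0 => hfn 0 (h0 ▸ zero_mem_nonunits (O 0))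
  obtain ⟨u₀, h₀, hu, hu', -, hfuh⟩ := exists_factor O hBO Q hUFM H.q_ne
    (fun 𝔮 h𝔮 _ => H.hmin 𝔮 h𝔮) m f hf0
    (fun i _ => ⟨by
      have e1 : f = (f - 1) + 1 := by ring
      rw [e1]
      exact (O i).add_mem _ _ (mem_of_mem_nonunits _ (hf i)) (O i).one_mem,
      inv_mem_of_notMem_nonunits (O i) (hfn i)⟩) hhor
  obtain ⟨i₀, Vs, hA, hP, -, hone⟩ := C.exists_point H Q hqQ hxQ
  subst hP
  have hle : centre (O i₀) (hBO i₀) ≤ pointIdeal (O i₀) (red i₀) (hred i₀) Vs hA :=
    centre_le_pointIdeal (O i₀) (red i₀) (hred i₀) (hBO i₀) Vs hA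
  have hone' : ∀ i, centre (O i) (hBO i) ≤ pointIdeal (O i₀) (red i₀) (hred i₀) Vs hA →
      i = i₀ := by
    intro i hi
    by_contra hne
    exact hone i hne hi
  exact exists_local_pair_of_unique_branch (κ := fun _ => κ) O hBO
    (pointIdeal (O i₀) (red i₀) (hred i₀) Vs hA) red hred (fun _ => Vs)
    (fun i hi => by
      have hii := hone' i hi
      subst hii
      exact ⟨hA, rfl⟩)
    (fun i hi => by
      have hii := hone' i hi
      subst hii
      exact H.lift_point i Vs hA hQ)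
    i₀ hle hone' m hmQ f hf u₀ h₀ hu hu' hfuh

end General

section Subalgebra

variable {W F κ : Type*} [CommRing W] [Field F] [Algebra W F] [Field κ]

/-- **`hlocal'` for the chart at infinity**, in the literal shape of
`Glob.exists_global_root_of_valuations_inf`: `R'` the chart ring at infinity (a `W`-subalgebra of
`F` with fraction field `F`, Noetherian and integrally closed), `m` invertible in `W`; the local
pair is produced at the maximal ideals containing `q` and `x⁻¹` only. -/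
theorem hlocal'_of_cusp (q : W) (m : ℕ) (m' : W) (hmm : (m : W) * m' = 1)
    (R' : Subalgebra W F) [IsFractionRing R' F] [IsNoetherianRing R'] [IsIntegrallyClosed R']
    {O : Fin 3 → ValuationSubring F} {red : ∀ i, O i →+* κ}
    {hred : ∀ i, ∀ x : O i, red i x = 0 ↔ x ∈ maximalIdeal (O i)}
    {hBO : ∀ i, ∀ b : R', algebraMap R' F b ∈ O i} {xinv y₀ y₁ y₂ y₃ : R'} {e : F}
    {m₀ n N : ℕ} {yb g : κ}
    (H : V3Base O red hred hBO (algebraMap W R' q))
    (C : V3Cusp O red hBO xinv y₀ y₁ y₂ y₃ yb)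
    (M : V3CuspMid O red hBO (algebraMap W R' q) y₁ y₂ e m₀ n N yb g)
    (f : F) (hf : ∀ i, f - 1 ∈ (O i).nonunits)
    (hhor : ∀ (V : ValuationSubring F) (t : F), Formal.IsUnif V t →
      (∀ a : R', algebraMap R' F a ∈ V) → (algebraMap R' F (algebraMap W R' q))⁻¹ ∈ V →
      ∃ g : F, g ≠ 0 ∧ g ^ m * f ∈ V ∧ (g ^ m * f)⁻¹ ∈ V) :
    ∀ Q : Ideal R', Q.IsMaximal → algebraMap W R' q ∈ Q → xinv ∈ Q →
      ∃ h : R', h ∉ Q ∧ ∃ s : F, s ^ m * f ∈ R' ∧ ∀ i, s - h ∈ (O i).nonunits := by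
  intro Q hQ hqQ hxQ
  have hmQ : (m : R') ∉ Q := by
    intro hm
    apply hQ.ne_top
    rw [Ideal.eq_top_iff_one]
    have h1 : (1 : R') = (m : R') * algebraMap W R' m' := by
      rw [← map_natCast (algebraMap W R'), ← map_mul, hmm, map_one]
    rw [h1]
    exact Q.mul_mem_right _ hm
  obtain ⟨g, hg, s, ⟨a, ha⟩, -, hs⟩ :=
    exists_local_pair_of_cusp H C M m f hf hhor Q hqQ hxQ hmQ
  refine ⟨g, hg, s, ?_, hs⟩
  rw [ha]
  exact a.2

end Subalgebra

end Fermat.Agent.CAR.Glue.LInst
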