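/-
CAR-14, instance side of (NN-5): the chart rings of two levels along a degeneracy map.

Setting: `W` a ring (for CAR: the DVR `W = K0.W A`), `FN`, `F` two fields over `W` (the function
fields of level `N = M' q` and `M = M' q²` over `K0`), `Φ : FN → F` a ring homomorphism which is
the identity on `W` (`α^*` or `β^*`), `xN : FN`, `x : F` the chart functions, and the chart rings
`AN := chart W xN`, `A := chart W x` of `CAR/Glob/Charts.lean`.

* `map_mem_chart`, `chartMap` : if `Φ xN ∈ chart W x`, `Φ` maps `AN` into `A`;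
* `chartMap_isIntegral` : if moreover `x` is integral over `W[Φ xN]`, `A` is integral over `AN`;
* `chartAlgebra`, `chart_isScalarTower`, `chart_algebraIsIntegral` : the data
  `[Algebra AN A] [Algebra K E] [IsScalarTower AN A E] [IsScalarTower AN K E]`
  `[Algebra.IsIntegral AN A]` of the section `Norm` of `CAR/Glue/NodeNorm.lean` (with
  `Algebra FN F := Φ.toAlgebra`, which is `AlgebraicCurve.algebraAlong φ` for `Φ = φ.toRingHom`);
* `comap_isMaximal`, `isMaximal_of_comap_isMaximal`, `exists_comap_eq` : going up/down for closed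
  points; `isRatPoint_comap` : the point below a `k`-rational point is `k`-rational;
* `norm_mem_pointRing_chart`, `norm_unit_pointRing_chart` : (NN-1) for the chart rings, with
  (UNIQ) in the literal shape of the conclusion of `Inst.Uniq.huniq_of_V3Base`;
* `glue_relation_chart` : (NN-5) `NodeNorm.glue_relation` for the chart rings along `Φ`;
* `compositeSubring_comap`, `centre_comap`, `pointIdeal_comap` : **place compatibility** — the
  point of `Spec AN` below the point `(O, s)` of `Spec A` is the point `(O ∩ FN, ψ⁻¹ s)`, if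
  `ρ ∘ Φ = ψ ∘ r` on `O ∩ FN` (`ψ = id` on the branches where the residue extension is trivial,
  `ψ = qExpand k q` on the Frobenius-twisted branch);
* `hasValue_comap_iff` : values of functions of the lower level at the point below, in the
  vocabulary `HasValue` of `NodeNorm.lean`; `redOn_comp` : `red_O ∘ φ = ψ ∘ red_ON`;
* `map_mem_pointRing` : the local ring at the point below maps into the local ring at the point.
-/
import Mathlib
import Fermat.Agent.CAR.Glob.Charts
import Fermat.Agent.CAR.Glue.NodeNorm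
import Fermat.Agent.CAR.Local.Exhaust

set_option autoImplicit false
set_option linter.style.haveILetI false

namespace Fermat.Agent.CAR.Glue.NodeInst

open IsLocalRing Fermat.Agent.CAR.Local Fermat.Agent.CAR.Glob.Charts Polynomial

/-! ### The chart map -/

section ChartMap

variable {W FN F : Type*} [CommRing W] [Field FN] [Field F] [Algebra W FN] [Algebra W F]
  (Φ : FN →+* F) (hΦ : ∀ w : W, Φ (algebraMap W FN w) = algebraMap W F w) {xN : FN} {x : F}

include hΦ in
/-- `Φ` maps `W[xN]` into `W[Φ xN]`. -/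
theorem map_mem_adjoin {y : FN} (hy : y ∈ Algebra.adjoin W {xN}) :
    Φ y ∈ Algebra.adjoin W {Φ xN} := by
  induction hy using Algebra.adjoin_induction with
  | mem z hz =>
    rw [Set.mem_singleton_iff] at hz
    subst hz
    exact Algebra.self_mem_adjoin_singleton W _
  | algebraMap w =>
    rw [hΦ]
    exact Subalgebra.algebraMap_mem _ w
  | add a b _ _ ha hb =>
    rw [map_add]
    exact add_mem ha hb
  | mul a b _ _ ha hb =>
    rw [map_mul]
    exact mul_mem ha hb

include hΦ in
/-- `Φ` maps `W[xN]` onto `W[Φ xN]`. -/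
theorem exists_map_eq_of_mem_adjoin {z : F} (hz : z ∈ Algebra.adjoin W {Φ xN}) :
    ∃ y ∈ Algebra.adjoin W {xN}, Φ y = z := by
  induction hz using Algebra.adjoin_induction with
  | mem z hz =>
    rw [Set.mem_singleton_iff] at hz
    subst hz
    exact ⟨xN, Algebra.self_mem_adjoin_singleton W _, rfl⟩
  | algebraMap w => exact ⟨algebraMap W FN w, Subalgebra.algebraMap_mem _ w, hΦ w⟩
  | add a b _ _ ha hb =>
    obtain ⟨a', ha', rfl⟩ := ha
    obtain ⟨b', hb', rfl⟩ := hb
    exact ⟨a' + b', add_mem ha' hb', map_add _ _ _⟩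
  | mul a b _ _ ha hb =>
    obtain ⟨a', ha', rfl⟩ := ha
    obtain ⟨b', hb', rfl⟩ := hb
    exact ⟨a' * b', mul_mem ha' hb', map_mul _ _ _⟩

include hΦ in
/-- If `Φ xN` lies in the chart ring at `x`, then `Φ` maps the chart ring at `xN` into the chart
ring at `x`. -/
theorem map_mem_chart (h1 : Φ xN ∈ chart W x) {y : FN} (hy : y ∈ chart W xN) :
    Φ y ∈ chart W x := by
  apply mem_chart_of_isIntegral
  have hle : ∀ a : Algebra.adjoin W {xN}, Φ (a : FN) ∈ chart W x := fun a =>
    (Algebra.adjoin_le (S := chart W x) (Set.singleton_subset_iff.mpr h1))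
      (map_mem_adjoin Φ hΦ a.2)
  let φ₀ : Algebra.adjoin W {xN} →+* chart W x :=
    (Φ.comp (algebraMap (Algebra.adjoin W {xN}) FN)).codRestrict (chart W x) hle
  exact IsIntegral.map_of_comp_eq φ₀ Φ (RingHom.ext fun _ => rfl) (mem_chart_iff.mp hy)

/-- **The chart map** `chart W xN → chart W x` induced by `Φ`. -/
def chartMap (h1 : Φ xN ∈ chart W x) : chart W xN →+* chart W x :=
  (Φ.comp (algebraMap (chart W xN) FN)).codRestrict (chart W x)
    (fun y => map_mem_chart Φ hΦ h1 y.2)

theorem coe_chartMap (h1 : Φ xN ∈ chart W x) (y : chart W xN) :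
    ((chartMap Φ hΦ h1 y : chart W x) : F) = Φ (y : FN) := rfl

theorem algebraMap_chartMap (h1 : Φ xN ∈ chart W x) (y : chart W xN) :
    algebraMap (chart W x) F (chartMap Φ hΦ h1 y) = Φ (algebraMap (chart W xN) FN y) := rfl

theorem chartMap_algebraMap (h1 : Φ xN ∈ chart W x) (w : W) :
    chartMap Φ hΦ h1 (algebraMap W (chart W xN) w) = algebraMap W (chart W x) w :=
  Subtype.ext (hΦ w)

theorem chartMap_self (h1 : Φ xN ∈ chart W x) :
    chartMap Φ hΦ h1 ⟨xN, self_mem_chart xN⟩ = ⟨Φ xN, h1⟩ := rfl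

theorem chartMap_injective (h1 : Φ xN ∈ chart W x) :
    Function.Injective (chartMap Φ hΦ h1) := fun _ _ h =>
  Subtype.ext (Φ.injective (congrArg Subtype.val h))

omit [Algebra W FN] in
/-- Every element of the chart ring at `x` is integral over `W[Φ xN]`, if `x` is. -/
theorem isIntegral_adjoin_of_mem_chart (h2 : IsIntegral (Algebra.adjoin W {Φ xN}) x) {a : F}
    (ha : a ∈ chart W x) : IsIntegral (Algebra.adjoin W {Φ xN}) a := by
  have hle : Algebra.adjoin W {x} ≤
      (integralClosure (Algebra.adjoin W {Φ xN}) F).restrictScalars W :=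
    Algebra.adjoin_le (Set.singleton_subset_iff.mpr h2)
  have h3 : IsIntegral (integralClosure (Algebra.adjoin W {Φ xN}) F) a :=
    isIntegral_of_subalgebra_le hle (mem_chart_iff.mp ha)
  exact isIntegral_trans (R := Algebra.adjoin W {Φ xN})
    (A := integralClosure (Algebra.adjoin W {Φ xN}) F) a h3

/-- **Integrality of the chart map.**  If `Φ xN ∈ chart W x` and `x` is integral over `W[Φ xN]`,
the chart ring at `x` is integral over the chart ring at `xN`. -/
theorem chartMap_isIntegral (h1 : Φ xN ∈ chart W x)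
    (h2 : IsIntegral (Algebra.adjoin W {Φ xN}) x) : (chartMap Φ hΦ h1).IsIntegral := by
  intro a
  obtain ⟨p, hp, hpa⟩ := isIntegral_adjoin_of_mem_chart Φ h2 a.2
  -- the surjection `W[xN] → W[Φ xN]`
  let s : Algebra.adjoin W {xN} →+* Algebra.adjoin W {Φ xN} :=
    (Φ.comp (algebraMap (Algebra.adjoin W {xN}) FN)).codRestrict (Algebra.adjoin W {Φ xN})
      (fun y => map_mem_adjoin Φ hΦ y.2)
  have hs : Function.Surjective s := by
    rintro ⟨z, hz⟩
    obtain ⟨y, hy, rfl⟩ := exists_map_eq_of_mem_adjoin Φ hΦ hz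
    exact ⟨⟨y, hy⟩, rfl⟩
  obtain ⟨p', hp', -, hp'm⟩ := Polynomial.lifts_and_degree_eq_and_monic
    ((Polynomial.mem_lifts p).mpr (Polynomial.map_surjective s hs p)) hp
  -- the inclusion `W[xN] → chart W xN`
  let ι : Algebra.adjoin W {xN} →+* chart W xN :=
    (Subalgebra.inclusion (adjoin_le_chart (W := W) xN)).toRingHom
  refine ⟨p'.map ι, hp'm.map ι, ?_⟩
  rw [Polynomial.eval₂_map]
  have hcomp : ((chart W x).val.toRingHom.comp ((chartMap Φ hΦ h1).comp ι)) =
      (algebraMap (Algebra.adjoin W {Φ xN}) F).comp s := RingHom.ext fun _ => rfl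
  have key : (chart W x).val.toRingHom (Polynomial.eval₂ ((chartMap Φ hΦ h1).comp ι) a p') = 0 := by
    rw [Polynomial.hom_eval₂, hcomp, ← Polynomial.eval₂_map, hp']
    exact hpa
  exact Subtype.ext key

end ChartMap

/-! ### The algebra structures consumed by `NodeNorm.lean` -/

section Algebra

variable {W FN F : Type*} [CommRing W] [Field FN] [Field F] [Algebra W FN] [Algebra W F]
  (Φ : FN →+* F) (hΦ : ∀ w : W, Φ (algebraMap W FN w) = algebraMap W F w) {xN : FN} {x : F}

/-- The algebra structure `chart W xN → chart W x` along `Φ` (not an instance; the algebra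
structure `FN → F` is `Φ.toAlgebra`, i.e. `AlgebraicCurve.algebraAlong φ` for `Φ = φ.toRingHom`,
and `chart W xN → F` is then the subalgebra instance of Mathlib). -/
@[reducible] def chartAlgebra (h1 : Φ xN ∈ chart W x) : Algebra (chart W xN) (chart W x) :=
  (chartMap Φ hΦ h1).toAlgebra

theorem algebraMap_chartAlgebra (h1 : Φ xN ∈ chart W x) :
    letI := chartAlgebra Φ hΦ h1
    algebraMap (chart W xN) (chart W x) = chartMap Φ hΦ h1 := rfl

/-- `chart W xN → chart W x → F` is a tower (`chart W xN → FN → F` is one by the subalgebra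
instances of Mathlib). -/
theorem chart_isScalarTower (h1 : Φ xN ∈ chart W x) :
    letI : Algebra FN F := Φ.toAlgebra
    letI := chartAlgebra Φ hΦ h1
    IsScalarTower (chart W xN) (chart W x) F :=
  letI : Algebra FN F := Φ.toAlgebra
  letI := chartAlgebra Φ hΦ h1
  IsScalarTower.of_algebraMap_eq (fun _ => rfl)

/-- The chart ring at `x` is integral over the chart ring at `xN`. -/
theorem chart_algebraIsIntegral (h1 : Φ xN ∈ chart W x)
    (h2 : IsIntegral (Algebra.adjoin W {Φ xN}) x) :
    letI := chartAlgebra Φ hΦ h1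
    Algebra.IsIntegral (chart W xN) (chart W x) :=
  letI := chartAlgebra Φ hΦ h1
  ⟨chartMap_isIntegral Φ hΦ h1 h2⟩

/-- The point of the lower chart below a closed point is closed. -/
theorem comap_isMaximal (h1 : Φ xN ∈ chart W x) (h2 : IsIntegral (Algebra.adjoin W {Φ xN}) x)
    (P : Ideal (chart W x)) [P.IsMaximal] : (P.comap (chartMap Φ hΦ h1)).IsMaximal :=
  Ideal.isMaximal_comap_of_isIntegral_of_isMaximal' (chartMap Φ hΦ h1)
    (chartMap_isIntegral Φ hΦ h1 h2) P

/-- A closed point of the upper chart over a closed point of the lower chart: every prime of the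
upper chart lying over a maximal ideal is maximal. -/
theorem isMaximal_of_comap_isMaximal (h1 : Φ xN ∈ chart W x)
    (h2 : IsIntegral (Algebra.adjoin W {Φ xN}) x) (P : Ideal (chart W x)) [P.IsPrime]
    (hQ : (P.comap (chartMap Φ hΦ h1)).IsMaximal) : P.IsMaximal := by
  letI := chartAlgebra Φ hΦ h1
  haveI := chart_algebraIsIntegral Φ hΦ h1 h2
  exact Ideal.isMaximal_of_isIntegral_of_isMaximal_comap (R := chart W xN) P hQ

/-- There is a point of the upper chart over every point of the lower chart. -/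
theorem exists_comap_eq (h1 : Φ xN ∈ chart W x) (h2 : IsIntegral (Algebra.adjoin W {Φ xN}) x)
    (Q : Ideal (chart W xN)) [Q.IsMaximal] :
    ∃ P : Ideal (chart W x), P.IsMaximal ∧ P.comap (chartMap Φ hΦ h1) = Q := by
  letI := chartAlgebra Φ hΦ h1
  haveI := chart_algebraIsIntegral Φ hΦ h1 h2
  have hker : RingHom.ker (algebraMap (chart W xN) (chart W x)) ≤ Q := by
    intro a ha
    have h0 : a = 0 := chartMap_injective Φ hΦ h1 (by rw [map_zero]; exact ha)
    rw [h0]
    exact Q.zero_mem
  obtain ⟨P, hP, hPQ⟩ := Ideal.exists_ideal_over_maximal_of_isIntegral Q hker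
  exact ⟨P, hP, hPQ⟩

variable [IsFractionRing (chart W xN) FN] [IsFractionRing (chart W x) F]

/-- **(NN-1) for the chart rings.**  If the closed point `P` of the upper chart is the only point
over its image `Q` (in the literal shape of `Inst.Uniq.huniq_of_V3Base`), the norm along `Φ` maps
the local ring at `P` into the local ring at `Q`. -/
theorem norm_mem_pointRing_chart [IsIntegrallyClosed (chart W xN)] (h1 : Φ xN ∈ chart W x)
    (h2 : IsIntegral (Algebra.adjoin W {Φ xN}) x) (P : Ideal (chart W x)) [P.IsMaximal]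
    (huniq : ∀ P' : Ideal (chart W x), P'.IsMaximal →
      P'.comap (chartMap Φ hΦ h1) = P.comap (chartMap Φ hΦ h1) → P' = P)
    {u : F} (hu : u ∈ pointRing F P) :
    (letI : Algebra FN F := Φ.toAlgebra; Algebra.norm FN u) ∈
      pointRing FN (P.comap (chartMap Φ hΦ h1)) := by
  letI : Algebra FN F := Φ.toAlgebra
  letI := chartAlgebra Φ hΦ h1
  haveI := chart_isScalarTower Φ hΦ h1
  haveI := chart_algebraIsIntegral Φ hΦ h1 h2
  haveI := comap_isMaximal Φ hΦ h1 h2 P
  exact norm_mem_pointRing (P.comap (chartMap Φ hΦ h1)) P huniq hu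

/-- **(NN-1), units, for the chart rings.** -/
theorem norm_unit_pointRing_chart [IsIntegrallyClosed (chart W xN)] (h1 : Φ xN ∈ chart W x)
    (h2 : IsIntegral (Algebra.adjoin W {Φ xN}) x) (P : Ideal (chart W x)) [P.IsMaximal]
    (huniq : ∀ P' : Ideal (chart W x), P'.IsMaximal →
      P'.comap (chartMap Φ hΦ h1) = P.comap (chartMap Φ hΦ h1) → P' = P)
    {u : F} (hu0 : u ≠ 0) (hu : u ∈ pointRing F P) (hu' : u⁻¹ ∈ pointRing F P) :
    (letI : Algebra FN F := Φ.toAlgebra; Algebra.norm FN u) ∈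
        pointRing FN (P.comap (chartMap Φ hΦ h1)) ∧
      (letI : Algebra FN F := Φ.toAlgebra; Algebra.norm FN u)⁻¹ ∈
        pointRing FN (P.comap (chartMap Φ hΦ h1)) := by
  letI : Algebra FN F := Φ.toAlgebra
  letI := chartAlgebra Φ hΦ h1
  haveI := chart_isScalarTower Φ hΦ h1
  haveI := chart_algebraIsIntegral Φ hΦ h1 h2
  haveI := comap_isMaximal Φ hΦ h1 h2 P
  exact norm_unit_pointRing (P.comap (chartMap Φ hΦ h1)) P huniq hu0 hu hu'

omit [IsFractionRing (chart W xN) FN] [IsFractionRing (chart W x) F] in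
/-- The point below a `k`-rational point is `k`-rational (vocabulary of `NodeUnits.lean`). -/
theorem isRatPoint_comap {k : Type*} [Field k] {res : W →+* k} (h1 : Φ xN ∈ chart W x)
    (P : Ideal (chart W x)) (hP : NodeUnits.IsRatPoint res P) :
    NodeUnits.IsRatPoint res (P.comap (chartMap Φ hΦ h1)) where
  exists_sub_mem a := by
    obtain ⟨w, hw⟩ := hP.exists_sub_mem (chartMap Φ hΦ h1 a)
    refine ⟨w, ?_⟩
    rw [Ideal.mem_comap, map_sub, chartMap_algebraMap]
    exact hw
  mem_iff w := by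
    rw [Ideal.mem_comap, chartMap_algebraMap]
    exact hP.mem_iff w

/-- **(NN-5) for the chart rings** (`NodeNorm.glue_relation` along `Φ`).  `P` a `k`-rational
closed point of the upper chart, the only point over its image `Q = Φ⁻¹ P`; `f = u h ^ m` with
`u` a unit of the local ring at `P`; `N_Φ f = c g ^ m` with `c` a unit of the local ring at `Q`.
If `V₁`, `V₂` are valuation rings of `FN` centred at `Q` at which `N_Φ h` takes the values
`n₁, n₂ ≠ 0` and `g` the values `γ₁`, `γ₂`, then `γ₁ * n₂ = γ₂ * n₁`. -/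
theorem glue_relation_chart [IsIntegrallyClosed (chart W xN)] {k : Type*} [Field k]
    {res : W →+* k} (hres : Function.Surjective res) (h1 : Φ xN ∈ chart W x)
    (h2 : IsIntegral (Algebra.adjoin W {Φ xN}) x) (P : Ideal (chart W x)) [P.IsMaximal]
    (hP : NodeUnits.IsRatPoint res P)
    (huniq : ∀ P' : Ideal (chart W x), P'.IsMaximal →
      P'.comap (chartMap Φ hΦ h1) = P.comap (chartMap Φ hΦ h1) → P' = P)
    {m : ℕ} (hm : m ≠ 0) {f u h : F} {g c : FN}
    (hu : u ∈ pointRing F P) (hu' : u⁻¹ ∈ pointRing F P) (hf : f = u * h ^ m) (hh : h ≠ 0)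
    (hc : c ∈ pointRing FN (P.comap (chartMap Φ hΦ h1)))
    (hc' : c⁻¹ ∈ pointRing FN (P.comap (chartMap Φ hΦ h1))) (hc0 : c ≠ 0) (hg : g ≠ 0)
    (hN : (letI : Algebra FN F := Φ.toAlgebra; Algebra.norm FN f) = c * g ^ m)
    (V₁ V₂ : ValuationSubring FN) (hV₁ : ∀ a : chart W xN, algebraMap (chart W xN) FN a ∈ V₁)
    (hV₂ : ∀ a : chart W xN, algebraMap (chart W xN) FN a ∈ V₂)
    (hQ₁ : centre V₁ hV₁ = P.comap (chartMap Φ hΦ h1))
    (hQ₂ : centre V₂ hV₂ = P.comap (chartMap Φ hΦ h1)) {n₁ n₂ γ₁ γ₂ : k}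
    (hn₁ : NodeUnits.HasVal res V₁ (letI : Algebra FN F := Φ.toAlgebra; Algebra.norm FN h) n₁)
    (hn₂ : NodeUnits.HasVal res V₂ (letI : Algebra FN F := Φ.toAlgebra; Algebra.norm FN h) n₂)
    (hn₁0 : n₁ ≠ 0) (hn₂0 : n₂ ≠ 0)
    (hγ₁ : NodeUnits.HasVal res V₁ g γ₁) (hγ₂ : NodeUnits.HasVal res V₂ g γ₂) :
    γ₁ * n₂ = γ₂ * n₁ := by
  letI : Algebra FN F := Φ.toAlgebra
  letI := chartAlgebra Φ hΦ h1
  haveI := chart_isScalarTower Φ hΦ h1
  haveI := chart_algebraIsIntegral Φ hΦ h1 h2
  haveI := comap_isMaximal Φ hΦ h1 h2 P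
  exact glue_relation (P.comap (chartMap Φ hΦ h1)) P (isRatPoint_comap Φ hΦ h1 P hP) hres huniq
    hm hu hu' hf hh hc hc' hc0 hg hN V₁ V₂ hV₁ hV₂ hQ₁ hQ₂ hn₁ hn₂ hn₁0 hn₂0 hγ₁ hγ₂

end Algebra

/-! ### Place compatibility: the point below `(O, s)` is `(O ∩ FN, ψ⁻¹ s)` -/

section Places

variable {FN F κN κ : Type*} [Field FN] [Field F] [Field κN] [Field κ]
  (Φ : FN →+* F) (O : ValuationSubring F) (ρ : O →+* κ)
  (hρ : ∀ x : O, ρ x = 0 ↔ x ∈ maximalIdeal O)
  (ON : ValuationSubring FN) (r : ON →+* κN) (hr : ∀ x : ON, r x = 0 ↔ x ∈ maximalIdeal ON)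
  (ψ : κN →+* κ) (hO : O.comap Φ = ON)
  (hcompat : ∀ (y : FN) (hy : y ∈ ON) (hy' : Φ y ∈ O), ρ ⟨Φ y, hy'⟩ = ψ (r ⟨y, hy⟩))

include hO in
theorem mem_of_map_mem {y : FN} (hy' : Φ y ∈ O) : y ∈ ON := by
  rw [← hO]
  exact hy'

include hO in
theorem map_mem_of_mem {y : FN} (hy : y ∈ ON) : Φ y ∈ O := by
  have h : y ∈ O.comap Φ := by rw [hO]; exact hy
  exact h

include hO hcompat in
/-- **Place compatibility, valuation rings.**  Let `ON = O ∩ FN` (along `Φ`) with residue maps
`ρ ∘ Φ = ψ ∘ r`.  The restriction to `FN` of the composite valuation ring `(O, s)` is the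
composite valuation ring `(ON, ψ⁻¹ s)`. -/
theorem compositeSubring_comap (Vs : ValuationSubring κ) :
    (compositeSubring O ρ hρ Vs).comap Φ = compositeSubring ON r hr (Vs.comap ψ) := by
  ext y
  rw [ValuationSubring.mem_comap, mem_compositeSubring_iff, mem_compositeSubring_iff]
  constructor
  · rintro ⟨hy', hv⟩
    have hy : y ∈ ON := mem_of_map_mem Φ O ON hO hy'
    refine ⟨hy, ?_⟩
    rw [ValuationSubring.mem_comap, ← hcompat y hy hy']
    exact hv
  · rintro ⟨hy, hv⟩
    have hy' : Φ y ∈ O := map_mem_of_mem Φ O ON hO hy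
    refine ⟨hy', ?_⟩
    rw [hcompat y hy hy']
    exact hv

include hO hcompat in
/-- Values (vocabulary of `NodeNorm.lean`): a function `ξ` of the lower level takes the value `c`
at `(ON, ψ⁻¹ s)` iff `Φ ξ` takes the value `c` at `(O, s)`. -/
theorem hasValue_comap_iff {k : Type*} [Field k] [Algebra k κN] [Algebra k κ]
    (hψ : ∀ c : k, ψ (algebraMap k κN c) = algebraMap k κ c) (Vs : ValuationSubring κ) {ξ : FN}
    {c : k} :
    (∃ h : ξ ∈ ON, HasValue (Vs.comap ψ) (r ⟨ξ, h⟩) c) ↔
      ∃ h : Φ ξ ∈ O, HasValue Vs (ρ ⟨Φ ξ, h⟩) c := by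
  constructor
  · rintro ⟨h, hv⟩
    have h' : Φ ξ ∈ O := map_mem_of_mem Φ O ON hO h
    refine ⟨h', ?_⟩
    rw [hcompat ξ h h']
    exact (HasValue.comap_iff ψ hψ).mp hv
  · rintro ⟨h', hv⟩
    have h : ξ ∈ ON := mem_of_map_mem Φ O ON hO h'
    refine ⟨h, ?_⟩
    rw [hcompat ξ h h'] at hv
    exact (HasValue.comap_iff ψ hψ).mpr hv

variable {AN A : Type*} [CommRing AN] [CommRing A] [Algebra AN FN] [Algebra A F]
  (φ : AN →+* A) (hφ : ∀ a : AN, algebraMap A F (φ a) = Φ (algebraMap AN FN a))

include hφ in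
omit [Field κN] [Field κ] in
/-- The centre on the lower ring of the restriction of a valuation ring is the contraction of
its centre. -/
theorem centre_comap (V : ValuationSubring F) (hV : ∀ a : A, algebraMap A F a ∈ V)
    (hVN : ∀ a : AN, algebraMap AN FN a ∈ V.comap Φ) :
    (centre V hV).comap φ = centre (V.comap Φ) hVN := by
  ext a
  rw [Ideal.mem_comap, mem_centre_iff, mem_centre_iff, hφ, Formal.mem_nonunits_comap_iff]

include hO hφ in
omit [Field κN] [Field κ] in
/-- The lower ring maps into `ON = O ∩ FN`. -/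
theorem algebraMap_mem_comap (hAO : ∀ a : A, algebraMap A F a ∈ O) (a : AN) :
    algebraMap AN FN a ∈ ON := by
  apply mem_of_map_mem Φ O ON hO
  rw [← hφ]
  exact hAO _

include hO hcompat hφ in
/-- The lower ring is regular at `(ON, ψ⁻¹ s)` if the upper ring is regular at `(O, s)`. -/
theorem algebraMap_mem_compositeSubring_comap (Vs : ValuationSubring κ)
    (hA : ∀ a : A, algebraMap A F a ∈ compositeSubring O ρ hρ Vs) (a : AN) :
    algebraMap AN FN a ∈ compositeSubring ON r hr (Vs.comap ψ) := by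
  rw [← compositeSubring_comap Φ O ρ hρ ON r hr ψ hO hcompat Vs, ValuationSubring.mem_comap,
    ← hφ]
  exact hA _

include hO hcompat hφ in
/-- **Place compatibility, points.**  The contraction to the lower ring of the point `(O, s)` is
the point `(ON, ψ⁻¹ s)`. -/
theorem pointIdeal_comap (Vs : ValuationSubring κ)
    (hA : ∀ a : A, algebraMap A F a ∈ compositeSubring O ρ hρ Vs)
    (hAN : ∀ a : AN, algebraMap AN FN a ∈ compositeSubring ON r hr (Vs.comap ψ)) :
    (pointIdeal O ρ hρ Vs hA).comap φ = pointIdeal ON r hr (Vs.comap ψ) hAN := by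
  ext a
  unfold pointIdeal
  rw [Ideal.mem_comap, mem_centre_iff, mem_centre_iff, hφ, ← Formal.mem_nonunits_comap_iff,
    compositeSubring_comap Φ O ρ hρ ON r hr ψ hO hcompat Vs]

include hcompat hφ in
/-- The reduction maps of the two rings: `red_O ∘ φ = ψ ∘ red_ON` (the hypothesis `hcompat` of
`Inst.Uniq.huniq_of_V3Base` for `π = id`). -/
theorem redOn_comp (hAO : ∀ a : A, algebraMap A F a ∈ O)
    (hANO : ∀ a : AN, algebraMap AN FN a ∈ ON) (a : AN) :
    redOn O ρ hAO (φ a) = ψ (redOn ON r hANO a) := by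
  rw [redOn_apply, redOn_apply]
  have h1 : Φ (algebraMap AN FN a) ∈ O := by
    rw [← hφ]
    exact hAO _
  rw [← hcompat (algebraMap AN FN a) (hANO a) h1]
  congr 1
  exact Subtype.ext (hφ a)

include hφ in
omit [Field κN] [Field κ] in
/-- The local ring of the lower ring at the contraction of `P` maps into the local ring at
`P`. -/
theorem map_mem_pointRing [IsDomain AN] [IsDomain A] [IsFractionRing AN FN]
    [IsFractionRing A F] (P : Ideal A) [P.IsPrime] {ξ : FN}
    (hξ : ξ ∈ pointRing FN (P.comap φ)) : Φ ξ ∈ pointRing F P := by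
  obtain ⟨a, s, hs, rfl⟩ := mem_pointRing_iff.mp hξ
  refine mem_pointRing_iff.mpr ⟨φ a, φ s, fun h => hs (Ideal.mem_comap.mpr h), ?_⟩
  rw [map_mul, map_inv₀, hφ, hφ]

end Places

end Fermat.Agent.CAR.Glue.NodeInst
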