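import Mathlib
import Fermat.Agent.CAR.Local.Centre

/-!
# CAR-14 (NN-1)–(NN-3): units of point rings under the norm, `m`-th roots, values on branches

Abstract setting (no modular objects).  `K ⊆ E` fields, `A₀ ⊆ K`, `A ⊆ E` domains with fraction
fields `K`, `E`, `A` integral over `A₀`, `A₀` integrally closed; `Q` a maximal ideal of `A₀`,
`P` a prime of `A` over `Q` such that (UNIQ) every maximal ideal of `A` over `Q` equals `P`
(instance: the chart rings at the levels `N` and `M`, a node `Q` and the triple point `P` above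
it).

* `exists_mul_eq_algebraMap_of_notMem` : every `t ∈ A ∖ P` divides an element of `A₀ ∖ Q`.
* `isIntegral_of_mem_pointRing` : the local ring `A_P` is integral over `(A₀)_Q`.
* **(NN-1)** `norm_mem_pointRing`, `norm_unit_pointRing` : the norm of an element (unit) of `A_P`
  is an element (unit) of `(A₀)_Q`.
* **(NN-2)** `mem_pointRing_of_pow_mem`, `unit_pointRing_of_pow_unit` : `ξ ^ m ∈ ((A₀)_Q)ˣ`
  implies `ξ ∈ ((A₀)_Q)ˣ`.
* `ratio_unit_pointRing` : if `f = u h ^ m` with `u ∈ (A_P)ˣ` and `N f = c g ^ m` with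
  `c ∈ ((A₀)_Q)ˣ`, then `ξ := g / N h ∈ ((A₀)_Q)ˣ`  (first half of (NN-5)).
* **(NN-3)** `HasVal res V y c` : "`y` takes the value `c ∈ k` at the valuation ring `V`", for a
  base ring `W` with a residue map `res : W → k` (`y ≡ w` modulo the maximal ideal of `V` for some
  `w : W` with `res w = c`).  Calculus (`HasVal.mul`, `.pow`, `.inv`, `.div`, `.unique`,
  `.congr`), and `exists_hasVal_pointRing`, `exists_hasVal_unit_pointRing` : an element (unit) of
  the point ring `A_P` has ONE value `c` (`c ≠ 0`) at ALL valuation rings centred at `P`.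
-/

set_option autoImplicit false

namespace Fermat.Agent.CAR.Glue.NodeUnits

open Fermat.Agent.CAR.Local IsLocalRing

/-- `N(u)⁻¹ = N(u⁻¹)` for the norm of a field extension (finite or not). -/
theorem norm_inv_eq (K : Type*) {E : Type*} [Field K] [Field E] [Algebra K E] (u : E) :
    (Algebra.norm K u)⁻¹ = Algebra.norm K u⁻¹ := by
  by_cases hu : u = 0
  · subst hu
    rw [inv_zero]
    by_cases h0 : Algebra.norm K (0 : E) = 0
    · rw [h0, inv_zero]
    · have h1 : Algebra.norm K (0 : E) * Algebra.norm K (0 : E) = Algebra.norm K (0 : E) := by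
        rw [← map_mul, mul_zero]
      have h2 : Algebra.norm K (0 : E) = 1 := by
        have := mul_left_cancel₀ h0 (h1.trans (mul_one _).symm)
        exact this
      rw [h2, inv_one]
  · have h1 : Algebra.norm K u * Algebra.norm K u⁻¹ = 1 := by
      rw [← map_mul, mul_inv_cancel₀ hu, map_one]
    exact (eq_inv_of_mul_eq_one_right h1).symm

/-! ### (NN-1): norms of elements of the point ring above a point with a unique preimage -/

section Norm

variable {A₀ K A E : Type*} [CommRing A₀] [IsDomain A₀] [Field K] [Algebra A₀ K]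
  [IsFractionRing A₀ K] [CommRing A] [IsDomain A] [Field E] [Algebra A E] [IsFractionRing A E]
  [Algebra K E] [Algebra A₀ A] [Algebra A₀ E] [IsScalarTower A₀ A E] [IsScalarTower A₀ K E]
  [Algebra.IsIntegral A₀ A]
  (Q : Ideal A₀) [Q.IsMaximal] (P : Ideal A) [P.IsPrime]

omit [IsDomain A₀] [IsDomain A] [P.IsPrime] in
/-- (UNIQ) ⟹ every element of `A` outside `P` divides an element of `A₀` outside `Q`. -/
theorem exists_mul_eq_algebraMap_of_notMem
    (huniq : ∀ P' : Ideal A, P'.IsMaximal → P'.comap (algebraMap A₀ A) = Q → P' = P)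
    {t : A} (ht : t ∉ P) : ∃ (b : A) (s : A₀), s ∉ Q ∧ t * b = algebraMap A₀ A s := by
  by_contra hcon
  push Not at hcon
  have hle : (Ideal.span {t}).comap (algebraMap A₀ A) ≤ Q := by
    intro s hs
    by_contra hsQ
    rw [Ideal.mem_comap, Ideal.mem_span_singleton'] at hs
    obtain ⟨b, hb⟩ := hs
    exact hcon b s hsQ (by rw [mul_comm]; exact hb)
  obtain ⟨Q', hge, hprime, hcomap⟩ :=
    Ideal.exists_ideal_over_prime_of_isIntegral Q (Ideal.span {t}) hle
  have hmax : Q'.IsMaximal :=
    Ideal.isMaximal_of_isIntegral_of_isMaximal_comap (R := A₀) Q' (by rw [hcomap]; infer_instance)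
  have hQ'P : Q' = P := huniq Q' hmax hcomap
  exact ht (hQ'P ▸ hge (Ideal.mem_span_singleton_self t))

omit [IsDomain A₀] in
/-- Elements of `A₀` outside `Q` have their inverse in the local ring `(A₀)_Q ⊆ K`. -/
theorem inv_algebraMap_mem_pointRing [IsDomain A₀] {s : A₀} (hs : s ∉ Q) :
    (algebraMap A₀ K s)⁻¹ ∈ pointRing K Q :=
  mem_pointRing_iff.2 ⟨1, s, hs, by rw [map_one, one_mul]⟩

/-- (UNIQ) ⟹ the local ring `A_P` is integral over the local ring `(A₀)_Q`. -/
theorem isIntegral_of_mem_pointRing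
    (huniq : ∀ P' : Ideal A, P'.IsMaximal → P'.comap (algebraMap A₀ A) = Q → P' = P)
    {z : E} (hz : z ∈ pointRing E P) : IsIntegral (pointRing K Q) z := by
  obtain ⟨a, t, ht, rfl⟩ := mem_pointRing_iff.1 hz
  obtain ⟨b, s, hs, hbs⟩ := exists_mul_eq_algebraMap_of_notMem Q P huniq ht
  have ht0 : algebraMap A E t ≠ 0 := by
    intro h
    have : t = 0 := (IsFractionRing.injective A E) (by rw [h, map_zero])
    exact ht (this ▸ P.zero_mem)
  have hs0 : s ≠ 0 := fun h => hs (h ▸ Q.zero_mem)
  have hsE : algebraMap A₀ E s ≠ 0 := by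
    rw [IsScalarTower.algebraMap_apply A₀ K E]
    intro h
    have h1 : algebraMap A₀ K s = 0 := (algebraMap K E).injective (by rw [h, map_zero])
    exact hs0 ((IsFractionRing.injective A₀ K) (by rw [h1, map_zero]))
  -- `t⁻¹ = b / s`
  have hinv : (algebraMap A E t)⁻¹ = algebraMap A E b * (algebraMap A₀ E s)⁻¹ := by
    have h1 : algebraMap A E t * algebraMap A E b = algebraMap A₀ E s := by
      rw [← map_mul, hbs, ← IsScalarTower.algebraMap_apply]
    rw [eq_mul_inv_iff_mul_eq₀ hsE, ← h1, ← mul_assoc, inv_mul_cancel₀ ht0, one_mul]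
  rw [hinv, ← mul_assoc, ← map_mul]
  refine IsIntegral.mul ?_ ?_
  · -- elements of `A` are integral over `A₀`, hence over `(A₀)_Q`
    have h1 : IsIntegral A₀ (algebraMap A E (a * b)) :=
      (Algebra.IsIntegral.isIntegral (R := A₀) (a * b)).map (IsScalarTower.toAlgHom A₀ A E)
    exact h1.tower_top
  · -- `s⁻¹ ∈ (A₀)_Q`
    have h2 : (algebraMap A₀ E s)⁻¹ =
        algebraMap (pointRing K Q) E ⟨(algebraMap A₀ K s)⁻¹, inv_algebraMap_mem_pointRing Q hs⟩ := by
      show _ = algebraMap K E ((algebraMap A₀ K s)⁻¹)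
      rw [map_inv₀, ← IsScalarTower.algebraMap_apply]
    rw [h2]
    exact isIntegral_algebraMap

variable [IsIntegrallyClosed A₀]

omit [Q.IsMaximal] in
/-- `(A₀)_Q` is integrally closed when `A₀` is (stated here for a prime `Q`; no instance, to keep
this file independent of `CAR/Local/LocalThm.lean`). -/
theorem isIntegrallyClosed_pointRing [Q.IsPrime] : IsIntegrallyClosed (pointRing K Q) :=
  isIntegrallyClosed_of_isLocalization (pointRing K Q) Q.primeCompl
    Q.primeCompl_le_nonZeroDivisors

/-- **(NN-1), elements.** The norm of an element of `A_P` lies in `(A₀)_Q`. -/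
theorem norm_mem_pointRing
    (huniq : ∀ P' : Ideal A, P'.IsMaximal → P'.comap (algebraMap A₀ A) = Q → P' = P)
    {z : E} (hz : z ∈ pointRing E P) : Algebra.norm K z ∈ pointRing K Q := by
  have : IsIntegrallyClosed (pointRing K Q) := isIntegrallyClosed_pointRing Q
  have h1 : IsIntegral (pointRing K Q) (Algebra.norm K z) :=
    Algebra.isIntegral_norm K (isIntegral_of_mem_pointRing Q P huniq hz)
  obtain ⟨r, hr⟩ := IsIntegrallyClosed.isIntegral_iff.1 h1
  rw [← hr]
  exact r.2

/-- **(NN-1), units.** The norm of a unit of `A_P` is a unit of `(A₀)_Q`. -/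
theorem norm_unit_pointRing
    (huniq : ∀ P' : Ideal A, P'.IsMaximal → P'.comap (algebraMap A₀ A) = Q → P' = P)
    {u : E} (hu : u ∈ pointRing E P) (hu' : u⁻¹ ∈ pointRing E P) :
    Algebra.norm K u ∈ pointRing K Q ∧ (Algebra.norm K u)⁻¹ ∈ pointRing K Q := by
  refine ⟨norm_mem_pointRing Q P huniq hu, ?_⟩
  rw [norm_inv_eq K u]
  exact norm_mem_pointRing Q P huniq hu'

/-! ### (NN-2): `m`-th roots of units of an integrally closed point ring -/

omit [Q.IsMaximal] in
/-- **(NN-2), elements.** `ξ ^ m ∈ (A₀)_Q` implies `ξ ∈ (A₀)_Q`. -/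
theorem mem_pointRing_of_pow_mem [Q.IsPrime] {ξ : K} {m : ℕ} (hm : m ≠ 0)
    (h : ξ ^ m ∈ pointRing K Q) : ξ ∈ pointRing K Q := by
  have : IsIntegrallyClosed (pointRing K Q) := isIntegrallyClosed_pointRing Q
  have h1 : IsIntegral (pointRing K Q) (ξ ^ m) := by
    have : ξ ^ m = algebraMap (pointRing K Q) K ⟨ξ ^ m, h⟩ := rfl
    rw [this]
    exact isIntegral_algebraMap
  have h2 : IsIntegral (pointRing K Q) ξ := IsIntegral.of_pow (Nat.pos_of_ne_zero hm) h1
  obtain ⟨r, hr⟩ := IsIntegrallyClosed.isIntegral_iff.1 h2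
  rw [← hr]
  exact r.2

omit [Q.IsMaximal] in
/-- **(NN-2), units.** `ξ ^ m ∈ ((A₀)_Q)ˣ` implies `ξ ∈ ((A₀)_Q)ˣ`. -/
theorem unit_pointRing_of_pow_unit [Q.IsPrime] {ξ : K} {m : ℕ} (hm : m ≠ 0)
    (h : ξ ^ m ∈ pointRing K Q) (h' : (ξ ^ m)⁻¹ ∈ pointRing K Q) :
    ξ ∈ pointRing K Q ∧ ξ⁻¹ ∈ pointRing K Q := by
  refine ⟨mem_pointRing_of_pow_mem Q hm h, mem_pointRing_of_pow_mem Q hm ?_⟩
  rw [inv_pow]
  exact h'

/-- **First half of (NN-5).** If `f = u h ^ m` with `u` a unit of `A_P` and
`N f = c g ^ m` with `c` a unit of `(A₀)_Q`, then `ξ := g / N h` is a unit of `(A₀)_Q`, and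
`ξ ^ m = N u / c`. -/
theorem ratio_unit_pointRing
    (huniq : ∀ P' : Ideal A, P'.IsMaximal → P'.comap (algebraMap A₀ A) = Q → P' = P)
    {m : ℕ} (hm : m ≠ 0) {f u h : E} {g c : K}
    (hu : u ∈ pointRing E P) (hu' : u⁻¹ ∈ pointRing E P) (hf : f = u * h ^ m) (hh : h ≠ 0)
    (hc : c ∈ pointRing K Q) (hc' : c⁻¹ ∈ pointRing K Q) (hc0 : c ≠ 0)
    (hN : Algebra.norm K f = c * g ^ m) :
    (g / Algebra.norm K h ∈ pointRing K Q ∧ (g / Algebra.norm K h)⁻¹ ∈ pointRing K Q) ∧
      (g / Algebra.norm K h) ^ m = Algebra.norm K u * c⁻¹ := by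
  have hNh : Algebra.norm K h ≠ 0 := by
    intro h0
    have h1 : Algebra.norm K h * Algebra.norm K h⁻¹ = 1 := by
      rw [← map_mul, mul_inv_cancel₀ hh, map_one]
    rw [h0, zero_mul] at h1
    exact zero_ne_one h1
  obtain ⟨hNu, hNu'⟩ := norm_unit_pointRing (K := K) Q P huniq hu hu'
  have hpow : (g / Algebra.norm K h) ^ m = Algebra.norm K u * c⁻¹ := by
    have h1 : Algebra.norm K u * Algebra.norm K h ^ m = c * g ^ m := by
      rw [← hN, hf, map_mul, map_pow]
    rw [div_pow, div_eq_iff (pow_ne_zero m hNh), mul_assoc, mul_comm c⁻¹, ← mul_assoc, h1,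
      mul_comm c, mul_assoc, mul_inv_cancel₀ hc0, mul_one]
  refine ⟨unit_pointRing_of_pow_unit Q hm ?_ ?_, hpow⟩
  · rw [hpow]
    exact (pointRing K Q).mul_mem hNu hc'
  · rw [hpow, mul_inv, inv_inv]
    exact (pointRing K Q).mul_mem hNu' hc

end Norm

/-! ### (NN-3): values at valuation rings centred at a point -/

section Values

variable {W k F : Type*} [CommRing W] [Field k] (res : W →+* k) [Field F] [Algebra W F]

/-- "`y` takes the value `c ∈ k` at the valuation ring `V`": `y ≡ w` modulo the maximal ideal of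
`V` for some constant `w : W` with residue `res w = c`.  (Instance: `W` the DVR of `K0`,
`k` its residue field, `V` the composite of a component `O_i` of the special fibre with a place
`s` of its residue field; then `c` is the value at `s` of the reduction of `y` on the branch.) -/
def HasVal (V : ValuationSubring F) (y : F) (c : k) : Prop :=
  ∃ w : W, res w = c ∧ y - algebraMap W F w ∈ V.nonunits

/-- `V` lies over `(W, res)`: it contains the constants, and a constant is a non-unit of `V` iff
its residue vanishes. -/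
structure IsOver (V : ValuationSubring F) : Prop where
  mem : ∀ w : W, algebraMap W F w ∈ V
  nonunits_iff : ∀ w : W, algebraMap W F w ∈ V.nonunits ↔ res w = 0

variable {res} {V : ValuationSubring F}

theorem mem_of_mem_nonunits {x : F} (hx : x ∈ V.nonunits) : x ∈ V :=
  (V.valuation_le_one_iff _).mp (le_of_lt (V.mem_nonunits_iff.mp hx))

theorem add_mem_nonunits {x y : F} (hx : x ∈ V.nonunits) (hy : y ∈ V.nonunits) :
    x + y ∈ V.nonunits := by
  rw [V.mem_nonunits_iff] at hx hy ⊢
  exact lt_of_le_of_lt (V.valuation.map_add x y) (max_lt hx hy)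

theorem neg_mem_nonunits {x : F} (hx : x ∈ V.nonunits) : -x ∈ V.nonunits := by
  rw [V.mem_nonunits_iff] at hx ⊢
  rwa [Valuation.map_neg]

theorem sub_mem_nonunits {x y : F} (hx : x ∈ V.nonunits) (hy : y ∈ V.nonunits) :
    x - y ∈ V.nonunits := by
  rw [sub_eq_add_neg]
  exact add_mem_nonunits hx (neg_mem_nonunits hy)

theorem mul_mem_nonunits_left {x y : F} (hx : x ∈ V.nonunits) (hy : y ∈ V) :
    x * y ∈ V.nonunits := by
  have h1 : V.valuation x < 1 := V.mem_nonunits_iff.mp hx
  have h2 : V.valuation y ≤ 1 := (V.valuation_le_one_iff _).mpr hy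
  rw [V.mem_nonunits_iff, map_mul]
  calc V.valuation x * V.valuation y ≤ V.valuation x * 1 := by gcongr
    _ = V.valuation x := mul_one _
    _ < 1 := h1

theorem mul_mem_nonunits_right {x y : F} (hx : x ∈ V) (hy : y ∈ V.nonunits) :
    x * y ∈ V.nonunits := by
  rw [mul_comm]
  exact mul_mem_nonunits_left hy hx

theorem zero_mem_nonunits : (0 : F) ∈ V.nonunits :=
  (ValuationSubring.mem_nonunits_iff_or V).2 (Or.inl rfl)

/-- A member of `V` which is not a non-unit has its inverse in `V`. -/
theorem inv_mem_of_notMem_nonunits {x : F} (hx : x ∉ V.nonunits) : x⁻¹ ∈ V := by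
  rw [ValuationSubring.mem_nonunits_iff_or] at hx
  push Not at hx
  exact hx.2

namespace HasVal

variable {y y' : F} {c c' : k}

theorem mem (hV : IsOver res V) (h : HasVal res V y c) : y ∈ V := by
  obtain ⟨w, -, hw⟩ := h
  have : y = (y - algebraMap W F w) + algebraMap W F w := by ring
  rw [this]
  exact V.add_mem _ _ (mem_of_mem_nonunits hw) (hV.mem w)

/-- The value is unique. -/
theorem unique (hV : IsOver res V) (h : HasVal res V y c) (h' : HasVal res V y c') : c = c' := by
  obtain ⟨w, rfl, hw⟩ := h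
  obtain ⟨w', rfl, hw'⟩ := h'
  have h1 : algebraMap W F (w - w') ∈ V.nonunits := by
    have : algebraMap W F (w - w') = (y - algebraMap W F w') - (y - algebraMap W F w) := by
      rw [map_sub]; ring
    rw [this]
    exact sub_mem_nonunits hw' hw
  have h2 := (hV.nonunits_iff _).1 h1
  rw [map_sub, sub_eq_zero] at h2
  exact h2

/-- The value only depends on `y` modulo the maximal ideal of `V`. -/
theorem congr (h : HasVal res V y c) (hyy' : y' - y ∈ V.nonunits) : HasVal res V y' c := by
  obtain ⟨w, rfl, hw⟩ := h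
  refine ⟨w, rfl, ?_⟩
  have : y' - algebraMap W F w = (y' - y) + (y - algebraMap W F w) := by ring
  rw [this]
  exact add_mem_nonunits hyy' hw

theorem mul (hV : IsOver res V) (h : HasVal res V y c) (h' : HasVal res V y' c') :
    HasVal res V (y * y') (c * c') := by
  have hy' : y' ∈ V := h'.mem hV
  obtain ⟨w, rfl, hw⟩ := h
  obtain ⟨w', rfl, hw'⟩ := h'
  refine ⟨w * w', map_mul _ _ _, ?_⟩
  have : y * y' - algebraMap W F (w * w') =
      (y - algebraMap W F w) * y' + algebraMap W F w * (y' - algebraMap W F w') := by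
    rw [map_mul]; ring
  rw [this]
  exact add_mem_nonunits (mul_mem_nonunits_left hw hy') (mul_mem_nonunits_right (hV.mem w) hw')

theorem pow (hV : IsOver res V) (h : HasVal res V y c) (n : ℕ) :
    HasVal res V (y ^ n) (c ^ n) := by
  induction n with
  | zero =>
    refine ⟨1, by rw [map_one, pow_zero], ?_⟩
    rw [pow_zero, map_one, sub_self]
    exact zero_mem_nonunits
  | succ n ih =>
    rw [pow_succ, pow_succ]
    exact ih.mul hV h

/-- The value vanishes iff `y` is a non-unit of `V`. -/
theorem eq_zero_iff (hV : IsOver res V) (h : HasVal res V y c) : c = 0 ↔ y ∈ V.nonunits := by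
  obtain ⟨w, rfl, hw⟩ := h
  rw [← hV.nonunits_iff]
  constructor
  · intro h0
    have : y = (y - algebraMap W F w) + algebraMap W F w := by ring
    rw [this]
    exact add_mem_nonunits hw h0
  · intro hy
    have : algebraMap W F w = y - (y - algebraMap W F w) := by ring
    rw [this]
    exact sub_mem_nonunits hy hw

/-- Values of inverses. -/
theorem inv (hV : IsOver res V) (hres : Function.Surjective res) (h : HasVal res V y c)
    (hc : c ≠ 0) : HasVal res V y⁻¹ c⁻¹ := by
  have hyu : y ∉ V.nonunits := fun hy => hc ((h.eq_zero_iff hV).2 hy)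
  have hyinv : y⁻¹ ∈ V := inv_mem_of_notMem_nonunits hyu
  have hy0 : y ≠ 0 := fun h0 => hyu (h0 ▸ zero_mem_nonunits)
  obtain ⟨w, rfl, hw⟩ := h
  obtain ⟨w', hw'⟩ := hres (res w)⁻¹
  refine ⟨w', hw', ?_⟩
  -- `y⁻¹ - w' = y⁻¹ * ((1 - w w') - (y - w) w')`
  have h1 : algebraMap W F (1 - w * w') ∈ V.nonunits := by
    rw [hV.nonunits_iff, map_sub, map_one, map_mul, hw', mul_inv_cancel₀ hc, sub_self]
  have h2 : y⁻¹ - algebraMap W F w' =
      y⁻¹ * (algebraMap W F (1 - w * w') - (y - algebraMap W F w) * algebraMap W F w') := by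
    rw [map_sub, map_one, map_mul]
    field_simp
    ring
  rw [h2]
  exact mul_mem_nonunits_right hyinv
    (sub_mem_nonunits h1 (mul_mem_nonunits_left hw (hV.mem w')))

theorem div (hV : IsOver res V) (hres : Function.Surjective res) (h : HasVal res V y c)
    (h' : HasVal res V y' c') (hc' : c' ≠ 0) : HasVal res V (y / y') (c / c') := by
  rw [div_eq_mul_inv, div_eq_mul_inv]
  exact h.mul hV (h'.inv hV hres hc')

end HasVal

/-- Constants take their residue as value. -/
theorem hasVal_algebraMap (w : W) : HasVal res V (algebraMap W F w) (res w) :=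
  ⟨w, rfl, by rw [sub_self]; exact zero_mem_nonunits⟩

theorem hasVal_one : HasVal res V (1 : F) (1 : k) :=
  ⟨1, map_one _, by rw [map_one, sub_self]; exact zero_mem_nonunits⟩

/-- Existence of values: when the residue field of `V` is `k` (every element of `V` is congruent
to a constant). -/
theorem exists_hasVal (hfull : ∀ y ∈ V, ∃ w : W, y - algebraMap W F w ∈ V.nonunits) {y : F}
    (hy : y ∈ V) : ∃ c : k, HasVal res V y c := by
  obtain ⟨w, hw⟩ := hfull y hy
  exact ⟨res w, w, rfl, hw⟩

/-- Non-units of the trace `V.comap φ` of a valuation ring on a subfield. -/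
theorem mem_nonunits_comap_iff' {K : Type*} [Field K] (φ : K →+* F) (x : K) :
    x ∈ (V.comap φ).nonunits ↔ φ x ∈ V.nonunits := by
  rw [ValuationSubring.mem_nonunits_iff_or, ValuationSubring.mem_nonunits_iff_or,
    ValuationSubring.mem_comap, map_inv₀, map_eq_zero]

/-- Values and restriction along a field embedding `φ : K → F` (`V.comap φ` is the trace of `V`
on `K`): the value of `y : K` at `V ∩ K` is the value of `φ y` at `V`. -/
theorem hasVal_comap_iff {K : Type*} [Field K] [Algebra W K] (φ : K →+* F)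
    (hφ : ∀ w : W, φ (algebraMap W K w) = algebraMap W F w) (y : K) (c : k) :
    HasVal res (V.comap φ) y c ↔ HasVal res V (φ y) c := by
  constructor
  · rintro ⟨w, hw, h⟩
    refine ⟨w, hw, ?_⟩
    rw [mem_nonunits_comap_iff', map_sub, hφ] at h
    exact h
  · rintro ⟨w, hw, h⟩
    refine ⟨w, hw, ?_⟩
    rw [mem_nonunits_comap_iff', map_sub, hφ]
    exact h

/-- Values at a composite valuation ring `(O, red, Vs)` (a branch `O` of the special fibre and a
place `Vs` of its residue field), unfolded. -/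
theorem hasVal_compositeSubring_iff {κ : Type*} [Field κ] (O : ValuationSubring F) (red : O →+* κ)
    (hred : ∀ x : O, red x = 0 ↔ x ∈ maximalIdeal O) (Vs : ValuationSubring κ) (y : F) (c : k) :
    HasVal res (compositeSubring O red hred Vs) y c ↔
      ∃ w : W, res w = c ∧ ∃ hx : y - algebraMap W F w ∈ O,
        red ⟨y - algebraMap W F w, hx⟩ ∈ Vs.nonunits := by
  unfold HasVal
  simp only [mem_nonunits_compositeSubring_iff]

end Values

/-! ### (NN-3), point rings: one value at all valuation rings centred at the point -/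

section PointValues

variable {W k A F : Type*} [CommRing W] [Field k] (res : W →+* k) [CommRing A] [IsDomain A]
  [Field F] [Algebra A F] [IsFractionRing A F] [Algebra W A] [Algebra W F] [IsScalarTower W A F]
  (P : Ideal A) [P.IsPrime]

/-- "`P` is a `k`-rational point": every element of `A` is congruent to a constant modulo `P`,
and a constant lies in `P` iff its residue vanishes. -/
structure IsRatPoint : Prop where
  exists_sub_mem : ∀ a : A, ∃ w : W, a - algebraMap W A w ∈ P
  mem_iff : ∀ w : W, algebraMap W A w ∈ P ↔ res w = 0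

variable {res P}

omit [IsDomain A] [IsFractionRing A F] [P.IsPrime] in
/-- A valuation ring centred at a `k`-rational point lies over `(W, res)`. -/
theorem isOver_of_centre (hP : IsRatPoint res P) (V : ValuationSubring F)
    (hV : ∀ a : A, algebraMap A F a ∈ V) (hc : centre V hV = P) : IsOver res V where
  mem w := by
    rw [IsScalarTower.algebraMap_apply W A F]
    exact hV _
  nonunits_iff w := by
    rw [IsScalarTower.algebraMap_apply W A F, ← mem_centre_iff V hV, hc]
    exact hP.mem_iff w

omit [IsDomain A] [IsFractionRing A F] [P.IsPrime] in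
/-- A fraction `a / s` with `a ∈ P`, `s ∉ P` is a non-unit of every valuation ring centred at
`P`. -/
theorem div_mem_nonunits_of_centre (V : ValuationSubring F)
    (hV : ∀ a : A, algebraMap A F a ∈ V) (hc : centre V hV = P) {a s : A} (ha : a ∈ P)
    (hs : s ∉ P) : algebraMap A F a * (algebraMap A F s)⁻¹ ∈ V.nonunits := by
  have h1 : algebraMap A F a ∈ V.nonunits := (mem_centre_iff V hV a).1 (hc ▸ ha)
  have h2 : algebraMap A F s ∉ V.nonunits := fun h => hs (hc ▸ (mem_centre_iff V hV s).2 h)
  exact mul_mem_nonunits_left h1 (inv_mem_of_notMem_nonunits h2)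

/-- Every element of the point ring `A_P` of a `k`-rational point is congruent to a constant
modulo the maximal ideal: `ξ - w = a / s` with `a ∈ P`, `s ∉ P`. -/
theorem exists_sub_eq_div (hP : IsRatPoint res P) (hres : Function.Surjective res) {ξ : F}
    (hξ : ξ ∈ pointRing F P) :
    ∃ (w : W) (a s : A), a ∈ P ∧ s ∉ P ∧
      ξ - algebraMap W F w = algebraMap A F a * (algebraMap A F s)⁻¹ := by
  obtain ⟨a₁, s₁, hs₁, rfl⟩ := mem_pointRing_iff.1 hξ
  obtain ⟨wa, hwa⟩ := hP.exists_sub_mem a₁
  obtain ⟨ws, hws⟩ := hP.exists_sub_mem s₁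
  have hws0 : res ws ≠ 0 := by
    intro h0
    have h1 : algebraMap W A ws ∈ P := (hP.mem_iff ws).2 h0
    have : s₁ = (s₁ - algebraMap W A ws) + algebraMap W A ws := by ring
    exact hs₁ (this ▸ P.add_mem hws h1)
  obtain ⟨w', hw'⟩ := hres (res ws)⁻¹
  have h1 : algebraMap W A (1 - w' * ws) ∈ P := by
    rw [hP.mem_iff, map_sub, map_one, map_mul, hw', inv_mul_cancel₀ hws0, sub_self]
  have hmem : a₁ - algebraMap W A (wa * w') * s₁ ∈ P := by
    have : a₁ - algebraMap W A (wa * w') * s₁ =
        (a₁ - algebraMap W A wa) + algebraMap W A wa * (algebraMap W A (1 - w' * ws)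
          - algebraMap W A w' * (s₁ - algebraMap W A ws)) := by
      simp only [map_mul, map_sub, map_one]
      ring
    rw [this]
    exact P.add_mem hwa (P.mul_mem_left _ (P.sub_mem h1 (P.mul_mem_left _ hws)))
  have hs0 : algebraMap A F s₁ ≠ 0 := by
    intro h
    have : s₁ = 0 := (IsFractionRing.injective A F) (by rw [h, map_zero])
    exact hs₁ (this ▸ P.zero_mem)
  refine ⟨wa * w', a₁ - algebraMap W A (wa * w') * s₁, s₁, hmem, hs₁, ?_⟩
  rw [IsScalarTower.algebraMap_apply W A F]
  simp only [map_sub, map_mul]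
  field_simp

/-- **(NN-3), elements.** An element of the point ring `A_P` of a `k`-rational point takes ONE
value at ALL the valuation rings centred at `P` (all the branches through the point). -/
theorem exists_hasVal_pointRing (hP : IsRatPoint res P) (hres : Function.Surjective res) {ξ : F}
    (hξ : ξ ∈ pointRing F P) :
    ∃ c : k, ∀ (V : ValuationSubring F) (hV : ∀ a : A, algebraMap A F a ∈ V),
      centre V hV = P → HasVal res V ξ c := by
  obtain ⟨w, a, s, ha, hs, h⟩ := exists_sub_eq_div hP hres hξ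
  refine ⟨res w, fun V hV hc => ⟨w, rfl, ?_⟩⟩
  rw [h]
  exact div_mem_nonunits_of_centre V hV hc ha hs

/-- **(NN-3), units.** A unit of the point ring `A_P` of a `k`-rational point takes ONE NONZERO
value at all the valuation rings centred at `P`. -/
theorem exists_hasVal_unit_pointRing (hP : IsRatPoint res P) (hres : Function.Surjective res)
    {ξ : F} (hξ : ξ ∈ pointRing F P) (hξ' : ξ⁻¹ ∈ pointRing F P) (hξ0 : ξ ≠ 0) :
    ∃ c : k, c ≠ 0 ∧ ∀ (V : ValuationSubring F) (hV : ∀ a : A, algebraMap A F a ∈ V),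
      centre V hV = P → HasVal res V ξ c := by
  obtain ⟨w, a, s, ha, hs, h⟩ := exists_sub_eq_div hP hres hξ
  refine ⟨res w, ?_, fun V hV hc => ⟨w, rfl, ?_⟩⟩
  · intro h0
    have hw : algebraMap W A w ∈ P := (hP.mem_iff w).2 h0
    obtain ⟨a', s', hs', h'⟩ := mem_pointRing_iff.1 hξ'
    have hs0 : algebraMap A F s ≠ 0 := by
      intro h
      have : s = 0 := (IsFractionRing.injective A F) (by rw [h, map_zero])
      exact hs (this ▸ P.zero_mem)
    have hs0' : algebraMap A F s' ≠ 0 := by
      intro h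
      have : s' = 0 := (IsFractionRing.injective A F) (by rw [h, map_zero])
      exact hs' (this ▸ P.zero_mem)
    -- `ξ = (w s + a) / s`, `ξ⁻¹ = a' / s'`, so `(w s + a) a' = s s'`
    have h1 : ξ = algebraMap A F (algebraMap W A w * s + a) * (algebraMap A F s)⁻¹ := by
      have : ξ = algebraMap W F w + algebraMap A F a * (algebraMap A F s)⁻¹ := by
        rw [← h]; ring
      rw [this, IsScalarTower.algebraMap_apply W A F]
      simp only [map_add, map_mul]
      field_simp
    have h2 : algebraMap A F ((algebraMap W A w * s + a) * a') = algebraMap A F (s * s') := by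
      have h3 : ξ * ξ⁻¹ = 1 := mul_inv_cancel₀ hξ0
      rw [h', h1] at h3
      rw [map_mul, map_mul]
      field_simp at h3
      linear_combination h3
    have h4 : (algebraMap W A w * s + a) * a' = s * s' := IsFractionRing.injective A F h2
    have h5 : s * s' ∈ P := by
      rw [← h4]
      exact P.mul_mem_right _ (P.add_mem (P.mul_mem_right _ hw) ha)
    rcases (Ideal.IsPrime.mem_or_mem inferInstance h5) with h6 | h6
    · exact hs h6
    · exact hs' h6
  · rw [h]
    exact div_mem_nonunits_of_centre V hV hc ha hs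

end PointValues

/-! ### (NN-1)+(NN-2)+(NN-3) combined: the value of `g / N h` at the node -/

section Combined

variable {W k A₀ K A E : Type*} [CommRing W] [Field k] (res : W →+* k)
  [CommRing A₀] [IsDomain A₀] [Field K] [Algebra A₀ K] [IsFractionRing A₀ K]
  [CommRing A] [IsDomain A] [Field E] [Algebra A E] [IsFractionRing A E]
  [Algebra K E] [Algebra A₀ A] [Algebra A₀ E] [IsScalarTower A₀ A E] [IsScalarTower A₀ K E]
  [Algebra.IsIntegral A₀ A] [IsIntegrallyClosed A₀]
  [Algebra W A₀] [Algebra W K] [IsScalarTower W A₀ K]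
  (Q : Ideal A₀) [Q.IsMaximal] (P : Ideal A) [P.IsPrime]

variable {res} in
/-- **(NN-5), first half, with values.** `Q` a `k`-rational point of `A₀` with a unique point
`P` of `A` above it; `f = u h ^ m` with `u ∈ (A_P)ˣ`; `N f = c g ^ m` with `c ∈ ((A₀)_Q)ˣ`,
`g ≠ 0`.  Then `ξ := g / N h` is a unit of `(A₀)_Q`, and it takes one and the same NONZERO value
`v` at all the valuation rings of `K` centred at `Q` (the two branches through the node). -/
theorem exists_hasVal_ratio (hQ : IsRatPoint res Q) (hres : Function.Surjective res)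
    (huniq : ∀ P' : Ideal A, P'.IsMaximal → P'.comap (algebraMap A₀ A) = Q → P' = P)
    {m : ℕ} (hm : m ≠ 0) {f u h : E} {g c : K}
    (hu : u ∈ pointRing E P) (hu' : u⁻¹ ∈ pointRing E P) (hf : f = u * h ^ m) (hh : h ≠ 0)
    (hc : c ∈ pointRing K Q) (hc' : c⁻¹ ∈ pointRing K Q) (hc0 : c ≠ 0) (hg : g ≠ 0)
    (hN : Algebra.norm K f = c * g ^ m) :
    ∃ v : k, v ≠ 0 ∧ ∀ (V : ValuationSubring K) (hV : ∀ a : A₀, algebraMap A₀ K a ∈ V),
      centre V hV = Q → HasVal res V (g / Algebra.norm K h) v := by
  obtain ⟨⟨h1, h2⟩, -⟩ := ratio_unit_pointRing Q P huniq hm hu hu' hf hh hc hc' hc0 hN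
  have hNh : Algebra.norm K h ≠ 0 := by
    intro h0
    have h3 : Algebra.norm K h * Algebra.norm K h⁻¹ = 1 := by
      rw [← map_mul, mul_inv_cancel₀ hh, map_one]
    rw [h0, zero_mul] at h3
    exact zero_ne_one h3
  exact exists_hasVal_unit_pointRing hQ hres h1 h2 (div_ne_zero hg hNh)

end Combined

end Fermat.Agent.CAR.Glue.NodeUnits
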