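/-
CAR-14 (task 356): gluing constancy (C) at a triple point via the norm to the lower level.
Abstract commutative algebra on top of `CAR/Local/{PointRing, Centre}`, `CAR/Formal/NormConj`,
`CAR/V3/CountAbs` and `CAR/Glue/NodeUnits` (helper64: (NN-1)-(NN-3) with `NodeUnits.HasVal`).

Setting: `K ⊆ E` a finite separable field extension, `AN ⊆ K`, `A ⊆ E` domains with fraction
fields `K`, `E`, `A` integral over `AN`, `AN` integrally closed; `Q` a maximal ideal of `AN` and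
`P` THE maximal ideal of `A` over `Q` (`huniq`).

Part 1 (residue-field vocabulary `HasValue Vs z c`; parallel to `NodeUnits`):
* (NN-0) `exists_mul_eq_algebraMap_of_notMem`, (NN-1) `norm_mem_pointRing`,
  `norm_unit_pointRing`, (NN-2) `mem_pointRing_of_pow_mem`, `unit_pointRing_of_pow`;
* (NN-3) `HasValue Vs z c` and its calculus; `mem_nonunits_of_centre_eq`,
  `hasValue_branch_of_branch`, `value_eq_of_branches`.

Part 2 (valuation-ring vocabulary `NodeUnits.HasVal res V y c`):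
* generalities: `mem_valuationSubring_of_pow_mem`, `valuationSubring_le_of_nonunits`,
  `mul_sub_mul_mem_nonunits`, `pow_sub_pow_mem_nonunits`, `sub_mem_nonunits_of_pow_prime`;
* trivial residue extensions: `exists_sub_mem_nonunits_of_family`, `family_of_pair`,
  `exists_sub_mem_nonunits_of_pair` (`e₁ + e₂ = [E : K]` forces residue degrees `1`);
* (NN-4) the norm at composite valuation rings `V₀ ⊆ v`, `W_i ⊆ w_i`, `W_i ∩ K = V₀`:
  `norm_sub_mem_nonunits_pair` (`N y ≡ c₁^e₁ c₂^e₂`), `norm_sub_mem_nonunits_single`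
  (`N y ≡ c^[E:K]`, purely inseparable residue extension), `norm_sub_mem_nonunits_of_unique`
  (`N y ≡ c^[E:K]` when `W₀` is the only valuation ring above `V₀`; no discreteness);
  with values: `hasVal_norm_pair`, `hasVal_norm_single`, `hasVal_norm_of_unique`;
* composites: `nonunits_le_nonunits_compositeSubring`, `comap_compositeSubring_eq`,
  `exists_pow_sub_mem_nonunits_of_red`;
* (NN-5) `glue_relation` : `γ₁ * n₂ = γ₂ * n₁`; `glue_ratio_pow` (with `ratio_pow_eq`).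
-/
import Mathlib
import Fermat.Agent.CAR.Local.Centre
import Fermat.Agent.CAR.Formal.NormConj
import Fermat.Agent.CAR.Glue.LocalCore
import Fermat.Agent.CAR.V3.CountAbs
import Fermat.Agent.CAR.Glue.NodeUnits

set_option autoImplicit false

namespace Fermat.Agent.CAR.Glue

open IsLocalRing Fermat.Agent.CAR.Local Fermat.Agent.CAR.Formal Module
open Fermat.Agent.CAR.V3

/-! ### (NN-0), (NN-1): the norm of the local ring at the unique point above -/

section Norm

variable {AN A K E : Type*} [CommRing AN] [IsDomain AN] [CommRing A] [IsDomain A] [Field K]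
  [Field E] [Algebra AN K] [IsFractionRing AN K] [Algebra A E] [IsFractionRing A E]
  [Algebra AN A] [Algebra K E] [Algebra AN E] [IsScalarTower AN A E] [IsScalarTower AN K E]

omit [IsDomain AN] [IsDomain A] [Algebra AN K] [IsFractionRing AN K] [Algebra A E]
  [IsFractionRing A E] [Algebra K E] [Algebra AN E] [IsScalarTower AN A E]
  [IsScalarTower AN K E] in
/-- **(NN-0)** If `P` is the only maximal ideal of `A` over the maximal ideal `Q` of `AN` and `A`
is integral over `AN`, every `t ∉ P` divides (in `A`) an element of `AN ∖ Q`. -/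
theorem exists_mul_eq_algebraMap_of_notMem [Algebra.IsIntegral AN A] (Q : Ideal AN)
    [Q.IsMaximal] (P : Ideal A)
    (huniq : ∀ P' : Ideal A, P'.IsMaximal → P'.comap (algebraMap AN A) = Q → P' = P) {t : A}
    (ht : t ∉ P) : ∃ (a : A) (s : AN), s ∉ Q ∧ t * a = algebraMap AN A s := by
  by_cases hle : (Ideal.span {t}).comap (algebraMap AN A) ≤ Q
  · exfalso
    obtain ⟨P', hP'le, hP'prime, hP'Q⟩ :=
      Ideal.exists_ideal_over_prime_of_isIntegral Q (Ideal.span {t}) hle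
    have hmax : P'.IsMaximal :=
      Ideal.isMaximal_of_isIntegral_of_isMaximal_comap (R := AN) P'
        (by rw [hP'Q]; infer_instance)
    have := huniq P' hmax hP'Q
    exact ht (this ▸ hP'le (Ideal.mem_span_singleton_self t))
  · obtain ⟨s, hs, hsQ⟩ := Set.not_subset.mp hle
    obtain ⟨a, ha⟩ := Ideal.mem_span_singleton'.mp (Ideal.mem_comap.mp hs)
    exact ⟨a, s, hsQ, by rw [mul_comm, ha]⟩

omit [IsDomain AN] in
/-- Elements of the local ring at `P` have denominators in `AN ∖ Q`. -/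
theorem exists_lower_denominator [Algebra.IsIntegral AN A] (Q : Ideal AN) [Q.IsMaximal]
    (P : Ideal A) [P.IsPrime]
    (huniq : ∀ P' : Ideal A, P'.IsMaximal → P'.comap (algebraMap AN A) = Q → P' = P) {z : E}
    (hz : z ∈ pointRing E P) :
    ∃ (a : A) (s : AN), s ∉ Q ∧ z * algebraMap AN E s = algebraMap A E a := by
  obtain ⟨b, t, ht, rfl⟩ := mem_pointRing_iff.mp hz
  obtain ⟨a, s, hs, hta⟩ := exists_mul_eq_algebraMap_of_notMem Q P huniq ht
  have ht0 : algebraMap A E t ≠ 0 := by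
    intro h0
    have : t = 0 := (IsFractionRing.injective A E) (by rw [h0, map_zero])
    exact ht (this ▸ P.zero_mem)
  refine ⟨b * a, s, hs, ?_⟩
  rw [IsScalarTower.algebraMap_apply AN A E, ← hta, map_mul, map_mul]
  field_simp

/-- **(NN-1)** The norm of an element of the local ring of `A` at `P` lies in the local ring of
`AN` at `Q`. -/
theorem norm_mem_pointRing [IsIntegrallyClosed AN] [Algebra.IsIntegral AN A] (Q : Ideal AN)
    [Q.IsMaximal] (P : Ideal A) [P.IsPrime]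
    (huniq : ∀ P' : Ideal A, P'.IsMaximal → P'.comap (algebraMap AN A) = Q → P' = P) {u : E}
    (hu : u ∈ pointRing E P) : Algebra.norm K u ∈ pointRing K Q := by
  obtain ⟨a, s, hs, hus⟩ := exists_lower_denominator Q P huniq hu
  have hint : IsIntegral AN (algebraMap A E a) :=
    (Algebra.IsIntegral.isIntegral (R := AN) a).algebraMap
  have hN : IsIntegral AN (Algebra.norm K (algebraMap A E a)) := Algebra.isIntegral_norm K hint
  obtain ⟨b, hb⟩ := IsIntegrallyClosed.isIntegral_iff.mp hN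
  have hs0 : algebraMap AN K s ≠ 0 := by
    intro h0
    have : s = 0 := (IsFractionRing.injective AN K) (by rw [h0, map_zero])
    exact hs (this ▸ Q.zero_mem)
  have h1 : Algebra.norm K u * algebraMap AN K s ^ finrank K E = algebraMap AN K b := by
    rw [hb, ← hus, map_mul, IsScalarTower.algebraMap_apply AN K E, Algebra.norm_algebraMap]
  refine mem_pointRing_iff.mpr ⟨b, s ^ finrank K E, ?_, ?_⟩
  · intro h
    exact hs (Ideal.IsPrime.mem_of_pow_mem inferInstance _ h)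
  · rw [← h1, map_pow, mul_assoc, mul_inv_cancel₀ (pow_ne_zero _ hs0), mul_one]

/-- **(NN-1), units.** The norm of a unit of the local ring at `P` is a unit of the local ring at
`Q`. -/
theorem norm_unit_pointRing [IsIntegrallyClosed AN] [Algebra.IsIntegral AN A] (Q : Ideal AN)
    [Q.IsMaximal] (P : Ideal A) [P.IsPrime]
    (huniq : ∀ P' : Ideal A, P'.IsMaximal → P'.comap (algebraMap AN A) = Q → P' = P) {u : E}
    (hu0 : u ≠ 0) (hu : u ∈ pointRing E P) (hu' : u⁻¹ ∈ pointRing E P) :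
    Algebra.norm K u ∈ pointRing K Q ∧ (Algebra.norm K u)⁻¹ ∈ pointRing K Q := by
  refine ⟨norm_mem_pointRing Q P huniq hu, ?_⟩
  have h1 : Algebra.norm K u * Algebra.norm K u⁻¹ = 1 := by
    rw [← map_mul, mul_inv_cancel₀ hu0, map_one]
  rw [← eq_inv_of_mul_eq_one_right h1]
  exact norm_mem_pointRing Q P huniq hu'

end Norm

/-! ### (NN-2): root closedness of the local ring -/

section Root

variable {AN K : Type*} [CommRing AN] [IsDomain AN] [Field K] [Algebra AN K]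
  [IsFractionRing AN K]

/-- **(NN-2)** The local ring of an integrally closed domain at a prime is root closed in the
fraction field. -/
theorem mem_pointRing_of_pow_mem [IsIntegrallyClosed AN] (Q : Ideal AN) [Q.IsPrime] {ξ : K}
    {m : ℕ} (hm : m ≠ 0) (h : ξ ^ m ∈ pointRing K Q) : ξ ∈ pointRing K Q := by
  have hic : IsIntegrallyClosed ↥(pointRing K Q) :=
    isIntegrallyClosed_of_isLocalization (pointRing K Q) Q.primeCompl
      Q.primeCompl_le_nonZeroDivisors
  have hint : IsIntegral ↥(pointRing K Q) (ξ ^ m) := by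
    have : ξ ^ m = algebraMap ↥(pointRing K Q) K ⟨ξ ^ m, h⟩ := rfl
    rw [this]
    exact isIntegral_algebraMap
  obtain ⟨y, hy⟩ := IsIntegrallyClosed.exists_algebraMap_eq_of_isIntegral_pow
    (Nat.pos_of_ne_zero hm) hint
  rw [← hy]
  exact y.2

/-- **(NN-2), units.** -/
theorem unit_pointRing_of_pow [IsIntegrallyClosed AN] (Q : Ideal AN) [Q.IsPrime] {ξ : K}
    {m : ℕ} (hm : m ≠ 0) (h : ξ ^ m ∈ pointRing K Q) (h' : (ξ ^ m)⁻¹ ∈ pointRing K Q) :
    ξ ∈ pointRing K Q ∧ ξ⁻¹ ∈ pointRing K Q := by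
  refine ⟨mem_pointRing_of_pow_mem Q hm h, mem_pointRing_of_pow_mem Q hm ?_⟩
  rw [inv_pow]
  exact h'

end Root

/-! ### (NN-3): values of functions at places -/

section Value

variable {k κ : Type*} [Field k] [Field κ] [Algebra k κ]

/-- The function `z ∈ κ` takes the value `c` (a constant of `k`) at the place `Vs` of `κ`. -/
def HasValue (Vs : ValuationSubring κ) (z : κ) (c : k) : Prop :=
  z - algebraMap k κ c ∈ Vs.nonunits

theorem hasValue_iff (Vs : ValuationSubring κ) (z : κ) (c : k) :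
    HasValue Vs z c ↔ z - algebraMap k κ c ∈ Vs.nonunits := Iff.rfl

namespace HasValue

variable {Vs : ValuationSubring κ}

/-- a constant takes its own value -/
theorem const (Vs : ValuationSubring κ) (c : k) : HasValue Vs (algebraMap k κ c) c := by
  rw [hasValue_iff, sub_self]
  exact Vs.nonunits.zero_mem

theorem mem (hk : ∀ c : k, algebraMap k κ c ∈ Vs) {z : κ} {c : k} (h : HasValue Vs z c) :
    z ∈ Vs := by
  have : z = (z - algebraMap k κ c) + algebraMap k κ c := by ring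
  rw [this]
  exact Vs.add_mem _ _ (Vs.nonunits_subset h) (hk c)

theorem add {z z' : κ} {c c' : k} (h : HasValue Vs z c) (h' : HasValue Vs z' c') :
    HasValue Vs (z + z') (c + c') := by
  rw [hasValue_iff, map_add]
  have : z + z' - (algebraMap k κ c + algebraMap k κ c') =
      (z - algebraMap k κ c) + (z' - algebraMap k κ c') := by ring
  rw [this]
  exact Vs.nonunits.add_mem h h'

theorem mul (hk : ∀ c : k, algebraMap k κ c ∈ Vs) {z z' : κ} {c c' : k} (h : HasValue Vs z c)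
    (h' : HasValue Vs z' c') : HasValue Vs (z * z') (c * c') := by
  rw [hasValue_iff, map_mul]
  have : z * z' - algebraMap k κ c * algebraMap k κ c' =
      z * (z' - algebraMap k κ c') + algebraMap k κ c' * (z - algebraMap k κ c) := by ring
  rw [this]
  exact Vs.nonunits.add_mem (mul_mem_nonunits Vs (h.mem hk) h') (mul_mem_nonunits Vs (hk c') h)

theorem pow (hk : ∀ c : k, algebraMap k κ c ∈ Vs) {z : κ} {c : k} (h : HasValue Vs z c)
    (n : ℕ) : HasValue Vs (z ^ n) (c ^ n) := by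
  induction n with
  | zero =>
    rw [pow_zero, pow_zero]
    have := const Vs (1 : k)
    rwa [map_one] at this
  | succ n ih =>
    rw [pow_succ, pow_succ]
    exact ih.mul hk h

/-- a nonzero constant is a unit at every place containing the constants -/
theorem const_notMem_nonunits (hk : ∀ c : k, algebraMap k κ c ∈ Vs) {c : k} (hc : c ≠ 0) :
    algebraMap k κ c ∉ Vs.nonunits := by
  rw [ValuationSubring.mem_nonunits_iff_or]
  push Not
  refine ⟨by rw [Ne, map_eq_zero]; exact hc, ?_⟩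
  rw [← map_inv₀]
  exact hk c⁻¹

/-- the value at a place is unique -/
theorem unique (hk : ∀ c : k, algebraMap k κ c ∈ Vs) {z : κ} {c c' : k} (h : HasValue Vs z c)
    (h' : HasValue Vs z c') : c = c' := by
  by_contra hne
  have h1 : algebraMap k κ (c - c') ∈ Vs.nonunits := by
    have : algebraMap k κ (c - c') = (z - algebraMap k κ c') - (z - algebraMap k κ c) := by
      rw [map_sub]; ring
    rw [this]
    exact Vs.nonunits.sub_mem h' h
  exact const_notMem_nonunits hk (sub_ne_zero.mpr hne) h1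

/-- a function with a nonzero value is a unit at the place -/
theorem notMem_nonunits (hk : ∀ c : k, algebraMap k κ c ∈ Vs) {z : κ} {c : k}
    (h : HasValue Vs z c) (hc : c ≠ 0) : z ∉ Vs.nonunits := by
  intro hz
  apply const_notMem_nonunits hk hc
  have : algebraMap k κ c = z - (z - algebraMap k κ c) := by ring
  rw [this]
  exact Vs.nonunits.sub_mem hz h

theorem ne_zero (hk : ∀ c : k, algebraMap k κ c ∈ Vs) {z : κ} {c : k}
    (h : HasValue Vs z c) (hc : c ≠ 0) : z ≠ 0 := by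
  rintro rfl
  exact h.notMem_nonunits hk hc Vs.nonunits.zero_mem

theorem inv_mem (hk : ∀ c : k, algebraMap k κ c ∈ Vs) {z : κ} {c : k}
    (h : HasValue Vs z c) (hc : c ≠ 0) : z⁻¹ ∈ Vs := by
  have := h.notMem_nonunits hk hc
  rw [ValuationSubring.mem_nonunits_iff_or] at this
  push Not at this
  exact this.2

theorem inv (hk : ∀ c : k, algebraMap k κ c ∈ Vs) {z : κ} {c : k} (h : HasValue Vs z c)
    (hc : c ≠ 0) : HasValue Vs z⁻¹ c⁻¹ := by
  have hz0 := h.ne_zero hk hc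
  have hc0 : algebraMap k κ c ≠ 0 := by rw [Ne, map_eq_zero]; exact hc
  rw [hasValue_iff, map_inv₀]
  have : z⁻¹ - (algebraMap k κ c)⁻¹ =
      (z⁻¹ * algebraMap k κ c⁻¹) * (-(z - algebraMap k κ c)) := by
    rw [map_inv₀]
    field_simp
    ring
  rw [this]
  exact mul_mem_nonunits Vs (Vs.mul_mem _ _ (h.inv_mem hk hc) (hk c⁻¹)) (Vs.nonunits.neg_mem h)

theorem div (hk : ∀ c : k, algebraMap k κ c ∈ Vs) {z z' : κ} {c c' : k} (h : HasValue Vs z c)
    (h' : HasValue Vs z' c') (hc' : c' ≠ 0) : HasValue Vs (z / z') (c / c') := by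
  rw [div_eq_mul_inv, div_eq_mul_inv]
  exact h.mul hk (h'.inv hk hc')

/-- values along a homomorphism of function fields which is the identity on the constants
("`ψ`-twist"): the value of `z'` at the pulled back place is the value of `ψ z'`. -/
theorem comap_iff {κ' : Type*} [Field κ'] [Algebra k κ'] (ψ : κ' →+* κ)
    (hψ : ∀ c : k, ψ (algebraMap k κ' c) = algebraMap k κ c) {z' : κ'} {c : k} :
    HasValue (Vs.comap ψ) z' c ↔ HasValue Vs (ψ z') c := by
  rw [hasValue_iff, hasValue_iff, mem_nonunits_comap_iff, map_sub, hψ]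

end HasValue

end Value

/-! ### (NN-3): an element of the local ring at a point has the same value on all branches -/

section Branch

variable {A E : Type*} [CommRing A] [IsDomain A] [Field E] [Algebra A E] [IsFractionRing A E]

/-- **(NN-3)** An element of the local ring of `A` at the common centre of two valuation rings
which is a non-unit of the first is a non-unit of the second. -/
theorem mem_nonunits_of_centre_eq (V₁ V₂ : ValuationSubring E)
    (hV₁ : ∀ a : A, algebraMap A E a ∈ V₁) (hV₂ : ∀ a : A, algebraMap A E a ∈ V₂)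
    (h : centre V₁ hV₁ = centre V₂ hV₂) {x : E} (hx : x ∈ pointRing E (centre V₁ hV₁))
    (hx₁ : x ∈ V₁.nonunits) : x ∈ V₂.nonunits := by
  obtain ⟨a, s, hs, rfl⟩ := mem_pointRing_iff.mp hx
  have hs₁ : algebraMap A E s ∉ V₁.nonunits := fun h' => hs ((mem_centre_iff V₁ hV₁ s).mpr h')
  have hs₂ : algebraMap A E s ∉ V₂.nonunits := fun h' =>
    hs (h ▸ (mem_centre_iff V₂ hV₂ s).mpr h')
  have hs0 : algebraMap A E s ≠ 0 := by
    rintro h0
    exact hs₁ (h0 ▸ V₁.nonunits.zero_mem)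
  have ha₁ : algebraMap A E a ∈ V₁.nonunits := by
    have : algebraMap A E a = algebraMap A E s * (algebraMap A E a * (algebraMap A E s)⁻¹) := by
      field_simp
    rw [this]
    exact mul_mem_nonunits V₁ (hV₁ s) hx₁
  have ha₂ : algebraMap A E a ∈ V₂.nonunits :=
    (mem_centre_iff V₂ hV₂ a).mp (h ▸ (mem_centre_iff V₁ hV₁ a).mpr ha₁)
  have hsinv : (algebraMap A E s)⁻¹ ∈ V₂ := by
    rw [ValuationSubring.mem_nonunits_iff_or] at hs₂
    push Not at hs₂
    exact hs₂.2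
  rw [mul_comm]
  exact mul_mem_nonunits V₂ hsinv ha₂

variable {W k κ₁ κ₂ : Type*} [CommRing W] [Field k] [Field κ₁] [Field κ₂] [Algebra k κ₁]
  [Algebra k κ₂] [Algebra W A] [Algebra W E] [IsScalarTower W A E]

/-- **(NN-3), values.** Let `(O₁, ρ₁, Vs₁)` and `(O₂, ρ₂, Vs₂)` be two branches through the same
point of `Spec A` (equal `pointIdeal`s), with reductions compatible with the constants
`res : W → k`.  If an element `ξ` of the local ring at the point takes the value `c` on the first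
branch, it takes the value `c` on the second. -/
theorem hasValue_branch_of_branch (res : W →+* k) (hres : Function.Surjective res)
    (O₁ : ValuationSubring E) (ρ₁ : O₁ →+* κ₁) (hρ₁ : ∀ x : O₁, ρ₁ x = 0 ↔ x ∈ maximalIdeal O₁)
    (Vs₁ : ValuationSubring κ₁)
    (hA₁ : ∀ a : A, algebraMap A E a ∈ compositeSubring O₁ ρ₁ hρ₁ Vs₁)
    (O₂ : ValuationSubring E) (ρ₂ : O₂ →+* κ₂) (hρ₂ : ∀ x : O₂, ρ₂ x = 0 ↔ x ∈ maximalIdeal O₂)
    (Vs₂ : ValuationSubring κ₂)
    (hA₂ : ∀ a : A, algebraMap A E a ∈ compositeSubring O₂ ρ₂ hρ₂ Vs₂)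
    (hP : pointIdeal O₁ ρ₁ hρ₁ Vs₁ hA₁ = pointIdeal O₂ ρ₂ hρ₂ Vs₂ hA₂)
    (hc₁ : ∀ (c : W) (hc : algebraMap W E c ∈ O₁),
      ρ₁ ⟨algebraMap W E c, hc⟩ = algebraMap k κ₁ (res c))
    (hc₂ : ∀ (c : W) (hc : algebraMap W E c ∈ O₂),
      ρ₂ ⟨algebraMap W E c, hc⟩ = algebraMap k κ₂ (res c))
    {ξ : E} (hξ : ξ ∈ pointRing E (pointIdeal O₁ ρ₁ hρ₁ Vs₁ hA₁)) {c : k}
    (h₁ : ∃ h : ξ ∈ O₁, HasValue Vs₁ (ρ₁ ⟨ξ, h⟩) c) :
    ∃ h : ξ ∈ O₂, HasValue Vs₂ (ρ₂ ⟨ξ, h⟩) c := by
  obtain ⟨ĉ, rfl⟩ := hres c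
  obtain ⟨hξ₁, hv₁⟩ := h₁
  have hcA : algebraMap W E ĉ = algebraMap A E (algebraMap W A ĉ) :=
    IsScalarTower.algebraMap_apply W A E ĉ
  have hcO₁ : algebraMap W E ĉ ∈ O₁ := hcA ▸ (hA₁ (algebraMap W A ĉ)).1
  have hcO₂ : algebraMap W E ĉ ∈ O₂ := hcA ▸ (hA₂ (algebraMap W A ĉ)).1
  set η : E := ξ - algebraMap W E ĉ with hη
  have hηP : η ∈ pointRing E (pointIdeal O₁ ρ₁ hρ₁ Vs₁ hA₁) := by
    refine Subalgebra.sub_mem _ hξ ?_
    rw [hcA]
    exact Subalgebra.algebraMap_mem _ _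
  have hη₁ : η ∈ (compositeSubring O₁ ρ₁ hρ₁ Vs₁).nonunits := by
    rw [mem_nonunits_compositeSubring_iff]
    refine ⟨sub_mem hξ₁ hcO₁, ?_⟩
    have : (⟨η, sub_mem hξ₁ hcO₁⟩ : O₁) = ⟨ξ, hξ₁⟩ - ⟨algebraMap W E ĉ, hcO₁⟩ := rfl
    rw [this, map_sub, hc₁]
    exact hv₁
  have hη₂ : η ∈ (compositeSubring O₂ ρ₂ hρ₂ Vs₂).nonunits :=
    mem_nonunits_of_centre_eq (compositeSubring O₁ ρ₁ hρ₁ Vs₁) (compositeSubring O₂ ρ₂ hρ₂ Vs₂)
      hA₁ hA₂ hP hηP hη₁
  rw [mem_nonunits_compositeSubring_iff] at hη₂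
  obtain ⟨hηO₂, hηv⟩ := hη₂
  have hξ₂ : ξ ∈ O₂ := by
    have : ξ = η + algebraMap W E ĉ := by rw [hη]; ring
    rw [this]
    exact O₂.add_mem _ _ hηO₂ hcO₂
  refine ⟨hξ₂, ?_⟩
  rw [hasValue_iff]
  have : (⟨η, hηO₂⟩ : O₂) = ⟨ξ, hξ₂⟩ - ⟨algebraMap W E ĉ, hcO₂⟩ := rfl
  rw [this, map_sub, hc₂] at hηv
  exact hηv

/-- **(NN-3), equality of values.** The values of an element of the local ring at a point on two
branches through the point coincide. -/
theorem value_eq_of_branches (res : W →+* k) (hres : Function.Surjective res)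
    (O₁ : ValuationSubring E) (ρ₁ : O₁ →+* κ₁) (hρ₁ : ∀ x : O₁, ρ₁ x = 0 ↔ x ∈ maximalIdeal O₁)
    (Vs₁ : ValuationSubring κ₁)
    (hA₁ : ∀ a : A, algebraMap A E a ∈ compositeSubring O₁ ρ₁ hρ₁ Vs₁)
    (O₂ : ValuationSubring E) (ρ₂ : O₂ →+* κ₂) (hρ₂ : ∀ x : O₂, ρ₂ x = 0 ↔ x ∈ maximalIdeal O₂)
    (Vs₂ : ValuationSubring κ₂)
    (hA₂ : ∀ a : A, algebraMap A E a ∈ compositeSubring O₂ ρ₂ hρ₂ Vs₂)
    (hP : pointIdeal O₁ ρ₁ hρ₁ Vs₁ hA₁ = pointIdeal O₂ ρ₂ hρ₂ Vs₂ hA₂)
    (hc₁ : ∀ (c : W) (hc : algebraMap W E c ∈ O₁),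
      ρ₁ ⟨algebraMap W E c, hc⟩ = algebraMap k κ₁ (res c))
    (hc₂ : ∀ (c : W) (hc : algebraMap W E c ∈ O₂),
      ρ₂ ⟨algebraMap W E c, hc⟩ = algebraMap k κ₂ (res c))
    (hk₂ : ∀ c : k, algebraMap k κ₂ c ∈ Vs₂)
    {ξ : E} (hξ : ξ ∈ pointRing E (pointIdeal O₁ ρ₁ hρ₁ Vs₁ hA₁)) {c c' : k}
    (h₁ : ∃ h : ξ ∈ O₁, HasValue Vs₁ (ρ₁ ⟨ξ, h⟩) c)
    (h₂ : ∃ h : ξ ∈ O₂, HasValue Vs₂ (ρ₂ ⟨ξ, h⟩) c') : c = c' := by
  obtain ⟨h, hv⟩ := hasValue_branch_of_branch res hres O₁ ρ₁ hρ₁ Vs₁ hA₁ O₂ ρ₂ hρ₂ Vs₂ hA₂ hP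
    hc₁ hc₂ hξ h₁
  obtain ⟨h', hv'⟩ := h₂
  exact hv.unique hk₂ hv'

end Branch

/-! ### Generalities on valuation subrings -/

section ValSub

variable {L : Type*} [Field L]

/-- valuation subrings are root closed -/
theorem mem_valuationSubring_of_pow_mem (A : ValuationSubring L) {x : L} {n : ℕ} (hn : n ≠ 0)
    (h : x ^ n ∈ A) : x ∈ A := by
  rcases A.mem_or_inv_mem x with hx | hx
  · exact hx
  · by_cases hx0 : x = 0
    · rw [hx0]; exact A.zero_mem
    obtain ⟨m, rfl⟩ := Nat.exists_eq_succ_of_ne_zero hn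
    have : x = x ^ (m + 1) * x⁻¹ ^ m := by
      rw [pow_succ, mul_right_comm, ← mul_pow, mul_inv_cancel₀ hx0, one_pow, one_mul]
    rw [this]
    exact A.mul_mem _ _ h (A.pow_mem hx m)

/-- if the non-units of `B` are non-units of `A` then `A ≤ B` -/
theorem valuationSubring_le_of_nonunits (A B : ValuationSubring L)
    (h : ∀ x ∈ B.nonunits, x ∈ A.nonunits) : A ≤ B := by
  intro x hx
  by_contra hxB
  have h1 : x⁻¹ ∈ B.nonunits := by
    rw [ValuationSubring.mem_nonunits_iff_or, inv_inv]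
    exact Or.inr hxB
  have h2 := h _ h1
  rw [ValuationSubring.mem_nonunits_iff_or, inv_inv] at h2
  rcases h2 with h2 | h2
  · rw [inv_eq_zero] at h2
    exact hxB (h2 ▸ B.zero_mem)
  · exact h2 hx

theorem mul_sub_mul_mem_nonunits (A : ValuationSubring L) {x x' c c' : L} (hc : c ∈ A)
    (hc' : c' ∈ A) (h : x - c ∈ A.nonunits) (h' : x' - c' ∈ A.nonunits) :
    x * x' - c * c' ∈ A.nonunits := by
  have hx : x ∈ A := by
    have : x = c + (x - c) := by ring
    rw [this]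
    exact A.add_mem _ _ hc (A.nonunits_subset h)
  have : x * x' - c * c' = x * (x' - c') + c' * (x - c) := by ring
  rw [this]
  exact A.nonunits.add_mem (mul_mem_nonunits A hx h') (mul_mem_nonunits A hc' h)

theorem pow_sub_pow_mem_nonunits (A : ValuationSubring L) {x c : L} (hc : c ∈ A)
    (h : x - c ∈ A.nonunits) (n : ℕ) (hn : n ≠ 0) : x ^ n - c ^ n ∈ A.nonunits := by
  induction n with
  | zero => exact absurd rfl hn
  | succ n ih =>
    by_cases hn0 : n = 0
    · subst hn0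
      simpa using h
    · rw [pow_succ, pow_succ]
      exact mul_sub_mul_mem_nonunits A (A.pow_mem hc n) hc (ih hn0) h

/-- `x ^ n ∈ nonunits → x ∈ nonunits` for `x ∈ A`. -/
theorem mem_nonunits_of_pow_mem_nonunits (A : ValuationSubring L) {x : L} {n : ℕ}
    (h : x ^ n ∈ A.nonunits) : x ∈ A.nonunits := by
  by_contra hx
  rw [ValuationSubring.mem_nonunits_iff_or] at hx
  push Not at hx
  have h1 : (1 : L) ∈ A.nonunits := by
    have : (1 : L) = x⁻¹ ^ n * x ^ n := by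
      rw [← mul_pow, inv_mul_cancel₀ hx.1, one_pow]
    rw [this]
    exact mul_mem_nonunits A (A.pow_mem hx.2 n) h
  rw [ValuationSubring.mem_nonunits_iff_or] at h1
  rcases h1 with h1 | h1
  · exact one_ne_zero h1
  · exact h1 (by rw [inv_one]; exact A.one_mem)

/-- Injectivity of the Frobenius on the residue field of a valuation subring of residue
characteristic `p`. -/
theorem sub_mem_nonunits_of_pow_prime (A : ValuationSubring L) {p : ℕ} (hp : p.Prime)
    (hpA : (p : L) ∈ A.nonunits) {a b : L} (ha : a ∈ A) (hb : b ∈ A)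
    (h : a ^ p - b ^ p ∈ A.nonunits) : a - b ∈ A.nonunits := by
  apply mem_nonunits_of_pow_mem_nonunits A (n := p)
  obtain ⟨r, hr⟩ := exists_add_pow_prime_eq hp (⟨a, ha⟩ : A) (-⟨b, hb⟩)
  have hr' : (a - b) ^ p = a ^ p + (-b) ^ p + (p : L) * (a * -b * (r : L)) := by
    have := congrArg (Subtype.val : A → L) hr
    push_cast at this
    rw [sub_eq_add_neg, this]
    ring
  have hneg : ∃ r' : L, r' ∈ A ∧ (-b) ^ p = -b ^ p + (p : L) * r' := by
    rcases hp.eq_two_or_odd' with h2 | hodd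
    · subst h2
      refine ⟨b ^ 2, A.pow_mem hb 2, ?_⟩
      push_cast
      ring
    · exact ⟨0, A.zero_mem, by rw [hodd.neg_pow, mul_zero, add_zero]⟩
  obtain ⟨r', hr'A, hr'e⟩ := hneg
  have : (a - b) ^ p = (a ^ p - b ^ p) + (p : L) * (r' + a * -b * (r : L)) := by
    rw [hr', hr'e]; ring
  rw [this]
  refine A.nonunits.add_mem h ?_
  rw [mul_comm]
  exact mul_mem_nonunits A
    (A.add_mem _ _ hr'A (A.mul_mem _ _ (A.mul_mem _ _ ha (A.neg_mem _ hb)) r.2)) hpA

end ValSub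

section TrivRes

variable {K E : Type*} [Field K] [Field E] [Algebra K E] [FiniteDimensional K E]
  [Algebra.IsSeparable K E]

/-- In a `CountAbs.Family` with all residue degrees `1`, every residue class of `V i` is
represented by an element of `O`. -/
theorem exists_sub_mem_nonunits_of_family {ι : Type*} [Fintype ι] {O : ValuationSubring K}
    {ϖ : K} {V : ι → ValuationSubring E} {e : ι → ℕ}
    (h : CountAbs.Family O ϖ V e (fun _ => 1)) (i : ι) {y : E} (hy : y ∈ V i) :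
    ∃ c : K, c ∈ O ∧ y - algebraMap K E c ∈ (V i).nonunits := by
  have hdvr := CountAbs.unif_isDiscreteValuationRing h.unif
  have hV := h.above i
  have hmax := CountAbs.centre_isMaximal hV
  have hfin := CountAbs.finite_closure (K := K) (F := E) (O := O)
  have hf : (CountAbs.centre hV).inertiaDeg O = 1 := h.inertiaDeg_eq i
  rw [Ideal.inertiaDeg_eq_of_isMaximal (maximalIdeal O) (CountAbs.centre hV)] at hf
  obtain ⟨s, hs⟩ := CountAbs.exists_sub_mem_nonunits hV hy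
  let _ : Field (O ⧸ maximalIdeal O) := Ideal.Quotient.field (maximalIdeal O)
  have hnt : Nontrivial (integralClosure O E ⧸ CountAbs.centre hV) :=
    Ideal.Quotient.nontrivial_iff.mpr hmax.ne_top
  have hbot : (⊥ : Subalgebra (O ⧸ maximalIdeal O) (integralClosure O E ⧸ CountAbs.centre hV))
      = ⊤ := Subalgebra.bot_eq_top_of_finrank_eq_one hf
  have hmem : Ideal.Quotient.mk (CountAbs.centre hV) s ∈
      (⊥ : Subalgebra (O ⧸ maximalIdeal O) (integralClosure O E ⧸ CountAbs.centre hV)) := by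
    rw [hbot]; exact Algebra.mem_top
  obtain ⟨c', hc'⟩ := Algebra.mem_bot.mp hmem
  obtain ⟨c, rfl⟩ := Ideal.Quotient.mk_surjective c'
  rw [Ideal.Quotient.algebraMap_mk_of_liesOver] at hc'
  have h1 : algebraMap O (integralClosure O E) c - s ∈ CountAbs.centre hV :=
    Ideal.Quotient.eq.mp hc'
  rw [CountAbs.mem_centre_iff] at h1
  refine ⟨c, c.2, ?_⟩
  have h2 : y - algebraMap K E c =
      -((algebraMap O (integralClosure O E) c - s : integralClosure O E) : E) - ((s : E) - y) := by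
    have : algebraMap O E c = algebraMap K E (c : K) := rfl
    push_cast
    rw [this]
    ring
  rw [h2]
  exact (V i).nonunits.sub_mem ((V i).nonunits.neg_mem h1) hs


variable {v : ValuationSubring K} {t : K}

omit [FiniteDimensional K E] [Algebra.IsSeparable K E] in
/-- The `CountAbs.Family` of two discrete valuation rings above `v` with `e₁ + e₂ = [E : K]`
(residue degrees `1`). -/
theorem family_of_pair (hv : IsUnif v t) {w₁ w₂ : ValuationSubring E} {π₁ π₂ : E}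
    (h₁ : IsUnif w₁ π₁) (h₂ : IsUnif w₂ π₂) (hne : w₁ ≠ w₂)
    (ho₁ : w₁.comap (algebraMap K E) = v) (ho₂ : w₂.comap (algebraMap K E) = v)
    (e₁ e₂ : ℕ) (he₁ : h₁.ord (algebraMap K E t) = e₁) (he₂ : h₂.ord (algebraMap K E t) = e₂)
    (hsum : e₁ + e₂ = finrank K E) :
    CountAbs.Family v t (fun b : Bool => bif b then w₁ else w₂)
      (fun b : Bool => bif b then e₁ else e₂) (fun _ => 1) where
  unif := hv
  above := by
    intro b x
    cases b
    · rw [← ho₂]; rfl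
    · rw [← ho₁]; rfl
  inj := by
    intro a b hab
    cases a <;> cases b
    · rfl
    · exact absurd hab.symm hne
    · exact absurd hab hne
    · rfl
  ram := by
    have ht0 : algebraMap K E t ≠ 0 := (map_ne_zero _).mpr hv.ne_zero
    intro b
    cases b
    · obtain ⟨u, hu, -, -, hx⟩ := h₂.exists_unit_eq ht0
      rw [he₂, zpow_natCast] at hx
      exact ⟨π₂, u, h₂.mem_nonunits, hu, hx⟩
    · obtain ⟨u, hu, -, -, hx⟩ := h₁.exists_unit_eq ht0
      rw [he₁, zpow_natCast] at hx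
      exact ⟨π₁, u, h₁.mem_nonunits, hu, hx⟩
  res := by
    intro b
    have key : ∀ w : ValuationSubring E, w.comap (algebraMap K E) = v →
        ∃ b : Fin 1 → E, (∀ j, b j ∈ w) ∧ ∀ c : Fin 1 → K, (∀ j, c j ∈ v) →
          ∑ j, algebraMap K E (c j) * b j ∈ w.nonunits → ∀ j, c j ∈ v.nonunits := by
      intro w hw
      refine ⟨fun _ => 1, fun _ => w.one_mem, fun c _ hsum j => ?_⟩
      rw [Fin.sum_univ_one, mul_one, ← mem_nonunits_comap_iff, hw] at hsum
      rw [Subsingleton.elim j 0]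
      exact hsum
    cases b
    · exact key w₂ ho₂
    · exact key w₁ ho₁
  deg := by
    rw [Fintype.sum_bool]
    simp only [cond_true, cond_false, mul_one]
    exact hsum.ge

/-- **Trivial residue extensions.** If `w₁`, `w₂` are discrete valuation rings above `v` with
`e₁ + e₂ = [E : K]`, every element of `w_i` is congruent to an element of `v`. -/
theorem exists_sub_mem_nonunits_of_pair (hv : IsUnif v t) {w₁ w₂ : ValuationSubring E}
    {π₁ π₂ : E} (h₁ : IsUnif w₁ π₁) (h₂ : IsUnif w₂ π₂) (hne : w₁ ≠ w₂)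
    (ho₁ : w₁.comap (algebraMap K E) = v) (ho₂ : w₂.comap (algebraMap K E) = v)
    (e₁ e₂ : ℕ) (he₁ : h₁.ord (algebraMap K E t) = e₁) (he₂ : h₂.ord (algebraMap K E t) = e₂)
    (hsum : e₁ + e₂ = finrank K E) :
    (∀ y ∈ w₁, ∃ c ∈ v, y - algebraMap K E c ∈ w₁.nonunits) ∧
      (∀ y ∈ w₂, ∃ c ∈ v, y - algebraMap K E c ∈ w₂.nonunits) := by
  have F := family_of_pair hv h₁ h₂ hne ho₁ ho₂ e₁ e₂ he₁ he₂ hsum
  exact ⟨fun y hy => exists_sub_mem_nonunits_of_family F true hy,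
    fun y hy => exists_sub_mem_nonunits_of_family F false hy⟩

end TrivRes


/-! ### (NN-4): the norm at composite valuation rings -/

section NormVal

variable {K E : Type*} [Field K] [Field E] [Algebra K E] [FiniteDimensional K E]
  [Algebra.IsSeparable K E] {v : ValuationSubring K} {t : K}

/-- **(NN-4), two branches above.**  `w₁ ≠ w₂` ALL the valuation rings of `E` above the discrete
valuation ring `v` of `K`, discrete with `e₁ + e₂ = [E : K]`.  `V₀ ⊆ v`, `W₁ ⊆ w₁`, `W₂ ⊆ w₂`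
valuation rings (composites: a place on each branch) with `W_i ∩ K = V₀`.  If `y ≡ c₁` at `W₁` and
`y ≡ c₂` at `W₂` with `c₁, c₂ ∈ V₀` then `N y ≡ c₁ ^ e₁ * c₂ ^ e₂` at `V₀`. -/
theorem norm_sub_mem_nonunits_pair (hv : IsUnif v t) {w₁ w₂ : ValuationSubring E} {π₁ π₂ : E}
    (h₁ : IsUnif w₁ π₁) (h₂ : IsUnif w₂ π₂) (hne : w₁ ≠ w₂)
    (ho₁ : w₁.comap (algebraMap K E) = v) (ho₂ : w₂.comap (algebraMap K E) = v)
    (hall : ∀ w' : ValuationSubring E, w'.comap (algebraMap K E) = v → w' = w₁ ∨ w' = w₂)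
    (e₁ e₂ : ℕ) (he₁ : h₁.ord (algebraMap K E t) = e₁) (he₂ : h₂.ord (algebraMap K E t) = e₂)
    (hsum : e₁ + e₂ = finrank K E)
    (V₀ : ValuationSubring K) (hV₀ : ∀ x ∈ v.nonunits, x ∈ V₀.nonunits)
    (W₁ W₂ : ValuationSubring E) (hW₁ : ∀ x ∈ w₁.nonunits, x ∈ W₁.nonunits)
    (hW₂ : ∀ x ∈ w₂.nonunits, x ∈ W₂.nonunits)
    (hc₁ : W₁.comap (algebraMap K E) = V₀) (hc₂ : W₂.comap (algebraMap K E) = V₀)
    {y : E} {c₁ c₂ : K} (hc₁V : c₁ ∈ V₀) (hc₂V : c₂ ∈ V₀)
    (hy₁ : y - algebraMap K E c₁ ∈ W₁.nonunits) (hy₂ : y - algebraMap K E c₂ ∈ W₂.nonunits) :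
    Algebra.norm K y - c₁ ^ e₁ * c₂ ^ e₂ ∈ V₀.nonunits := by
  have hle₁ : W₁ ≤ w₁ := valuationSubring_le_of_nonunits W₁ w₁ hW₁
  have hle₂ : W₂ ≤ w₂ := valuationSubring_le_of_nonunits W₂ w₂ hW₂
  have hyW : ∀ (W : ValuationSubring E) (c : K), W.comap (algebraMap K E) = V₀ → c ∈ V₀ →
      y - algebraMap K E c ∈ W.nonunits → y ∈ W := by
    intro W c hW hc hy
    have : y = (y - algebraMap K E c) + algebraMap K E c := by ring
    rw [this]
    exact W.add_mem _ _ (W.nonunits_subset hy) (by rw [← hW] at hc; exact hc)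
  have hyw₁ : y ∈ w₁ := hle₁ (hyW W₁ c₁ hc₁ hc₁V hy₁)
  have hyw₂ : y ∈ w₂ := hle₂ (hyW W₂ c₂ hc₂ hc₂V hy₂)
  obtain ⟨htr₁, htr₂⟩ := exists_sub_mem_nonunits_of_pair hv h₁ h₂ hne ho₁ ho₂ e₁ e₂ he₁ he₂ hsum
  obtain ⟨d₁, hd₁v, hd₁⟩ := htr₁ y hyw₁
  obtain ⟨d₂, hd₂v, hd₂⟩ := htr₂ y hyw₂
  have key := (norm_pair hv h₁ h₂ hne ho₁ ho₂ hall e₁ e₂ he₁ he₂ hsum).2 1 y d₁ d₂ hd₁v hd₂v
    (by rwa [pow_one]) (by rwa [pow_one])
  rw [pow_one] at key
  have hd : ∀ (W : ValuationSubring E) (w : ValuationSubring E) (c d : K),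
      (∀ x ∈ w.nonunits, x ∈ W.nonunits) → W.comap (algebraMap K E) = V₀ →
      y - algebraMap K E c ∈ W.nonunits → y - algebraMap K E d ∈ w.nonunits →
      d - c ∈ V₀.nonunits := by
    intro W w c d hWw hW hy hyd
    rw [← hW, mem_nonunits_comap_iff, map_sub]
    have : algebraMap K E d - algebraMap K E c =
        (y - algebraMap K E c) - (y - algebraMap K E d) := by ring
    rw [this]
    exact W.nonunits.sub_mem hy (hWw _ hyd)
  have hdc₁ := hd W₁ w₁ c₁ d₁ hW₁ hc₁ hy₁ hd₁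
  have hdc₂ := hd W₂ w₂ c₂ d₂ hW₂ hc₂ hy₂ hd₂
  have hpow : ∀ (c d : K) (e : ℕ), c ∈ V₀ → d - c ∈ V₀.nonunits → e ≠ 0 →
      d ^ e - c ^ e ∈ V₀.nonunits := fun c d e hc hdc he =>
    pow_sub_pow_mem_nonunits V₀ hc hdc e he
  have S := NormSetting.of_pair hv h₁ h₂ hne ho₁ ho₂ hall
  have he₁0 : e₁ ≠ 0 := by
    have h := S.ord_t_pos true
    have h' : (S.hw true).ord (algebraMap K E t) = h₁.ord (algebraMap K E t) := rfl
    rw [h', he₁] at h
    exact_mod_cast h.ne'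
  have he₂0 : e₂ ≠ 0 := by
    have h := S.ord_t_pos false
    have h' : (S.hw false).ord (algebraMap K E t) = h₂.ord (algebraMap K E t) := rfl
    rw [h', he₂] at h
    exact_mod_cast h.ne'
  have h3 : d₁ ^ e₁ * d₂ ^ e₂ - c₁ ^ e₁ * c₂ ^ e₂ ∈ V₀.nonunits :=
    mul_sub_mul_mem_nonunits V₀ (V₀.pow_mem hc₁V e₁) (V₀.pow_mem hc₂V e₂)
      (hpow c₁ d₁ e₁ hc₁V hdc₁ he₁0) (hpow c₂ d₂ e₂ hc₂V hdc₂ he₂0)
  have : Algebra.norm K y - c₁ ^ e₁ * c₂ ^ e₂ =
      (Algebra.norm K y - d₁ ^ e₁ * d₂ ^ e₂) + (d₁ ^ e₁ * d₂ ^ e₂ - c₁ ^ e₁ * c₂ ^ e₂) := by ring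
  rw [this]
  exact V₀.nonunits.add_mem (hV₀ _ key) h3

/-- **(NN-4), one branch above, inseparable residue extension.**  `w₁` THE valuation ring of `E`
above the discrete valuation ring `v` of `K`; `V₀ ⊆ v`, `W₀ ⊆ w₁` valuation rings with
`W₀ ∩ K = V₀`; `Q ≠ 0` with `y ^ Q` congruent at `w₁` to an element of `v` (the residue extension
is purely inseparable of exponent `Q`) and the `Q`-th power injective on the residue field of
`V₀`.  If `y ≡ c` at `W₀` with `c ∈ V₀` then `N y ≡ c ^ [E : K]` at `V₀`. -/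
theorem norm_sub_mem_nonunits_single (hv : IsUnif v t) {w₁ : ValuationSubring E} {π₁ : E}
    (h₁ : IsUnif w₁ π₁) (ho₁ : w₁.comap (algebraMap K E) = v)
    (hall : ∀ w' : ValuationSubring E, w'.comap (algebraMap K E) = v → w' = w₁)
    (e₁ : ℕ) (he₁ : h₁.ord (algebraMap K E t) = e₁)
    (V₀ : ValuationSubring K) (hV₀ : ∀ x ∈ v.nonunits, x ∈ V₀.nonunits)
    (W₀ : ValuationSubring E) (hW₀ : ∀ x ∈ w₁.nonunits, x ∈ W₀.nonunits)
    (hc₀ : W₀.comap (algebraMap K E) = V₀) {Q : ℕ} (hQ : Q ≠ 0)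
    (hfrob : ∀ a b : K, a ∈ V₀ → b ∈ V₀ → a ^ Q - b ^ Q ∈ V₀.nonunits → a - b ∈ V₀.nonunits)
    {y : E} (hpow : ∃ d ∈ v, y ^ Q - algebraMap K E d ∈ w₁.nonunits)
    {c : K} (hcV : c ∈ V₀) (hy : y - algebraMap K E c ∈ W₀.nonunits) :
    Algebra.norm K y - c ^ finrank K E ∈ V₀.nonunits := by
  obtain ⟨d, hdv, hd⟩ := hpow
  have key := (norm_single hv h₁ ho₁ hall e₁ he₁).2 Q y d hdv hd
  have hcW : algebraMap K E c ∈ W₀ := by rw [← hc₀] at hcV; exact hcV
  have h1 : y ^ Q - algebraMap K E c ^ Q ∈ W₀.nonunits :=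
    pow_sub_pow_mem_nonunits W₀ hcW hy Q hQ
  have h2 : d - c ^ Q ∈ V₀.nonunits := by
    rw [← hc₀, mem_nonunits_comap_iff, map_sub, map_pow]
    have : algebraMap K E d - algebraMap K E c ^ Q =
        (y ^ Q - algebraMap K E c ^ Q) - (y ^ Q - algebraMap K E d) := by ring
    rw [this]
    exact W₀.nonunits.sub_mem h1 (hW₀ _ hd)
  have hn0 : finrank K E ≠ 0 := (Module.finrank_pos (R := K) (M := E)).ne'
  have h3 : d ^ finrank K E - (c ^ Q) ^ finrank K E ∈ V₀.nonunits :=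
    pow_sub_pow_mem_nonunits V₀ (V₀.pow_mem hcV Q) h2 _ hn0
  have h4 : Algebra.norm K y ^ Q - (c ^ finrank K E) ^ Q ∈ V₀.nonunits := by
    have : Algebra.norm K y ^ Q - (c ^ finrank K E) ^ Q =
        (Algebra.norm K y ^ Q - d ^ finrank K E) +
          (d ^ finrank K E - (c ^ Q) ^ finrank K E) := by ring
    rw [this]
    exact V₀.nonunits.add_mem (hV₀ _ key) h3
  have h5 : Algebra.norm K y ∈ V₀ := by
    apply mem_valuationSubring_of_pow_mem V₀ hQ
    have : Algebra.norm K y ^ Q =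
        (Algebra.norm K y ^ Q - (c ^ finrank K E) ^ Q) + (c ^ finrank K E) ^ Q := by ring
    rw [this]
    exact V₀.add_mem _ _ (V₀.nonunits_subset h4) (V₀.pow_mem (V₀.pow_mem hcV _) _)
  exact hfrob _ _ h5 (V₀.pow_mem hcV _) h4

/-- **(NN-4), one branch above, general form.**  If `W₀` is THE valuation ring of `E` above the
valuation ring `V₀` of `K` (no discreteness) and `y ≡ c` at `W₀` with `c ∈ V₀`, then
`N y ≡ c ^ [E : K]` at `V₀`. -/
theorem norm_sub_mem_nonunits_of_unique (V₀ : ValuationSubring K) (W₀ : ValuationSubring E)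
    (huniq : ∀ W' : ValuationSubring E, W'.comap (algebraMap K E) = V₀ → W' = W₀)
    {y : E} {c : K} (hcV : c ∈ V₀) (hy : y - algebraMap K E c ∈ W₀.nonunits) :
    Algebra.norm K y - c ^ finrank K E ∈ V₀.nonunits := by
  classical
  obtain ⟨V, hV⟩ := exists_valuationSubring_comap_eq (L := AlgebraicClosure E) V₀
  have hσ : ∀ σ : E →ₐ[K] AlgebraicClosure E, V.comap σ.toRingHom = W₀ := by
    intro σ
    apply huniq
    rw [ValuationSubring.comap_comap, ← hV]
    congr 1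
    ext x
    simp
  have hprod : algebraMap K (AlgebraicClosure E) (Algebra.norm K y) -
      algebraMap K (AlgebraicClosure E) c ^ finrank K E ∈ V.nonunits := by
    rw [Algebra.norm_eq_prod_embeddings K (AlgebraicClosure E) y]
    have hcard : finrank K E = (Finset.univ : Finset (E →ₐ[K] AlgebraicClosure E)).card := by
      rw [Finset.card_univ, AlgHom.card K E (AlgebraicClosure E)]
    rw [hcard, ← Finset.prod_const]
    refine prod_sub_prod_mem_nonunits V Finset.univ _ _ (fun σ _ => ?_) (fun σ _ => ?_)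
    · rw [← hV] at hcV
      exact hcV
    · have h1 : σ y - algebraMap K (AlgebraicClosure E) c = σ (y - algebraMap K E c) := by
        rw [map_sub, AlgHom.commutes]
      have h2 : y - algebraMap K E c ∈ (V.comap σ.toRingHom).nonunits := by
        rw [hσ σ]
        exact hy
      rw [mem_nonunits_comap_iff] at h2
      rw [h1]
      exact h2
  rw [← hV, mem_nonunits_comap_iff, map_sub, map_pow]
  exact hprod

/-! #### the same with values (`NodeUnits.HasVal`) -/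

variable {W k : Type*} [CommRing W] [Field k] (res : W →+* k) [Algebra W K] [Algebra W E]
  [IsScalarTower W K E]

/-- **(NN-4), values, two branches above**: `val_{V₀}(N y) = val_{W₁}(y) ^ e₁ * val_{W₂}(y) ^ e₂`. -/
theorem hasVal_norm_pair (hv : IsUnif v t) {w₁ w₂ : ValuationSubring E} {π₁ π₂ : E}
    (h₁ : IsUnif w₁ π₁) (h₂ : IsUnif w₂ π₂) (hne : w₁ ≠ w₂)
    (ho₁ : w₁.comap (algebraMap K E) = v) (ho₂ : w₂.comap (algebraMap K E) = v)
    (hall : ∀ w' : ValuationSubring E, w'.comap (algebraMap K E) = v → w' = w₁ ∨ w' = w₂)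
    (e₁ e₂ : ℕ) (he₁ : h₁.ord (algebraMap K E t) = e₁) (he₂ : h₂.ord (algebraMap K E t) = e₂)
    (hsum : e₁ + e₂ = finrank K E)
    (V₀ : ValuationSubring K) (hV₀ : ∀ x ∈ v.nonunits, x ∈ V₀.nonunits)
    (hWV : ∀ w : W, algebraMap W K w ∈ V₀)
    (W₁ W₂ : ValuationSubring E) (hW₁ : ∀ x ∈ w₁.nonunits, x ∈ W₁.nonunits)
    (hW₂ : ∀ x ∈ w₂.nonunits, x ∈ W₂.nonunits)
    (hc₁ : W₁.comap (algebraMap K E) = V₀) (hc₂ : W₂.comap (algebraMap K E) = V₀)
    {y : E} {a b : k} (ha : NodeUnits.HasVal res W₁ y a) (hb : NodeUnits.HasVal res W₂ y b) :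
    NodeUnits.HasVal res V₀ (Algebra.norm K y) (a ^ e₁ * b ^ e₂) := by
  obtain ⟨wa, rfl, hwa⟩ := ha
  obtain ⟨wb, rfl, hwb⟩ := hb
  refine ⟨wa ^ e₁ * wb ^ e₂, by rw [map_mul, map_pow, map_pow], ?_⟩
  rw [IsScalarTower.algebraMap_apply W K E] at hwa hwb
  rw [map_mul, map_pow, map_pow]
  exact norm_sub_mem_nonunits_pair hv h₁ h₂ hne ho₁ ho₂ hall e₁ e₂ he₁ he₂ hsum V₀ hV₀ W₁ W₂
    hW₁ hW₂ hc₁ hc₂ (hWV wa) (hWV wb) hwa hwb

/-- **(NN-4), values, one branch above (inseparable residue extension)**: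
`val_{V₀}(N y) = val_{W₀}(y) ^ [E : K]`. -/
theorem hasVal_norm_single (hv : IsUnif v t) {w₁ : ValuationSubring E} {π₁ : E}
    (h₁ : IsUnif w₁ π₁) (ho₁ : w₁.comap (algebraMap K E) = v)
    (hall : ∀ w' : ValuationSubring E, w'.comap (algebraMap K E) = v → w' = w₁)
    (e₁ : ℕ) (he₁ : h₁.ord (algebraMap K E t) = e₁)
    (V₀ : ValuationSubring K) (hV₀ : ∀ x ∈ v.nonunits, x ∈ V₀.nonunits)
    (hWV : ∀ w : W, algebraMap W K w ∈ V₀)
    (W₀ : ValuationSubring E) (hW₀ : ∀ x ∈ w₁.nonunits, x ∈ W₀.nonunits)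
    (hc₀ : W₀.comap (algebraMap K E) = V₀) {Q : ℕ} (hQ : Q ≠ 0)
    (hfrob : ∀ a b : K, a ∈ V₀ → b ∈ V₀ → a ^ Q - b ^ Q ∈ V₀.nonunits → a - b ∈ V₀.nonunits)
    {y : E} (hpow : ∃ d ∈ v, y ^ Q - algebraMap K E d ∈ w₁.nonunits)
    {c : k} (hc : NodeUnits.HasVal res W₀ y c) :
    NodeUnits.HasVal res V₀ (Algebra.norm K y) (c ^ finrank K E) := by
  obtain ⟨wc, rfl, hwc⟩ := hc
  refine ⟨wc ^ finrank K E, by rw [map_pow], ?_⟩
  rw [IsScalarTower.algebraMap_apply W K E] at hwc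
  rw [map_pow]
  exact norm_sub_mem_nonunits_single hv h₁ ho₁ hall e₁ he₁ V₀ hV₀ W₀ hW₀ hc₀ hQ hfrob hpow
    (hWV wc) hwc

omit [IsScalarTower W K E] in
/-- **(NN-4), values, one branch above (general form)**: if `W₀` is the only valuation ring of
`E` above `V₀` then `val_{V₀}(N y) = val_{W₀}(y) ^ [E : K]`. -/
theorem hasVal_norm_of_unique [IsScalarTower W K E] (V₀ : ValuationSubring K)
    (hWV : ∀ w : W, algebraMap W K w ∈ V₀) (W₀ : ValuationSubring E)
    (huniq : ∀ W' : ValuationSubring E, W'.comap (algebraMap K E) = V₀ → W' = W₀)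
    {y : E} {c : k} (hc : NodeUnits.HasVal res W₀ y c) :
    NodeUnits.HasVal res V₀ (Algebra.norm K y) (c ^ finrank K E) := by
  obtain ⟨wc, rfl, hwc⟩ := hc
  refine ⟨wc ^ finrank K E, by rw [map_pow], ?_⟩
  rw [IsScalarTower.algebraMap_apply W K E] at hwc
  rw [map_pow]
  exact norm_sub_mem_nonunits_of_unique V₀ W₀ huniq (hWV wc) hwc

end NormVal

/-! ### Composite valuation rings: the hypotheses of (NN-4) from residue maps -/

section Composite

variable {K E κN κ : Type*} [Field K] [Field E] [Algebra K E] [Field κN] [Field κ]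

omit [Algebra K E] in
/-- the maximal ideal of a valuation ring `O` lies in the maximal ideal of every composite
`(O, red, Vs)` -/
theorem nonunits_le_nonunits_compositeSubring (O : ValuationSubring E) (ρ : O →+* κ)
    (hρ : ∀ x : O, ρ x = 0 ↔ x ∈ maximalIdeal O) (Vs : ValuationSubring κ) :
    ∀ x ∈ O.nonunits, x ∈ (compositeSubring O ρ hρ Vs).nonunits := by
  intro x hx
  rw [mem_nonunits_compositeSubring_iff]
  refine ⟨O.nonunits_subset hx, ?_⟩
  have h0 : ρ ⟨x, O.nonunits_subset hx⟩ = 0 :=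
    (hρ _).mpr (ValuationSubring.coe_mem_nonunits_iff.mp hx)
  rw [h0]
  exact Vs.nonunits.zero_mem

/-- the trace on `K` of a composite valuation ring of `E` is the composite with the pulled-back
place: `(w, ρ, Vs) ∩ K = (v, r, ψ⁻¹ Vs)` if `w ∩ K = v` and `ρ ∘ (K → E) = ψ ∘ r`. -/
theorem comap_compositeSubring_eq (v : ValuationSubring K) (r : v →+* κN)
    (hr : ∀ x : v, r x = 0 ↔ x ∈ maximalIdeal v) (VsN : ValuationSubring κN)
    (w : ValuationSubring E) (ρ : w →+* κ) (hρ : ∀ x : w, ρ x = 0 ↔ x ∈ maximalIdeal w)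
    (Vs : ValuationSubring κ) (ho : w.comap (algebraMap K E) = v) (ψ : κN →+* κ)
    (hcompat : ∀ (x : K) (hx : x ∈ v) (hx' : algebraMap K E x ∈ w),
      ρ ⟨algebraMap K E x, hx'⟩ = ψ (r ⟨x, hx⟩))
    (hVs : Vs.comap ψ = VsN) :
    (compositeSubring w ρ hρ Vs).comap (algebraMap K E) = compositeSubring v r hr VsN := by
  ext x
  rw [ValuationSubring.mem_comap, mem_compositeSubring_iff, mem_compositeSubring_iff]
  constructor
  · rintro ⟨hx', hx''⟩
    have hx : x ∈ v := by rw [← ho]; exact hx'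
    refine ⟨hx, ?_⟩
    rw [hcompat x hx hx'] at hx''
    rw [← hVs]
    exact hx''
  · rintro ⟨hx, hx''⟩
    have hx' : algebraMap K E x ∈ w := by rw [← ho] at hx; exact hx
    refine ⟨hx', ?_⟩
    rw [hcompat x hx hx']
    rw [← hVs] at hx''
    exact hx''

/-- the hypothesis `hpow` of `norm_sub_mem_nonunits_single` from residue maps: `r` onto `κN`,
`ρ ∘ (K → E) = ψ ∘ r` and every `Q`-th power of `κ` in the image of `ψ`. -/
theorem exists_pow_sub_mem_nonunits_of_red (v : ValuationSubring K) (r : v →+* κN)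
    (hrs : Function.Surjective r) (w : ValuationSubring E) (ρ : w →+* κ)
    (hρ : ∀ x : w, ρ x = 0 ↔ x ∈ maximalIdeal w) (ho : w.comap (algebraMap K E) = v)
    (ψ : κN →+* κ)
    (hcompat : ∀ (x : K) (hx : x ∈ v) (hx' : algebraMap K E x ∈ w),
      ρ ⟨algebraMap K E x, hx'⟩ = ψ (r ⟨x, hx⟩))
    {Q : ℕ} (hψ : ∀ z : κ, ∃ z' : κN, ψ z' = z ^ Q) {y : E} (hy : y ∈ w) :
    ∃ d ∈ v, y ^ Q - algebraMap K E d ∈ w.nonunits := by
  obtain ⟨z', hz'⟩ := hψ (ρ ⟨y, hy⟩)
  obtain ⟨d, rfl⟩ := hrs z'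
  have hd' : algebraMap K E (d : K) ∈ w := by
    have h : (d : K) ∈ w.comap (algebraMap K E) := by rw [ho]; exact d.2
    exact h
  refine ⟨d, d.2, ?_⟩
  have h0 : ρ (⟨y, hy⟩ ^ Q - ⟨algebraMap K E d, hd'⟩) = 0 := by
    rw [map_sub, map_pow, hcompat _ d.2 hd', hz', sub_self]
  have h1 := (hρ _).mp h0
  exact ValuationSubring.coe_mem_nonunits_iff.mpr h1

end Composite

/-! ### (NN-5): the relation between the gluing values -/

section GlueRel

variable {W k A₀ K A E : Type*} [CommRing W] [Field k] {res : W →+* k}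
  [CommRing A₀] [IsDomain A₀] [Field K] [Algebra A₀ K] [IsFractionRing A₀ K]
  [CommRing A] [IsDomain A] [Field E] [Algebra A E] [IsFractionRing A E]
  [Algebra K E] [Algebra A₀ A] [Algebra A₀ E] [IsScalarTower A₀ A E] [IsScalarTower A₀ K E]
  [Algebra.IsIntegral A₀ A] [IsIntegrallyClosed A₀]
  [Algebra W A₀] [Algebra W K] [IsScalarTower W A₀ K]
  (Q : Ideal A₀) [Q.IsMaximal] (P : Ideal A) [P.IsPrime]

/-- **(NN-5).**  `Q` a `k`-rational point of `A₀` (a node of the lower level) with a unique point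
`P` of `A` above it; `f = u h ^ m` with `u` a unit of the local ring at `P`; `N f = c g ^ m` with
`c` a unit of the local ring at `Q`.  Let `V₁`, `V₂` be valuation rings of `K` centred at `Q` (the
two branches through the node), at which `N h` takes the values `n₁, n₂ ≠ 0` and `g` the values
`γ₁`, `γ₂`.  Then `γ₁ * n₂ = γ₂ * n₁`. -/
theorem glue_relation (hQ : NodeUnits.IsRatPoint res Q) (hres : Function.Surjective res)
    (huniq : ∀ P' : Ideal A, P'.IsMaximal → P'.comap (algebraMap A₀ A) = Q → P' = P)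
    {m : ℕ} (hm : m ≠ 0) {f u h : E} {g c : K}
    (hu : u ∈ pointRing E P) (hu' : u⁻¹ ∈ pointRing E P) (hf : f = u * h ^ m) (hh : h ≠ 0)
    (hc : c ∈ pointRing K Q) (hc' : c⁻¹ ∈ pointRing K Q) (hc0 : c ≠ 0) (hg : g ≠ 0)
    (hN : Algebra.norm K f = c * g ^ m)
    (V₁ V₂ : ValuationSubring K) (hV₁ : ∀ a : A₀, algebraMap A₀ K a ∈ V₁)
    (hV₂ : ∀ a : A₀, algebraMap A₀ K a ∈ V₂) (hQ₁ : centre V₁ hV₁ = Q)
    (hQ₂ : centre V₂ hV₂ = Q) {n₁ n₂ γ₁ γ₂ : k}
    (hn₁ : NodeUnits.HasVal res V₁ (Algebra.norm K h) n₁)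
    (hn₂ : NodeUnits.HasVal res V₂ (Algebra.norm K h) n₂) (hn₁0 : n₁ ≠ 0) (hn₂0 : n₂ ≠ 0)
    (hγ₁ : NodeUnits.HasVal res V₁ g γ₁) (hγ₂ : NodeUnits.HasVal res V₂ g γ₂) :
    γ₁ * n₂ = γ₂ * n₁ := by
  obtain ⟨v, -, hv⟩ := NodeUnits.exists_hasVal_ratio Q P hQ hres huniq hm hu hu' hf hh hc hc'
    hc0 hg hN
  have hO₁ := NodeUnits.isOver_of_centre hQ V₁ hV₁ hQ₁
  have hO₂ := NodeUnits.isOver_of_centre hQ V₂ hV₂ hQ₂
  have e₁ : v = γ₁ / n₁ := (hv V₁ hV₁ hQ₁).unique hO₁ (hγ₁.div hO₁ hres hn₁ hn₁0)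
  have e₂ : v = γ₂ / n₂ := (hv V₂ hV₂ hQ₂).unique hO₂ (hγ₂.div hO₂ hres hn₂ hn₂0)
  have h3 : γ₁ / n₁ = γ₂ / n₂ := e₁.symm.trans e₂
  rw [div_eq_div_iff hn₁0 hn₂0] at h3
  exact h3

end GlueRel

/-- **(NN-5), conclusion.**  `a, b, c` the values of the local generator `h` on the branches
`(2,0)`, `(1,1)`, `(0,2)` at a triple point, `q = n + 1`.  The relations of `glue_relation` for
`α` (`N_α h` has the values `a b^(q-1)` and `c^q` at the two branches of the node, `g_α` the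
values `γα₁`, `γα₂`) and for `β` (`N_β h` has the values `a^q` and `b^(q-1) c`, `g_β` the values
`γβ₁`, `γβ₂`) determine the `(q+1)`-th power of `a / c` and the `(q²-1)`-th power of `b / c`. -/
theorem glue_ratio_pow {k : Type*} [Field k] (n : ℕ) {a b c γα₁ γα₂ γβ₁ γβ₂ : k} (hb : b ≠ 0)
    (hc : c ≠ 0) (hγα₂ : γα₂ ≠ 0) (hγβ₂ : γβ₂ ≠ 0)
    (hα : γα₁ * c ^ (n + 1) = γα₂ * (a * b ^ n))
    (hβ : γβ₁ * (b ^ n * c) = γβ₂ * a ^ (n + 1)) :
    a ^ (n + 2) = (γα₁ / γα₂) * (γβ₁ / γβ₂) * c ^ (n + 2) ∧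
      (γβ₁ / γβ₂) * b ^ (n * (n + 2)) = (γα₁ / γα₂) ^ (n + 1) * c ^ (n * (n + 2)) := by
  apply ratio_pow_eq n hb hc
  · rw [div_mul_eq_mul_div, eq_div_iff hγα₂, hα]; ring
  · rw [div_mul_eq_mul_div, div_mul_eq_mul_div, eq_div_iff hγβ₂]
    linear_combination (-1 : k) * hβ

end Fermat.Agent.CAR.Glue
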