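/-
CAR-14 (NN-4), single branch, `ψ`-free form: uniqueness of the composite valuation ring above a
composite valuation ring of the lower level.

`K ⊆ E` fields, `v ⊆ K` a valuation ring with ONE valuation ring `w₁` of `E` above it (a branch
of the lower level with a unique branch above).  `V₀ ⊆ v` and `W₀ ⊆ w₁` composites (a place on
each), `A₀ ⊆ K`, `A ⊆ E` rings with `A` integral over `A₀`; `Q` the centre of `V₀` on `A₀`
(maximal) and `P` the centre of `W₀` on `A`, the only maximal ideal of `A` over `Q` (UNIQ).  If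
`W₀` is the local ring of `A` at `P` modulo the maximal ideal of `w₁` (`hfrac`, from (LIFT)) then
`W₀` is the ONLY valuation ring of `E` above `V₀` (`composite_unique`).  Consequently
(`hasVal_norm_single_of_uniq`) `val_{V₀}(N y) = val_{W₀}(y) ^ [E : K]` without any hypothesis on
the residue field extension.

* `coarsen`, `le_coarsen`, `comap_coarsen` : the coarsening of a valuation ring above `V₀`;
* `le_of_comap_eq` : a valuation ring above `V₀` lies in `w₁`;
* `eq_of_centre_eq` (unibranch), `comap_eq_of_centre` (the trace `W₁ ∩ K = V₀` of a composite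
  from (LIFT) at the lower level: the hypotheses `hc_i` of `NodeNorm.hasVal_norm_pair` without
  any compatibility of residue maps);
* `composite_unique`;
* `hfrac_of_lift` : the hypothesis `hfrac` for `W₀ = compositeSubring w₁ ρ hρ Vs` from (LIFT) in
  the shape of `CAR/Local/LocalThm`;
* `hasVal_norm_single_of_uniq`.
-/
import Mathlib
import Fermat.Agent.CAR.Local.Exhaust
import Fermat.Agent.CAR.Glue.NodeNorm

set_option autoImplicit false

namespace Fermat.Agent.CAR.Glue.NodeUniq

open IsLocalRing Fermat.Agent.CAR.Local Fermat.Agent.CAR.Formal Module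

section Coarsen

variable {K E : Type*} [Field K] [Field E] [Algebra K E]

/-- The coarsening of a valuation ring `W'` of `E` with `W' ∩ K = V₀` along `V₀ ⊆ v`: the
localisation of `W'` at the elements of `V₀` which are units of `v`. -/
def coarsen (v V₀ : ValuationSubring K) (W' : ValuationSubring E)
    (hc : W'.comap (algebraMap K E) = V₀) : ValuationSubring E where
  carrier := {x | ∃ s : K, s ∈ V₀ ∧ s⁻¹ ∈ v ∧ s ≠ 0 ∧ algebraMap K E s * x ∈ W'}
  mul_mem' := by
    rintro x y ⟨s, hs, hs', hs0, hx⟩ ⟨s', hs1, hs1', hs10, hy⟩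
    refine ⟨s * s', V₀.mul_mem _ _ hs hs1, by rw [mul_inv]; exact v.mul_mem _ _ hs' hs1',
      mul_ne_zero hs0 hs10, ?_⟩
    have : algebraMap K E (s * s') * (x * y) =
        (algebraMap K E s * x) * (algebraMap K E s' * y) := by rw [map_mul]; ring
    rw [this]
    exact W'.mul_mem _ _ hx hy
  one_mem' := ⟨1, V₀.one_mem, by rw [inv_one]; exact v.one_mem, one_ne_zero,
    by rw [map_one, one_mul]; exact W'.one_mem⟩
  add_mem' := by
    rintro x y ⟨s, hs, hs', hs0, hx⟩ ⟨s', hs1, hs1', hs10, hy⟩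
    have hsW : algebraMap K E s ∈ W' := by
      have h : s ∈ W'.comap (algebraMap K E) := by rw [hc]; exact hs
      exact h
    have hsW' : algebraMap K E s' ∈ W' := by
      have h : s' ∈ W'.comap (algebraMap K E) := by rw [hc]; exact hs1
      exact h
    refine ⟨s * s', V₀.mul_mem _ _ hs hs1, by rw [mul_inv]; exact v.mul_mem _ _ hs' hs1',
      mul_ne_zero hs0 hs10, ?_⟩
    have : algebraMap K E (s * s') * (x + y) =
        algebraMap K E s' * (algebraMap K E s * x) +
          algebraMap K E s * (algebraMap K E s' * y) := by rw [map_mul]; ring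
    rw [this]
    exact W'.add_mem _ _ (W'.mul_mem _ _ hsW' hx) (W'.mul_mem _ _ hsW hy)
  zero_mem' := ⟨1, V₀.one_mem, by rw [inv_one]; exact v.one_mem, one_ne_zero,
    by rw [mul_zero]; exact W'.zero_mem⟩
  neg_mem' := by
    rintro x ⟨s, hs, hs', hs0, hx⟩
    exact ⟨s, hs, hs', hs0, by rw [mul_neg]; exact W'.neg_mem _ hx⟩
  mem_or_inv_mem' := by
    intro x
    rcases W'.mem_or_inv_mem x with h | h
    · exact Or.inl ⟨1, V₀.one_mem, by rw [inv_one]; exact v.one_mem, one_ne_zero,
        by rw [map_one, one_mul]; exact h⟩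
    · exact Or.inr ⟨1, V₀.one_mem, by rw [inv_one]; exact v.one_mem, one_ne_zero,
        by rw [map_one, one_mul]; exact h⟩

theorem mem_coarsen_iff (v V₀ : ValuationSubring K) (W' : ValuationSubring E)
    (hc : W'.comap (algebraMap K E) = V₀) (x : E) :
    x ∈ coarsen v V₀ W' hc ↔
      ∃ s : K, s ∈ V₀ ∧ s⁻¹ ∈ v ∧ s ≠ 0 ∧ algebraMap K E s * x ∈ W' := Iff.rfl

theorem le_coarsen (v V₀ : ValuationSubring K) (W' : ValuationSubring E)
    (hc : W'.comap (algebraMap K E) = V₀) : W' ≤ coarsen v V₀ W' hc := by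
  intro x hx
  exact ⟨1, V₀.one_mem, by rw [inv_one]; exact v.one_mem, one_ne_zero,
    by rw [map_one, one_mul]; exact hx⟩

/-- the coarsening lies above `v` -/
theorem comap_coarsen (v V₀ : ValuationSubring K) (hle : V₀ ≤ v) (W' : ValuationSubring E)
    (hc : W'.comap (algebraMap K E) = V₀) :
    (coarsen v V₀ W' hc).comap (algebraMap K E) = v := by
  ext x
  rw [ValuationSubring.mem_comap, mem_coarsen_iff]
  constructor
  · rintro ⟨s, hs, hs', hs0, hx⟩
    have h1 : s * x ∈ W'.comap (algebraMap K E) := by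
      rw [ValuationSubring.mem_comap, map_mul]
      exact hx
    rw [hc] at h1
    have : x = s⁻¹ * (s * x) := by rw [← mul_assoc, inv_mul_cancel₀ hs0, one_mul]
    rw [this]
    exact v.mul_mem _ _ hs' (hle h1)
  · intro hx
    by_cases hxV : x ∈ V₀
    · refine ⟨1, V₀.one_mem, by rw [inv_one]; exact v.one_mem, one_ne_zero, ?_⟩
      rw [map_one, one_mul]
      have h : x ∈ W'.comap (algebraMap K E) := by rw [hc]; exact hxV
      exact h
    · have hx0 : x ≠ 0 := fun h => hxV (h ▸ V₀.zero_mem)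
      refine ⟨x⁻¹, (V₀.mem_or_inv_mem x).resolve_left hxV, by rw [inv_inv]; exact hx,
        inv_ne_zero hx0, ?_⟩
      rw [← map_mul, inv_mul_cancel₀ hx0, map_one]
      exact W'.one_mem

/-- A valuation ring of `E` above `V₀ ⊆ v` lies in the unique valuation ring `w₁` above `v`. -/
theorem le_of_comap_eq (v : ValuationSubring K) (w₁ : ValuationSubring E)
    (hall : ∀ w' : ValuationSubring E, w'.comap (algebraMap K E) = v → w' = w₁)
    (V₀ : ValuationSubring K) (hle : V₀ ≤ v) (W' : ValuationSubring E)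
    (hc : W'.comap (algebraMap K E) = V₀) : W' ≤ w₁ := by
  have h := hall _ (comap_coarsen v V₀ hle W' hc)
  rw [← h]
  exact le_coarsen v V₀ W' hc

/-- more generally: it lies in one of the valuation rings above `v` -/
theorem exists_le_of_comap_eq (v : ValuationSubring K) (V₀ : ValuationSubring K) (hle : V₀ ≤ v)
    (W' : ValuationSubring E) (hc : W'.comap (algebraMap K E) = V₀) :
    ∃ w' : ValuationSubring E, w'.comap (algebraMap K E) = v ∧ W' ≤ w' :=
  ⟨_, comap_coarsen v V₀ hle W' hc, le_coarsen v V₀ W' hc⟩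

end Coarsen

section Unique

variable {K E : Type*} [Field K] [Field E] [Algebra K E]
  {A₀ A : Type*} [CommRing A₀] [CommRing A] [Algebra A₀ K] [Algebra A E] [Algebra A₀ A]
  [Algebra A₀ E] [IsScalarTower A₀ A E] [IsScalarTower A₀ K E] [Algebra.IsIntegral A₀ A]

/-- `A` lies in every valuation ring of `E` above a valuation ring of `K` containing `A₀`. -/
theorem algebraMap_mem_of_comap_eq (V₀ : ValuationSubring K)
    (hA₀ : ∀ a : A₀, algebraMap A₀ K a ∈ V₀) (W' : ValuationSubring E)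
    (hc : W'.comap (algebraMap K E) = V₀) (a : A) : algebraMap A E a ∈ W' := by
  have hA₀W : ∀ a₀ : A₀, algebraMap A₀ E a₀ ∈ W' := by
    intro a₀
    have h : algebraMap A₀ K a₀ ∈ W'.comap (algebraMap K E) := by rw [hc]; exact hA₀ a₀
    rw [IsScalarTower.algebraMap_apply A₀ K E]
    exact h
  let φ : A₀ →+* W' := (algebraMap A₀ E).codRestrict W'.toSubring hA₀W
  have h1 : IsIntegral W' (algebraMap A E a) :=
    IsIntegral.map_of_comp_eq φ (algebraMap A E) (by
      ext a₀
      exact IsScalarTower.algebraMap_apply A₀ A E a₀) (Algebra.IsIntegral.isIntegral (R := A₀) a)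
  obtain ⟨y, hy⟩ := IsIntegrallyClosedIn.isIntegral_iff.mp h1
  rw [← hy]
  exact y.2

omit [Algebra A₀ K] [Algebra A₀ A] [Algebra A₀ E] [IsScalarTower A₀ A E] [IsScalarTower A₀ K E]
  [Algebra.IsIntegral A₀ A] [Algebra K E] in
/-- **Unibranch.**  Two valuation rings `W₀`, `W'` inside a valuation ring `w` (both containing
its maximal ideal in theirs: two places of the residue field of `w`), with the same centre on
`A`, coincide as soon as `W₀` is the local ring of `A` at the centre modulo the maximal ideal of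
`w` (`hfrac`, from (LIFT)). -/
theorem eq_of_centre_eq (w W₀ W' : ValuationSubring E)
    (hW₀ : ∀ x ∈ w.nonunits, x ∈ W₀.nonunits) (hW' : ∀ x ∈ w.nonunits, x ∈ W'.nonunits)
    (hA : ∀ a : A, algebraMap A E a ∈ W₀) (hA' : ∀ a : A, algebraMap A E a ∈ W')
    (hcen : centre W' hA' = centre W₀ hA)
    (hfrac : ∀ x ∈ W₀, ∃ a s : A, s ∉ centre W₀ hA ∧
      x - algebraMap A E a * (algebraMap A E s)⁻¹ ∈ w.nonunits) : W' = W₀ := by
  have hsinv : ∀ s : A, s ∉ centre W₀ hA → (algebraMap A E s)⁻¹ ∈ W' := by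
    intro s hs
    rw [← hcen, mem_centre_iff, ValuationSubring.mem_nonunits_iff_or] at hs
    push Not at hs
    exact hs.2
  -- `W₀ ≤ W'`
  have h3 : W₀ ≤ W' := by
    intro x hx
    obtain ⟨a, s, hs, hxa⟩ := hfrac x hx
    have : x = (x - algebraMap A E a * (algebraMap A E s)⁻¹) +
        algebraMap A E a * (algebraMap A E s)⁻¹ := by ring
    rw [this]
    exact W'.add_mem _ _ (W'.nonunits_subset (hW' _ hxa)) (W'.mul_mem _ _ (hA' a) (hsinv s hs))
  -- `W' ≤ W₀`
  refine le_antisymm ?_ h3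
  intro x hx
  by_contra hxW
  have hx0 : x ≠ 0 := fun h => hxW (h ▸ W₀.zero_mem)
  have hzW : x⁻¹ ∈ W₀ := (W₀.mem_or_inv_mem x).resolve_left hxW
  have hzn : x⁻¹ ∈ W₀.nonunits := by
    rw [ValuationSubring.mem_nonunits_iff_or, inv_inv]
    exact Or.inr hxW
  obtain ⟨a, s, hs, hza⟩ := hfrac _ hzW
  have hfrn : algebraMap A E a * (algebraMap A E s)⁻¹ ∈ W₀.nonunits := by
    have : algebraMap A E a * (algebraMap A E s)⁻¹ =
        x⁻¹ - (x⁻¹ - algebraMap A E a * (algebraMap A E s)⁻¹) := by ring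
    rw [this]
    exact W₀.nonunits.sub_mem hzn (hW₀ _ hza)
  have hs0 : algebraMap A E s ≠ 0 := by
    intro h0
    apply hs
    rw [mem_centre_iff, h0]
    exact W₀.nonunits.zero_mem
  have haP : a ∈ centre W₀ hA := by
    rw [mem_centre_iff]
    have : algebraMap A E a = algebraMap A E s * (algebraMap A E a * (algebraMap A E s)⁻¹) := by
      field_simp
    rw [this]
    exact mul_mem_nonunits W₀ (hA s) hfrn
  have haW' : algebraMap A E a ∈ W'.nonunits := by
    rw [← hcen, mem_centre_iff] at haP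
    exact haP
  have hzW' : x⁻¹ ∈ W'.nonunits := by
    have : x⁻¹ = (algebraMap A E s)⁻¹ * algebraMap A E a +
        (x⁻¹ - algebraMap A E a * (algebraMap A E s)⁻¹) := by ring
    rw [this]
    exact W'.nonunits.add_mem (mul_mem_nonunits W' (hsinv s hs) haW') (hW' _ hza)
  rw [ValuationSubring.mem_nonunits_iff_or, inv_inv] at hzW'
  rcases hzW' with h | h
  · exact hx0 (inv_eq_zero.mp h)
  · exact h hx

omit [Algebra.IsIntegral A₀ A] in
/-- **The trace of a composite on the lower level.**  `W₁ ⊆ w` a composite of `E`, `V₀ ⊆ v` a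
composite of `K`, `w ∩ K = v`; if the centre of `W₁` on `A` lies over the centre of `V₀` on `A₀`
and `V₀` is the local ring of `A₀` at its centre modulo the maximal ideal of `v` (`hfrac₀`, from
(LIFT) at the lower level), then `W₁ ∩ K = V₀`. -/
theorem comap_eq_of_centre (v V₀ : ValuationSubring K) (hV₀ : ∀ x ∈ v.nonunits, x ∈ V₀.nonunits)
    (w W₁ : ValuationSubring E) (ho : w.comap (algebraMap K E) = v)
    (hW₁ : ∀ x ∈ w.nonunits, x ∈ W₁.nonunits)
    (hA₀ : ∀ a : A₀, algebraMap A₀ K a ∈ V₀) (hA : ∀ a : A, algebraMap A E a ∈ W₁)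
    (hcen : (centre W₁ hA).comap (algebraMap A₀ A) = centre V₀ hA₀)
    (hfrac₀ : ∀ x ∈ V₀, ∃ a s : A₀, s ∉ centre V₀ hA₀ ∧
      x - algebraMap A₀ K a * (algebraMap A₀ K s)⁻¹ ∈ v.nonunits) :
    W₁.comap (algebraMap K E) = V₀ := by
  have hA' : ∀ a : A₀, algebraMap A₀ K a ∈ W₁.comap (algebraMap K E) := by
    intro a
    rw [ValuationSubring.mem_comap, ← IsScalarTower.algebraMap_apply,
      IsScalarTower.algebraMap_apply A₀ A E]
    exact hA _
  refine eq_of_centre_eq v V₀ (W₁.comap (algebraMap K E)) hV₀ ?_ hA₀ hA' ?_ hfrac₀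
  · intro x hx
    rw [mem_nonunits_comap_iff]
    apply hW₁
    rw [← ho, mem_nonunits_comap_iff] at hx
    exact hx
  · rw [← hcen]
    ext a
    rw [Ideal.mem_comap, mem_centre_iff, mem_centre_iff, mem_nonunits_comap_iff,
      ← IsScalarTower.algebraMap_apply, IsScalarTower.algebraMap_apply A₀ A E]

/-- **Uniqueness of the composite.**  See the header. -/
theorem composite_unique (v : ValuationSubring K) (w₁ : ValuationSubring E)
    (hall : ∀ w' : ValuationSubring E, w'.comap (algebraMap K E) = v → w' = w₁)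
    (V₀ : ValuationSubring K) (hV₀ : ∀ x ∈ v.nonunits, x ∈ V₀.nonunits)
    (W₀ : ValuationSubring E) (hW₀ : ∀ x ∈ w₁.nonunits, x ∈ W₀.nonunits)
    (hA₀ : ∀ a : A₀, algebraMap A₀ K a ∈ V₀) (Q : Ideal A₀) [Q.IsMaximal]
    (hQ : centre V₀ hA₀ = Q)
    (hA : ∀ a : A, algebraMap A E a ∈ W₀) (P : Ideal A) (hP : centre W₀ hA = P)
    (huniq : ∀ P' : Ideal A, P'.IsMaximal → P'.comap (algebraMap A₀ A) = Q → P' = P)
    (hfrac : ∀ x ∈ W₀, ∃ a s : A, s ∉ P ∧
      x - algebraMap A E a * (algebraMap A E s)⁻¹ ∈ w₁.nonunits)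
    (W' : ValuationSubring E) (hc : W'.comap (algebraMap K E) = V₀) : W' = W₀ := by
  have hle : V₀ ≤ v := valuationSubring_le_of_nonunits V₀ v hV₀
  -- `W' ≤ w₁` and the maximal ideal of `w₁` lies in that of `W'`
  have h1 : W' ≤ w₁ := le_of_comap_eq v w₁ hall V₀ hle W' hc
  have h2 : ∀ x ∈ w₁.nonunits, x ∈ W'.nonunits := by
    intro x hx
    rw [ValuationSubring.mem_nonunits_iff_or] at hx ⊢
    rcases hx with hx | hx
    · exact Or.inl hx
    · exact Or.inr fun h => hx (h1 h)
  -- the centre of `W'` on `A` is `P`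
  have hA' : ∀ a : A, algebraMap A E a ∈ W' := algebraMap_mem_of_comap_eq V₀ hA₀ W' hc
  have hcomap : (centre W' hA').comap (algebraMap A₀ A) = Q := by
    rw [← hQ]
    ext a₀
    rw [Ideal.mem_comap, mem_centre_iff, mem_centre_iff, ← IsScalarTower.algebraMap_apply,
      IsScalarTower.algebraMap_apply A₀ K E, ← mem_nonunits_comap_iff, hc]
  have hmax : (centre W' hA').IsMaximal :=
    Ideal.isMaximal_of_isIntegral_of_isMaximal_comap (R := A₀) _
      (by rw [hcomap]; infer_instance)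
  have hP' : centre W' hA' = P := huniq _ hmax hcomap
  exact eq_of_centre_eq w₁ W₀ W' hW₀ h2 hA hA' (hP'.trans hP.symm) (hP ▸ hfrac)

end Unique

section Lift

variable {E κ A : Type*} [Field E] [Field κ] [CommRing A] [Algebra A E]

/-- The hypothesis `hfrac` of `composite_unique` for a composite `(O, ρ, Vs)` from (LIFT) in the
shape of `CAR/Local/LocalThm` (every element of `Vs` is a fraction of reductions of elements of
`A`, with denominator a unit of `Vs`). -/
theorem hfrac_of_lift (O : ValuationSubring E) (ρ : O →+* κ)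
    (hρ : ∀ x : O, ρ x = 0 ↔ x ∈ maximalIdeal O) (hAO : ∀ a : A, algebraMap A E a ∈ O)
    (Vs : ValuationSubring κ) (hA : ∀ a : A, algebraMap A E a ∈ compositeSubring O ρ hρ Vs)
    (hlift : ∀ c ∈ Vs, ∃ a b : A, redOn O ρ hAO b ∉ Vs.nonunits ∧
      redOn O ρ hAO a = c * redOn O ρ hAO b) :
    ∀ x ∈ compositeSubring O ρ hρ Vs, ∃ a s : A, s ∉ pointIdeal O ρ hρ Vs hA ∧
      x - algebraMap A E a * (algebraMap A E s)⁻¹ ∈ O.nonunits := by
  rintro x ⟨hx, hxVs⟩
  obtain ⟨a, b, hb, hab⟩ := hlift _ hxVs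
  have hb0 : redOn O ρ hAO b ≠ 0 := fun h0 => hb (h0 ▸ Vs.nonunits.zero_mem)
  have hbP : b ∉ pointIdeal O ρ hρ Vs hA := fun h =>
    hb ((mem_pointIdeal_iff_redOn O ρ hρ hAO Vs hA b).mp h)
  -- `b` is a unit of `O`
  have hbn : algebraMap A E b ∉ O.nonunits := by
    intro h
    apply hb0
    rw [redOn_apply]
    exact (hρ _).mpr (ValuationSubring.coe_mem_nonunits_iff.mp h)
  rw [ValuationSubring.mem_nonunits_iff_or] at hbn
  push Not at hbn
  obtain ⟨hbE0, hbinv⟩ := hbn
  refine ⟨a, b, hbP, ?_⟩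
  have hmem : x - algebraMap A E a * (algebraMap A E b)⁻¹ ∈ O :=
    sub_mem hx (O.mul_mem _ _ (hAO a) hbinv)
  have h0 : ρ ⟨x - algebraMap A E a * (algebraMap A E b)⁻¹, hmem⟩ = 0 := by
    have h1 : ρ ⟨x - algebraMap A E a * (algebraMap A E b)⁻¹, hmem⟩ * redOn O ρ hAO b = 0 := by
      rw [redOn_apply, ← map_mul]
      have : (⟨x - algebraMap A E a * (algebraMap A E b)⁻¹, hmem⟩ : O) *
          ⟨algebraMap A E b, hAO b⟩ = ⟨x, hx⟩ * ⟨algebraMap A E b, hAO b⟩ -
            ⟨algebraMap A E a, hAO a⟩ := by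
        apply Subtype.ext
        push_cast
        field_simp
      rw [this, map_sub, map_mul, ← redOn_apply O ρ hAO b, ← redOn_apply O ρ hAO a, hab,
        sub_self]
    exact (mul_eq_zero.mp h1).resolve_right hb0
  exact ValuationSubring.coe_mem_nonunits_iff.mpr ((hρ _).mp h0)

end Lift

section NormUniq

variable {K E : Type*} [Field K] [Field E] [Algebra K E] [FiniteDimensional K E]
  [Algebra.IsSeparable K E]
  {A₀ A : Type*} [CommRing A₀] [CommRing A] [Algebra A₀ K] [Algebra A E] [Algebra A₀ A]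
  [Algebra A₀ E] [IsScalarTower A₀ A E] [IsScalarTower A₀ K E] [Algebra.IsIntegral A₀ A]
  {W k : Type*} [CommRing W] [Field k] (res : W →+* k) [Algebra W K] [Algebra W E]
  [IsScalarTower W K E]

/-- **(NN-4), one branch above, `ψ`-free.**  In the setting of `composite_unique`:
`val_{V₀}(N y) = val_{W₀}(y) ^ [E : K]`. -/
theorem hasVal_norm_single_of_uniq (v : ValuationSubring K) (w₁ : ValuationSubring E)
    (hall : ∀ w' : ValuationSubring E, w'.comap (algebraMap K E) = v → w' = w₁)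
    (V₀ : ValuationSubring K) (hV₀ : ∀ x ∈ v.nonunits, x ∈ V₀.nonunits)
    (hWV : ∀ w : W, algebraMap W K w ∈ V₀)
    (W₀ : ValuationSubring E) (hW₀ : ∀ x ∈ w₁.nonunits, x ∈ W₀.nonunits)
    (hA₀ : ∀ a : A₀, algebraMap A₀ K a ∈ V₀) (Q : Ideal A₀) [Q.IsMaximal]
    (hQ : centre V₀ hA₀ = Q)
    (hA : ∀ a : A, algebraMap A E a ∈ W₀) (P : Ideal A) (hP : centre W₀ hA = P)
    (huniq : ∀ P' : Ideal A, P'.IsMaximal → P'.comap (algebraMap A₀ A) = Q → P' = P)
    (hfrac : ∀ x ∈ W₀, ∃ a s : A, s ∉ P ∧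
      x - algebraMap A E a * (algebraMap A E s)⁻¹ ∈ w₁.nonunits)
    {y : E} {c : k} (hc : NodeUnits.HasVal res W₀ y c) :
    NodeUnits.HasVal res V₀ (Algebra.norm K y) (c ^ finrank K E) :=
  hasVal_norm_of_unique res V₀ hWV W₀
    (composite_unique v w₁ hall V₀ hV₀ W₀ hW₀ hA₀ Q hQ hA P hP huniq hfrac) hc

end NormUniq

end Fermat.Agent.CAR.Glue.NodeUniq
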