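/-
CAR-14, assembly at a triple point: ONE statement per side (`α^*` or `β^*`) combining
(NN-4) `NodeNorm.hasVal_norm_pair`, `NodeUniq.hasVal_norm_single_of_uniq` and (NN-5)
`NodeNorm.glue_relation`, and the two-sided conclusion `NodeNorm.glue_ratio_pow`.

Setting of one side: `K ⊆ E` a finite separable extension of function fields (level `N` inside
level `M` along `α^*` or `β^*`), `A₀ ⊆ K`, `A ⊆ E` the chart rings, `P` a closed point of `A`
which is the only point over its image `Q` (UNIQ).  Two branches `w₁, w₂` of the upper level lie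
over ONE branch `v₁` of the lower level (with `e₁ + e₂ = [E : K]`), and one branch `w₃` of the
upper level is the only valuation ring over the branch `v₂` of the lower level.  `W₁, W₂, W₃` are
valuation rings of `E` centred at `P`, `W_i ⊆ w_i` (the composites (branch, place)).

* `node_relation` : if `f = u h ^ m` (`u` a unit at `P`), `N f = c g ^ m` (`c` a unit at `Q`), `h`
  takes the values `a, b, d ≠ 0` at `W₁, W₂, W₃` and `g` (viewed in `E`) the values `γ₁` at `W₁`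
  and `γ₂` at `W₃`, then `γ₁ * d ^ [E : K] = γ₂ * (a ^ e₁ * b ^ e₂)` and `γ₁, γ₂ ≠ 0`.
  No level-`N` composite ring and no residue map appears in the statement: the level-`N` rings
  are the traces `W₁ ∩ K = W₂ ∩ K` and `W₃ ∩ K`.
* `node_relation_chart` : the same for the chart rings `chart W xN`, `chart W x` along a ring
  homomorphism `Φ : FN → F` (`NodeInst.chartMap`).
* `triple_ratio_pow` : both sides together (`Φα`, `Φβ`; `q = n + 1 = [F : Φα FN] = [F : Φβ FN]`;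
  branches `inf, mid, zero`; `α`: pair `(inf, mid)` with `e = (1, n)`, single `zero`; `β`: pair
  `(zero, mid)` with `e = (1, n)`, single `inf`):
  `a ^ (n + 2) = (γα₁ / γα₂) * (γβ₁ / γβ₂) * c ^ (n + 2)` and
  `(γβ₁ / γβ₂) * b ^ (n * (n + 2)) = (γα₁ / γα₂) ^ (n + 1) * c ^ (n * (n + 2))`.
-/
import Mathlib
import Fermat.Agent.CAR.Glue.NodeUniq
import Fermat.Agent.CAR.Glue.NodeInst

set_option autoImplicit false
set_option linter.style.haveILetI false

namespace Fermat.Agent.CAR.Glue.NodeTriple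

open IsLocalRing Fermat.Agent.CAR.Local Fermat.Agent.CAR.Formal Module
open Fermat.Agent.CAR.Glob.Charts

/-! ### One side -/

section OneSide

variable {W k A₀ K A E : Type*} [CommRing W] [Field k] {res : W →+* k}
  [CommRing A₀] [IsDomain A₀] [Field K] [Algebra A₀ K] [IsFractionRing A₀ K]
  [CommRing A] [IsDomain A] [Field E] [Algebra A E] [IsFractionRing A E]
  [Algebra K E] [Algebra A₀ A] [Algebra A₀ E] [IsScalarTower A₀ A E] [IsScalarTower A₀ K E]
  [Algebra.IsIntegral A₀ A] [IsIntegrallyClosed A₀]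
  [Algebra W A₀] [Algebra W K] [IsScalarTower W A₀ K] [Algebra W E] [IsScalarTower W K E]
  [FiniteDimensional K E] [Algebra.IsSeparable K E]

omit [IsDomain A₀] [IsFractionRing A₀ K] [IsDomain A] [IsFractionRing A E]
  [Algebra.IsIntegral A₀ A] [IsIntegrallyClosed A₀] [Algebra W A₀] [Algebra W K]
  [IsScalarTower W A₀ K] [Algebra W E] [IsScalarTower W K E] [FiniteDimensional K E]
  [Algebra.IsSeparable K E] in
/-- The centre on `A₀` of the trace on `K` of a valuation ring of `E` is the contraction of its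
centre on `A`. -/
theorem centre_comap_algebraMap (V : ValuationSubring E) (hV : ∀ a : A, algebraMap A E a ∈ V)
    (hVK : ∀ a : A₀, algebraMap A₀ K a ∈ V.comap (algebraMap K E)) :
    centre (V.comap (algebraMap K E)) hVK = (centre V hV).comap (algebraMap A₀ A) := by
  ext a
  rw [Ideal.mem_comap, mem_centre_iff, mem_centre_iff, mem_nonunits_comap_iff,
    ← IsScalarTower.algebraMap_apply, IsScalarTower.algebraMap_apply A₀ A E]

omit [IsDomain A₀] [IsFractionRing A₀ K] [IsDomain A] [IsFractionRing A E]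
  [Algebra.IsIntegral A₀ A] [IsIntegrallyClosed A₀] [Algebra W A₀] [Algebra W K]
  [IsScalarTower W A₀ K] [Algebra W E] [IsScalarTower W K E] [FiniteDimensional K E]
  [Algebra.IsSeparable K E] in
/-- `A₀` lies in the trace on `K` of every valuation ring of `E` containing `A`. -/
theorem algebraMap_mem_comap_algebraMap (V : ValuationSubring E)
    (hV : ∀ a : A, algebraMap A E a ∈ V) (a : A₀) :
    algebraMap A₀ K a ∈ V.comap (algebraMap K E) := by
  rw [ValuationSubring.mem_comap, ← IsScalarTower.algebraMap_apply,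
    IsScalarTower.algebraMap_apply A₀ A E]
  exact hV _

/-- **One side of the gluing relation at a triple point.**  See the header. -/
theorem node_relation (hres : Function.Surjective res) (P : Ideal A) [P.IsMaximal]
    (hQ : NodeUnits.IsRatPoint res (P.comap (algebraMap A₀ A)))
    (huniq : ∀ P' : Ideal A, P'.IsMaximal →
      P'.comap (algebraMap A₀ A) = P.comap (algebraMap A₀ A) → P' = P)
    -- the two branches over one branch
    {v₁ : ValuationSubring K} {t : K} (hv : IsUnif v₁ t) {w₁ w₂ : ValuationSubring E}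
    {π₁ π₂ : E} (h₁ : IsUnif w₁ π₁) (h₂ : IsUnif w₂ π₂) (hne : w₁ ≠ w₂)
    (ho₁ : w₁.comap (algebraMap K E) = v₁) (ho₂ : w₂.comap (algebraMap K E) = v₁)
    (hall : ∀ w' : ValuationSubring E, w'.comap (algebraMap K E) = v₁ → w' = w₁ ∨ w' = w₂)
    (e₁ e₂ : ℕ) (he₁ : h₁.ord (algebraMap K E t) = e₁) (he₂ : h₂.ord (algebraMap K E t) = e₂)
    (hsum : e₁ + e₂ = finrank K E)
    -- the branch which is alone over its image
    {v₂ : ValuationSubring K} {w₃ : ValuationSubring E}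
    (ho₃ : w₃.comap (algebraMap K E) = v₂)
    (hall₃ : ∀ w' : ValuationSubring E, w'.comap (algebraMap K E) = v₂ → w' = w₃)
    -- the three composite valuation rings at the point
    (W₁ W₂ W₃ : ValuationSubring E)
    (hW₁ : ∀ x ∈ w₁.nonunits, x ∈ W₁.nonunits) (hW₂ : ∀ x ∈ w₂.nonunits, x ∈ W₂.nonunits)
    (hW₃ : ∀ x ∈ w₃.nonunits, x ∈ W₃.nonunits)
    (hA₁ : ∀ a : A, algebraMap A E a ∈ W₁) (hA₃ : ∀ a : A, algebraMap A E a ∈ W₃)
    (hP₁ : centre W₁ hA₁ = P) (hP₃ : centre W₃ hA₃ = P)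
    (h12 : W₂.comap (algebraMap K E) = W₁.comap (algebraMap K E))
    (hfrac : ∀ x ∈ W₃, ∃ a s : A, s ∉ P ∧
      x - algebraMap A E a * (algebraMap A E s)⁻¹ ∈ w₃.nonunits)
    -- the functions
    {m : ℕ} (hm : m ≠ 0) {f u h : E} {g c : K}
    (hu : u ∈ pointRing E P) (hu' : u⁻¹ ∈ pointRing E P) (hf : f = u * h ^ m) (hh : h ≠ 0)
    (hc : c ∈ pointRing K (P.comap (algebraMap A₀ A)))
    (hc' : c⁻¹ ∈ pointRing K (P.comap (algebraMap A₀ A))) (hc0 : c ≠ 0) (hg : g ≠ 0)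
    (hN : Algebra.norm K f = c * g ^ m)
    {a b d γ₁ γ₂ : k} (ha : NodeUnits.HasVal res W₁ h a) (hb : NodeUnits.HasVal res W₂ h b)
    (hd : NodeUnits.HasVal res W₃ h d) (ha0 : a ≠ 0) (hb0 : b ≠ 0) (hd0 : d ≠ 0)
    (hγ₁ : NodeUnits.HasVal res W₁ (algebraMap K E g) γ₁)
    (hγ₂ : NodeUnits.HasVal res W₃ (algebraMap K E g) γ₂) :
    γ₁ * d ^ finrank K E = γ₂ * (a ^ e₁ * b ^ e₂) ∧ γ₁ ≠ 0 ∧ γ₂ ≠ 0 := by
  haveI hQmax : (P.comap (algebraMap A₀ A)).IsMaximal :=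
    Ideal.isMaximal_comap_of_isIntegral_of_isMaximal P
  -- the two valuation rings of the lower level
  set V₁ : ValuationSubring K := W₁.comap (algebraMap K E) with hV₁def
  set V₂ : ValuationSubring K := W₃.comap (algebraMap K E) with hV₂def
  have hAV₁ : ∀ a : A₀, algebraMap A₀ K a ∈ V₁ := algebraMap_mem_comap_algebraMap W₁ hA₁
  have hAV₂ : ∀ a : A₀, algebraMap A₀ K a ∈ V₂ := algebraMap_mem_comap_algebraMap W₃ hA₃
  have hQ₁ : centre V₁ hAV₁ = P.comap (algebraMap A₀ A) := by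
    rw [centre_comap_algebraMap W₁ hA₁ hAV₁, hP₁]
  have hQ₂ : centre V₂ hAV₂ = P.comap (algebraMap A₀ A) := by
    rw [centre_comap_algebraMap W₃ hA₃ hAV₂, hP₃]
  have hWV₁ : ∀ w : W, algebraMap W K w ∈ V₁ := fun w => by
    rw [IsScalarTower.algebraMap_apply W A₀ K]
    exact hAV₁ _
  have hWV₂ : ∀ w : W, algebraMap W K w ∈ V₂ := fun w => by
    rw [IsScalarTower.algebraMap_apply W A₀ K]
    exact hAV₂ _
  have hV₁n : ∀ x ∈ v₁.nonunits, x ∈ V₁.nonunits := by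
    intro x hx
    rw [hV₁def, mem_nonunits_comap_iff]
    apply hW₁
    rw [← ho₁, mem_nonunits_comap_iff] at hx
    exact hx
  have hV₂n : ∀ x ∈ v₂.nonunits, x ∈ V₂.nonunits := by
    intro x hx
    rw [hV₂def, mem_nonunits_comap_iff]
    apply hW₃
    rw [← ho₃, mem_nonunits_comap_iff] at hx
    exact hx
  have hφ : ∀ w : W, algebraMap K E (algebraMap W K w) = algebraMap W E w := fun w =>
    (IsScalarTower.algebraMap_apply W K E w).symm
  -- the values of the norm of `h`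
  have hn₁ : NodeUnits.HasVal res V₁ (Algebra.norm K h) (a ^ e₁ * b ^ e₂) :=
    hasVal_norm_pair res hv h₁ h₂ hne ho₁ ho₂ hall e₁ e₂ he₁ he₂ hsum V₁ hV₁n hWV₁ W₁ W₂ hW₁ hW₂
      rfl h12 ha hb
  have hn₂ : NodeUnits.HasVal res V₂ (Algebra.norm K h) (d ^ finrank K E) :=
    NodeUniq.hasVal_norm_single_of_uniq res v₂ w₃ hall₃ V₂ hV₂n hWV₂ W₃ hW₃ hAV₂
      (P.comap (algebraMap A₀ A)) hQ₂ hA₃ P hP₃ huniq hfrac hd
  have hn₁0 : a ^ e₁ * b ^ e₂ ≠ 0 := mul_ne_zero (pow_ne_zero _ ha0) (pow_ne_zero _ hb0)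
  have hn₂0 : d ^ finrank K E ≠ 0 := pow_ne_zero _ hd0
  -- the values of `g`
  have hg₁ : NodeUnits.HasVal res V₁ g γ₁ :=
    (NodeUnits.hasVal_comap_iff (algebraMap K E) hφ g γ₁).mpr hγ₁
  have hg₂ : NodeUnits.HasVal res V₂ g γ₂ :=
    (NodeUnits.hasVal_comap_iff (algebraMap K E) hφ g γ₂).mpr hγ₂
  refine ⟨glue_relation (P.comap (algebraMap A₀ A)) P hQ hres huniq hm hu hu' hf hh hc hc' hc0
    hg hN V₁ V₂ hAV₁ hAV₂ hQ₁ hQ₂ hn₁ hn₂ hn₁0 hn₂0 hg₁ hg₂, ?_, ?_⟩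
  · -- `γ₁ ≠ 0`
    obtain ⟨v, hv0, hvV⟩ := NodeUnits.exists_hasVal_ratio (P.comap (algebraMap A₀ A)) P hQ hres
      huniq hm hu hu' hf hh hc hc' hc0 hg hN
    have hO := NodeUnits.isOver_of_centre hQ V₁ hAV₁ hQ₁
    have e : v = γ₁ / (a ^ e₁ * b ^ e₂) :=
      (hvV V₁ hAV₁ hQ₁).unique hO (hg₁.div hO hres hn₁ hn₁0)
    intro h0
    rw [h0, zero_div] at e
    exact hv0 e
  · obtain ⟨v, hv0, hvV⟩ := NodeUnits.exists_hasVal_ratio (P.comap (algebraMap A₀ A)) P hQ hres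
      huniq hm hu hu' hf hh hc hc' hc0 hg hN
    have hO := NodeUnits.isOver_of_centre hQ V₂ hAV₂ hQ₂
    have e : v = γ₂ / d ^ finrank K E :=
      (hvV V₂ hAV₂ hQ₂).unique hO (hg₂.div hO hres hn₂ hn₂0)
    intro h0
    rw [h0, zero_div] at e
    exact hv0 e

end OneSide

/-! ### One side, for the chart rings along a ring homomorphism -/

section Chart

variable {W k FN F : Type*} [CommRing W] [Field k] {res : W →+* k} [Field FN] [Field F]
  [CharZero FN] [Algebra W FN] [Algebra W F] (Φ : FN →+* F)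
  (hΦ : ∀ w : W, Φ (algebraMap W FN w) = algebraMap W F w) {xN : FN} {x : F}
  [IsFractionRing (chart W xN) FN] [IsFractionRing (chart W x) F]
  [IsIntegrallyClosed (chart W xN)]

/-- **One side of the gluing relation at a triple point, chart form.**  `Φ : FN → F` is `α^*` or
`β^*`, the rings are the chart rings `chart W xN`, `chart W x` (with `NodeInst.chartMap`), `d` is
the degree of `F` over `Φ FN`.  Branches `w₁, w₂` over the one branch `v₁` with `e₁ + e₂ = d`,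
the branch `w₃` alone over `v₂`; `W₁, W₂, W₃` the composite valuation rings at the closed point
`P` (`k`-rational, unique over its image).  If `f = u h ^ m`, `N_Φ f = c g ^ m`, `h` has the
values `a, b, dd ≠ 0` at `W₁, W₂, W₃` and `Φ g` the values `γ₁` at `W₁`, `γ₂` at `W₃`, then
`γ₁ * dd ^ d = γ₂ * (a ^ e₁ * b ^ e₂)` and `γ₁, γ₂ ≠ 0`. -/
theorem node_relation_chart (hres : Function.Surjective res) (h1 : Φ xN ∈ chart W x)
    (h2 : IsIntegral (Algebra.adjoin W {Φ xN}) x)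
    (hfin : letI : Algebra FN F := Φ.toAlgebra; Module.Finite FN F) (d : ℕ)
    (hd : (letI : Algebra FN F := Φ.toAlgebra; finrank FN F) = d)
    (P : Ideal (chart W x)) [P.IsMaximal] (hP : NodeUnits.IsRatPoint res P)
    (huniq : ∀ P' : Ideal (chart W x), P'.IsMaximal →
      P'.comap (NodeInst.chartMap Φ hΦ h1) = P.comap (NodeInst.chartMap Φ hΦ h1) → P' = P)
    -- the two branches over one branch
    {v₁ : ValuationSubring FN} {t : FN} (hv : IsUnif v₁ t) {w₁ w₂ : ValuationSubring F}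
    {π₁ π₂ : F} (h₁ : IsUnif w₁ π₁) (h₂ : IsUnif w₂ π₂) (hne : w₁ ≠ w₂)
    (ho₁ : w₁.comap Φ = v₁) (ho₂ : w₂.comap Φ = v₁)
    (hall : ∀ w' : ValuationSubring F, w'.comap Φ = v₁ → w' = w₁ ∨ w' = w₂)
    (e₁ e₂ : ℕ) (he₁ : h₁.ord (Φ t) = e₁) (he₂ : h₂.ord (Φ t) = e₂) (hsum : e₁ + e₂ = d)
    -- the branch which is alone over its image
    {v₂ : ValuationSubring FN} {w₃ : ValuationSubring F} (ho₃ : w₃.comap Φ = v₂)
    (hall₃ : ∀ w' : ValuationSubring F, w'.comap Φ = v₂ → w' = w₃)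
    -- the three composite valuation rings at the point
    (W₁ W₂ W₃ : ValuationSubring F)
    (hW₁ : ∀ y ∈ w₁.nonunits, y ∈ W₁.nonunits) (hW₂ : ∀ y ∈ w₂.nonunits, y ∈ W₂.nonunits)
    (hW₃ : ∀ y ∈ w₃.nonunits, y ∈ W₃.nonunits)
    (hA₁ : ∀ a : chart W x, algebraMap (chart W x) F a ∈ W₁)
    (hA₃ : ∀ a : chart W x, algebraMap (chart W x) F a ∈ W₃)
    (hP₁ : centre W₁ hA₁ = P) (hP₃ : centre W₃ hA₃ = P)
    (h12 : W₂.comap Φ = W₁.comap Φ)
    (hfrac : ∀ y ∈ W₃, ∃ a s : chart W x, s ∉ P ∧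
      y - algebraMap (chart W x) F a * (algebraMap (chart W x) F s)⁻¹ ∈ w₃.nonunits)
    -- the functions
    {m : ℕ} (hm : m ≠ 0) {f u h : F} {g c : FN}
    (hu : u ∈ pointRing F P) (hu' : u⁻¹ ∈ pointRing F P) (hf : f = u * h ^ m) (hh : h ≠ 0)
    (hc : c ∈ pointRing FN (P.comap (NodeInst.chartMap Φ hΦ h1)))
    (hc' : c⁻¹ ∈ pointRing FN (P.comap (NodeInst.chartMap Φ hΦ h1))) (hc0 : c ≠ 0)
    (hg : g ≠ 0)
    (hN : (letI : Algebra FN F := Φ.toAlgebra; Algebra.norm FN f) = c * g ^ m)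
    {a b dd γ₁ γ₂ : k} (ha : NodeUnits.HasVal res W₁ h a) (hb : NodeUnits.HasVal res W₂ h b)
    (hdd : NodeUnits.HasVal res W₃ h dd) (ha0 : a ≠ 0) (hb0 : b ≠ 0) (hdd0 : dd ≠ 0)
    (hγ₁ : NodeUnits.HasVal res W₁ (Φ g) γ₁) (hγ₂ : NodeUnits.HasVal res W₃ (Φ g) γ₂) :
    γ₁ * dd ^ d = γ₂ * (a ^ e₁ * b ^ e₂) ∧ γ₁ ≠ 0 ∧ γ₂ ≠ 0 := by
  letI : Algebra FN F := Φ.toAlgebra
  letI := NodeInst.chartAlgebra Φ hΦ h1
  haveI := NodeInst.chart_isScalarTower Φ hΦ h1
  haveI := NodeInst.chart_algebraIsIntegral Φ hΦ h1 h2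
  haveI : IsScalarTower W FN F := IsScalarTower.of_algebraMap_eq (fun w => (hΦ w).symm)
  haveI : Module.Finite FN F := hfin
  have key := node_relation hres P (NodeInst.isRatPoint_comap Φ hΦ h1 P hP) huniq hv h₁ h₂ hne
    ho₁ ho₂ hall e₁ e₂ he₁ he₂ (hsum.trans hd.symm) ho₃ hall₃ W₁ W₂ W₃ hW₁ hW₂ hW₃ hA₁ hA₃ hP₁
    hP₃ h12 hfrac hm hu hu' hf hh hc hc' hc0 hg hN ha hb hdd ha0 hb0 hdd0 hγ₁ hγ₂
  rw [hd] at key
  exact key

end Chart

/-! ### Both sides: the gluing ratios at a triple point -/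

section TwoSides

variable {W k FN F : Type*} [CommRing W] [Field k] {res : W →+* k} [Field FN] [Field F]
  [CharZero FN] [Algebra W FN] [Algebra W F] (Φα Φβ : FN →+* F)
  (hΦα : ∀ w : W, Φα (algebraMap W FN w) = algebraMap W F w)
  (hΦβ : ∀ w : W, Φβ (algebraMap W FN w) = algebraMap W F w) {xN : FN} {x : F}
  [IsFractionRing (chart W xN) FN] [IsFractionRing (chart W x) F]
  [IsIntegrallyClosed (chart W xN)]

/-- **CAR-14 at a triple point.**  `Φα, Φβ : FN → F` the two degeneracy maps, both of degree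
`n + 1` (`= q`); upper branches `winf, wmid, wzero`, lower branches `vinf, vzero`:
* along `Φα` : `winf, wmid` lie over `vinf` with ramification `(1, n)`, `wzero` is alone over
  `vzero`;
* along `Φβ` : `wzero, wmid` lie over `vzero` with ramification `(1, n)`, `winf` is alone over
  `vinf`.
`P` a `k`-rational closed point of the upper chart, the only point over its image along `Φα` and
along `Φβ`; `Winf, Wmid, Wzero` the composite valuation rings at `P` on the three branches.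
Let `f = u h ^ m` with `u` a unit at `P`, `N_α f = cα gα ^ m`, `N_β f = cβ gβ ^ m` with `cα`, `cβ`
units at the nodes; `a, b, c ≠ 0` the values of `h` at `Winf, Wmid, Wzero`, and `γα₁, γα₂`
(`γβ₁, γβ₂`) the values of `Φα gα` (`Φβ gβ`) at `Winf, Wzero`.  Then
`a ^ (n + 2) = (γα₁ / γα₂) * (γβ₁ / γβ₂) * c ^ (n + 2)` and
`(γβ₁ / γβ₂) * b ^ (n * (n + 2)) = (γα₁ / γα₂) ^ (n + 1) * c ^ (n * (n + 2))`; moreover
`γα₁, γα₂, γβ₁, γβ₂ ≠ 0`. -/
theorem triple_ratio_pow (hres : Function.Surjective res) (n : ℕ)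
    -- the two degeneracy maps
    (h1α : Φα xN ∈ chart W x) (h2α : IsIntegral (Algebra.adjoin W {Φα xN}) x)
    (hfinα : letI : Algebra FN F := Φα.toAlgebra; Module.Finite FN F)
    (hdα : (letI : Algebra FN F := Φα.toAlgebra; finrank FN F) = n + 1)
    (h1β : Φβ xN ∈ chart W x) (h2β : IsIntegral (Algebra.adjoin W {Φβ xN}) x)
    (hfinβ : letI : Algebra FN F := Φβ.toAlgebra; Module.Finite FN F)
    (hdβ : (letI : Algebra FN F := Φβ.toAlgebra; finrank FN F) = n + 1)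
    -- the point
    (P : Ideal (chart W x)) [P.IsMaximal] (hP : NodeUnits.IsRatPoint res P)
    (huniqα : ∀ P' : Ideal (chart W x), P'.IsMaximal →
      P'.comap (NodeInst.chartMap Φα hΦα h1α) = P.comap (NodeInst.chartMap Φα hΦα h1α) → P' = P)
    (huniqβ : ∀ P' : Ideal (chart W x), P'.IsMaximal →
      P'.comap (NodeInst.chartMap Φβ hΦβ h1β) = P.comap (NodeInst.chartMap Φβ hΦβ h1β) → P' = P)
    -- the branches
    {vinf vzero : ValuationSubring FN} {tinf tzero : FN} (hvinf : IsUnif vinf tinf)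
    (hvzero : IsUnif vzero tzero) {winf wmid wzero : ValuationSubring F} {πinf πmid πzero : F}
    (hinf : IsUnif winf πinf) (hmid : IsUnif wmid πmid) (hzero : IsUnif wzero πzero)
    (hne₁ : winf ≠ wmid) (hne₂ : wzero ≠ wmid)
    -- along `Φα`
    (hαinf : winf.comap Φα = vinf) (hαmid : wmid.comap Φα = vinf)
    (hαzero : wzero.comap Φα = vzero)
    (hαall : ∀ w' : ValuationSubring F, w'.comap Φα = vinf → w' = winf ∨ w' = wmid)
    (hαall₀ : ∀ w' : ValuationSubring F, w'.comap Φα = vzero → w' = wzero)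
    (hαe₁ : hinf.ord (Φα tinf) = 1) (hαe₂ : hmid.ord (Φα tinf) = n)
    -- along `Φβ`
    (hβzero : wzero.comap Φβ = vzero) (hβmid : wmid.comap Φβ = vzero)
    (hβinf : winf.comap Φβ = vinf)
    (hβall : ∀ w' : ValuationSubring F, w'.comap Φβ = vzero → w' = wzero ∨ w' = wmid)
    (hβall₀ : ∀ w' : ValuationSubring F, w'.comap Φβ = vinf → w' = winf)
    (hβe₁ : hzero.ord (Φβ tzero) = 1) (hβe₂ : hmid.ord (Φβ tzero) = n)
    -- the composite valuation rings at the point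
    (Winf Wmid Wzero : ValuationSubring F)
    (hWinf : ∀ y ∈ winf.nonunits, y ∈ Winf.nonunits)
    (hWmid : ∀ y ∈ wmid.nonunits, y ∈ Wmid.nonunits)
    (hWzero : ∀ y ∈ wzero.nonunits, y ∈ Wzero.nonunits)
    (hAinf : ∀ a : chart W x, algebraMap (chart W x) F a ∈ Winf)
    (hAzero : ∀ a : chart W x, algebraMap (chart W x) F a ∈ Wzero)
    (hPinf : centre Winf hAinf = P) (hPzero : centre Wzero hAzero = P)
    (hα12 : Wmid.comap Φα = Winf.comap Φα) (hβ12 : Wmid.comap Φβ = Wzero.comap Φβ)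
    (hfracinf : ∀ y ∈ Winf, ∃ a s : chart W x, s ∉ P ∧
      y - algebraMap (chart W x) F a * (algebraMap (chart W x) F s)⁻¹ ∈ winf.nonunits)
    (hfraczero : ∀ y ∈ Wzero, ∃ a s : chart W x, s ∉ P ∧
      y - algebraMap (chart W x) F a * (algebraMap (chart W x) F s)⁻¹ ∈ wzero.nonunits)
    -- the functions
    {m : ℕ} (hm : m ≠ 0) {f u h : F} (hu : u ∈ pointRing F P) (hu' : u⁻¹ ∈ pointRing F P)
    (hf : f = u * h ^ m) (hh : h ≠ 0) {gα cα gβ cβ : FN}
    (hcα : cα ∈ pointRing FN (P.comap (NodeInst.chartMap Φα hΦα h1α)))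
    (hcα' : cα⁻¹ ∈ pointRing FN (P.comap (NodeInst.chartMap Φα hΦα h1α))) (hcα0 : cα ≠ 0)
    (hgα : gα ≠ 0)
    (hNα : (letI : Algebra FN F := Φα.toAlgebra; Algebra.norm FN f) = cα * gα ^ m)
    (hcβ : cβ ∈ pointRing FN (P.comap (NodeInst.chartMap Φβ hΦβ h1β)))
    (hcβ' : cβ⁻¹ ∈ pointRing FN (P.comap (NodeInst.chartMap Φβ hΦβ h1β))) (hcβ0 : cβ ≠ 0)
    (hgβ : gβ ≠ 0)
    (hNβ : (letI : Algebra FN F := Φβ.toAlgebra; Algebra.norm FN f) = cβ * gβ ^ m)
    {a b c γα₁ γα₂ γβ₁ γβ₂ : k} (ha : NodeUnits.HasVal res Winf h a)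
    (hb : NodeUnits.HasVal res Wmid h b) (hc : NodeUnits.HasVal res Wzero h c) (ha0 : a ≠ 0)
    (hb0 : b ≠ 0) (hc0 : c ≠ 0)
    (hγα₁ : NodeUnits.HasVal res Winf (Φα gα) γα₁)
    (hγα₂ : NodeUnits.HasVal res Wzero (Φα gα) γα₂)
    (hγβ₁ : NodeUnits.HasVal res Winf (Φβ gβ) γβ₁)
    (hγβ₂ : NodeUnits.HasVal res Wzero (Φβ gβ) γβ₂) :
    (a ^ (n + 2) = (γα₁ / γα₂) * (γβ₁ / γβ₂) * c ^ (n + 2) ∧
      (γβ₁ / γβ₂) * b ^ (n * (n + 2)) = (γα₁ / γα₂) ^ (n + 1) * c ^ (n * (n + 2))) ∧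
      γα₁ ≠ 0 ∧ γα₂ ≠ 0 ∧ γβ₁ ≠ 0 ∧ γβ₂ ≠ 0 := by
  -- along `Φα` : pair `(inf, mid)`, single `zero`
  obtain ⟨hα, hγα₁0, hγα₂0⟩ := node_relation_chart Φα hΦα hres h1α h2α hfinα (n + 1) hdα P hP
    huniqα hvinf hinf hmid hne₁ hαinf hαmid hαall 1 n hαe₁ hαe₂ (Nat.add_comm 1 n) hαzero hαall₀
    Winf Wmid Wzero hWinf hWmid hWzero hAinf hAzero hPinf hPzero hα12 hfraczero hm hu hu' hf hh
    hcα hcα' hcα0 hgα hNα ha hb hc ha0 hb0 hc0 hγα₁ hγα₂
  -- along `Φβ` : pair `(zero, mid)`, single `inf`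
  obtain ⟨hβ, hγβ₂0, hγβ₁0⟩ := node_relation_chart Φβ hΦβ hres h1β h2β hfinβ (n + 1) hdβ P hP
    huniqβ hvzero hzero hmid hne₂ hβzero hβmid hβall 1 n hβe₁ hβe₂ (Nat.add_comm 1 n) hβinf
    hβall₀ Wzero Wmid Winf hWzero hWmid hWinf hAzero hAinf hPzero hPinf hβ12 hfracinf hm hu hu'
    hf hh hcβ hcβ' hcβ0 hgβ hNβ hc hb ha hc0 hb0 ha0 hγβ₂ hγβ₁
  rw [pow_one] at hα hβ
  refine ⟨glue_ratio_pow n hb0 hc0 hγα₂0 hγβ₂0 hα ?_, hγα₁0, hγα₂0, hγβ₁0, hγβ₂0⟩
  rw [mul_comm (b ^ n) c]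
  exact hβ.symm

/-- **CAR-14 at a triple point, residue-map form.**  As `triple_ratio_pow`, with the composite
valuation rings given by residue maps `ρinf, ρmid, ρzero` of the upper branches into ONE field
`κ`, ONE place `Vs` of `κ` (the triple point is `(inf, s) = (mid, s) = (zero, s)`), the residue
maps `rinf, rzero` of the lower branches, and the UNTWISTED compatibilities
`ρinf ∘ Φα = rinf = ρmid ∘ Φα`, `ρzero ∘ Φβ = rzero = ρmid ∘ Φβ`; (LIFT) at `s` on the branches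
`inf` and `zero`.  (The twisted compatibilities `ρzero ∘ Φα = ψ ∘ rzero`, `ρinf ∘ Φβ = ψ ∘ rinf` are
NOT needed: the single branches are treated by `NodeUniq`.) -/
theorem triple_ratio_pow_of_red (hres : Function.Surjective res) (n : ℕ)
    -- the two degeneracy maps
    (h1α : Φα xN ∈ chart W x) (h2α : IsIntegral (Algebra.adjoin W {Φα xN}) x)
    (hfinα : letI : Algebra FN F := Φα.toAlgebra; Module.Finite FN F)
    (hdα : (letI : Algebra FN F := Φα.toAlgebra; finrank FN F) = n + 1)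
    (h1β : Φβ xN ∈ chart W x) (h2β : IsIntegral (Algebra.adjoin W {Φβ xN}) x)
    (hfinβ : letI : Algebra FN F := Φβ.toAlgebra; Module.Finite FN F)
    (hdβ : (letI : Algebra FN F := Φβ.toAlgebra; finrank FN F) = n + 1)
    -- the point
    (P : Ideal (chart W x)) [P.IsMaximal] (hP : NodeUnits.IsRatPoint res P)
    (huniqα : ∀ P' : Ideal (chart W x), P'.IsMaximal →
      P'.comap (NodeInst.chartMap Φα hΦα h1α) = P.comap (NodeInst.chartMap Φα hΦα h1α) → P' = P)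
    (huniqβ : ∀ P' : Ideal (chart W x), P'.IsMaximal →
      P'.comap (NodeInst.chartMap Φβ hΦβ h1β) = P.comap (NodeInst.chartMap Φβ hΦβ h1β) → P' = P)
    -- the branches
    {vinf vzero : ValuationSubring FN} {tinf tzero : FN} (hvinf : IsUnif vinf tinf)
    (hvzero : IsUnif vzero tzero) {winf wmid wzero : ValuationSubring F} {πinf πmid πzero : F}
    (hinf : IsUnif winf πinf) (hmid : IsUnif wmid πmid) (hzero : IsUnif wzero πzero)
    (hne₁ : winf ≠ wmid) (hne₂ : wzero ≠ wmid)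
    -- along `Φα`
    (hαinf : winf.comap Φα = vinf) (hαmid : wmid.comap Φα = vinf)
    (hαzero : wzero.comap Φα = vzero)
    (hαall : ∀ w' : ValuationSubring F, w'.comap Φα = vinf → w' = winf ∨ w' = wmid)
    (hαall₀ : ∀ w' : ValuationSubring F, w'.comap Φα = vzero → w' = wzero)
    (hαe₁ : hinf.ord (Φα tinf) = 1) (hαe₂ : hmid.ord (Φα tinf) = n)
    -- along `Φβ`
    (hβzero : wzero.comap Φβ = vzero) (hβmid : wmid.comap Φβ = vzero)
    (hβinf : winf.comap Φβ = vinf)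
    (hβall : ∀ w' : ValuationSubring F, w'.comap Φβ = vzero → w' = wzero ∨ w' = wmid)
    (hβall₀ : ∀ w' : ValuationSubring F, w'.comap Φβ = vinf → w' = winf)
    (hβe₁ : hzero.ord (Φβ tzero) = 1) (hβe₂ : hmid.ord (Φβ tzero) = n)
    -- residue maps
    {κ : Type*} [Field κ] (ρinf : winf →+* κ)
    (hρinf : ∀ y : winf, ρinf y = 0 ↔ y ∈ maximalIdeal winf) (ρmid : wmid →+* κ)
    (hρmid : ∀ y : wmid, ρmid y = 0 ↔ y ∈ maximalIdeal wmid) (ρzero : wzero →+* κ)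
    (hρzero : ∀ y : wzero, ρzero y = 0 ↔ y ∈ maximalIdeal wzero) (rinf : vinf →+* κ)
    (hrinf : ∀ y : vinf, rinf y = 0 ↔ y ∈ maximalIdeal vinf) (rzero : vzero →+* κ)
    (hrzero : ∀ y : vzero, rzero y = 0 ↔ y ∈ maximalIdeal vzero)
    (hcαinf : ∀ (y : FN) (hy : y ∈ vinf) (hy' : Φα y ∈ winf), ρinf ⟨Φα y, hy'⟩ = rinf ⟨y, hy⟩)
    (hcαmid : ∀ (y : FN) (hy : y ∈ vinf) (hy' : Φα y ∈ wmid), ρmid ⟨Φα y, hy'⟩ = rinf ⟨y, hy⟩)
    (hcβzero : ∀ (y : FN) (hy : y ∈ vzero) (hy' : Φβ y ∈ wzero),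
      ρzero ⟨Φβ y, hy'⟩ = rzero ⟨y, hy⟩)
    (hcβmid : ∀ (y : FN) (hy : y ∈ vzero) (hy' : Φβ y ∈ wmid), ρmid ⟨Φβ y, hy'⟩ = rzero ⟨y, hy⟩)
    -- the triple point `(inf, s) = (mid, s) = (zero, s)`
    (Vs : ValuationSubring κ)
    (hAinf : ∀ a : chart W x, algebraMap (chart W x) F a ∈ compositeSubring winf ρinf hρinf Vs)
    (hAzero : ∀ a : chart W x,
      algebraMap (chart W x) F a ∈ compositeSubring wzero ρzero hρzero Vs)
    (hPinf : pointIdeal winf ρinf hρinf Vs hAinf = P)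
    (hPzero : pointIdeal wzero ρzero hρzero Vs hAzero = P)
    (hliftinf : ∀ z ∈ Vs, ∃ a b : chart W x,
      redOn winf ρinf (fun a => (hAinf a).1) b ∉ Vs.nonunits ∧
        redOn winf ρinf (fun a => (hAinf a).1) a = z * redOn winf ρinf (fun a => (hAinf a).1) b)
    (hliftzero : ∀ z ∈ Vs, ∃ a b : chart W x,
      redOn wzero ρzero (fun a => (hAzero a).1) b ∉ Vs.nonunits ∧
        redOn wzero ρzero (fun a => (hAzero a).1) a =
          z * redOn wzero ρzero (fun a => (hAzero a).1) b)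
    -- the functions
    {m : ℕ} (hm : m ≠ 0) {f u h : F} (hu : u ∈ pointRing F P) (hu' : u⁻¹ ∈ pointRing F P)
    (hf : f = u * h ^ m) (hh : h ≠ 0) {gα cα gβ cβ : FN}
    (hcα : cα ∈ pointRing FN (P.comap (NodeInst.chartMap Φα hΦα h1α)))
    (hcα' : cα⁻¹ ∈ pointRing FN (P.comap (NodeInst.chartMap Φα hΦα h1α))) (hcα0 : cα ≠ 0)
    (hgα : gα ≠ 0)
    (hNα : (letI : Algebra FN F := Φα.toAlgebra; Algebra.norm FN f) = cα * gα ^ m)
    (hcβ : cβ ∈ pointRing FN (P.comap (NodeInst.chartMap Φβ hΦβ h1β)))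
    (hcβ' : cβ⁻¹ ∈ pointRing FN (P.comap (NodeInst.chartMap Φβ hΦβ h1β))) (hcβ0 : cβ ≠ 0)
    (hgβ : gβ ≠ 0)
    (hNβ : (letI : Algebra FN F := Φβ.toAlgebra; Algebra.norm FN f) = cβ * gβ ^ m)
    {a b c γα₁ γα₂ γβ₁ γβ₂ : k}
    (ha : NodeUnits.HasVal res (compositeSubring winf ρinf hρinf Vs) h a)
    (hb : NodeUnits.HasVal res (compositeSubring wmid ρmid hρmid Vs) h b)
    (hc : NodeUnits.HasVal res (compositeSubring wzero ρzero hρzero Vs) h c) (ha0 : a ≠ 0)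
    (hb0 : b ≠ 0) (hc0 : c ≠ 0)
    (hγα₁ : NodeUnits.HasVal res (compositeSubring winf ρinf hρinf Vs) (Φα gα) γα₁)
    (hγα₂ : NodeUnits.HasVal res (compositeSubring wzero ρzero hρzero Vs) (Φα gα) γα₂)
    (hγβ₁ : NodeUnits.HasVal res (compositeSubring winf ρinf hρinf Vs) (Φβ gβ) γβ₁)
    (hγβ₂ : NodeUnits.HasVal res (compositeSubring wzero ρzero hρzero Vs) (Φβ gβ) γβ₂) :
    (a ^ (n + 2) = (γα₁ / γα₂) * (γβ₁ / γβ₂) * c ^ (n + 2) ∧
      (γβ₁ / γβ₂) * b ^ (n * (n + 2)) = (γα₁ / γα₂) ^ (n + 1) * c ^ (n * (n + 2))) ∧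
      γα₁ ≠ 0 ∧ γα₂ ≠ 0 ∧ γβ₁ ≠ 0 ∧ γβ₂ ≠ 0 := by
  have hα12 : (compositeSubring wmid ρmid hρmid Vs).comap Φα =
      (compositeSubring winf ρinf hρinf Vs).comap Φα := by
    rw [NodeInst.compositeSubring_comap Φα wmid ρmid hρmid vinf rinf hrinf (RingHom.id κ) hαmid
      hcαmid Vs, NodeInst.compositeSubring_comap Φα winf ρinf hρinf vinf rinf hrinf
      (RingHom.id κ) hαinf hcαinf Vs]
  have hβ12 : (compositeSubring wmid ρmid hρmid Vs).comap Φβ =
      (compositeSubring wzero ρzero hρzero Vs).comap Φβ := by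
    rw [NodeInst.compositeSubring_comap Φβ wmid ρmid hρmid vzero rzero hrzero (RingHom.id κ)
      hβmid hcβmid Vs, NodeInst.compositeSubring_comap Φβ wzero ρzero hρzero vzero rzero hrzero
      (RingHom.id κ) hβzero hcβzero Vs]
  have hfracinf := NodeUniq.hfrac_of_lift winf ρinf hρinf (fun a => (hAinf a).1) Vs hAinf
    hliftinf
  have hfraczero := NodeUniq.hfrac_of_lift wzero ρzero hρzero (fun a => (hAzero a).1) Vs hAzero
    hliftzero
  rw [hPinf] at hfracinf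
  rw [hPzero] at hfraczero
  exact triple_ratio_pow Φα Φβ hΦα hΦβ hres n h1α h2α hfinα hdα h1β h2β hfinβ hdβ P hP huniqα
    huniqβ hvinf hvzero hinf hmid hzero hne₁ hne₂ hαinf hαmid hαzero hαall hαall₀ hαe₁ hαe₂
    hβzero hβmid hβinf hβall hβall₀ hβe₁ hβe₂ (compositeSubring winf ρinf hρinf Vs)
    (compositeSubring wmid ρmid hρmid Vs) (compositeSubring wzero ρzero hρzero Vs)
    (nonunits_le_nonunits_compositeSubring winf ρinf hρinf Vs)
    (nonunits_le_nonunits_compositeSubring wmid ρmid hρmid Vs)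
    (nonunits_le_nonunits_compositeSubring wzero ρzero hρzero Vs) hAinf hAzero hPinf hPzero
    hα12 hβ12 hfracinf hfraczero hm hu hu' hf hh hcα hcα' hcα0 hgα hNα hcβ hcβ' hcβ0 hgβ hNβ
    ha hb hc ha0 hb0 hc0 hγα₁ hγα₂ hγβ₁ hγβ₂

end TwoSides

end Fermat.Agent.CAR.Glue.NodeTriple
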