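/-
CAR-35 (helper64), abstract half of the instance: `NodeTriple.triple_ratio_pow_of_red` with the
branch-level hypotheses read off the record `Formal.NF.Data` (helper47 / helper39: the record of
the normal form, instantiated over `K0` by `Formal/NormInstK0` resp. `V3/MidRestrict`), and the
point-level hypotheses read off the contract record `Local.Inst.Contract` (helper38).

* `triple_ratio_pow_of_data` : the two gluing relations at a triple point from `D : NF.Data …`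
  (`Oa, Ob, Oc = inf, mid, zero`; `PA, PC` the two branches of the lower level), residue maps
  `ρa, ρb, ρc : O_• → κ`, `rA, rC : P_• → κ` with the four UNTWISTED compatibilities
  `ρa ∘ Φα = rA = ρb ∘ Φα`, `ρc ∘ Φβ = rC = ρb ∘ Φβ`, and the point data
  (`P`, `Vs`, (LIFT) on the branches `inf`, `zero`, (UNIQ) along `Φα`, `Φβ`).
* `isRatPoint_pointIdeal` : the closed point `(O, Vs)` of a chart ring is `k`-rational as soon as
  the constants reduce through `res` and the residue field of `Vs` is `k`.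
* `triple_ratio_pow_of_contract` : the same for the triple point `Meet.pt H 1 Vs hVs` of a
  contract `H` on the chart ring `chart W x` (`Db ∈ Vs.nonunits`): (LIFT), the point identities
  and (UNIQ) come from `H` (`Meet.huniq_alpha_pt`, `Meet.huniq_beta_pt`), rationality from
  `isRatPoint_pointIdeal`.
-/
import Mathlib
import Fermat.Agent.CAR.Glue.NodeTriple
import Fermat.Agent.CAR.Formal.NormalForm
import Fermat.Agent.CAR.Local.Inst.MeetContract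

set_option autoImplicit false
set_option linter.style.haveILetI false

namespace Fermat.Agent.CAR.Glue.NodeData

open IsLocalRing Fermat.Agent.CAR.Local Fermat.Agent.CAR.Formal Module
open Fermat.Agent.CAR.Glob.Charts

/-! ### The branch data from `NF.Data` -/

section Data

variable {W k FN F : Type*} [CommRing W] [Field k] {res : W →+* k} [Field FN] [Field F]
  [CharZero FN] [Algebra W FN] [Algebra W F] (Φα Φβ : FN →+* F)
  (hΦα : ∀ w : W, Φα (algebraMap W FN w) = algebraMap W F w)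
  (hΦβ : ∀ w : W, Φβ (algebraMap W FN w) = algebraMap W F w) {xN : FN} {x : F}
  [IsFractionRing (chart W xN) FN] [IsFractionRing (chart W x) F]
  [IsIntegrallyClosed (chart W xN)]

/-- **CAR-14 at a triple point, from the record `NF.Data`.**  `D : NF.Data Φα Φβ q PA PC Oa Ob Oc
ϖN ϖ d` (`q = n + 1`), residue maps `ρa, ρb, ρc` of the upper branches and `rA, rC` of the lower
branches into one field `κ`, with `ρa ∘ Φα = rA = ρb ∘ Φα` and `ρc ∘ Φβ = rC = ρb ∘ Φβ`; `P` a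
`k`-rational closed point of the chart `chart W x`, unique over its images along `Φα`, `Φβ`,
which is the point `(Oa, Vs) = (Oc, Vs)`; (LIFT) at `Vs` on `Oa` and `Oc`.  Conclusion: the two
relations of `NodeNorm.glue_ratio_pow` between the values `a, b, c` of `h` at the composites of
`Oa, Ob, Oc` (`f = u h ^ m`, `N_α f = cα gα ^ m`, `N_β f = cβ gβ ^ m`). -/
theorem triple_ratio_pow_of_data (hres : Function.Surjective res) {q n : ℕ} (hqn : q = n + 1)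
    {PA PC : ValuationSubring FN} {Oa Ob Oc : ValuationSubring F} {ϖN : FN} {ϖ d : F}
    (D : NF.Data Φα Φβ q PA PC Oa Ob Oc ϖN ϖ d)
    -- the charts
    (h1α : Φα xN ∈ chart W x) (h2α : IsIntegral (Algebra.adjoin W {Φα xN}) x)
    (h1β : Φβ xN ∈ chart W x) (h2β : IsIntegral (Algebra.adjoin W {Φβ xN}) x)
    -- the point
    (P : Ideal (chart W x)) [P.IsMaximal] (hP : NodeUnits.IsRatPoint res P)
    (huniqα : ∀ P' : Ideal (chart W x), P'.IsMaximal →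
      P'.comap (NodeInst.chartMap Φα hΦα h1α) = P.comap (NodeInst.chartMap Φα hΦα h1α) → P' = P)
    (huniqβ : ∀ P' : Ideal (chart W x), P'.IsMaximal →
      P'.comap (NodeInst.chartMap Φβ hΦβ h1β) = P.comap (NodeInst.chartMap Φβ hΦβ h1β) → P' = P)
    -- residue maps
    {κ : Type*} [Field κ] (ρa : Oa →+* κ) (hρa : ∀ y : Oa, ρa y = 0 ↔ y ∈ maximalIdeal Oa)
    (ρb : Ob →+* κ) (hρb : ∀ y : Ob, ρb y = 0 ↔ y ∈ maximalIdeal Ob)
    (ρc : Oc →+* κ) (hρc : ∀ y : Oc, ρc y = 0 ↔ y ∈ maximalIdeal Oc)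
    (rA : PA →+* κ) (hrA : ∀ y : PA, rA y = 0 ↔ y ∈ maximalIdeal PA)
    (rC : PC →+* κ) (hrC : ∀ y : PC, rC y = 0 ↔ y ∈ maximalIdeal PC)
    (hcαa : ∀ (y : FN) (hy : y ∈ PA) (hy' : Φα y ∈ Oa), ρa ⟨Φα y, hy'⟩ = rA ⟨y, hy⟩)
    (hcαb : ∀ (y : FN) (hy : y ∈ PA) (hy' : Φα y ∈ Ob), ρb ⟨Φα y, hy'⟩ = rA ⟨y, hy⟩)
    (hcβc : ∀ (y : FN) (hy : y ∈ PC) (hy' : Φβ y ∈ Oc), ρc ⟨Φβ y, hy'⟩ = rC ⟨y, hy⟩)
    (hcβb : ∀ (y : FN) (hy : y ∈ PC) (hy' : Φβ y ∈ Ob), ρb ⟨Φβ y, hy'⟩ = rC ⟨y, hy⟩)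
    -- the triple point `(a, s) = (b, s) = (c, s)`
    (Vs : ValuationSubring κ)
    (hAa : ∀ a : chart W x, algebraMap (chart W x) F a ∈ compositeSubring Oa ρa hρa Vs)
    (hAc : ∀ a : chart W x, algebraMap (chart W x) F a ∈ compositeSubring Oc ρc hρc Vs)
    (hPa : pointIdeal Oa ρa hρa Vs hAa = P) (hPc : pointIdeal Oc ρc hρc Vs hAc = P)
    (hlifta : ∀ z ∈ Vs, ∃ a b : chart W x,
      redOn Oa ρa (fun a => (hAa a).1) b ∉ Vs.nonunits ∧
        redOn Oa ρa (fun a => (hAa a).1) a = z * redOn Oa ρa (fun a => (hAa a).1) b)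
    (hliftc : ∀ z ∈ Vs, ∃ a b : chart W x,
      redOn Oc ρc (fun a => (hAc a).1) b ∉ Vs.nonunits ∧
        redOn Oc ρc (fun a => (hAc a).1) a = z * redOn Oc ρc (fun a => (hAc a).1) b)
    -- the functions
    {m : ℕ} (hm : m ≠ 0) {f u h : F} (hu : u ∈ pointRing F P) (hu' : u⁻¹ ∈ pointRing F P)
    (hf : f = u * h ^ m) (hh : h ≠ 0) {gα cα gβ cβ : FN}
    (hcα : cα ∈ pointRing FN (P.comap (NodeInst.chartMap Φα hΦα h1α)))
    (hcα' : cα⁻¹ ∈ pointRing FN (P.comap (NodeInst.chartMap Φα hΦα h1α))) (hcα0 : cα ≠ 0)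
    (hgα : gα ≠ 0)
    (hNα : (letI : Algebra FN F := Φα.toAlgebra; Algebra.norm FN f) = cα * gα ^ m)
    (hcβ : cβ ∈ pointRing FN (P.comap (NodeInst.chartMap Φβ hΦβ h1β)))
    (hcβ' : cβ⁻¹ ∈ pointRing FN (P.comap (NodeInst.chartMap Φβ hΦβ h1β))) (hcβ0 : cβ ≠ 0)
    (hgβ : gβ ≠ 0)
    (hNβ : (letI : Algebra FN F := Φβ.toAlgebra; Algebra.norm FN f) = cβ * gβ ^ m)
    {a b c γα₁ γα₂ γβ₁ γβ₂ : k}
    (ha : NodeUnits.HasVal res (compositeSubring Oa ρa hρa Vs) h a)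
    (hb : NodeUnits.HasVal res (compositeSubring Ob ρb hρb Vs) h b)
    (hc : NodeUnits.HasVal res (compositeSubring Oc ρc hρc Vs) h c) (ha0 : a ≠ 0)
    (hb0 : b ≠ 0) (hc0 : c ≠ 0)
    (hγα₁ : NodeUnits.HasVal res (compositeSubring Oa ρa hρa Vs) (Φα gα) γα₁)
    (hγα₂ : NodeUnits.HasVal res (compositeSubring Oc ρc hρc Vs) (Φα gα) γα₂)
    (hγβ₁ : NodeUnits.HasVal res (compositeSubring Oa ρa hρa Vs) (Φβ gβ) γβ₁)
    (hγβ₂ : NodeUnits.HasVal res (compositeSubring Oc ρc hρc Vs) (Φβ gβ) γβ₂) :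
    (a ^ (n + 2) = (γα₁ / γα₂) * (γβ₁ / γβ₂) * c ^ (n + 2) ∧
      (γβ₁ / γβ₂) * b ^ (n * (n + 2)) = (γα₁ / γα₂) ^ (n + 1) * c ^ (n * (n + 2))) ∧
      γα₁ ≠ 0 ∧ γα₂ ≠ 0 ∧ γβ₁ ≠ 0 ∧ γβ₂ ≠ 0 := by
  have hnq : ((n : ℕ) : ℤ) = (q : ℤ) - 1 := by
    rw [hqn]
    push_cast
    ring
  have hαe₁ : D.ha.ord (Φα ϖN) = 1 := by rw [D.αϖ]; exact D.ha.ord_self
  have hαe₂ : D.hb.ord (Φα ϖN) = n := by rw [D.αϖ, D.ordb, hnq]
  have hβe₁ : D.hc.ord (Φβ ϖN) = 1 := by rw [D.βϖ]; exact D.hc.ord_self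
  have hβe₂ : D.hb.ord (Φβ ϖN) = n := by rw [D.βϖ, D.ordb, hnq]
  exact NodeTriple.triple_ratio_pow_of_red Φα Φβ hΦα hΦβ hres n h1α h2α D.finα
    (by rw [D.degα, hqn]) h1β h2β D.finβ (by rw [D.degβ, hqn]) P hP huniqα huniqβ D.hA D.hC D.ha
    D.hb D.hc D.ne_ab D.ne_bc.symm D.αa D.αb D.αc D.allαA D.allαC hαe₁ hαe₂ D.βc D.βb D.βa
    (fun w' hw' => (D.allβC w' hw').symm) D.allβA hβe₁ hβe₂ ρa hρa ρb hρb ρc hρc rA hrA rC hrC
    hcαa hcαb hcβc hcβb Vs hAa hAc hPa hPc hlifta hliftc hm hu hu' hf hh hcα hcα' hcα0 hgα hNα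
    hcβ hcβ' hcβ0 hgβ hNβ ha hb hc ha0 hb0 hc0 hγα₁ hγα₂ hγβ₁ hγβ₂

end Data

/-! ### Rationality of the closed points `(O, Vs)` -/

section RatPoint

variable {W k A F κ : Type*} [CommRing W] [Field k] {res : W →+* k} [CommRing A]
  [Field F] [Algebra A F] [Algebra W A] [Field κ] [Algebra k κ]

/-- **The closed point `(O, Vs)` is `k`-rational.**  `O` a vertical valuation ring with residue
map `red : O → κ`, `κ ⊇ k`; if the constants of `W` reduce through `res : W → k` on `O` and the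
residue field of the place `Vs` of `κ` is `k` (every element of `Vs` is congruent to a constant),
then the point `pointIdeal O red hred Vs hA` of the chart ring `A` is `k`-rational. -/
theorem isRatPoint_pointIdeal (hres : Function.Surjective res) (O : ValuationSubring F)
    (red : O →+* κ) (hred : ∀ y : O, red y = 0 ↔ y ∈ maximalIdeal O)
    (hAO : ∀ a : A, algebraMap A F a ∈ O) (Vs : ValuationSubring κ)
    (hA : ∀ a : A, algebraMap A F a ∈ compositeSubring O red hred Vs)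
    (hconst : ∀ w : W, redOn O red hAO (algebraMap W A w) = algebraMap k κ (res w))
    (hk : ∀ v ∈ Vs, ∃ c : k, v - algebraMap k κ c ∈ Vs.nonunits) :
    NodeUnits.IsRatPoint res (pointIdeal O red hred Vs hA) := by
  have hkVs : ∀ c : k, algebraMap k κ c ∈ Vs := by
    intro c
    obtain ⟨w, rfl⟩ := hres c
    rw [← hconst w]
    exact (algebraMap_mem_compositeSubring_iff O red hred hAO Vs _).1 (hA _)
  refine ⟨fun a => ?_, fun w => ?_⟩
  · have ha : redOn O red hAO a ∈ Vs :=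
      (algebraMap_mem_compositeSubring_iff O red hred hAO Vs a).1 (hA a)
    obtain ⟨c, hc⟩ := hk _ ha
    obtain ⟨w, rfl⟩ := hres c
    refine ⟨w, ?_⟩
    rw [mem_pointIdeal_iff_redOn O red hred hAO Vs hA, map_sub, hconst]
    exact hc
  · rw [mem_pointIdeal_iff_redOn O red hred hAO Vs hA, hconst]
    constructor
    · intro hmem
      by_contra h0
      rw [ValuationSubring.mem_nonunits_iff] at hmem
      have h1 : Vs.valuation (algebraMap k κ (res w)⁻¹) ≤ 1 :=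
        (Vs.valuation_le_one_iff _).2 (hkVs _)
      have h2 : Vs.valuation (algebraMap k κ (res w)) * Vs.valuation (algebraMap k κ (res w)⁻¹)
          = 1 := by
        rw [← map_mul, ← map_mul, mul_inv_cancel₀ h0, map_one, map_one]
      have h3 : Vs.valuation (algebraMap k κ (res w)) * Vs.valuation (algebraMap k κ (res w)⁻¹)
          < 1 := by
        calc Vs.valuation (algebraMap k κ (res w)) * Vs.valuation (algebraMap k κ (res w)⁻¹)
            ≤ Vs.valuation (algebraMap k κ (res w)) * 1 := by gcongr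
          _ = Vs.valuation (algebraMap k κ (res w)) := mul_one _
          _ < 1 := hmem
      exact (ne_of_lt h3) h2
    · intro h0
      rw [h0, map_zero]
      exact NodeUnits.zero_mem_nonunits

end RatPoint

/-! ### The triple points of a contract -/

section Contract

open Fermat.Agent.CAR.Local.Inst

variable {W k FN F : Type*} [CommRing W] [Field k] {res : W →+* k} [Field FN] [Field F]
  [CharZero FN] [Algebra W FN] [Algebra W F] (Φα Φβ : FN →+* F)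
  (hΦα : ∀ w : W, Φα (algebraMap W FN w) = algebraMap W F w)
  (hΦβ : ∀ w : W, Φβ (algebraMap W FN w) = algebraMap W F w) {xN : FN} {x : F}
  [IsFractionRing (chart W xN) FN] [IsFractionRing (chart W x) F]
  [IsIntegrallyClosed (chart W xN)] [IsNoetherianRing (chart W x)]
  {κ B' : Type*} [Field κ] [CommRing B'] [Algebra k κ]
  {O : Fin 3 → ValuationSubring F} {red : ∀ i, O i →+* κ}
  {hred : ∀ i, ∀ y : O i, red i y = 0 ↔ y ∈ maximalIdeal (O i)}
  {hBO : ∀ i, ∀ b : chart W x, algebraMap (chart W x) F b ∈ O i}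
  {red' : B' →+* κ} {π₀ π₂ : B' →+* chart W x} {Dκ : κ → κ}
  {qW : W} {x' : B'} {u₀ u₁ v₁ h₀ : chart W x} {Db G : κ} {N e : ℕ}

omit [IsFractionRing (chart W x) F] in
/-- The triple point over a supersingular place is `k`-rational: `Meet.pt H i Vs hVs` for a
contract `H`, if the constants reduce through `res` on ONE component `i₀` and the residue field
of `Vs` is `k`. -/
theorem isRatPoint_pt (hres : Function.Surjective res)
    (H : Contract O red hred hBO red' π₀ π₂ Dκ (algebraMap W (chart W x) qW) x' u₀ u₁ v₁ h₀ Db G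
      N e)
    (i₀ : Fin 3)
    (hconst : ∀ w : W, redOn (O i₀) (red i₀) (hBO i₀) (algebraMap W (chart W x) w)
      = algebraMap k κ (res w))
    (Vs : ValuationSubring κ) (hVs : IsFinPlace red' Vs) (hDb : Db ∈ Vs.nonunits)
    (hk : ∀ v ∈ Vs, ∃ c : k, v - algebraMap k κ c ∈ Vs.nonunits) (i : Fin 3) :
    NodeUnits.IsRatPoint res (Meet.pt H i Vs hVs) := by
  rw [Meet.pt_eq_pt H Vs hVs hDb i i₀]
  exact isRatPoint_pointIdeal hres (O i₀) (red i₀) (hred i₀) (hBO i₀) Vs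
    (Meet.hA_of_isFinPlace H i₀ Vs hVs) hconst hk

/-- **CAR-14 at the triple point of a contract.**  `H` the contract of the finite chart
`chart W x` (components `O 0 = inf`, `O 1 = mid`, `O 2 = zero`), `D : NF.Data Φα Φβ q PA PC
(O 0) (O 1) (O 2) ϖN ϖ d` the normal-form record of the two degeneracy maps (`q = n + 1`),
`rA, rC` the residue maps of the lower branches with the four untwisted compatibilities;
`p₀, p₁ : B' → chart W xN` with `π₀ = Φα ∘ p₀`, `π₁ = Φα ∘ p₁ = Φβ ∘ p₀`, `π₂ = Φβ ∘ p₁`, and the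
twisted reductions `r_0 ∘ π₁ = ψ ∘ red' = r_2 ∘ π₁` (for (UNIQ)); `Vs` a finite place with
`Db ∈ Vs.nonunits` (a supersingular place) whose residue field is `k`.  At the triple point
`P = Meet.pt H 1 Vs hVs`: if `f = u h ^ m` (`u` a unit at `P`), `N_α f = cα gα ^ m`,
`N_β f = cβ gβ ^ m` (`cα, cβ` units at the nodes below `P`), `a, b, c ≠ 0` are the values of `h` at
the composites of `O 0, O 1, O 2` and `γα₁, γα₂` (`γβ₁, γβ₂`) the values of `Φα gα` (`Φβ gβ`) at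
the composites of `O 0, O 2`, then the two relations of `NodeNorm.glue_ratio_pow` hold. -/
theorem triple_ratio_pow_of_contract (hres : Function.Surjective res) {q n : ℕ}
    (hqn : q = n + 1)
    (H : Contract O red hred hBO red' π₀ π₂ Dκ (algebraMap W (chart W x) qW) x' u₀ u₁ v₁ h₀ Db G
      N e)
    {PA PC : ValuationSubring FN} {ϖN : FN} {ϖ d : F}
    (D : NF.Data Φα Φβ q PA PC (O 0) (O 1) (O 2) ϖN ϖ d)
    -- the charts
    (h1α : Φα xN ∈ chart W x) (h2α : IsIntegral (Algebra.adjoin W {Φα xN}) x)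
    (h1β : Φβ xN ∈ chart W x) (h2β : IsIntegral (Algebra.adjoin W {Φβ xN}) x)
    -- residue maps of the lower level
    (rA : PA →+* κ) (hrA : ∀ y : PA, rA y = 0 ↔ y ∈ maximalIdeal PA)
    (rC : PC →+* κ) (hrC : ∀ y : PC, rC y = 0 ↔ y ∈ maximalIdeal PC)
    (hcαa : ∀ (y : FN) (hy : y ∈ PA) (hy' : Φα y ∈ O 0), red 0 ⟨Φα y, hy'⟩ = rA ⟨y, hy⟩)
    (hcαb : ∀ (y : FN) (hy : y ∈ PA) (hy' : Φα y ∈ O 1), red 1 ⟨Φα y, hy'⟩ = rA ⟨y, hy⟩)
    (hcβc : ∀ (y : FN) (hy : y ∈ PC) (hy' : Φβ y ∈ O 2), red 2 ⟨Φβ y, hy'⟩ = rC ⟨y, hy⟩)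
    (hcβb : ∀ (y : FN) (hy : y ∈ PC) (hy' : Φβ y ∈ O 1), red 1 ⟨Φβ y, hy'⟩ = rC ⟨y, hy⟩)
    -- the constants
    (i₀ : Fin 3)
    (hconst : ∀ w : W, redOn (O i₀) (red i₀) (hBO i₀) (algebraMap W (chart W x) w)
      = algebraMap k κ (res w))
    -- (UNIQ)
    (π₁ : B' →+* chart W x) (ψ : κ →+* κ) {nψ : ℕ} (hnψ : nψ ≠ 0)
    (hψ : ∀ z : κ, ∃ z' : κ, ψ z' = z ^ nψ)
    (zero_π₁ : ∀ y : B', redOn (O 2) (red 2) (hBO 2) (π₁ y) = ψ (red' y))
    (inf_π₁ : ∀ y : B', redOn (O 0) (red 0) (hBO 0) (π₁ y) = ψ (red' y))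
    (p₀ p₁ : B' →+* chart W xN)
    (hα₀ : ∀ y, NodeInst.chartMap Φα hΦα h1α (p₀ y) = π₀ y)
    (hα₁ : ∀ y, NodeInst.chartMap Φα hΦα h1α (p₁ y) = π₁ y)
    (hβ₁ : ∀ y, NodeInst.chartMap Φβ hΦβ h1β (p₀ y) = π₁ y)
    (hβ₂ : ∀ y, NodeInst.chartMap Φβ hΦβ h1β (p₁ y) = π₂ y)
    -- the supersingular place
    (Vs : ValuationSubring κ) (hVs : IsFinPlace red' Vs) (hDb : Db ∈ Vs.nonunits)
    (hk : ∀ v ∈ Vs, ∃ c : k, v - algebraMap k κ c ∈ Vs.nonunits)
    -- the functions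
    {m : ℕ} (hm : m ≠ 0) {f u h : F} (hu : u ∈ pointRing F (Meet.pt H 1 Vs hVs))
    (hu' : u⁻¹ ∈ pointRing F (Meet.pt H 1 Vs hVs)) (hf : f = u * h ^ m) (hh : h ≠ 0)
    {gα cα gβ cβ : FN}
    (hcα : cα ∈ pointRing FN ((Meet.pt H 1 Vs hVs).comap (NodeInst.chartMap Φα hΦα h1α)))
    (hcα' : cα⁻¹ ∈ pointRing FN ((Meet.pt H 1 Vs hVs).comap (NodeInst.chartMap Φα hΦα h1α)))
    (hcα0 : cα ≠ 0) (hgα : gα ≠ 0)
    (hNα : (letI : Algebra FN F := Φα.toAlgebra; Algebra.norm FN f) = cα * gα ^ m)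
    (hcβ : cβ ∈ pointRing FN ((Meet.pt H 1 Vs hVs).comap (NodeInst.chartMap Φβ hΦβ h1β)))
    (hcβ' : cβ⁻¹ ∈ pointRing FN ((Meet.pt H 1 Vs hVs).comap (NodeInst.chartMap Φβ hΦβ h1β)))
    (hcβ0 : cβ ≠ 0) (hgβ : gβ ≠ 0)
    (hNβ : (letI : Algebra FN F := Φβ.toAlgebra; Algebra.norm FN f) = cβ * gβ ^ m)
    {a b c γα₁ γα₂ γβ₁ γβ₂ : k}
    (ha : NodeUnits.HasVal res (compositeSubring (O 0) (red 0) (hred 0) Vs) h a)
    (hb : NodeUnits.HasVal res (compositeSubring (O 1) (red 1) (hred 1) Vs) h b)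
    (hc : NodeUnits.HasVal res (compositeSubring (O 2) (red 2) (hred 2) Vs) h c) (ha0 : a ≠ 0)
    (hb0 : b ≠ 0) (hc0 : c ≠ 0)
    (hγα₁ : NodeUnits.HasVal res (compositeSubring (O 0) (red 0) (hred 0) Vs) (Φα gα) γα₁)
    (hγα₂ : NodeUnits.HasVal res (compositeSubring (O 2) (red 2) (hred 2) Vs) (Φα gα) γα₂)
    (hγβ₁ : NodeUnits.HasVal res (compositeSubring (O 0) (red 0) (hred 0) Vs) (Φβ gβ) γβ₁)
    (hγβ₂ : NodeUnits.HasVal res (compositeSubring (O 2) (red 2) (hred 2) Vs) (Φβ gβ) γβ₂) :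
    (a ^ (n + 2) = (γα₁ / γα₂) * (γβ₁ / γβ₂) * c ^ (n + 2) ∧
      (γβ₁ / γβ₂) * b ^ (n * (n + 2)) = (γα₁ / γα₂) ^ (n + 1) * c ^ (n * (n + 2))) ∧
      γα₁ ≠ 0 ∧ γα₂ ≠ 0 ∧ γβ₁ ≠ 0 ∧ γβ₂ ≠ 0 :=
  triple_ratio_pow_of_data Φα Φβ hΦα hΦβ hres hqn D h1α h2α h1β h2β (Meet.pt H 1 Vs hVs)
    (isRatPoint_pt hres H i₀ hconst Vs hVs hDb hk 1)
    (Meet.huniq_alpha_pt H π₁ ψ hnψ hψ zero_π₁ (NodeInst.chartMap Φα hΦα h1α)
      (algebraMap W (chart W xN) qW) (NodeInst.chartMap_algebraMap Φα hΦα h1α qW) p₀ p₁ hα₀ hα₁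
      Vs hVs hDb 1)
    (Meet.huniq_beta_pt H π₁ ψ hnψ hψ inf_π₁ (NodeInst.chartMap Φβ hΦβ h1β)
      (algebraMap W (chart W xN) qW) (NodeInst.chartMap_algebraMap Φβ hΦβ h1β qW) p₀ p₁ hβ₁ hβ₂
      Vs hVs hDb 1)
    (red 0) (hred 0) (red 1) (hred 1) (red 2) (hred 2) rA hrA rC hrC hcαa hcαb hcβc hcβb Vs
    (Meet.hA_of_isFinPlace H 0 Vs hVs) (Meet.hA_of_isFinPlace H 2 Vs hVs)
    (Meet.pt_eq_pt H Vs hVs hDb 0 1) (Meet.pt_eq_pt H Vs hVs hDb 2 1)
    (H.toV3Base.lift 0 Vs hVs.1 (H.fin 0 Vs hVs)) (H.toV3Base.lift 2 Vs hVs.1 (H.fin 2 Vs hVs))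
    hm hu hu' hf hh hcα hcα' hcα0 hgα hNα hcβ hcβ' hcβ0 hgβ hNβ ha hb hc ha0 hb0 hc0 hγα₁ hγα₂
    hγβ₁ hγβ₂

end Contract

end Fermat.Agent.CAR.Glue.NodeData
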