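/-
CAR (helper52) — two charts, two auxiliary divisors: the `H⁰`-hypotheses of
`Glue.DeformRed.exists_common_of_redLe` from saturation, and `hP2` from local statements.

Setting of `BAD.Saturation.sat_charts`: `L ⊆ F` fields, `A` a valuation subring of `L`, `O` a
subring of `F` with `O ∩ L = A`, `red : O → Ft` with kernel `Small A O` (the FULL, possibly
non-reduced, special fibre), a coordinate `x` with `x, x⁻¹ ∈ O`, charts `R ∋ x` (`x ≠ ∞`) and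
`R∞ ∋ x⁻¹` (`x ≠ 0`), and a second point `α` of the `x`-line with `x - α` a unit of `O`
(`α ∈ R`, `α ∈ R∞`, `α ∈ O`).  The two auxiliary divisors are `E₁ = (x)_∞`, `E₂ = (x - α)_0`:

  `V0 n₁ n₂ = L(n₁ E₁ + n₂ E₂) = {z | (x - α)^n₂ z ∈ R ∧ x^-(n₁+n₂) (x - α)^n₂ z ∈ R∞}`.

`ChartSetup` bundles these hypotheses together with the CONCLUSION of `sat_charts` for `n ≥ n₀`.

* `ChartSetup.lift_H2`, `lift_H2'` : the hypotheses `hH2`, `hH2'` (no input from the special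
  fibre: partition of unity `α·x⁻¹ + (1 - α x⁻¹) = 1` on the chart at infinity, then saturation).
* `ChartSetup.lift_H3` : an element of `red (L(n E₁)) ∩ red (L(n E₂))` is the reduction of an
  element of `R ∩ O` and of an element of `R∞ ∩ O`; so `hH3` follows from cohomological flatness
  `hflat` (`ChartSetup.redSub_H3`; `hflat` is proved in `Glue/CohFlat.lean`).
* `ChartSetup.lift_P2` : `s ∈ O` is congruent modulo `𝔪_A O` to an element of `L(n₁ E₁ + n₂ E₂)`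
  as soon as `(x - α)^n₂ s` and `x^-(n₁+n₂) (x - α)^n₂ s` are congruent to elements of the chart
  rings `R ∩ O`, `R∞ ∩ O`.
* `exists_small_sub_of_forall_maximal` : local–global principle — it is enough to find, for every
  maximal ideal `𝔪 ∋ ϖ` of the chart ring, a denominator `d ∉ 𝔪`.
* `ChartSetup.lift_P2_of_local` : `hP2` from the local statements at the closed points of the two
  charts (on the chart at infinity only the points with `x = ∞` are needed).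
-/
import Mathlib
import Fermat.Agent.Lib.Red.Deform
import Fermat.Agent.Lib.Red.CoordLatRed

set_option autoImplicit false

namespace Fermat.Agent.CAR.Glue

open Fermat.Agent.Lib.Red.Deform Fermat.Agent.Lib.Red.CoordLat

variable {L F : Type*} [Field L] [Field F] [Algebra L F]
variable {A : ValuationSubring L} {O : Subring F}

/-- **Local–global principle** for approximation modulo `𝔪_A • O` by elements of a chart ring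
`C ⊆ O`: it suffices to approximate `d * w` for some `d ∉ 𝔪`, for every maximal ideal `𝔪` of `C`
containing `ϖ` (any element with `ϖ • O ⊆ 𝔪_A • O`; `ϖ = 0` is allowed). -/
theorem exists_small_sub_of_forall_maximal (hOA : ∀ x : L, algebraMap L F x ∈ O ↔ x ∈ A)
    (C : Subring F) (hCO : C ≤ O) (ϖ : ↥C) (w : F) (hϖ : Small A O ((ϖ : F) * w))
    (h : ∀ 𝔪 : Ideal ↥C, 𝔪.IsMaximal → ϖ ∈ 𝔪 →
      ∃ d : ↥C, d ∉ 𝔪 ∧ ∃ b : ↥C, Small A O ((d : F) * w - (b : F))) :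
    ∃ b : ↥C, Small A O (w - (b : F)) := by
  set J : Ideal ↥C :=
    { carrier := {d | ∃ b : ↥C, Small A O ((d : F) * w - (b : F))}
      add_mem' := by
        rintro d d' ⟨b, hb⟩ ⟨b', hb'⟩
        refine ⟨b + b', ?_⟩
        have e : ((d + d' : ↥C) : F) * w - ((b + b' : ↥C) : F)
            = ((d : F) * w - (b : F)) + ((d' : F) * w - (b' : F)) := by
          push_cast; ring
        rw [e]
        exact hb.add hOA hb'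
      zero_mem' := ⟨0, by
        have e : ((0 : ↥C) : F) * w - ((0 : ↥C) : F) = 0 := by push_cast; ring
        rw [e]
        exact small_zero⟩
      smul_mem' := by
        rintro c d ⟨b, hb⟩
        refine ⟨c * b, ?_⟩
        have e : ((c • d : ↥C) : F) * w - ((c * b : ↥C) : F)
            = (c : F) * ((d : F) * w - (b : F)) := by
          rw [smul_eq_mul]; push_cast; ring
        rw [e]
        exact hb.mem_mul (hCO c.2) } with hJ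
  have hJtop : J = ⊤ := by
    by_contra hne
    obtain ⟨𝔪, h𝔪, hle⟩ := Ideal.exists_le_maximal J hne
    have hϖJ : ϖ ∈ J := ⟨0, by
      have e : (ϖ : F) * w - ((0 : ↥C) : F) = (ϖ : F) * w := by push_cast; ring
      rw [e]
      exact hϖ⟩
    obtain ⟨d, hd, b, hb⟩ := h 𝔪 h𝔪 (hle hϖJ)
    exact hd (hle ⟨b, hb⟩)
  have h1 : (1 : ↥C) ∈ J := by rw [hJtop]; exact Submodule.mem_top
  obtain ⟨b, hb⟩ := h1
  refine ⟨b, ?_⟩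
  have e : ((1 : ↥C) : F) * w - (b : F) = w - (b : F) := by push_cast; ring
  rwa [e] at hb

/-- Partition of unity: if `u, v` generate the unit ideal of the chart ring `C` and `u^K w`,
`v^K w` are congruent to elements of `C`, so is `w`. -/
theorem exists_small_sub_of_two (hOA : ∀ x : L, algebraMap L F x ∈ O ↔ x ∈ A)
    (C : Subring F) (hCO : C ≤ O) (u v p q : ↥C) (hpq : p * u + q * v = 1) (K : ℕ) (w : F)
    (b₁ b₂ : ↥C) (h₁ : Small A O ((u : F) ^ K * w - (b₁ : F)))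
    (h₂ : Small A O ((v : F) ^ K * w - (b₂ : F))) :
    ∃ b : ↥C, Small A O (w - (b : F)) := by
  have hcop : IsCoprime (u ^ K) (v ^ K) := (show IsCoprime u v from ⟨p, q, hpq⟩).pow
  obtain ⟨p', q', h'⟩ := hcop
  have h'F : (p' : F) * (u : F) ^ K + (q' : F) * (v : F) ^ K = 1 := by
    have := congrArg (Subtype.val : ↥C → F) h'
    push_cast at this
    exact this
  refine ⟨p' * b₁ + q' * b₂, ?_⟩
  have e : w - ((p' * b₁ + q' * b₂ : ↥C) : F)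
      = (p' : F) * ((u : F) ^ K * w - (b₁ : F)) + (q' : F) * ((v : F) ^ K * w - (b₂ : F)) := by
    push_cast
    linear_combination (-w) * h'F
  rw [e]
  exact (h₁.mem_mul (hCO p'.2)).add hOA (h₂.mem_mul (hCO q'.2))

variable {Ft : Type*} [CommRing Ft]

/-- The data of two charts and two auxiliary divisors, with the conclusion of
`BAD.Saturation.sat_charts` for `n ≥ n₀`.  See the file header. -/
structure ChartSetup (A : ValuationSubring L) (O : Subring F) (red : O →+* Ft) (x α : F)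
    (R Rinf : Subring F) (V0 : ℕ → ℕ → Submodule L F) (n₀ : ℕ) : Prop where
  hOA : ∀ c : L, algebraMap L F c ∈ O ↔ c ∈ A
  hker : ∀ y : O, red y = 0 ↔ Small A O (y : F)
  hx0 : x ≠ 0
  hxO : x ∈ O
  hxO' : x⁻¹ ∈ O
  hαO : α ∈ O
  hy0 : x - α ≠ 0
  hyO' : (x - α)⁻¹ ∈ O
  hxR : x ∈ R
  hαR : α ∈ R
  hxRinf : x⁻¹ ∈ Rinf
  hαRinf : α ∈ Rinf
  hV0 : ∀ n₁ n₂ z, z ∈ V0 n₁ n₂ ↔
    (x - α) ^ n₂ * z ∈ R ∧ x⁻¹ ^ (n₁ + n₂) * ((x - α) ^ n₂ * z) ∈ Rinf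
  hsat : ∀ n, n₀ ≤ n → ∀ f₁ f₂ : O, (f₁ : F) ∈ R → (f₂ : F) ∈ Rinf →
    (∀ hx : x ∈ O, red f₁ = red ⟨x, hx⟩ ^ n * red f₂) →
    ∃ z z' : O, (z : F) ∈ R ∧ (z' : F) ∈ Rinf ∧ (z : F) = x ^ n * (z' : F) ∧ red z = red f₁

namespace ChartSetup

variable {red : O →+* Ft} {x α : F} {R Rinf : Subring F} {V0 : ℕ → ℕ → Submodule L F} {n₀ : ℕ}

theorem red_eq_of_small (h : ChartSetup A O red x α R Rinf V0 n₀) {y z : O}
    (hs : Small A O ((y : F) - (z : F))) : red y = red z := by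
  have : red (y - z) = 0 := (h.hker _).2 hs
  rwa [map_sub, sub_eq_zero] at this

theorem small_of_red_eq (h : ChartSetup A O red x α R Rinf V0 n₀) {y z : O}
    (hs : red y = red z) : Small A O ((y : F) - (z : F)) := by
  have : red (y - z) = 0 := by rw [map_sub, hs, sub_self]
  exact (h.hker _).1 this

theorem hyO (h : ChartSetup A O red x α R Rinf V0 n₀) : x - α ∈ O := O.sub_mem h.hxO h.hαO

/-- `x⁻¹ (x - α) = 1 - α x⁻¹` lies in the chart at infinity. -/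
theorem hvRinf (h : ChartSetup A O red x α R Rinf V0 n₀) : x⁻¹ * (x - α) ∈ Rinf := by
  have e : x⁻¹ * (x - α) = 1 - α * x⁻¹ := by
    rw [mul_sub, inv_mul_cancel₀ h.hx0, mul_comm]
  rw [e]
  exact Rinf.sub_mem Rinf.one_mem (Rinf.mul_mem h.hαRinf h.hxRinf)

theorem hvO (h : ChartSetup A O red x α R Rinf V0 n₀) : x⁻¹ * (x - α) ∈ O :=
  O.mul_mem h.hxO' h.hyO

/-- The partition of unity on the chart at infinity: if `x^-K w` and `(1 - α/x)^K w` are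
congruent to elements of `R∞ ∩ O`, so is `w`. -/
theorem exists_inf_of_two (h : ChartSetup A O red x α R Rinf V0 n₀) (K : ℕ) (w : F)
    (b₁ b₂ : F) (hb₁ : b₁ ∈ Rinf) (hb₁O : b₁ ∈ O) (hb₂ : b₂ ∈ Rinf) (hb₂O : b₂ ∈ O)
    (h₁ : Small A O (x⁻¹ ^ K * w - b₁)) (h₂ : Small A O ((x⁻¹ * (x - α)) ^ K * w - b₂)) :
    ∃ b : F, b ∈ Rinf ∧ b ∈ O ∧ Small A O (w - b) := by
  set C : Subring F := Rinf ⊓ O with hC
  have hCO : C ≤ O := inf_le_right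
  obtain ⟨b, hb⟩ := exists_small_sub_of_two h.hOA C hCO
    (⟨x⁻¹, Subring.mem_inf.2 ⟨h.hxRinf, h.hxO'⟩⟩ : ↥C)
    (⟨x⁻¹ * (x - α), Subring.mem_inf.2 ⟨h.hvRinf, h.hvO⟩⟩ : ↥C)
    (⟨α, Subring.mem_inf.2 ⟨h.hαRinf, h.hαO⟩⟩ : ↥C) 1
    (by
      apply Subtype.ext
      push_cast
      rw [mul_sub, inv_mul_cancel₀ h.hx0]
      ring) K w
    (⟨b₁, Subring.mem_inf.2 ⟨hb₁, hb₁O⟩⟩ : ↥C) (⟨b₂, Subring.mem_inf.2 ⟨hb₂, hb₂O⟩⟩ : ↥C) h₁ h₂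
  exact ⟨b, (Subring.mem_inf.1 b.2).1, (Subring.mem_inf.1 b.2).2, hb⟩

/-- **`hH2`, element form.** -/
theorem lift_H2 (h : ChartSetup A O red x α R Rinf V0 n₀) (K : ℕ) (z₁ z₂ : O)
    (h₁ : (z₁ : F) ∈ V0 K 0) (h₂ : (z₂ : F) ∈ V0 n₀ K) (h₁₂ : red z₁ = red z₂) :
    ∃ z : O, (z : F) ∈ V0 n₀ 0 ∧ red z = red z₁ := by
  obtain ⟨h₁R, h₁I⟩ := (h.hV0 K 0 _).1 h₁
  obtain ⟨-, h₂I⟩ := (h.hV0 n₀ K _).1 h₂
  rw [pow_zero, one_mul] at h₁R h₁I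
  rw [Nat.add_zero] at h₁I
  have hxn : ∀ n : ℕ, x⁻¹ ^ n ∈ O := fun n => O.pow_mem h.hxO' n
  have hyn : ∀ n : ℕ, (x - α) ^ n ∈ O := fun n => O.pow_mem h.hyO n
  have hsm : Small A O ((z₁ : F) - (z₂ : F)) := h.small_of_red_eq h₁₂
  -- `w = x^-n₀ z₁` is congruent to an element of the chart at infinity
  obtain ⟨f₂, hf₂, hf₂O, hw⟩ := h.exists_inf_of_two K (x⁻¹ ^ n₀ * (z₁ : F))
    (x⁻¹ ^ n₀ * (x⁻¹ ^ K * (z₁ : F))) (x⁻¹ ^ (n₀ + K) * ((x - α) ^ K * (z₂ : F)))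
    (Rinf.mul_mem (Rinf.pow_mem h.hxRinf _) h₁I)
    (O.mul_mem (hxn _) (O.mul_mem (hxn _) z₁.2)) h₂I
    (O.mul_mem (hxn _) (O.mul_mem (hyn _) z₂.2))
    (by
      have e : x⁻¹ ^ K * (x⁻¹ ^ n₀ * (z₁ : F)) - x⁻¹ ^ n₀ * (x⁻¹ ^ K * (z₁ : F)) = 0 := by ring
      rw [e]
      exact small_zero)
    (by
      have e : (x⁻¹ * (x - α)) ^ K * (x⁻¹ ^ n₀ * (z₁ : F))
          - x⁻¹ ^ (n₀ + K) * ((x - α) ^ K * (z₂ : F))
          = (x⁻¹ ^ (n₀ + K) * (x - α) ^ K) * ((z₁ : F) - (z₂ : F)) := by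
        rw [mul_pow]; ring
      rw [e]
      exact hsm.mem_mul (O.mul_mem (hxn _) (hyn _)))
  obtain ⟨z, z', hz, hz', hzz', hred⟩ := h.hsat n₀ le_rfl z₁ ⟨f₂, hf₂O⟩ h₁R hf₂ (by
    intro hx
    rw [← map_pow, ← map_mul]
    apply h.red_eq_of_small
    have e : ((z₁ : O) : F) - ((⟨x, hx⟩ ^ n₀ * ⟨f₂, hf₂O⟩ : O) : F)
        = x ^ n₀ * (x⁻¹ ^ n₀ * (z₁ : F) - f₂) := by
      push_cast
      rw [mul_sub, ← mul_assoc, ← mul_pow, mul_inv_cancel₀ h.hx0, one_pow, one_mul]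
    rw [e]
    exact hw.mem_mul (O.pow_mem h.hxO _))
  refine ⟨z, (h.hV0 n₀ 0 _).2 ⟨?_, ?_⟩, hred⟩
  · rw [pow_zero, one_mul]; exact hz
  · rw [pow_zero, one_mul, Nat.add_zero, hzz', ← mul_assoc, ← mul_pow, inv_mul_cancel₀ h.hx0,
      one_pow, one_mul]
    exact hz'

/-- **`hH2'`, element form.** -/
theorem lift_H2' (h : ChartSetup A O red x α R Rinf V0 n₀) (K : ℕ) (z₁ z₂ : O)
    (h₁ : (z₁ : F) ∈ V0 0 K) (h₂ : (z₂ : F) ∈ V0 K n₀) (h₁₂ : red z₁ = red z₂) :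
    ∃ z : O, (z : F) ∈ V0 0 n₀ ∧ red z = red z₁ := by
  obtain ⟨-, h₁I⟩ := (h.hV0 0 K _).1 h₁
  obtain ⟨h₂R, h₂I⟩ := (h.hV0 K n₀ _).1 h₂
  rw [Nat.zero_add] at h₁I
  have hxn : ∀ n : ℕ, x⁻¹ ^ n ∈ O := fun n => O.pow_mem h.hxO' n
  have hyn : ∀ n : ℕ, (x - α) ^ n ∈ O := fun n => O.pow_mem h.hyO n
  have hsm : Small A O ((z₂ : F) - (z₁ : F)) := h.small_of_red_eq h₁₂.symm
  obtain ⟨f₂, hf₂, hf₂O, hw⟩ := h.exists_inf_of_two K (x⁻¹ ^ n₀ * ((x - α) ^ n₀ * (z₂ : F)))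
    (x⁻¹ ^ (K + n₀) * ((x - α) ^ n₀ * (z₂ : F)))
    ((x⁻¹ * (x - α)) ^ n₀ * (x⁻¹ ^ K * ((x - α) ^ K * (z₁ : F))))
    h₂I (O.mul_mem (hxn _) (O.mul_mem (hyn _) z₂.2))
    (Rinf.mul_mem (Rinf.pow_mem h.hvRinf _) h₁I)
    (O.mul_mem (O.pow_mem h.hvO _) (O.mul_mem (hxn _) (O.mul_mem (hyn _) z₁.2)))
    (by
      have e : x⁻¹ ^ K * (x⁻¹ ^ n₀ * ((x - α) ^ n₀ * (z₂ : F)))
          - x⁻¹ ^ (K + n₀) * ((x - α) ^ n₀ * (z₂ : F)) = 0 := by ring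
      rw [e]
      exact small_zero)
    (by
      have e : (x⁻¹ * (x - α)) ^ K * (x⁻¹ ^ n₀ * ((x - α) ^ n₀ * (z₂ : F)))
          - (x⁻¹ * (x - α)) ^ n₀ * (x⁻¹ ^ K * ((x - α) ^ K * (z₁ : F)))
          = ((x⁻¹ * (x - α)) ^ K * (x⁻¹ * (x - α)) ^ n₀) * ((z₂ : F) - (z₁ : F)) := by
        rw [mul_pow, mul_pow]; ring
      rw [e]
      exact hsm.mem_mul (O.mul_mem (O.pow_mem h.hvO _) (O.pow_mem h.hvO _)))
  obtain ⟨z', z'', hz', hz'', hzz', hred⟩ := h.hsat n₀ le_rfl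
    ⟨(x - α) ^ n₀ * (z₂ : F), O.mul_mem (hyn _) z₂.2⟩ ⟨f₂, hf₂O⟩ h₂R hf₂ (by
    intro hx
    rw [← map_pow, ← map_mul]
    apply h.red_eq_of_small
    have e : ((⟨(x - α) ^ n₀ * (z₂ : F), O.mul_mem (hyn _) z₂.2⟩ : O) : F)
        - ((⟨x, hx⟩ ^ n₀ * ⟨f₂, hf₂O⟩ : O) : F)
        = x ^ n₀ * (x⁻¹ ^ n₀ * ((x - α) ^ n₀ * (z₂ : F)) - f₂) := by
      push_cast
      rw [mul_sub, ← mul_assoc, ← mul_pow, mul_inv_cancel₀ h.hx0, one_pow, one_mul]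
    rw [e]
    exact hw.mem_mul (O.pow_mem h.hxO _))
  refine ⟨⟨(x - α)⁻¹ ^ n₀ * (z' : F), O.mul_mem (O.pow_mem h.hyO' _) z'.2⟩,
    (h.hV0 0 n₀ _).2 ⟨?_, ?_⟩, ?_⟩
  · show (x - α) ^ n₀ * ((x - α)⁻¹ ^ n₀ * (z' : F)) ∈ R
    rw [← mul_assoc, ← mul_pow, mul_inv_cancel₀ h.hy0, one_pow, one_mul]
    exact hz'
  · show x⁻¹ ^ (0 + n₀) * ((x - α) ^ n₀ * ((x - α)⁻¹ ^ n₀ * (z' : F))) ∈ Rinf
    rw [← mul_assoc ((x - α) ^ n₀), ← mul_pow, mul_inv_cancel₀ h.hy0, one_pow, one_mul,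
      Nat.zero_add, hzz', ← mul_assoc, ← mul_pow, inv_mul_cancel₀ h.hx0, one_pow, one_mul]
    exact hz''
  · rw [h₁₂]
    have e : (⟨(x - α)⁻¹ ^ n₀ * (z' : F), O.mul_mem (O.pow_mem h.hyO' _) z'.2⟩ : O)
        = ⟨(x - α)⁻¹ ^ n₀, O.pow_mem h.hyO' _⟩ * z' := rfl
    have e₂ : (z₂ : O) = ⟨(x - α)⁻¹ ^ n₀, O.pow_mem h.hyO' _⟩
        * ⟨(x - α) ^ n₀ * (z₂ : F), O.mul_mem (hyn _) z₂.2⟩ := by
      apply Subtype.ext
      push_cast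
      rw [← mul_assoc, ← mul_pow, inv_mul_cancel₀ h.hy0, one_pow, one_mul]
    rw [e, map_mul, hred, ← map_mul, ← e₂]

/-- **`hH3`, first half**: an element of `red (L(n E₁)) ∩ red (L(n E₂))` is the reduction of an
element of `R ∩ O` and of an element of `R∞ ∩ O`. -/
theorem lift_H3 (h : ChartSetup A O red x α R Rinf V0 n₀) (n : ℕ) (z₁ z₂ : O)
    (h₁ : (z₁ : F) ∈ V0 n 0) (h₂ : (z₂ : F) ∈ V0 0 n) (h₁₂ : red z₁ = red z₂) :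
    (z₁ : F) ∈ R ∧ ∃ b : O, (b : F) ∈ Rinf ∧ red b = red z₁ := by
  obtain ⟨h₁R, h₁I⟩ := (h.hV0 n 0 _).1 h₁
  obtain ⟨-, h₂I⟩ := (h.hV0 0 n _).1 h₂
  rw [pow_zero, one_mul] at h₁R h₁I
  rw [Nat.add_zero] at h₁I
  rw [Nat.zero_add] at h₂I
  have hxn : ∀ n : ℕ, x⁻¹ ^ n ∈ O := fun n => O.pow_mem h.hxO' n
  have hyn : ∀ n : ℕ, (x - α) ^ n ∈ O := fun n => O.pow_mem h.hyO n
  have hsm : Small A O ((z₁ : F) - (z₂ : F)) := h.small_of_red_eq h₁₂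
  obtain ⟨f₂, hf₂, hf₂O, hw⟩ := h.exists_inf_of_two n (z₁ : F)
    (x⁻¹ ^ n * (z₁ : F)) (x⁻¹ ^ n * ((x - α) ^ n * (z₂ : F)))
    h₁I (O.mul_mem (hxn _) z₁.2) h₂I (O.mul_mem (hxn _) (O.mul_mem (hyn _) z₂.2))
    (by rw [sub_self]; exact small_zero)
    (by
      have e : (x⁻¹ * (x - α)) ^ n * (z₁ : F) - x⁻¹ ^ n * ((x - α) ^ n * (z₂ : F))
          = (x⁻¹ ^ n * (x - α) ^ n) * ((z₁ : F) - (z₂ : F)) := by
        rw [mul_pow]; ring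
      rw [e]
      exact hsm.mem_mul (O.mul_mem (hxn _) (hyn _)))
  refine ⟨h₁R, ⟨f₂, hf₂O⟩, hf₂, ?_⟩
  exact (h.red_eq_of_small (y := z₁) (z := ⟨f₂, hf₂O⟩) hw).symm

/-- **`hP2`, chart form**: if `(x - α)^n₂ s` and `x^-(n₁+n₂) (x - α)^n₂ s` are congruent to
elements of the two chart rings, `s` is congruent to an element of `L(n₁ E₁ + n₂ E₂) ∩ O`. -/
theorem lift_P2 (h : ChartSetup A O red x α R Rinf V0 n₀) (n₁ n₂ : ℕ) (hn : n₀ ≤ n₁ + n₂)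
    (s : O) (f₁ f₂ : O) (hf₁ : (f₁ : F) ∈ R) (hf₂ : (f₂ : F) ∈ Rinf)
    (h₁ : Small A O ((x - α) ^ n₂ * (s : F) - (f₁ : F)))
    (h₂ : Small A O (x⁻¹ ^ (n₁ + n₂) * ((x - α) ^ n₂ * (s : F)) - (f₂ : F))) :
    ∃ r : O, (r : F) ∈ V0 n₁ n₂ ∧ red r = red s := by
  have hyn : ∀ n : ℕ, (x - α) ^ n ∈ O := fun n => O.pow_mem h.hyO n
  obtain ⟨z', z'', hz', hz'', hzz', hred⟩ := h.hsat (n₁ + n₂) hn f₁ f₂ hf₁ hf₂ (by
    intro hx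
    rw [← map_pow, ← map_mul]
    apply h.red_eq_of_small
    have e : ((f₁ : O) : F) - ((⟨x, hx⟩ ^ (n₁ + n₂) * f₂ : O) : F)
        = x ^ (n₁ + n₂) * (x⁻¹ ^ (n₁ + n₂) * ((x - α) ^ n₂ * (s : F)) - (f₂ : F))
          - ((x - α) ^ n₂ * (s : F) - (f₁ : F)) := by
      push_cast
      rw [mul_sub, ← mul_assoc, ← mul_pow, mul_inv_cancel₀ h.hx0, one_pow, one_mul]
      ring
    rw [e]
    exact (h₂.mem_mul (O.pow_mem h.hxO _)).sub h.hOA h₁)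
  refine ⟨⟨(x - α)⁻¹ ^ n₂ * (z' : F), O.mul_mem (O.pow_mem h.hyO' _) z'.2⟩,
    (h.hV0 n₁ n₂ _).2 ⟨?_, ?_⟩, ?_⟩
  · show (x - α) ^ n₂ * ((x - α)⁻¹ ^ n₂ * (z' : F)) ∈ R
    rw [← mul_assoc, ← mul_pow, mul_inv_cancel₀ h.hy0, one_pow, one_mul]
    exact hz'
  · show x⁻¹ ^ (n₁ + n₂) * ((x - α) ^ n₂ * ((x - α)⁻¹ ^ n₂ * (z' : F))) ∈ Rinf
    rw [← mul_assoc ((x - α) ^ n₂), ← mul_pow, mul_inv_cancel₀ h.hy0, one_pow, one_mul,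
      hzz', ← mul_assoc, ← mul_pow, inv_mul_cancel₀ h.hx0, one_pow, one_mul]
    exact hz''
  · apply h.red_eq_of_small
    show Small A O ((x - α)⁻¹ ^ n₂ * (z' : F) - (s : F))
    have hz'f : Small A O ((z' : F) - (f₁ : F)) := h.small_of_red_eq hred
    have e : (x - α)⁻¹ ^ n₂ * (z' : F) - (s : F)
        = (x - α)⁻¹ ^ n₂ * (((z' : F) - (f₁ : F)) - ((x - α) ^ n₂ * (s : F) - (f₁ : F))) := by
      have e' : (x - α)⁻¹ ^ n₂ * ((x - α) ^ n₂ * (s : F)) = (s : F) := by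
        rw [← mul_assoc, ← mul_pow, inv_mul_cancel₀ h.hy0, one_pow, one_mul]
      linear_combination (1 : F) * e'
    rw [e]
    exact (hz'f.sub h.hOA h₁).mem_mul (O.pow_mem h.hyO' _)

/-- **`hP2` from local statements.**  `ϖ ∈ 𝔪_A` (e.g. a uniformiser, or `0`); it is enough to
approximate `d * (x - α)^n₂ s`, `d ∉ 𝔪`, for every maximal ideal `𝔪 ∋ ϖ` of `R ∩ O`, and
`d * x^-(n₁+n₂) (x - α)^n₂ s` for every maximal ideal `𝔪 ∋ ϖ, x⁻¹` of `R∞ ∩ O`. -/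
theorem lift_P2_of_local (h : ChartSetup A O red x α R Rinf V0 n₀)
    (hfin : ∀ b ∈ R, b ∈ O → ∃ k : ℕ, x⁻¹ ^ k * b ∈ Rinf)
    (ϖ : L) (hϖ : A.valuation ϖ < 1)
    (n₁ n₂ : ℕ) (hn : n₀ ≤ n₁ + n₂) (s : O)
    (hloc : ∀ 𝔪 : Ideal ↥(R ⊓ O), 𝔪.IsMaximal →
      (∀ e : ↥(R ⊓ O), (e : F) = algebraMap L F ϖ → e ∈ 𝔪) →
      ∃ d : ↥(R ⊓ O), d ∉ 𝔪 ∧ ∃ b : ↥(R ⊓ O),
        Small A O ((d : F) * ((x - α) ^ n₂ * (s : F)) - (b : F)))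
    (hlocinf : ∀ 𝔪 : Ideal ↥(Rinf ⊓ O), 𝔪.IsMaximal →
      (∀ e : ↥(Rinf ⊓ O), (e : F) = algebraMap L F ϖ → e ∈ 𝔪) →
      (∀ e : ↥(Rinf ⊓ O), (e : F) = x⁻¹ → e ∈ 𝔪) →
      ∃ d : ↥(Rinf ⊓ O), d ∉ 𝔪 ∧ ∃ b : ↥(Rinf ⊓ O),
        Small A O ((d : F) * (x⁻¹ ^ (n₁ + n₂) * ((x - α) ^ n₂ * (s : F))) - (b : F))) :
    ∃ r : O, (r : F) ∈ V0 n₁ n₂ ∧ red r = red s := by
  have hyn : ∀ n : ℕ, (x - α) ^ n ∈ O := fun n => O.pow_mem h.hyO n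
  have hxn : ∀ n : ℕ, x⁻¹ ^ n ∈ O := fun n => O.pow_mem h.hxO' n
  have hϖsmall : ∀ o ∈ O, Small A O (algebraMap L F ϖ * o) := fun o ho =>
    ⟨ϖ, hϖ, o, ho, rfl⟩
  set w₁ : F := (x - α) ^ n₂ * (s : F) with hw₁
  have hw₁O : w₁ ∈ O := O.mul_mem (hyn _) s.2
  set w₂ : F := x⁻¹ ^ (n₁ + n₂) * w₁ with hw₂
  have hw₂O : w₂ ∈ O := O.mul_mem (hxn _) hw₁O
  -- the finite chart
  obtain ⟨f₁, hf₁⟩ : ∃ b : ↥(R ⊓ O), Small A O (w₁ - (b : F)) := by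
    by_cases hϖR : algebraMap L F ϖ ∈ R
    · refine exists_small_sub_of_forall_maximal h.hOA (R ⊓ O) inf_le_right
        ⟨algebraMap L F ϖ, Subring.mem_inf.2 ⟨hϖR, (h.hOA _).2 (A.valuation_le_one_iff _ |>.1
          hϖ.le)⟩⟩ w₁ (hϖsmall _ hw₁O) ?_
      intro 𝔪 h𝔪 hmem
      exact hloc 𝔪 h𝔪 (fun e he => by
        have : e = ⟨algebraMap L F ϖ, Subring.mem_inf.2 ⟨hϖR, (h.hOA _).2
          (A.valuation_le_one_iff _ |>.1 hϖ.le)⟩⟩ := Subtype.ext he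
        rw [this]; exact hmem)
    · refine exists_small_sub_of_forall_maximal h.hOA (R ⊓ O) inf_le_right 0 w₁ (by
        have e : ((0 : ↥(R ⊓ O)) : F) * w₁ = 0 := by push_cast; ring
        rw [e]; exact small_zero) ?_
      intro 𝔪 h𝔪 _
      exact hloc 𝔪 h𝔪 (fun e he => absurd (he ▸ (Subring.mem_inf.1 e.2).1) hϖR)
  -- the chart at infinity
  obtain ⟨k, hk⟩ := hfin (f₁ : F) (Subring.mem_inf.1 f₁.2).1 (Subring.mem_inf.1 f₁.2).2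
  have hx' : x⁻¹ ∈ Rinf ⊓ O := Subring.mem_inf.2 ⟨h.hxRinf, h.hxO'⟩
  have hkey : ∀ 𝔪 : Ideal ↥(Rinf ⊓ O), 𝔪.IsMaximal → (⟨x⁻¹, hx'⟩ : ↥(Rinf ⊓ O)) ∉ 𝔪 →
      ∃ d : ↥(Rinf ⊓ O), d ∉ 𝔪 ∧ ∃ b : ↥(Rinf ⊓ O), Small A O ((d : F) * w₂ - (b : F)) := by
    intro 𝔪 h𝔪 hx𝔪
    refine ⟨⟨x⁻¹, hx'⟩ ^ k, fun hmem => hx𝔪 (h𝔪.isPrime.mem_of_pow_mem k hmem),
      ⟨x⁻¹ ^ (n₁ + n₂) * (x⁻¹ ^ k * (f₁ : F)), Subring.mem_inf.2
        ⟨Rinf.mul_mem (Rinf.pow_mem h.hxRinf _) hk,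
          O.mul_mem (hxn _) (O.mul_mem (hxn _) (Subring.mem_inf.1 f₁.2).2)⟩⟩, ?_⟩
    have e : (((⟨x⁻¹, hx'⟩ : ↥(Rinf ⊓ O)) ^ k : ↥(Rinf ⊓ O)) : F) * w₂
        - x⁻¹ ^ (n₁ + n₂) * (x⁻¹ ^ k * (f₁ : F))
        = (x⁻¹ ^ k * x⁻¹ ^ (n₁ + n₂)) * (w₁ - (f₁ : F)) := by
      push_cast
      rw [hw₂]
      ring
    show Small A O ((((⟨x⁻¹, hx'⟩ : ↥(Rinf ⊓ O)) ^ k : ↥(Rinf ⊓ O)) : F) * w₂
        - x⁻¹ ^ (n₁ + n₂) * (x⁻¹ ^ k * (f₁ : F)))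
    rw [e]
    exact hf₁.mem_mul (O.mul_mem (hxn _) (hxn _))
  obtain ⟨f₂, hf₂⟩ : ∃ b : ↥(Rinf ⊓ O), Small A O (w₂ - (b : F)) := by
    by_cases hϖR : algebraMap L F ϖ ∈ Rinf
    · refine exists_small_sub_of_forall_maximal h.hOA (Rinf ⊓ O) inf_le_right
        ⟨algebraMap L F ϖ, Subring.mem_inf.2 ⟨hϖR, (h.hOA _).2 (A.valuation_le_one_iff _ |>.1
          hϖ.le)⟩⟩ w₂ (hϖsmall _ hw₂O) ?_
      intro 𝔪 h𝔪 hmem
      by_cases hx𝔪 : (⟨x⁻¹, hx'⟩ : ↥(Rinf ⊓ O)) ∈ 𝔪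
      · exact hlocinf 𝔪 h𝔪 (fun e he => by
          have : e = ⟨algebraMap L F ϖ, Subring.mem_inf.2 ⟨hϖR, (h.hOA _).2
            (A.valuation_le_one_iff _ |>.1 hϖ.le)⟩⟩ := Subtype.ext he
          rw [this]; exact hmem) (fun e he => by
          have : e = ⟨x⁻¹, hx'⟩ := Subtype.ext he
          rw [this]; exact hx𝔪)
      · exact hkey 𝔪 h𝔪 hx𝔪
    · refine exists_small_sub_of_forall_maximal h.hOA (Rinf ⊓ O) inf_le_right 0 w₂ (by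
        have e : ((0 : ↥(Rinf ⊓ O)) : F) * w₂ = 0 := by push_cast; ring
        rw [e]; exact small_zero) ?_
      intro 𝔪 h𝔪 _
      by_cases hx𝔪 : (⟨x⁻¹, hx'⟩ : ↥(Rinf ⊓ O)) ∈ 𝔪
      · exact hlocinf 𝔪 h𝔪 (fun e he => absurd (he ▸ (Subring.mem_inf.1 e.2).1) hϖR)
          (fun e he => by
            have : e = ⟨x⁻¹, hx'⟩ := Subtype.ext he
            rw [this]; exact hx𝔪)
      · exact hkey 𝔪 h𝔪 hx𝔪
  exact h.lift_P2 n₁ n₂ hn s ⟨f₁, (Subring.mem_inf.1 f₁.2).2⟩ ⟨f₂, (Subring.mem_inf.1 f₂.2).2⟩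
    (Subring.mem_inf.1 f₁.2).1 (Subring.mem_inf.1 f₂.2).1 hf₁ hf₂

section RedSub

variable {k : Type*} [Field k] [Algebra k Ft]

/-- **`hH2`** of `exists_common_of_redLe`. -/
theorem redSub_H2 (h : ChartSetup A O red x α R Rinf V0 n₀) (π : A →+* k)
    (hπ : Function.Surjective π)
    (hconst : ∀ a : A, red ⟨algebraMap L F (a : L), (h.hOA _).2 a.2⟩ = algebraMap k Ft (π a))
    (K : ℕ) :
    redSub h.hOA red π hπ hconst (V0 K 0) ⊓ redSub h.hOA red π hπ hconst (V0 n₀ K) ≤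
      redSub h.hOA red π hπ hconst (V0 n₀ 0) := by
  rintro t ⟨⟨z₁, hz₁, rfl⟩, ⟨z₂, hz₂, h₂⟩⟩
  obtain ⟨z, hz, hred⟩ := h.lift_H2 K z₁ z₂ hz₁ hz₂ h₂.symm
  exact ⟨z, hz, hred⟩

/-- **`hH2'`** of `exists_common_of_redLe`. -/
theorem redSub_H2' (h : ChartSetup A O red x α R Rinf V0 n₀) (π : A →+* k)
    (hπ : Function.Surjective π)
    (hconst : ∀ a : A, red ⟨algebraMap L F (a : L), (h.hOA _).2 a.2⟩ = algebraMap k Ft (π a))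
    (K : ℕ) :
    redSub h.hOA red π hπ hconst (V0 0 K) ⊓ redSub h.hOA red π hπ hconst (V0 K n₀) ≤
      redSub h.hOA red π hπ hconst (V0 0 n₀) := by
  rintro t ⟨⟨z₁, hz₁, rfl⟩, ⟨z₂, hz₂, h₂⟩⟩
  obtain ⟨z, hz, hred⟩ := h.lift_H2' K z₁ z₂ hz₁ hz₂ h₂.symm
  exact ⟨z, hz, hred⟩

/-- **`hH3`** of `exists_common_of_redLe` from cohomological flatness of the special fibre:
a function on the special fibre regular on both charts is a constant. -/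
theorem redSub_H3 (h : ChartSetup A O red x α R Rinf V0 n₀) (π : A →+* k)
    (hπ : Function.Surjective π)
    (hconst : ∀ a : A, red ⟨algebraMap L F (a : L), (h.hOA _).2 a.2⟩ = algebraMap k Ft (π a))
    (hflat : ∀ b b' : O, (b : F) ∈ R → (b' : F) ∈ Rinf → red b = red b' →
      ∃ c : A, red b = red ⟨algebraMap L F (c : L), (h.hOA _).2 c.2⟩)
    (n : ℕ) :
    redSub h.hOA red π hπ hconst (V0 n 0) ⊓ redSub h.hOA red π hπ hconst (V0 0 n) ≤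
      Submodule.span k {(1 : Ft)} := by
  rintro t ⟨⟨z₁, hz₁, rfl⟩, ⟨z₂, hz₂, h₂⟩⟩
  obtain ⟨hR, b, hb, hred⟩ := h.lift_H3 n z₁ z₂ hz₁ hz₂ h₂.symm
  obtain ⟨c, hc⟩ := hflat z₁ b hR hb hred.symm
  rw [hc, hconst, Algebra.algebraMap_eq_smul_one]
  exact Submodule.smul_mem _ _ (Submodule.subset_span rfl)

/-- **`hP2`** of `exists_common_of_redLe` from the chart-wise approximation property. -/
theorem redSub_P2 (h : ChartSetup A O red x α R Rinf V0 n₀) (π : A →+* k)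
    (hπ : Function.Surjective π)
    (hconst : ∀ a : A, red ⟨algebraMap L F (a : L), (h.hOA _).2 a.2⟩ = algebraMap k Ft (π a))
    (V1 : Submodule L F) (n₁ n₂ : ℕ) (hn : n₀ ≤ n₁ + n₂)
    (happ : ∀ s : O, (s : F) ∈ V1 → ∃ f₁ f₂ : O, (f₁ : F) ∈ R ∧ (f₂ : F) ∈ Rinf ∧
      Small A O ((x - α) ^ n₂ * (s : F) - (f₁ : F)) ∧
      Small A O (x⁻¹ ^ (n₁ + n₂) * ((x - α) ^ n₂ * (s : F)) - (f₂ : F))) :
    redSub h.hOA red π hπ hconst V1 ≤ redSub h.hOA red π hπ hconst (V0 n₁ n₂) := by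
  rintro t ⟨s, hs, rfl⟩
  obtain ⟨f₁, f₂, hf₁, hf₂, h₁, h₂⟩ := happ s hs
  obtain ⟨r, hr, hred⟩ := h.lift_P2 n₁ n₂ hn s f₁ f₂ hf₁ hf₂ h₁ h₂
  exact ⟨r, hr, hred⟩

end RedSub

end ChartSetup

end Fermat.Agent.CAR.Glue
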