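/-
CAR (helper52) — cohomological flatness of a special fibre with one multiple component.

Abstract form of `H⁰(X_k, O_{X_k}) = k` for the special fibre of `X₀(q² M')` over `W`
(components `C_∞`, `C_0` of multiplicity one, `C_mid` of multiplicity `q - 1`).  Pure algebra
inside a field `F` (Mathlib only); no residue maps, only subrings:

* `O` the ring of integral functions, `R ∋ ϖ⁻¹`, `R∞ ∋ ϖ⁻¹` the two charts of the generic fibre,
  `Acon` the constants (`Acon` local with maximal ideal `ϖ Acon`);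
* reduced components: subrings `V i ⊇ O` (`i : ι`, `ι` nonempty) — "`z` vanishes on `C_i`" means
  `ϖ⁻¹ z ∈ V i`;
* the multiple component: a subring `Vm ⊇ O`, `t ∈ Vm` with `t ^ e = ϖ ε`, `ε ∈ Vmˣ`, and
  `t Vm` a prime ideal of `Vm` — "`z` vanishes on `C_m`" means `t⁻¹ z ∈ Vm`;
* `O = Vm ∩ ⋂ V i`;
* every component has only constant global functions (`hconst`, `hconstm`);
* the components have a common point on the first chart: a proper ideal `𝔪₀` of `R ∩ O`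
  containing the centres of all components.

Conclusion (`cohFlat`): `b ∈ R ∩ O`, `b' ∈ R∞ ∩ O`, `b ≡ b' mod ϖ O` ⟹ `b ≡ c mod ϖ O` for a
constant `c`.  This is the hypothesis `hflat` of `ChartSetup.redSub_H3`.

Proof: the constants on the components agree at the common point, so `n = b - c` vanishes on the
reduced fibre.  If `n = t^a v` on `C_m` with `a < e`, then `y = n^e / ϖ^a` is again a function on
the special fibre, regular on both charts, which vanishes on the reduced components and equals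
`ε^a v^e` on `C_m`: it is a constant vanishing at the common point, so `v` vanishes on `C_m`.
-/
import Mathlib

set_option autoImplicit false

namespace Fermat.Agent.CAR.Glue

variable {F : Type*} [Field F]

/-- In a subring `Vm` of a field in which `t Vm` is a proper prime ideal, `t ∣ u ^ k` implies
`t ∣ u`. -/
theorem inv_mul_mem_of_pow (Vm : Subring F) (t : F)
    (htnu : t⁻¹ ∉ Vm)
    (hprime : ∀ u ∈ Vm, ∀ v ∈ Vm, t⁻¹ * (u * v) ∈ Vm → t⁻¹ * u ∈ Vm ∨ t⁻¹ * v ∈ Vm)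
    (u : F) (hu : u ∈ Vm) (k : ℕ) (h : t⁻¹ * u ^ k ∈ Vm) : t⁻¹ * u ∈ Vm := by
  induction k with
  | zero =>
    rw [pow_zero, mul_one] at h
    exact absurd h htnu
  | succ k ih =>
    rw [pow_succ] at h
    rcases hprime _ (Vm.pow_mem hu k) _ hu h with h' | h'
    · exact ih h'
    · exact h'

/-- **Cohomological flatness** for a fibre with reduced components `V i` and one component `Vm`
of multiplicity `e`.  See the file header. -/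
theorem cohFlat
    (O R Rinf Acon : Subring F) (hAO : Acon ≤ O) (hAR : Acon ≤ R) (hARinf : Acon ≤ Rinf)
    (ϖ : F) (hϖ0 : ϖ ≠ 0) (hϖA : ϖ ∈ Acon) (hϖR : ϖ⁻¹ ∈ R) (hϖRinf : ϖ⁻¹ ∈ Rinf)
    (hAloc : ∀ c ∈ Acon, c ≠ 0 → ϖ⁻¹ * c ∈ Acon ∨ c⁻¹ ∈ Acon)
    -- the reduced components
    {ι : Type*} [Nonempty ι] (V : ι → Subring F)
    -- the multiple component
    (Vm : Subring F) (t ε : F) (e : ℕ) (he : 0 < e) (ht0 : t ≠ 0) (ht : t ∈ Vm)
    (hε : ε ∈ Vm) (hε' : ε⁻¹ ∈ Vm) (htε : t ^ e = ϖ * ε)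
    (htnu : t⁻¹ ∉ Vm)
    (hprime : ∀ u ∈ Vm, ∀ v ∈ Vm, t⁻¹ * (u * v) ∈ Vm → t⁻¹ * u ∈ Vm ∨ t⁻¹ * v ∈ Vm)
    (hO : ∀ z : F, z ∈ O ↔ z ∈ Vm ∧ ∀ i, z ∈ V i)
    -- each component has only constant global functions
    (hconst : ∀ i, ∀ b ∈ R, b ∈ O → ∀ b' ∈ Rinf, b' ∈ O → ϖ⁻¹ * (b - b') ∈ V i →
      ∃ c ∈ Acon, ϖ⁻¹ * (b - c) ∈ V i)
    (hconstm : ∀ b ∈ R, b ∈ O → ∀ b' ∈ Rinf, b' ∈ O → t⁻¹ * (b - b') ∈ Vm →
      ∃ c ∈ Acon, t⁻¹ * (b - c) ∈ Vm)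
    -- a common point of all components on the first chart
    (𝔪₀ : Ideal ↥(R ⊓ O)) (h𝔪₀ : 𝔪₀ ≠ ⊤)
    (hcentre : ∀ i, ∀ b : ↥(R ⊓ O), ϖ⁻¹ * (b : F) ∈ V i → b ∈ 𝔪₀)
    (hcentrem : ∀ b : ↥(R ⊓ O), t⁻¹ * (b : F) ∈ Vm → b ∈ 𝔪₀)
    (b : F) (hbR : b ∈ R) (hbO : b ∈ O) (b' : F) (hb'R : b' ∈ Rinf) (hb'O : b' ∈ O)
    (hbb' : ϖ⁻¹ * (b - b') ∈ O) :
    ∃ c ∈ Acon, ϖ⁻¹ * (b - c) ∈ O := by
  classical
  have hOVm : ∀ z ∈ O, z ∈ Vm := fun z hz => ((hO z).1 hz).1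
  have hOV : ∀ i, ∀ z ∈ O, z ∈ V i := fun i z hz => ((hO z).1 hz).2 i
  have hAVm : ∀ c ∈ Acon, c ∈ Vm := fun c hc => hOVm c (hAO hc)
  have hε0 : ε ≠ 0 := by
    rintro rfl
    rw [mul_zero] at htε
    exact ht0 (pow_eq_zero_iff (Nat.pos_iff_ne_zero.1 he) |>.1 htε)
  -- `ϖ = t^e ε⁻¹`, so `t⁻¹ ϖ ∈ Vm`
  have hϖt : ϖ = t ^ e * ε⁻¹ := by
    rw [htε, mul_assoc, mul_inv_cancel₀ hε0, mul_one]
  have htϖ : ∀ j : ℕ, j < e → t⁻¹ ^ j * ϖ = t * (t ^ (e - j - 1) * ε⁻¹) := by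
    intro j hj
    have e1 : t ^ e = t ^ j * (t * t ^ (e - j - 1)) := by
      rw [← pow_succ', ← pow_add]
      congr 1
      omega
    rw [hϖt, e1]
    have e2 : t⁻¹ ^ j * t ^ j = 1 := by rw [← mul_pow, inv_mul_cancel₀ ht0, one_pow]
    calc t⁻¹ ^ j * (t ^ j * (t * t ^ (e - j - 1)) * ε⁻¹)
        = (t⁻¹ ^ j * t ^ j) * (t * (t ^ (e - j - 1) * ε⁻¹)) := by ring
      _ = t * (t ^ (e - j - 1) * ε⁻¹) := by rw [e2, one_mul]
  have htϖ' : ∀ j : ℕ, j < e → ∀ o ∈ Vm, t⁻¹ * (t⁻¹ ^ j * ϖ * o) ∈ Vm := by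
    intro j hj o ho
    rw [htϖ j hj]
    have e3 : t⁻¹ * (t * (t ^ (e - j - 1) * ε⁻¹) * o) = (t⁻¹ * t) * (t ^ (e - j - 1) * ε⁻¹ * o) := by
      ring
    rw [e3, inv_mul_cancel₀ ht0, one_mul]
    exact Vm.mul_mem (Vm.mul_mem (Vm.pow_mem ht _) hε') ho
  -- constants in `𝔪₀` vanish on every component
  have hconst𝔪 : ∀ c (hc : c ∈ Acon), (⟨c, Subring.mem_inf.2 ⟨hAR hc, hAO hc⟩⟩ : ↥(R ⊓ O)) ∈ 𝔪₀ →
      c = 0 ∨ ϖ⁻¹ * c ∈ Acon := by
    intro c hc hmem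
    by_cases hc0 : c = 0
    · exact Or.inl hc0
    rcases hAloc c hc hc0 with h | h
    · exact Or.inr h
    · exfalso
      apply h𝔪₀
      rw [Ideal.eq_top_iff_one]
      have := 𝔪₀.mul_mem_left (⟨c⁻¹, Subring.mem_inf.2 ⟨hAR h, hAO h⟩⟩ : ↥(R ⊓ O)) hmem
      have e1 : (⟨c⁻¹, Subring.mem_inf.2 ⟨hAR h, hAO h⟩⟩ : ↥(R ⊓ O))
          * ⟨c, Subring.mem_inf.2 ⟨hAR hc, hAO hc⟩⟩ = 1 := Subtype.ext (inv_mul_cancel₀ hc0)
      rwa [e1] at this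
  have hconst𝔪V : ∀ c (hc : c ∈ Acon),
      (⟨c, Subring.mem_inf.2 ⟨hAR hc, hAO hc⟩⟩ : ↥(R ⊓ O)) ∈ 𝔪₀ → ∀ i, ϖ⁻¹ * c ∈ V i := by
    intro c hc hmem i
    rcases hconst𝔪 c hc hmem with rfl | h
    · rw [mul_zero]; exact (V i).zero_mem
    · exact hOV i _ (hAO h)
  have hconst𝔪m : ∀ c (hc : c ∈ Acon),
      (⟨c, Subring.mem_inf.2 ⟨hAR hc, hAO hc⟩⟩ : ↥(R ⊓ O)) ∈ 𝔪₀ → t⁻¹ * c ∈ Vm := by
    intro c hc hmem
    rcases hconst𝔪 c hc hmem with rfl | h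
    · rw [mul_zero]; exact Vm.zero_mem
    · have := htϖ' 0 he _ (hAVm _ h)
      rw [pow_zero, one_mul, ← mul_assoc ϖ, mul_inv_cancel₀ hϖ0, one_mul] at this
      exact this
  -- Step 1: the constant on the multiple component
  have hbb'm : t⁻¹ * (b - b') ∈ Vm := by
    have := htϖ' 0 he _ (hOVm _ hbb')
    rw [pow_zero, one_mul, ← mul_assoc ϖ, mul_inv_cancel₀ hϖ0, one_mul] at this
    exact this
  obtain ⟨c, hc, hcm⟩ := hconstm b hbR hbO b' hb'R hb'O hbb'm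
  refine ⟨c, hc, ?_⟩
  set n : F := b - c with hn
  have hnR : n ∈ R := R.sub_mem hbR (hAR hc)
  have hnO : n ∈ O := O.sub_mem hbO (hAO hc)
  set n' : F := b' - c with hn'
  have hn'R : n' ∈ Rinf := Rinf.sub_mem hb'R (hARinf hc)
  have hn'O : n' ∈ O := O.sub_mem hb'O (hAO hc)
  have hnn' : ϖ⁻¹ * (n - n') ∈ O := by
    have : n - n' = b - b' := by rw [hn, hn']; ring
    rw [this]; exact hbb'
  have hnB𝔪 : (⟨n, Subring.mem_inf.2 ⟨hnR, hnO⟩⟩ : ↥(R ⊓ O)) ∈ 𝔪₀ := hcentrem _ hcm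
  -- Step 2: `n` vanishes on the reduced components
  have hnV : ∀ i, ϖ⁻¹ * n ∈ V i := by
    intro i
    obtain ⟨ci, hci, hcii⟩ := hconst i b hbR hbO b' hb'R hb'O (hOV i _ hbb')
    have h1 : (⟨b - ci, Subring.mem_inf.2 ⟨R.sub_mem hbR (hAR hci), O.sub_mem hbO (hAO hci)⟩⟩ :
        ↥(R ⊓ O)) ∈ 𝔪₀ := hcentre i _ hcii
    have h2 : (⟨ci - c, Subring.mem_inf.2 ⟨hAR (Acon.sub_mem hci hc),
        hAO (Acon.sub_mem hci hc)⟩⟩ : ↥(R ⊓ O)) ∈ 𝔪₀ := by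
      have := 𝔪₀.sub_mem hnB𝔪 h1
      have e1 : (⟨n, Subring.mem_inf.2 ⟨hnR, hnO⟩⟩ : ↥(R ⊓ O))
          - ⟨b - ci, Subring.mem_inf.2 ⟨R.sub_mem hbR (hAR hci), O.sub_mem hbO (hAO hci)⟩⟩
          = ⟨ci - c, Subring.mem_inf.2 ⟨hAR (Acon.sub_mem hci hc),
            hAO (Acon.sub_mem hci hc)⟩⟩ := by
        apply Subtype.ext
        show n - (b - ci) = ci - c
        rw [hn]; ring
      rwa [e1] at this
    have h3 := hconst𝔪V _ (Acon.sub_mem hci hc) h2 i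
    have e2 : ϖ⁻¹ * n = ϖ⁻¹ * (b - ci) + ϖ⁻¹ * (ci - c) := by rw [hn]; ring
    rw [e2]
    exact (V i).add_mem hcii h3
  have hn'V : ∀ i, ϖ⁻¹ * n' ∈ V i := by
    intro i
    have e2 : ϖ⁻¹ * n' = ϖ⁻¹ * n - ϖ⁻¹ * (n - n') := by ring
    rw [e2]
    exact (V i).sub_mem (hnV i) (hOV i _ hnn')
  have hϖV : ∀ i, ϖ ∈ V i := fun i => hOV i _ (hAO hϖA)
  -- Step 3: the power trick on the multiple component
  have key : ∀ a : ℕ, a ≤ e → t⁻¹ ^ a * n ∈ Vm := by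
    intro a
    induction a with
    | zero => intro _; rw [pow_zero, one_mul]; exact hOVm _ hnO
    | succ a ih =>
      intro hae
      have ha : a < e := hae
      have hv := ih ha.le
      set v : F := t⁻¹ ^ a * n with hv_def
      have hnv : n = t ^ a * v := by
        rw [hv_def, ← mul_assoc, ← mul_pow, mul_inv_cancel₀ ht0, one_pow, one_mul]
      -- `v' = t^-a n'`
      set o : F := ϖ⁻¹ * (n - n') with ho_def
      have hoVm : o ∈ Vm := hOVm _ hnn'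
      have hn'n : n' = n - ϖ * o := by
        rw [ho_def, ← mul_assoc, mul_inv_cancel₀ hϖ0, one_mul]; ring
      set v' : F := t⁻¹ ^ a * n' with hv'_def
      have hvv' : v - v' = t * (t ^ (e - a - 1) * ε⁻¹ * o) := by
        rw [hv_def, hv'_def, hn'n]
        have := htϖ a ha
        calc t⁻¹ ^ a * n - t⁻¹ ^ a * (n - ϖ * o) = (t⁻¹ ^ a * ϖ) * o := by ring
          _ = t * (t ^ (e - a - 1) * ε⁻¹ * o) := by rw [this]; ring
      have hwVm : t ^ (e - a - 1) * ε⁻¹ * o ∈ Vm :=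
        Vm.mul_mem (Vm.mul_mem (Vm.pow_mem ht _) hε') hoVm
      have hv' : v' ∈ Vm := by
        have e1 : v' = v - t * (t ^ (e - a - 1) * ε⁻¹ * o) := by rw [← hvv']; ring
        rw [e1]
        exact Vm.sub_mem hv (Vm.mul_mem ht hwVm)
      have hn'v : n' = t ^ a * v' := by
        rw [hv'_def, ← mul_assoc, ← mul_pow, mul_inv_cancel₀ ht0, one_pow, one_mul]
      -- the functions `y = n^e / ϖ^a`, `y' = n'^e / ϖ^a`
      have hpow : ∀ z w : F, z = t ^ a * w → ϖ⁻¹ ^ a * z ^ e = ε ^ a * w ^ e := by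
        intro z w hz
        have e1 : (t ^ a * w) ^ e = (t ^ e) ^ a * w ^ e := by ring
        rw [hz, e1, htε, mul_pow, ← mul_assoc, ← mul_assoc, ← mul_pow, inv_mul_cancel₀ hϖ0,
          one_pow, one_mul]
      have hpowV : ∀ i, ∀ z : F, ϖ⁻¹ * z ∈ V i → ϖ⁻¹ * (ϖ⁻¹ ^ a * z ^ e) ∈ V i := by
        intro i z hz
        have e1 : ϖ⁻¹ * (ϖ⁻¹ ^ a * z ^ e) = ϖ ^ (e - a - 1) * (ϖ⁻¹ * z) ^ e := by
          have e2 : (ϖ⁻¹ * z) ^ e = ϖ⁻¹ ^ (a + 1 + (e - a - 1)) * z ^ e := by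
            rw [mul_pow]
            congr 2
            omega
          rw [e2, pow_add]
          have e3 : ϖ ^ (e - a - 1) * ϖ⁻¹ ^ (e - a - 1) = 1 := by
            rw [← mul_pow, mul_inv_cancel₀ hϖ0, one_pow]
          calc ϖ⁻¹ * (ϖ⁻¹ ^ a * z ^ e) = ϖ⁻¹ ^ (a + 1) * z ^ e := by ring
            _ = (ϖ ^ (e - a - 1) * ϖ⁻¹ ^ (e - a - 1)) * (ϖ⁻¹ ^ (a + 1) * z ^ e) := by
              rw [e3, one_mul]
            _ = ϖ ^ (e - a - 1) * (ϖ⁻¹ ^ (a + 1) * ϖ⁻¹ ^ (e - a - 1) * z ^ e) := by ring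
        rw [e1]
        exact (V i).mul_mem ((V i).pow_mem (hϖV i) _) ((V i).pow_mem hz _)
      have hmemV : ∀ i, ∀ z : F, ϖ⁻¹ * z ∈ V i → ϖ⁻¹ ^ a * z ^ e ∈ V i := by
        intro i z hz
        have := (V i).mul_mem (hϖV i) (hpowV i z hz)
        rwa [← mul_assoc, mul_inv_cancel₀ hϖ0, one_mul] at this
      set y : F := ϖ⁻¹ ^ a * n ^ e with hy_def
      set y' : F := ϖ⁻¹ ^ a * n' ^ e with hy'_def
      have hyε : y = ε ^ a * v ^ e := hpow n v hnv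
      have hy'ε : y' = ε ^ a * v' ^ e := hpow n' v' hn'v
      have hyO : y ∈ O := (hO y).2 ⟨by
        rw [hyε]; exact Vm.mul_mem (Vm.pow_mem hε _) (Vm.pow_mem hv _), fun i => hmemV i n (hnV i)⟩
      have hy'O : y' ∈ O := (hO y').2 ⟨by
        rw [hy'ε]; exact Vm.mul_mem (Vm.pow_mem hε _) (Vm.pow_mem hv' _),
        fun i => hmemV i n' (hn'V i)⟩
      have hyR : y ∈ R := R.mul_mem (R.pow_mem hϖR _) (R.pow_mem hnR _)
      have hy'R : y' ∈ Rinf := Rinf.mul_mem (Rinf.pow_mem hϖRinf _) (Rinf.pow_mem hn'R _)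
      -- `y ≡ y'` on the multiple component
      have hyy' : t⁻¹ * (y - y') ∈ Vm := by
        obtain ⟨w, hw⟩ := sub_dvd_pow_sub_pow (⟨v, hv⟩ : ↥Vm) ⟨v', hv'⟩ e
        have hwF : v ^ e - v' ^ e = (v - v') * (w : F) := by
          have := congrArg (Subtype.val : ↥Vm → F) hw
          push_cast at this
          exact this
        have e1 : t⁻¹ * (y - y') = ε ^ a * ((t ^ (e - a - 1) * ε⁻¹ * o) * (w : F)) := by
          rw [hyε, hy'ε, ← mul_sub, hwF, hvv']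
          have e2 : t⁻¹ * (ε ^ a * (t * (t ^ (e - a - 1) * ε⁻¹ * o) * (w : F)))
              = (t⁻¹ * t) * (ε ^ a * ((t ^ (e - a - 1) * ε⁻¹ * o) * (w : F))) := by ring
          rw [e2, inv_mul_cancel₀ ht0, one_mul]
        rw [e1]
        exact Vm.mul_mem (Vm.pow_mem hε _) (Vm.mul_mem hwVm w.2)
      obtain ⟨c', hc', hc'm⟩ := hconstm y hyR hyO y' hy'R hy'O hyy'
      -- the constant `c'` vanishes at the common point
      obtain ⟨i⟩ := ‹Nonempty ι›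
      have h1 : (⟨y, Subring.mem_inf.2 ⟨hyR, hyO⟩⟩ : ↥(R ⊓ O)) ∈ 𝔪₀ :=
        hcentre i _ (hpowV i n (hnV i))
      have h2 : (⟨y - c', Subring.mem_inf.2 ⟨R.sub_mem hyR (hAR hc'),
          O.sub_mem hyO (hAO hc')⟩⟩ : ↥(R ⊓ O)) ∈ 𝔪₀ := hcentrem _ hc'm
      have h3 : (⟨c', Subring.mem_inf.2 ⟨hAR hc', hAO hc'⟩⟩ : ↥(R ⊓ O)) ∈ 𝔪₀ := by
        have := 𝔪₀.sub_mem h1 h2
        have e1 : (⟨y, Subring.mem_inf.2 ⟨hyR, hyO⟩⟩ : ↥(R ⊓ O))
            - ⟨y - c', Subring.mem_inf.2 ⟨R.sub_mem hyR (hAR hc'), O.sub_mem hyO (hAO hc')⟩⟩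
            = ⟨c', Subring.mem_inf.2 ⟨hAR hc', hAO hc'⟩⟩ := by
          apply Subtype.ext
          show y - (y - c') = c'
          ring
        rwa [e1] at this
      have h4 : t⁻¹ * y ∈ Vm := by
        have e1 : t⁻¹ * y = t⁻¹ * (y - c') + t⁻¹ * c' := by ring
        rw [e1]
        exact Vm.add_mem hc'm (hconst𝔪m c' hc' h3)
      -- hence `t ∣ v`
      rw [hyε] at h4
      have h5 : t⁻¹ * v ∈ Vm := by
        rcases hprime _ (Vm.pow_mem hε _) _ (Vm.pow_mem hv _) h4 with h | h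
        · exfalso
          have := inv_mul_mem_of_pow Vm t htnu hprime ε hε a h
          apply htnu
          have e1 : t⁻¹ = (t⁻¹ * ε) * ε⁻¹ := by
            rw [mul_assoc, mul_inv_cancel₀ hε0, mul_one]
          rw [e1]
          exact Vm.mul_mem this hε'
        · exact inv_mul_mem_of_pow Vm t htnu hprime v hv e h
      have e1 : t⁻¹ ^ (a + 1) * n = t⁻¹ * v := by rw [hv_def, pow_succ]; ring
      rw [e1]
      exact h5
  -- conclusion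
  refine (hO _).2 ⟨?_, hnV⟩
  have e1 : ϖ⁻¹ * n = ε * (t⁻¹ ^ e * n) := by
    have e2 : ϖ⁻¹ = ε * t⁻¹ ^ e := by
      rw [inv_pow, htε, mul_inv, ← mul_assoc, mul_comm ε, mul_assoc, mul_inv_cancel₀ hε0, mul_one]
    rw [e2]; ring
  rw [e1]
  exact Vm.mul_mem hε (key e le_rfl)

end Fermat.Agent.CAR.Glue
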