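/-
CAR (helper52) — the deformation argument from an inclusion of reduced lattices.

Abstract form of the endgame of CAR-CORE (and of BAD-U): `L ⊆ F` fields, `A` a valuation
subring of `L` with residue field `k`, `O` a subring of `F` (for CAR: `L = K₀`, `A = W` a DVR,
`O` the tri-integral functions, so `Small A O y ↔ y ∈ q • O`: the FULL non-reduced fibre),
`red : O → Ft` with kernel `Small A O`.

Two families of `L`-subspaces of `F`: `V0 n₁ n₂ = L(n₁ E₁ + n₂ E₂)` and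
`V1 n₁ n₂ = L(D + n₁ E₁ + n₂ E₂)`, `m D = div f1`, `f1 ≡ 1`.

`exists_common_of_redLe` : if
* `hP2`  : `red (V1 n₁ n₂ ∩ O) ⊆ red (V0 n₁ n₂ ∩ O)` (the LOCAL input: sections of `O(D)` reduce
  to regular functions — `LocalCore.exists_sub_mem_span_of_glue_section` at every closed point,
  `LocalCore.mem_of_forall_maximal`, and saturation `BAD.Saturation.sat_charts`),
* `hH2`, `hH2'`, `hH3` : the `H⁰`-statements of the special fibre, stated on the reductions of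
  `V0` directly (`hH3` = cohomological flatness `H⁰(fibre, O) = k`),
* `HasOrtho` (lattices) and Riemann–Roch `dim V1 = dim V0`,
then there is a nonzero `s ∈ V1 n₀ 0 ⊓ V1 0 n₀`, i.e. `D` is principal.

This is `BAD.Nodal.exists_common_of_nodal` (helper22) with its steps (P1)/(P2) replaced by the
hypothesis `hP2`; the proof of the last step is his, verbatim.
-/
import Mathlib
import Fermat.Agent.Lib.Red.Deform
import Fermat.Agent.Lib.Red.CoordLat
import Fermat.Agent.Lib.Red.CoordLatRed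
import Fermat.Agent.Lib.Red.CoordOrtho

set_option autoImplicit false

namespace Fermat.Agent.CAR.Glue

open Fermat.Agent.Lib.Red.Deform Fermat.Agent.Lib.Red.CoordLat

variable {L F : Type*} [Field L] [Field F] [Algebra L F]
variable {A : ValuationSubring L} {O : Subring F}
variable {k Ft : Type*} [Field k] [CommRing Ft] [Algebra k Ft]

/-- The reduction of a lattice with an orthonormal basis is finite-dimensional. -/
theorem finiteDimensional_redSub {V : Submodule L F} (h : HasOrtho A O V)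
    (hOA : ∀ x : L, algebraMap L F x ∈ O ↔ x ∈ A) (red : O →+* Ft) (π : A →+* k)
    (hπ : Function.Surjective π)
    (hconst : ∀ a : A, red ⟨algebraMap L F (a : L), (hOA _).2 a.2⟩ = algebraMap k Ft (π a)) :
    FiniteDimensional k (redSub hOA red π hπ hconst V) := by
  classical
  obtain ⟨n, b, -, rfl, hbO, hint⟩ := h
  have hle : redSub hOA red π hπ hconst (Submodule.span L (Set.range b)) ≤
      Submodule.span k (Set.range fun i : Fin n => red ⟨b i, hbO i⟩) := by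
    rintro t ⟨y, hy, rfl⟩
    obtain ⟨c, hc⟩ := (Submodule.mem_span_range_iff_exists_fun L).1 hy
    have hcA : ∀ i, c i ∈ A := hint c (by rw [hc]; exact y.2)
    have hyO : y = ∑ i, (⟨algebraMap L F (c i), (hOA _).2 (hcA i)⟩ : O) * ⟨b i, hbO i⟩ := by
      apply Subtype.ext
      rw [← hc, AddSubmonoidClass.coe_finsetSum]
      refine Finset.sum_congr rfl fun i _ => ?_
      rw [Algebra.smul_def]
      rfl
    rw [hyO, map_sum]
    refine Submodule.sum_mem _ fun i _ => ?_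
    rw [map_mul, hconst ⟨c i, hcA i⟩, ← Algebra.smul_def]
    exact Submodule.smul_mem _ _ (Submodule.subset_span ⟨i, rfl⟩)
  have : FiniteDimensional k
      (Submodule.span k (Set.range fun i : Fin n => red ⟨b i, hbO i⟩)) :=
    FiniteDimensional.span_of_finite k (Set.finite_range _)
  exact Submodule.finiteDimensional_of_le hle

/-- **Deformation from an inclusion of reduced lattices.**  See the file header. -/
theorem exists_common_of_redLe
    (hOA : ∀ x : L, algebraMap L F x ∈ O ↔ x ∈ A)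
    (hval : ∀ y : F, y ≠ 0 → ∃ c : L, c ≠ 0 ∧ algebraMap L F c * y ∈ O ∧
      ¬ Small A O (algebraMap L F c * y))
    (harch : ∀ a Δ : L, A.valuation a < 1 → Δ ≠ 0 →
      ∃ n : ℕ, A.valuation (a ^ n) < A.valuation Δ)
    (red : O →+* Ft) (π : A →+* k) (hπ : Function.Surjective π)
    (hπker : ∀ a : A, π a = 0 ↔ A.valuation (a : L) < 1)
    (hconst : ∀ a : A, red ⟨algebraMap L F (a : L), (hOA _).2 a.2⟩ = algebraMap k Ft (π a))
    (hker : ∀ y : O, red y = 0 ↔ Small A O (y : F))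
    (m : ℕ) (hm : A.valuation (m : L) = 1) (n₀ : ℕ)
    -- the two families of Riemann–Roch spaces
    (V0 V1 : ℕ → ℕ → Submodule L F)
    (hmono0 : ∀ n₁ n₂ n₁' n₂', n₁ ≤ n₁' → n₂ ≤ n₂' → V0 n₁ n₂ ≤ V0 n₁' n₂')
    (hmono1 : ∀ n₁ n₂ n₁' n₂', n₁ ≤ n₁' → n₂ ≤ n₂' → V1 n₁ n₂ ≤ V1 n₁' n₂')
    (hone : (1 : F) ∈ V0 0 0)
    (hlat0 : ∀ n₁ n₂, HasOrtho A O (V0 n₁ n₂))
    (hlat1 : ∀ n₁ n₂, HasOrtho A O (V1 n₁ n₂))
    (hRR1 : ∀ n₁ n₂, n₀ ≤ n₁ + n₂ →
      Module.finrank L (V1 n₁ n₂) = Module.finrank L (V0 n₁ n₂))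
    (hmul10 : ∀ n₁ n₂ n₁' n₂', ∀ s ∈ V1 n₁ n₂, ∀ η ∈ V0 n₁' n₂',
      s * η ∈ V1 (n₁ + n₁') (n₂ + n₂'))
    -- the Kummer generator
    (f1 : F) (hf1 : Small A O (f1 - 1))
    (hpow1 : ∀ n₁ n₂, ∀ s ∈ V1 n₁ n₂, s ^ m * f1 ∈ V0 (m * n₁) (m * n₂))
    -- the special fibre: `H⁰` statements on the reductions of `V0`
    (hH2 : ∀ K, n₀ ≤ K →
      redSub hOA red π hπ hconst (V0 K 0) ⊓ redSub hOA red π hπ hconst (V0 n₀ K) ≤
        redSub hOA red π hπ hconst (V0 n₀ 0))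
    (hH2' : ∀ K, n₀ ≤ K →
      redSub hOA red π hπ hconst (V0 0 K) ⊓ redSub hOA red π hπ hconst (V0 K n₀) ≤
        redSub hOA red π hπ hconst (V0 0 n₀))
    (hH3 : ∀ n, redSub hOA red π hπ hconst (V0 n 0) ⊓ redSub hOA red π hπ hconst (V0 0 n) ≤
      Submodule.span k {(1 : Ft)})
    -- the local input: sections of `O(D)` reduce to regular functions
    (hP2 : ∀ n₁ n₂, n₀ ≤ n₁ + n₂ →
      redSub hOA red π hπ hconst (V1 n₁ n₂) ≤ redSub hOA red π hπ hconst (V0 n₁ n₂)) :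
    ∃ s ∈ V1 n₀ 0, s ∈ V1 0 n₀ ∧ s ≠ 0 := by
  classical
  have hredsmall : ∀ y z : O, Small A O ((y : F) - (z : F)) → red y = red z := by
    intro y z h
    have : red (y - z) = 0 := (hker _).2 h
    rwa [map_sub, sub_eq_zero] at this
  have hsmallred : ∀ y z : O, red y = red z → Small A O ((y : F) - (z : F)) := by
    intro y z h
    have : red (y - z) = 0 := by rw [map_sub, h, sub_self]
    exact (hker _).1 this
  set R : Submodule L F → Submodule k Ft := fun V => redSub hOA red π hπ hconst V with hR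
  have hP2eq : ∀ n₁ n₂, n₀ ≤ n₁ + n₂ → R (V1 n₁ n₂) = R (V0 n₁ n₂) := by
    intro n₁ n₂ hl
    have : FiniteDimensional k (R (V0 n₁ n₂)) :=
      finiteDimensional_redSub (hlat0 n₁ n₂) hOA red π hπ hconst
    apply Submodule.eq_of_le_of_finrank_eq (hP2 n₁ n₂ hl)
    have e1 : Module.finrank k (R (V1 n₁ n₂)) = Module.finrank L (V1 n₁ n₂) :=
      (hlat1 n₁ n₂).finrank_redSub hOA red π hπ hπker hconst hker
    have e2 : Module.finrank k (R (V0 n₁ n₂)) = Module.finrank L (V0 n₁ n₂) :=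
      (hlat0 n₁ n₂).finrank_redSub hOA red π hπ hπker hconst hker
    rw [e1, hRR1 n₁ n₂ hl, ← e2]
  refine exists_common_ne_zero hOA hval harch m hm V0 V1 hmono0 hmono1 hone f1 hf1 hpow1 hmul10
    n₀ ?_ ?_ ?_ ?_ ?_ ?_ ?_ ?_
  · -- hBA0
    intro n x hx
    have h1 : Submodule.span L {(1 : F)} ≤ V0 n 0 := by
      rw [Submodule.span_le, Set.singleton_subset_iff]
      exact hmono0 0 0 n 0 (Nat.zero_le _) le_rfl hone
    obtain ⟨x₀, hx₀, h⟩ := (hlat0 n 0).exists_best_dvd hOA _ h1 x hx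
    obtain ⟨c, rfl⟩ := Submodule.mem_span_singleton.1 hx₀
    refine ⟨c, fun c' a hd => ?_⟩
    have := h (algebraMap L F c')
      (Submodule.mem_span_singleton.2 ⟨c', by rw [Algebra.smul_def, mul_one]⟩) a hd
    rwa [Algebra.smul_def, mul_one] at this
  · -- hBA1
    intro K hK x hx
    exact (hlat1 K 0).exists_best_dvd hOA (V1 n₀ 0) (hmono1 _ _ _ _ hK le_rfl) x hx
  · -- hBA1'
    intro K hK x hx
    exact (hlat1 0 K).exists_best_dvd hOA (V1 0 n₀) (hmono1 _ _ _ _ le_rfl hK) x hx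
  · -- hres0
    intro n u₁ hu₁ u₂ hu₂ hu₁O hsm
    have hu₂O : u₂ ∈ O := by
      have := O.sub_mem hu₁O (hsm.mem hOA)
      rwa [sub_sub_cancel] at this
    have h1 : red ⟨u₁, hu₁O⟩ ∈ R (V0 n 0) := ⟨_, hu₁, rfl⟩
    have h2 : red ⟨u₁, hu₁O⟩ ∈ R (V0 0 n) := by
      rw [hredsmall ⟨u₁, hu₁O⟩ ⟨u₂, hu₂O⟩ hsm]
      exact ⟨_, hu₂, rfl⟩
    obtain ⟨κ, hκ⟩ := Submodule.mem_span_singleton.1 (hH3 n ⟨h1, h2⟩)
    obtain ⟨a, rfl⟩ := hπ κ
    refine ⟨(a : L), ?_⟩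
    exact hsmallred ⟨u₁, hu₁O⟩ ⟨algebraMap L F a, (hOA _).2 a.2⟩
      (by rw [hconst, ← hκ, Algebra.smul_def, mul_one])
  · -- hres1
    intro K hK u₁ hu₁ u₂ hu₂ hu₁O hsm
    have hu₂O : u₂ ∈ O := by
      have := O.sub_mem hu₁O (hsm.mem hOA)
      rwa [sub_sub_cancel] at this
    have h1 : red ⟨u₁, hu₁O⟩ ∈ R (V0 K 0) := hP2 K 0 (by omega) ⟨_, hu₁, rfl⟩
    have h2 : red ⟨u₁, hu₁O⟩ ∈ R (V0 n₀ K) := by
      rw [hredsmall ⟨u₁, hu₁O⟩ ⟨u₂, hu₂O⟩ hsm]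
      exact hP2 n₀ K (by omega) ⟨_, hu₂, rfl⟩
    have h3 : red ⟨u₁, hu₁O⟩ ∈ R (V1 n₀ 0) := by
      rw [hP2eq n₀ 0 (by omega)]
      exact hH2 K hK ⟨h1, h2⟩
    obtain ⟨u₀, hu₀, hu₀red⟩ := h3
    exact ⟨u₀, hu₀, hsmallred ⟨u₁, hu₁O⟩ u₀ hu₀red.symm⟩
  · -- hres1'
    intro K hK u₁ hu₁ u₂ hu₂ hu₁O hsm
    have hu₂O : u₂ ∈ O := by
      have := O.sub_mem hu₁O (hsm.mem hOA)
      rwa [sub_sub_cancel] at this
    have h1 : red ⟨u₁, hu₁O⟩ ∈ R (V0 0 K) := hP2 0 K (by omega) ⟨_, hu₁, rfl⟩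
    have h2 : red ⟨u₁, hu₁O⟩ ∈ R (V0 K n₀) := by
      rw [hredsmall ⟨u₁, hu₁O⟩ ⟨u₂, hu₂O⟩ hsm]
      exact hP2 K n₀ (by omega) ⟨_, hu₂, rfl⟩
    have h3 : red ⟨u₁, hu₁O⟩ ∈ R (V1 0 n₀) := by
      rw [hP2eq 0 n₀ (by omega)]
      exact hH2' K hK ⟨h1, h2⟩
    obtain ⟨u₀, hu₀, hu₀red⟩ := h3
    exact ⟨u₀, hu₀, hsmallred ⟨u₁, hu₁O⟩ u₀ hu₀red.symm⟩
  · -- hstart
    have h1 : (1 : Ft) ∈ R (V1 n₀ 0) := by
      rw [hP2eq n₀ 0 (by omega)]
      exact ⟨1, hmono0 0 0 n₀ 0 (Nat.zero_le _) le_rfl hone, map_one red⟩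
    have h2 : (1 : Ft) ∈ R (V1 0 n₀) := by
      rw [hP2eq 0 n₀ (by omega)]
      exact ⟨1, hmono0 0 0 0 n₀ le_rfl (Nat.zero_le _) hone, map_one red⟩
    obtain ⟨s₁, hs₁, hs₁red⟩ := h1
    obtain ⟨s₂, hs₂, hs₂red⟩ := h2
    refine ⟨s₁, hs₁, s₂, hs₂, ?_, ?_⟩
    · exact hsmallred s₁ 1 (by rw [hs₁red, map_one])
    · exact hsmallred s₂ 1 (by rw [hs₂red, map_one])
  · -- hangle
    intro hzero
    exact (hlat1 n₀ n₀).exists_angle_dvd hOA (V1 n₀ 0) (V1 0 n₀)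
      (hmono1 _ _ _ _ le_rfl (Nat.zero_le _)) (hmono1 _ _ _ _ (Nat.zero_le _) le_rfl)
      (by
        rw [eq_bot_iff]
        rintro s ⟨h1, h2⟩
        exact (Submodule.mem_bot L).2 (hzero s h1 h2))

end Fermat.Agent.CAR.Glue
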