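/-
CAR-13 (helper75), addendum: the gluing condition of `LocalStart.lean` in the VALUE vocabulary of
CAR-14 (helper64's `NodeUnits.HasVal res V y c`, helper40's `NodeNorm`).

Setting of `LocalStart.lean` (chart ring `A`, vertical valuation rings `O i`, a point `P` with
its branch data `red i`, `Vs i`), plus constants `W → A` with a residue map `res : W → k` such
that `P` is a `k`-rational point (`NodeUnits.IsRatPoint res P`).

* `isOver_composite` : the composite ring `(O i, Vs i)` of a branch through `P` lies over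
  `(W, res)`.
* `glue_of_hasVal` : if `h⁻¹` takes ONE value `γ ∈ k` at the composite rings of all branches
  through `P`, the gluing condition of `exists_local_pair` holds (with a constant `c`).
* `hasVal_inv_mul_pow` : the value of `(h ^ e * φ)⁻¹` from the values of `h⁻¹` and `φ`.
* `hglue_of_hasVal_kill` (**killing**): `f₃ = u * h ^ m` at `P` with values `c i` of `h⁻¹` on the
  branches; `φ` with values `ρ i ≠ 0`; if `c i ^ e = γ * ρ i` for one `γ` (the `e`-th powers of
  the gluing ratios are the ratios of the `ρ i`), then EVERY factorisation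
  `f₃ ^ e * φ ^ m = u' * h' ^ m` at `P` satisfies the gluing condition: this is literally the
  hypothesis `hglue` of `hlocal_at_point` / `hlocalV_at_point` for `f := f₃ ^ e * φ ^ m`.
* `hglue_of_hasVal` : the same without killing (`e = 1`, `φ = 1`).
-/
import Mathlib
import Fermat.Agent.CAR.Glue.LocalStart
import Fermat.Agent.CAR.Glue.NodeUnits

set_option autoImplicit false

namespace Fermat.Agent.CAR.Glue.LStart

open IsLocalRing Fermat.Agent.CAR.Local Fermat.Agent.CAR.Glue.NodeUnits

section GlueVal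

variable {A F : Type*} [CommRing A] [IsDomain A] [Field F] [Algebra A F] [IsFractionRing A F]
  {ι : Type*} (O : ι → ValuationSubring F) (hAO : ∀ i a, algebraMap A F a ∈ O i)
  (P : Ideal A) [P.IsPrime]
  {κ : ι → Type*} [∀ i, Field (κ i)] (red : ∀ i, O i →+* κ i)
  (hred : ∀ i, ∀ x : O i, red i x = 0 ↔ x ∈ maximalIdeal (O i))
  (Vs : ∀ i, ValuationSubring (κ i))
  {W k : Type*} [CommRing W] [Field k] (res : W →+* k) [Algebra W A] [Algebra W F]
  [IsScalarTower W A F]

omit [IsDomain A] [IsFractionRing A F] [P.IsPrime] in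
/-- The composite ring of a branch through a `k`-rational point lies over `(W, res)`. -/
theorem isOver_composite
    (hbr : ∀ i, centre (O i) (hAO i) ≤ P →
      ∃ hA : ∀ a : A, algebraMap A F a ∈ compositeSubring (O i) (red i) (hred i) (Vs i),
        pointIdeal (O i) (red i) (hred i) (Vs i) hA = P)
    (hP : IsRatPoint res P) (i : ι) (hi : centre (O i) (hAO i) ≤ P) :
    IsOver res (compositeSubring (O i) (red i) (hred i) (Vs i)) := by
  obtain ⟨hA, hPi⟩ := hbr i hi
  exact isOver_of_centre hP _ hA hPi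

/-- **Common value ⟹ trivial gluing.**  If `h⁻¹` takes one value `γ ∈ k` at the composite rings
of all the branches through the `k`-rational point `P`, then `h⁻¹ - c` is a non-unit of all of
them for one constant `c`. -/
theorem glue_of_hasVal
    (hbr : ∀ i, centre (O i) (hAO i) ≤ P →
      ∃ hA : ∀ a : A, algebraMap A F a ∈ compositeSubring (O i) (red i) (hred i) (Vs i),
        pointIdeal (O i) (red i) (hred i) (Vs i) hA = P)
    (hP : IsRatPoint res P) (hT : ∃ i, centre (O i) (hAO i) ≤ P) (h : F) (γ : k)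
    (hval : ∀ i, centre (O i) (hAO i) ≤ P →
      HasVal res (compositeSubring (O i) (red i) (hred i) (Vs i)) h⁻¹ γ) :
    ∃ c : F, c ∈ pointRing F P ∧ ∀ i, centre (O i) (hAO i) ≤ P →
      h⁻¹ - c ∈ (compositeSubring (O i) (red i) (hred i) (Vs i)).nonunits := by
  obtain ⟨i₁, hi₁⟩ := hT
  obtain ⟨w, hw, -⟩ := hval i₁ hi₁
  refine ⟨algebraMap W F w, ?_, fun i hi => ?_⟩
  · rw [IsScalarTower.algebraMap_apply W A F]
    exact (pointRing F P).algebraMap_mem _
  · obtain ⟨w', hw', hy⟩ := hval i hi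
    have hov := isOver_composite O hAO P red hred Vs res hbr hP i hi
    have h0 : algebraMap W F (w' - w) ∈
        (compositeSubring (O i) (red i) (hred i) (Vs i)).nonunits := by
      rw [hov.nonunits_iff, map_sub, hw, hw', sub_self]
    have e : h⁻¹ - algebraMap W F w = (h⁻¹ - algebraMap W F w') + algebraMap W F (w' - w) := by
      rw [map_sub]
      ring
    rw [e]
    exact LStart.add_mem_nonunits _ hy h0

omit [IsDomain A] [IsFractionRing A F] [P.IsPrime] in
/-- The value of `(h ^ e * φ)⁻¹` at the composite ring of a branch through `P` from the values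
of `h⁻¹` and of `φ`. -/
theorem hasVal_inv_mul_pow
    (hbr : ∀ i, centre (O i) (hAO i) ≤ P →
      ∃ hA : ∀ a : A, algebraMap A F a ∈ compositeSubring (O i) (red i) (hred i) (Vs i),
        pointIdeal (O i) (red i) (hred i) (Vs i) hA = P)
    (hP : IsRatPoint res P) (hres : Function.Surjective res) (e : ℕ) (h φ : F)
    (i : ι) (hi : centre (O i) (hAO i) ≤ P) {c ρ : k}
    (hc : HasVal res (compositeSubring (O i) (red i) (hred i) (Vs i)) h⁻¹ c)
    (hρ : HasVal res (compositeSubring (O i) (red i) (hred i) (Vs i)) φ ρ) (hρ0 : ρ ≠ 0) :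
    HasVal res (compositeSubring (O i) (red i) (hred i) (Vs i)) (h ^ e * φ)⁻¹ (c ^ e * ρ⁻¹) := by
  have hov := isOver_composite O hAO P red hred Vs res hbr hP i hi
  have e1 : (h ^ e * φ)⁻¹ = h⁻¹ ^ e * φ⁻¹ := by
    rw [mul_inv, inv_pow]
  rw [e1]
  exact (hc.pow hov e).mul hov (hρ.inv hov hres hρ0)

/-- **Killing the gluing datum, value form.**  `f₃ = u * h ^ m` with `u` a unit of `A_P`; `h⁻¹`
has the values `c i ∈ k` at the composite rings of the branches through the `k`-rational point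
`P`, `φ` has the values `ρ i ≠ 0`, and `c i ^ e = γ * ρ i` for one `γ ∈ k`.  Then every
factorisation `f₃ ^ e * φ ^ m = u' * h' ^ m` (`u'` a unit of `A_P`) satisfies the gluing
condition: the hypothesis `hglue` of `hlocal_at_point` / `hlocalV_at_point` for
`f := f₃ ^ e * φ ^ m`. -/
theorem hglue_of_hasVal_kill [IsIntegrallyClosed A]
    (hbr : ∀ i, centre (O i) (hAO i) ≤ P →
      ∃ hA : ∀ a : A, algebraMap A F a ∈ compositeSubring (O i) (red i) (hred i) (Vs i),
        pointIdeal (O i) (red i) (hred i) (Vs i) hA = P)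
    (hP : IsRatPoint res P) (hres : Function.Surjective res)
    (hT : ∃ i, centre (O i) (hAO i) ≤ P)
    (m : ℕ) (hm0 : m ≠ 0) (e : ℕ)
    (f₃ u h φ : F) (hu : u ∈ pointRing F P) (hu' : u⁻¹ ∈ pointRing F P)
    (hf₃ : f₃ = u * h ^ m) (hf₃0 : f₃ ≠ 0) (hφ0 : φ ≠ 0)
    (c ρ : ι → k) (γ : k)
    (hc : ∀ i, centre (O i) (hAO i) ≤ P →
      HasVal res (compositeSubring (O i) (red i) (hred i) (Vs i)) h⁻¹ (c i))
    (hρ : ∀ i, centre (O i) (hAO i) ≤ P →
      HasVal res (compositeSubring (O i) (red i) (hred i) (Vs i)) φ (ρ i))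
    (hρ0 : ∀ i, centre (O i) (hAO i) ≤ P → ρ i ≠ 0)
    (hγ : ∀ i, centre (O i) (hAO i) ≤ P → c i ^ e = γ * ρ i) :
    ∀ u' h' : F, u' ∈ pointRing F P → u'⁻¹ ∈ pointRing F P → f₃ ^ e * φ ^ m = u' * h' ^ m →
      ∃ c' : F, c' ∈ pointRing F P ∧ ∀ i, centre (O i) (hAO i) ≤ P →
        h'⁻¹ - c' ∈ (compositeSubring (O i) (red i) (hred i) (Vs i)).nonunits := by
  intro u' h' hu'R hu'R' hfac
  -- the gluing condition for the factorisation `f₃ ^ e * φ ^ m = u ^ e * (h ^ e * φ) ^ m`
  have hval : ∀ i, centre (O i) (hAO i) ≤ P →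
      HasVal res (compositeSubring (O i) (red i) (hred i) (Vs i)) (h ^ e * φ)⁻¹ γ := by
    intro i hi
    have h1 := hasVal_inv_mul_pow O hAO P red hred Vs res hbr hP hres e h φ i hi (hc i hi)
      (hρ i hi) (hρ0 i hi)
    have h2 : c i ^ e * (ρ i)⁻¹ = γ := by
      rw [hγ i hi, mul_assoc, mul_inv_cancel₀ (hρ0 i hi), mul_one]
    rwa [h2] at h1
  obtain ⟨c₀, hc₀R, hc₀⟩ := glue_of_hasVal O hAO P red hred Vs res hbr hP hT (h ^ e * φ) γ hval
  have hf₄ : f₃ ^ e * φ ^ m = u ^ e * (h ^ e * φ) ^ m := by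
    rw [hf₃]
    ring
  have hf₄0 : f₃ ^ e * φ ^ m ≠ 0 := mul_ne_zero (pow_ne_zero _ hf₃0) (pow_ne_zero _ hφ0)
  exact glue_of_factor_indep O hAO P red hred Vs hbr m hm0 (f₃ ^ e * φ ^ m) hf₄0
    (u ^ e) (h ^ e * φ) ((pointRing F P).pow_mem hu e)
    (by rw [← inv_pow]; exact (pointRing F P).pow_mem hu' e) hf₄
    u' h' hu'R hu'R' hfac c₀ hc₀R hc₀

/-- **Trivial gluing from a common value** (no killing): if `f = u * h ^ m` at the `k`-rational
point `P` and `h⁻¹` takes one value at all the branches through `P`, every factorisation of `f`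
at `P` satisfies the gluing condition. -/
theorem hglue_of_hasVal [IsIntegrallyClosed A]
    (hbr : ∀ i, centre (O i) (hAO i) ≤ P →
      ∃ hA : ∀ a : A, algebraMap A F a ∈ compositeSubring (O i) (red i) (hred i) (Vs i),
        pointIdeal (O i) (red i) (hred i) (Vs i) hA = P)
    (hP : IsRatPoint res P) (hT : ∃ i, centre (O i) (hAO i) ≤ P)
    (m : ℕ) (hm0 : m ≠ 0) (f u h : F) (hu : u ∈ pointRing F P) (hu' : u⁻¹ ∈ pointRing F P)
    (hf : f = u * h ^ m) (hf0 : f ≠ 0) (γ : k)
    (hval : ∀ i, centre (O i) (hAO i) ≤ P →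
      HasVal res (compositeSubring (O i) (red i) (hred i) (Vs i)) h⁻¹ γ) :
    ∀ u' h' : F, u' ∈ pointRing F P → u'⁻¹ ∈ pointRing F P → f = u' * h' ^ m →
      ∃ c' : F, c' ∈ pointRing F P ∧ ∀ i, centre (O i) (hAO i) ≤ P →
        h'⁻¹ - c' ∈ (compositeSubring (O i) (red i) (hred i) (Vs i)).nonunits := by
  intro u' h' hu'R hu'R' hfac
  obtain ⟨c₀, hc₀R, hc₀⟩ := glue_of_hasVal O hAO P red hred Vs res hbr hP hT h γ hval
  exact glue_of_factor_indep O hAO P red hred Vs hbr m hm0 f hf0 u h hu hu' hf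
    u' h' hu'R hu'R' hfac c₀ hc₀R hc₀

end GlueVal

end Fermat.Agent.CAR.Glue.LStart
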