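/-
CAR-13 (helper75), addendum 2: VALUES OF THE LOCAL GENERATOR on the branches through a rational
point — the input `ha hb hc` (`NodeUnits.HasVal res (compositeSubring w ρ hρ Vs) h a`, `a ≠ 0`)
of helper64's `NodeTriple.triple_ratio_pow_of_red` and of helper82's `Kill.KillPointOne`.

Setting of `LocalStart.lean`: chart ring `A ⊆ F`, a vertical valuation ring `O` with reduction
`red : O → κ`, a place `Vs` of `κ` whose composite ring `compositeSubring O red hred Vs` is
centred at the point `P` of `A` (`hA`, `hPi`), (LIFT) at the branch (`hlift`, the shape of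
`LocalThm` / `Contract.lift`), constants `W → A` with `res : W → k`, `P` a `k`-rational point
(`NodeUnits.IsRatPoint res P`).

Single branch:
* `exists_hasVal_branch` : every element of the composite ring has a value in `k`
  (the residue field of the composite ring is `k`);
* `exists_hasVal_unit_branch` : a unit of the composite ring has a NONZERO value;
* `unit_branch_of_factor` : if `f = u * h ^ m` with `u` a unit of `A_P` and `f` a principal unit
  of `O`, then `h` is a unit of the composite ring;
* `exists_hasVal_of_factor_branch` : hence `h` has a nonzero value there;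
* `pow_mul_eq_one_of_factor_branch` : `υ * c ^ m = 1` for the values `υ` of `u`, `c` of `h`.
Family form (`O i`, `red i`, `Vs i`, `hbr` as in `LocalStart.lean`):
* `exists_hasVal_composite`, `exists_hasVal_of_factor`, `pow_mul_eq_one_of_factor`.
* `exists_hasVal_inv_of_factor` : the values of `h⁻¹` (vocabulary of `GlueVal.lean`).
-/
import Mathlib
import Fermat.Agent.CAR.Glue.GlueVal

set_option autoImplicit false

namespace Fermat.Agent.CAR.Glue.FactorVal

open IsLocalRing Fermat.Agent.CAR.Local Fermat.Agent.CAR.Glue.NodeUnits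
  Fermat.Agent.CAR.Glue.LStart

/-! ### One branch -/

section Branch

variable {A F κ : Type*} [CommRing A] [IsDomain A] [Field F] [Algebra A F] [IsFractionRing A F]
  [Field κ] (O : ValuationSubring F) (red : O →+* κ)
  (hred : ∀ x : O, red x = 0 ↔ x ∈ maximalIdeal O) (hAO : ∀ a : A, algebraMap A F a ∈ O)
  (Vs : ValuationSubring κ) (hA : ∀ a : A, algebraMap A F a ∈ compositeSubring O red hred Vs)
  (P : Ideal A) [P.IsPrime] (hPi : pointIdeal O red hred Vs hA = P)
  {W k : Type*} [CommRing W] [Field k] (res : W →+* k) [Algebra W A] [Algebra W F]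
  [IsScalarTower W A F]

omit [IsDomain A] [IsFractionRing A F] in
/-- the non-units of `O` are non-units of the composite ring -/
theorem nonunits_le_nonunits_branch {y : F} (hy : y ∈ O.nonunits) :
    y ∈ (compositeSubring O red hred Vs).nonunits :=
  nonunits_le_nonunits_composite (fun _ : Unit => O) (fun _ => red) (fun _ => hred)
    (fun _ => Vs) () hy

include hPi

/-- At a `k`-rational point, every element of the composite ring of a branch has a value in
`k`. -/
theorem exists_hasVal_branch
    (hlift : ∀ c ∈ Vs, ∃ a b : A, redOn O red hAO b ∉ Vs.nonunits ∧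
      redOn O red hAO a = c * redOn O red hAO b)
    (hP : IsRatPoint res P) (hres : Function.Surjective res) {y : F}
    (hy : y ∈ compositeSubring O red hred Vs) :
    ∃ c : k, HasVal res (compositeSubring O red hred Vs) y c := by
  obtain ⟨r, hr⟩ := exists_sub_mem_nonunits_of_mem_composite O red hred hAO Vs hA P hPi hlift hy
  obtain ⟨c, hc⟩ := exists_hasVal_pointRing hP hres r.2
  exact ⟨c, (hc _ hA hPi).congr (nonunits_le_nonunits_branch O red hred Vs hr)⟩

/-- A unit of the composite ring of a branch through a `k`-rational point has a nonzero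
value. -/
theorem exists_hasVal_unit_branch
    (hlift : ∀ c ∈ Vs, ∃ a b : A, redOn O red hAO b ∉ Vs.nonunits ∧
      redOn O red hAO a = c * redOn O red hAO b)
    (hP : IsRatPoint res P) (hres : Function.Surjective res) {y : F} (hy0 : y ≠ 0)
    (hy : y ∈ compositeSubring O red hred Vs) (hy' : y⁻¹ ∈ compositeSubring O red hred Vs) :
    ∃ c : k, c ≠ 0 ∧ HasVal res (compositeSubring O red hred Vs) y c := by
  obtain ⟨c, hc⟩ := exists_hasVal_branch O red hred hAO Vs hA P hPi res hlift hP hres hy
  have hov : IsOver res (compositeSubring O red hred Vs) := isOver_of_centre hP _ hA hPi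
  refine ⟨c, fun hc0 => ?_, hc⟩
  have hnu := (hc.eq_zero_iff hov).mp hc0
  have h1 : (1 : F) ∈ (compositeSubring O red hred Vs).nonunits := by
    rw [← mul_inv_cancel₀ hy0]
    exact LStart.mul_mem_nonunits_right _ hnu hy'
  rw [ValuationSubring.mem_nonunits_iff, map_one] at h1
  exact lt_irrefl _ h1

omit [Algebra W A] [IsScalarTower W A F] in
/-- `f = u * h ^ m` with `u` a unit of `A_P` and `f` a principal unit of `O`: `f ≠ 0`, `h ≠ 0`
and `h` is a unit of the composite ring of the branch. -/
theorem unit_branch_of_factor (m : ℕ) (hm0 : m ≠ 0) (f u h : F) (hu : u ∈ pointRing F P)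
    (hu' : u⁻¹ ∈ pointRing F P) (hfuh : f = u * h ^ m) (hf : f - 1 ∈ O.nonunits) :
    h ≠ 0 ∧ h ∈ compositeSubring O red hred Vs ∧ h⁻¹ ∈ compositeSubring O red hred Vs := by
  have hAO : ∀ a : A, algebraMap A F a ∈ O := fun a => compositeSubring_le O red hred Vs (hA a)
  have hcen : centre O hAO ≤ P := by
    intro a ha
    rw [← hPi]
    rw [mem_centre_iff] at ha
    exact (mem_centre_iff _ hA a).mpr (nonunits_le_nonunits_branch O red hred Vs ha)
  obtain ⟨hh, hh'⟩ := unit_composite_of_factor (fun _ : Unit => O) (fun _ => hAO) P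
    (fun _ => red) (fun _ => hred) (fun _ => Vs) (fun _ _ => ⟨hA, hPi⟩) m hm0 f u h hu hu' hfuh
    () hcen hf
  refine ⟨?_, hh, hh'⟩
  rintro rfl
  rw [zero_pow hm0, mul_zero] at hfuh
  rw [hfuh] at hf
  have h1 : (1 : F) ∈ O.nonunits := by
    have e : (1 : F) = -((0 : F) - 1) := by ring
    rw [e]
    exact LStart.neg_mem_nonunits _ hf
  rw [ValuationSubring.mem_nonunits_iff, map_one] at h1
  exact lt_irrefl _ h1

/-- **Values of the local generator, one branch.**  `f = u * h ^ m` at the `k`-rational point
`P` (`u` a unit of `A_P`), `f` a principal unit of `O`: `h` has a nonzero value at the composite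
ring of the branch. -/
theorem exists_hasVal_of_factor_branch
    (hlift : ∀ c ∈ Vs, ∃ a b : A, redOn O red hAO b ∉ Vs.nonunits ∧
      redOn O red hAO a = c * redOn O red hAO b)
    (hP : IsRatPoint res P) (hres : Function.Surjective res)
    (m : ℕ) (hm0 : m ≠ 0) (f u h : F) (hu : u ∈ pointRing F P) (hu' : u⁻¹ ∈ pointRing F P)
    (hfuh : f = u * h ^ m) (hf : f - 1 ∈ O.nonunits) :
    ∃ c : k, c ≠ 0 ∧ HasVal res (compositeSubring O red hred Vs) h c := by
  obtain ⟨hh0, hh, hh'⟩ := unit_branch_of_factor O red hred Vs hA P hPi m hm0 f u h hu hu'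
    hfuh hf
  exact exists_hasVal_unit_branch O red hred hAO Vs hA P hPi res hlift hP hres hh0 hh hh'

omit [IsDomain A] [IsFractionRing A F] [P.IsPrime] in
/-- The values `υ` of `u` and `c` of `h` at a branch through `P` satisfy `υ * c ^ m = 1` when
`u * h ^ m` is a principal unit of `O`. -/
theorem pow_mul_eq_one_of_factor_branch (hP : IsRatPoint res P) (m : ℕ) (f u h : F)
    (hfuh : f = u * h ^ m) (hf : f - 1 ∈ O.nonunits) {υ c : k}
    (hυ : HasVal res (compositeSubring O red hred Vs) u υ)
    (hc : HasVal res (compositeSubring O red hred Vs) h c) : υ * c ^ m = 1 := by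
  have hov : IsOver res (compositeSubring O red hred Vs) := isOver_of_centre hP _ hA hPi
  have h1 : HasVal res (compositeSubring O red hred Vs) f 1 :=
    (hasVal_one (res := res)).congr (nonunits_le_nonunits_branch O red hred Vs hf)
  have h2 : HasVal res (compositeSubring O red hred Vs) f (υ * c ^ m) := by
    rw [hfuh]
    exact hυ.mul hov (hc.pow hov m)
  exact h2.unique hov h1

end Branch

/-! ### The family form of `LocalStart.lean` -/

section Family

variable {A F : Type*} [CommRing A] [IsDomain A] [Field F] [Algebra A F] [IsFractionRing A F]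
  {ι : Type*} (O : ι → ValuationSubring F) (hAO : ∀ i a, algebraMap A F a ∈ O i)
  (P : Ideal A) [P.IsPrime]
  {κ : ι → Type*} [∀ i, Field (κ i)] (red : ∀ i, O i →+* κ i)
  (hred : ∀ i, ∀ x : O i, red i x = 0 ↔ x ∈ maximalIdeal (O i))
  (Vs : ∀ i, ValuationSubring (κ i))
  {W k : Type*} [CommRing W] [Field k] (res : W →+* k) [Algebra W A] [Algebra W F]
  [IsScalarTower W A F]

/-- At a `k`-rational point, every element of the composite ring of a branch through it has a
value in `k`. -/
theorem exists_hasVal_composite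
    (hbr : ∀ i, centre (O i) (hAO i) ≤ P →
      ∃ hA : ∀ a : A, algebraMap A F a ∈ compositeSubring (O i) (red i) (hred i) (Vs i),
        pointIdeal (O i) (red i) (hred i) (Vs i) hA = P)
    (hlift : ∀ i, centre (O i) (hAO i) ≤ P → ∀ c ∈ Vs i, ∃ a b : A,
      redOn (O i) (red i) (hAO i) b ∉ (Vs i).nonunits ∧
      redOn (O i) (red i) (hAO i) a = c * redOn (O i) (red i) (hAO i) b)
    (hP : IsRatPoint res P) (hres : Function.Surjective res)
    (i : ι) (hi : centre (O i) (hAO i) ≤ P) {y : F}
    (hy : y ∈ compositeSubring (O i) (red i) (hred i) (Vs i)) :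
    ∃ c : k, HasVal res (compositeSubring (O i) (red i) (hred i) (Vs i)) y c := by
  obtain ⟨hA, hPi⟩ := hbr i hi
  exact exists_hasVal_branch (O i) (red i) (hred i) (hAO i) (Vs i) hA P hPi res (hlift i hi) hP
    hres hy

/-- **Values of the local generator.**  `f = u * h ^ m` at the `k`-rational point `P` (`u` a
unit of `A_P`), `f` a principal unit at `O i`: `h` has a nonzero value at the composite ring of
the branch `i` through `P`. -/
theorem exists_hasVal_of_factor
    (hbr : ∀ i, centre (O i) (hAO i) ≤ P →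
      ∃ hA : ∀ a : A, algebraMap A F a ∈ compositeSubring (O i) (red i) (hred i) (Vs i),
        pointIdeal (O i) (red i) (hred i) (Vs i) hA = P)
    (hlift : ∀ i, centre (O i) (hAO i) ≤ P → ∀ c ∈ Vs i, ∃ a b : A,
      redOn (O i) (red i) (hAO i) b ∉ (Vs i).nonunits ∧
      redOn (O i) (red i) (hAO i) a = c * redOn (O i) (red i) (hAO i) b)
    (hP : IsRatPoint res P) (hres : Function.Surjective res)
    (m : ℕ) (hm0 : m ≠ 0) (f u h : F) (hu : u ∈ pointRing F P) (hu' : u⁻¹ ∈ pointRing F P)
    (hfuh : f = u * h ^ m) (i : ι) (hi : centre (O i) (hAO i) ≤ P)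
    (hf : f - 1 ∈ (O i).nonunits) :
    ∃ c : k, c ≠ 0 ∧ HasVal res (compositeSubring (O i) (red i) (hred i) (Vs i)) h c := by
  obtain ⟨hA, hPi⟩ := hbr i hi
  exact exists_hasVal_of_factor_branch (O i) (red i) (hred i) (hAO i) (Vs i) hA P hPi res
    (hlift i hi) hP hres m hm0 f u h hu hu' hfuh hf

/-- The same for `h⁻¹` (the vocabulary of `GlueVal.lean`). -/
theorem exists_hasVal_inv_of_factor
    (hbr : ∀ i, centre (O i) (hAO i) ≤ P →
      ∃ hA : ∀ a : A, algebraMap A F a ∈ compositeSubring (O i) (red i) (hred i) (Vs i),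
        pointIdeal (O i) (red i) (hred i) (Vs i) hA = P)
    (hlift : ∀ i, centre (O i) (hAO i) ≤ P → ∀ c ∈ Vs i, ∃ a b : A,
      redOn (O i) (red i) (hAO i) b ∉ (Vs i).nonunits ∧
      redOn (O i) (red i) (hAO i) a = c * redOn (O i) (red i) (hAO i) b)
    (hP : IsRatPoint res P) (hres : Function.Surjective res)
    (m : ℕ) (hm0 : m ≠ 0) (f u h : F) (hu : u ∈ pointRing F P) (hu' : u⁻¹ ∈ pointRing F P)
    (hfuh : f = u * h ^ m) (i : ι) (hi : centre (O i) (hAO i) ≤ P)
    (hf : f - 1 ∈ (O i).nonunits) :
    ∃ c : k, c ≠ 0 ∧ HasVal res (compositeSubring (O i) (red i) (hred i) (Vs i)) h⁻¹ c := by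
  obtain ⟨c, hc0, hc⟩ := exists_hasVal_of_factor O hAO P red hred Vs res hbr hlift hP hres m hm0
    f u h hu hu' hfuh i hi hf
  have hov := isOver_composite O hAO P red hred Vs res hbr hP i hi
  exact ⟨c⁻¹, inv_ne_zero hc0, hc.inv hov hres hc0⟩

omit [IsDomain A] [IsFractionRing A F] [P.IsPrime] in
/-- The values `υ` of `u` and `c` of `h` at a branch through `P` satisfy `υ * c ^ m = 1`
when `u * h ^ m` is a principal unit at `O i`. -/
theorem pow_mul_eq_one_of_factor
    (hbr : ∀ i, centre (O i) (hAO i) ≤ P →
      ∃ hA : ∀ a : A, algebraMap A F a ∈ compositeSubring (O i) (red i) (hred i) (Vs i),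
        pointIdeal (O i) (red i) (hred i) (Vs i) hA = P)
    (hP : IsRatPoint res P) (m : ℕ) (f u h : F) (hfuh : f = u * h ^ m)
    (i : ι) (hi : centre (O i) (hAO i) ≤ P) (hf : f - 1 ∈ (O i).nonunits) {υ c : k}
    (hυ : HasVal res (compositeSubring (O i) (red i) (hred i) (Vs i)) u υ)
    (hc : HasVal res (compositeSubring (O i) (red i) (hred i) (Vs i)) h c) :
    υ * c ^ m = 1 := by
  obtain ⟨hA, hPi⟩ := hbr i hi
  exact pow_mul_eq_one_of_factor_branch (O i) (red i) (hred i) (Vs i) hA P hPi res hP m f u h
    hfuh hf hυ hc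

end Family

end Fermat.Agent.CAR.Glue.FactorVal
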