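/-
CAR, brick B7 (helper82; second seat of CAR-14 (NN-6)): KILLING THE GLUING DATUM.

Setting (abstract; Mathlib + `NodeUnits` + `LocalStart` + `NormalForm`): `A` the chart ring
(a domain with fraction field `F`) over the constants `(W, res : W → k)`, `O i` the vertical
valuation rings (`IsOver res (O i)`), reductions `red i : O i → κ i`.  `f ≡ 1` modulo every
`𝔪 (O i)`.  At a *multiple point* `P` (a `k`-rational point through which ALL the `O i` pass, with
places `Vs i`), for every local factorisation `f = u * h ^ m` (`u` a unit of `A_P`) the values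
`a i` of `h` on the branches satisfy `a i ^ e = ρ i * c₀` with constants `ρ i ∈ kˣ` INDEPENDENT OF
THE POINT (`c₀` may depend on the point and on the factorisation) — this is the output of
`NodeNorm.glue_relation` + `glue_ratio_pow` (helper40), see `fin3_ratio` below.

* `exists_hasVal_family` : a function `φ ≠ 0` with prescribed constant values on the `O i`
  (from joint approximation of units, `JointApprox`; `jointApprox_of_weakApprox`,
  `jointApprox3` provide it).
* `pow_eq_one_of_point` : `ρ i ^ m = 1` (if `ρ i₀ = 1` for one `i₀`), from ONE multiple point.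
* `pow_mul_sub_one_mem` : `f ^ e * φ ^ m ≡ 1` modulo every `𝔪 (O i)`.
* `glue_pow_mul` : at a point, the factorisation `f ^ e * φ ^ m = u ^ e * (h ^ e * φ) ^ m` has
  trivial gluing datum (helper75's condition for `h ^ e * φ`).
* `exists_kill` : **the packaged statement** — `∃ φ`, `f₄ := f ^ e * φ ^ m ≡ 1` on every `O i`
  and at EVERY multiple point the literal `hglue` binder of `LStart.hlocal_at_point` /
  `hlocalV_at_point` holds for `f₄` (every factorisation of `f₄`).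
* `fin3_ratio` : the arithmetic from `glue_ratio_pow` to the hypothesis `a i ^ e = ρ i * c₀`
  (`ι = Fin 3`, `e = n (n + 2) = q² − 1`).
-/
import Mathlib
import Fermat.Agent.CAR.Glue.NodeUnits
import Fermat.Agent.CAR.Glue.LocalStart
import Fermat.Agent.CAR.Formal.NormalForm

set_option autoImplicit false

namespace Fermat.Agent.CAR.Glue.Kill

open IsLocalRing Fermat.Agent.CAR.Local Fermat.Agent.CAR.Glue.NodeUnits

/-! ### Values: small complements to `NodeUnits.HasVal` -/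

section Values

variable {W k F : Type*} [CommRing W] [Field k] {res : W →+* k} [Field F] [Algebra W F]
  {V V' : ValuationSubring F} {y : F} {c : k}

/-- Values pass to a smaller valuation ring with more non-units (branch `O` ⟶ composite). -/
theorem hasVal_mono (h : ∀ x ∈ V.nonunits, x ∈ V'.nonunits) (hy : HasVal res V y c) :
    HasVal res V' y c := by
  obtain ⟨w, hw, hyw⟩ := hy
  exact ⟨w, hw, h _ hyw⟩

/-- With a value `c`, ANY constant with residue `c` approximates `y`. -/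
theorem sub_algebraMap_mem_of_hasVal (hV : IsOver res V) (hy : HasVal res V y c) (w : W)
    (hw : res w = c) : y - algebraMap W F w ∈ V.nonunits := by
  obtain ⟨w', hw', hyw'⟩ := hy
  have h1 : algebraMap W F (w' - w) ∈ V.nonunits := by
    rw [hV.nonunits_iff, map_sub, hw, hw', sub_self]
  have e : y - algebraMap W F w = (y - algebraMap W F w') + algebraMap W F (w' - w) := by
    rw [map_sub]
    ring
  rw [e]
  exact NodeUnits.add_mem_nonunits hyw' h1

/-- Value `1` means `y ≡ 1`. -/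
theorem hasVal_one_iff (hV : IsOver res V) : HasVal res V y 1 ↔ y - 1 ∈ V.nonunits := by
  constructor
  · intro h
    have := sub_algebraMap_mem_of_hasVal hV h 1 (map_one _)
    rwa [map_one] at this
  · intro h
    exact ⟨1, map_one _, by rwa [map_one]⟩

end Values

/-! ### Joint approximation of units -/

section Approx

variable {F : Type*} [Field F] {ι : Type*}

/-- Joint approximation of units (multiplicative weak approximation) for the family `O`. -/
def JointApprox (O : ι → ValuationSubring F) : Prop :=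
  ∀ x : ι → F, (∀ i, x i ≠ 0) → ∃ H : F, H ≠ 0 ∧ ∀ i, H / x i - 1 ∈ (O i).nonunits

/-- Joint approximation from weak approximation (pairwise incomparable rank one valuation
rings, a nonempty finite family). -/
theorem jointApprox_of_weakApprox [Fintype ι] [Nonempty ι] (O : ι → ValuationSubring F)
    (hV : ∀ i j, i ≠ j → ¬ O i ≤ O j)
    (harch : ∀ i, Fermat.Agent.Lib.Valuation.WeakApproxN.IsArch (O i)) : JointApprox O := by
  intro x hx
  obtain ⟨H, hH⟩ := Fermat.Agent.Lib.Valuation.WeakApproxN.exists_unit_approx O hV harch x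
    (fun _ => 1) hx (fun _ => one_ne_zero)
  have key : ∀ i, H / x i - 1 ∈ (O i).nonunits := by
    intro i
    have h := hH i
    rw [map_one] at h
    exact (ValuationSubring.mem_nonunits_iff (O i)).mpr h
  refine ⟨H, ?_, key⟩
  rintro rfl
  obtain ⟨i⟩ := ‹Nonempty ι›
  have h := key i
  rw [zero_div, zero_sub, ValuationSubring.mem_nonunits_iff, Valuation.map_neg, map_one] at h
  exact lt_irrefl _ h

/-- Joint approximation for three distinct discrete valuation rings (`NF.exists_approx3`). -/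
theorem jointApprox3 {Oa Ob Oc : ValuationSubring F} {πa πb πc : F}
    (ha : Formal.IsUnif Oa πa) (hb : Formal.IsUnif Ob πb) (hc : Formal.IsUnif Oc πc)
    (hab : Oa ≠ Ob) (hbc : Ob ≠ Oc) (hac : Oa ≠ Oc) :
    JointApprox (![Oa, Ob, Oc] : Fin 3 → ValuationSubring F) := by
  intro x hx
  obtain ⟨H, hH0, h0, h1, h2⟩ := Formal.NF.exists_approx3 ha hb hc hab hbc hac (x 0) (x 1) (x 2)
    (hx 0) (hx 1) (hx 2)
  refine ⟨H, hH0, fun i => ?_⟩
  fin_cases i
  · exact h0
  · exact h1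
  · exact h2

end Approx

/-! ### The killing function and the gluing condition -/

section Kill

variable {W k A F : Type*} [CommRing W] [Field k] (res : W →+* k) [CommRing A] [IsDomain A]
  [Field F] [Algebra A F] [IsFractionRing A F] [Algebra W A] [Algebra W F] [IsScalarTower W A F]
  {ι : Type*} (O : ι → ValuationSubring F) (hAO : ∀ i a, algebraMap A F a ∈ O i)
  {κ : ι → Type*} [∀ i, Field (κ i)] (red : ∀ i, O i →+* κ i)
  (hred : ∀ i, ∀ x : O i, red i x = 0 ↔ x ∈ maximalIdeal (O i))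

omit [CommRing A] [IsDomain A] [Algebra A F] [IsFractionRing A F] [Algebra W A]
  [IsScalarTower W A F] in
/-- **A function with prescribed constant values on the vertical valuation rings.** -/
theorem exists_hasVal_family (hO : ∀ i, IsOver res (O i)) (hres : Function.Surjective res)
    (happrox : JointApprox O) (ρ : ι → k) (hρ : ∀ i, ρ i ≠ 0) :
    ∃ φ : F, φ ≠ 0 ∧ ∀ i, HasVal res (O i) φ (ρ i) := by
  choose w hw using fun i => hres (ρ i)
  have hx : ∀ i, algebraMap W F (w i) ≠ 0 := by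
    intro i h0
    have h1 : algebraMap W F (w i) ∈ (O i).nonunits := by
      rw [h0]
      exact NodeUnits.zero_mem_nonunits
    rw [(hO i).nonunits_iff, hw i] at h1
    exact hρ i h1
  obtain ⟨φ, hφ0, hφ⟩ := happrox (fun i => algebraMap W F (w i)) hx
  refine ⟨φ, hφ0, fun i => ⟨w i, hw i, ?_⟩⟩
  have e : φ - algebraMap W F (w i) = algebraMap W F (w i) * (φ / algebraMap W F (w i) - 1) := by
    field_simp [hx i]
  rw [e]
  exact NodeUnits.mul_mem_nonunits_right ((hO i).mem (w i)) (hφ i)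

omit [CommRing A] [IsDomain A] [Algebra A F] [IsFractionRing A F] [Algebra W A]
  [IsScalarTower W A F] in
/-- `f ≡ 1`, `φ` with values `ψ i`, `ψ i ^ m = 1` ⟹ `f ^ e * φ ^ m ≡ 1`. -/
theorem pow_mul_sub_one_mem (hO : ∀ i, IsOver res (O i)) (m e : ℕ) (f φ : F)
    (hf : ∀ i, f - 1 ∈ (O i).nonunits) (ψ : ι → k) (hψm : ∀ i, ψ i ^ m = 1)
    (hφ : ∀ i, HasVal res (O i) φ (ψ i)) (i : ι) :
    f ^ e * φ ^ m - 1 ∈ (O i).nonunits := by
  have h1 : HasVal res (O i) f 1 := (hasVal_one_iff (hO i)).2 (hf i)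
  have h2 : HasVal res (O i) (f ^ e) (1 ^ e) := h1.pow (hO i) e
  have h3 : HasVal res (O i) (φ ^ m) (ψ i ^ m) := (hφ i).pow (hO i) m
  have h4 := h2.mul (hO i) h3
  rw [one_pow, hψm i, mul_one] at h4
  exact (hasVal_one_iff (hO i)).1 h4

variable (P : Ideal A) [P.IsPrime] (Vs : ∀ i, ValuationSubring (κ i))

omit [IsDomain A] [IsFractionRing A F] [P.IsPrime] in
/-- The composite valuation ring of a branch through a `k`-rational point lies over
`(W, res)`. -/
theorem isOver_composite (hP : IsRatPoint res P) (i : ι)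
    (hA : ∀ a : A, algebraMap A F a ∈ compositeSubring (O i) (red i) (hred i) (Vs i))
    (hPi : pointIdeal (O i) (red i) (hred i) (Vs i) hA = P) :
    IsOver res (compositeSubring (O i) (red i) (hred i) (Vs i)) :=
  isOver_of_centre hP _ hA hPi

/-- **`ρ i ^ m = 1` from one multiple point.**  `f ≡ 1` on every `O i`, `f = u * h ^ m` at a
`k`-rational point through which all the branches pass, values `a i` of `h` with
`a i ^ e = ρ i * c₀` and `ρ i₀ = 1`: then `ρ i ^ m = 1` for all `i` (and `a i ≠ 0`, `c₀ ≠ 0`). -/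
theorem pow_eq_one_of_point (hP : IsRatPoint res P) (hres : Function.Surjective res)
    (hbr : ∀ i, ∃ hA : ∀ a : A, algebraMap A F a ∈
        compositeSubring (O i) (red i) (hred i) (Vs i),
      pointIdeal (O i) (red i) (hred i) (Vs i) hA = P)
    (m e : ℕ) (hm : m ≠ 0) (f : F) (hf : ∀ i, f - 1 ∈ (O i).nonunits)
    (u h : F) (hu : u ∈ pointRing F P) (hu' : u⁻¹ ∈ pointRing F P) (hfuh : f = u * h ^ m)
    (ρ a : ι → k) (c₀ : k) (i₀ : ι) (hρ₀ : ρ i₀ = 1)
    (ha : ∀ i, HasVal res (compositeSubring (O i) (red i) (hred i) (Vs i)) h (a i))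
    (hc : ∀ i, a i ^ e = ρ i * c₀) :
    (∀ i, ρ i ^ m = 1) ∧ (∀ i, a i ≠ 0) ∧ c₀ ≠ 0 := by
  have hfn : f ∉ (O i₀).nonunits := by
    intro hfn
    have h1 : (1 : F) ∈ (O i₀).nonunits := by
      have e1 : (1 : F) = f - (f - 1) := by ring
      rw [e1]
      exact NodeUnits.sub_mem_nonunits hfn (hf i₀)
    rw [ValuationSubring.mem_nonunits_iff, map_one] at h1
    exact lt_irrefl _ h1
  have hf0 : f ≠ 0 := fun h0 => hfn (h0 ▸ NodeUnits.zero_mem_nonunits)
  have hu0 : u ≠ 0 := by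
    rintro rfl
    rw [zero_mul] at hfuh
    exact hf0 hfuh
  obtain ⟨u₀, hu₀0, hu₀⟩ := exists_hasVal_unit_pointRing hP hres hu hu' hu0
  -- `u₀ * a i ^ m = 1` for all `i`
  have key : ∀ i, u₀ * a i ^ m = 1 := by
    intro i
    obtain ⟨hA, hPi⟩ := hbr i
    have hV := isOver_composite res O red hred P Vs hP i hA hPi
    have h1 : HasVal res (compositeSubring (O i) (red i) (hred i) (Vs i)) f 1 :=
      (hasVal_one_iff hV).2
        (LStart.nonunits_le_nonunits_composite O red hred Vs i (hf i))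
    have h2 : HasVal res (compositeSubring (O i) (red i) (hred i) (Vs i)) (u * h ^ m)
        (u₀ * a i ^ m) := (hu₀ _ hA hPi).mul hV ((ha i).pow hV m)
    rw [← hfuh] at h2
    exact h2.unique hV h1
  have ha0 : ∀ i, a i ≠ 0 := by
    intro i h0
    have := key i
    rw [h0, zero_pow hm, mul_zero] at this
    exact zero_ne_one this
  have hc₀ : c₀ ≠ 0 := by
    rintro rfl
    have := hc i₀
    rw [mul_zero] at this
    exact pow_ne_zero e (ha0 i₀) this
  refine ⟨fun i => ?_, ha0, hc₀⟩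
  -- `(a i ^ m) = u₀⁻¹` for all `i`, hence `(ρ i * c₀) ^ m = u₀⁻¹ ^ e = c₀ ^ m`
  have h1 : ∀ j, a j ^ m = u₀⁻¹ := fun j => eq_inv_of_mul_eq_one_right (key j)
  have h2 : ∀ j, (ρ j * c₀) ^ m = u₀⁻¹ ^ e := by
    intro j
    rw [← hc j, ← pow_mul, mul_comm e m, pow_mul, h1 j]
  have h3 : (ρ i * c₀) ^ m = (ρ i₀ * c₀) ^ m := by rw [h2 i, h2 i₀]
  rw [hρ₀, one_mul, mul_pow] at h3
  have h4 : c₀ ^ m ≠ 0 := pow_ne_zero m hc₀
  exact mul_right_cancel₀ h4 (by rw [h3, one_mul])

include hAO in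
/-- **Killing at a point.**  `φ` has the constant value `(ρ i)⁻¹` on `O i`; at the `k`-rational
point `P` the values `a i` of `h` on the branches through `P` satisfy `a i ^ e = ρ i * c₀`.
Then `h ^ e * φ` satisfies helper75's gluing condition at `P`. -/
theorem glue_pow_mul (hP : IsRatPoint res P) (hres : Function.Surjective res)
    (hbr : ∀ i, centre (O i) (hAO i) ≤ P →
      ∃ hA : ∀ a : A, algebraMap A F a ∈ compositeSubring (O i) (red i) (hred i) (Vs i),
        pointIdeal (O i) (red i) (hred i) (Vs i) hA = P)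
    (e : ℕ) (h φ : F) (ρ a : ι → k) (c₀ : k) (hc₀ : c₀ ≠ 0) (hρ : ∀ i, ρ i ≠ 0)
    (hφ : ∀ i, HasVal res (O i) φ (ρ i)⁻¹)
    (ha : ∀ i, centre (O i) (hAO i) ≤ P →
      HasVal res (compositeSubring (O i) (red i) (hred i) (Vs i)) h (a i))
    (hc : ∀ i, centre (O i) (hAO i) ≤ P → a i ^ e = ρ i * c₀) :
    ∃ c : F, c ∈ pointRing F P ∧ ∀ i, centre (O i) (hAO i) ≤ P →
      (h ^ e * φ)⁻¹ - c ∈ (compositeSubring (O i) (red i) (hred i) (Vs i)).nonunits := by
  obtain ⟨w₀, hw₀⟩ := hres c₀⁻¹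
  refine ⟨algebraMap W F w₀, ?_, fun i hi => ?_⟩
  · rw [IsScalarTower.algebraMap_apply W A F]
    exact (pointRing F P).algebraMap_mem _
  · obtain ⟨hA, hPi⟩ := hbr i hi
    have hV := isOver_composite res O red hred P Vs hP i hA hPi
    have h1 : HasVal res (compositeSubring (O i) (red i) (hred i) (Vs i)) φ (ρ i)⁻¹ :=
      hasVal_mono (LStart.nonunits_le_nonunits_composite O red hred Vs i) (hφ i)
    have h2 : HasVal res (compositeSubring (O i) (red i) (hred i) (Vs i)) (h ^ e * φ)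
        (a i ^ e * (ρ i)⁻¹) := ((ha i hi).pow hV e).mul hV h1
    have e1 : a i ^ e * (ρ i)⁻¹ = c₀ := by
      rw [hc i hi]
      field_simp [hρ i]
    rw [e1] at h2
    exact sub_algebraMap_mem_of_hasVal hV (h2.inv hV hres hc₀) w₀ hw₀

/-- A **multiple point** for the killing problem: a `k`-rational point `P` of the chart through
which ALL the vertical valuation rings pass (places `Vs i`), at which `f` has a local
factorisation `f = u * h ^ m` and, for every such factorisation, the values `a i` of `h` on the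
branches satisfy `a i ^ e = ρ i * c₀` (the constants `ρ i` do not depend on the point). -/
def KillPoint (m e : ℕ) (f : F) (ρ : ι → k) : Prop :=
  IsRatPoint res P ∧
  (∀ i, ∃ hA : ∀ a : A, algebraMap A F a ∈ compositeSubring (O i) (red i) (hred i) (Vs i),
    pointIdeal (O i) (red i) (hred i) (Vs i) hA = P) ∧
  (∃ u h : F, u ∈ pointRing F P ∧ u⁻¹ ∈ pointRing F P ∧ f = u * h ^ m) ∧
  ∀ u h : F, u ∈ pointRing F P → u⁻¹ ∈ pointRing F P → f = u * h ^ m →
    ∃ (a : ι → k) (c₀ : k),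
      (∀ i, HasVal res (compositeSubring (O i) (red i) (hred i) (Vs i)) h (a i)) ∧
      ∀ i, a i ^ e = ρ i * c₀

end Kill

section Main

variable {W k A F : Type*} [CommRing W] [Field k] (res : W →+* k) [CommRing A] [IsDomain A]
  [Field F] [Algebra A F] [IsFractionRing A F] [Algebra W A] [Algebra W F] [IsScalarTower W A F]
  {ι : Type*} (O : ι → ValuationSubring F) (hAO : ∀ i a, algebraMap A F a ∈ O i)
  {κ : ι → Type*} [∀ i, Field (κ i)] (red : ∀ i, O i →+* κ i)
  (hred : ∀ i, ∀ x : O i, red i x = 0 ↔ x ∈ maximalIdeal (O i))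

include hAO in
/-- **Killing, core form** (`ρ i ^ m = 1` given): at every `k`-rational point `P` and every
factorisation `f = u * h ^ m` there whose values satisfy `a i ^ e = ρ i * c₀` on the branches
through `P`, the function `f₄ = f ^ e * φ ^ m = u ^ e * (h ^ e * φ) ^ m` has trivial gluing
datum for EVERY factorisation `f₄ = u₁ * h₁ ^ m`. -/
theorem exists_kill_of_pow [IsIntegrallyClosed A] (hO : ∀ i, IsOver res (O i))
    (hres : Function.Surjective res) (happrox : JointApprox O) (m e : ℕ) (hm : m ≠ 0) (f : F)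
    (hf0 : f ≠ 0) (hf : ∀ i, f - 1 ∈ (O i).nonunits) (ρ : ι → k) (hρ : ∀ i, ρ i ≠ 0)
    (hρm : ∀ i, ρ i ^ m = 1) :
    ∃ φ : F, φ ≠ 0 ∧ (∀ i, HasVal res (O i) φ (ρ i)⁻¹) ∧
      (∀ i, f ^ e * φ ^ m - 1 ∈ (O i).nonunits) ∧
      ∀ (P : Ideal A) [P.IsPrime] (Vs : ∀ i, ValuationSubring (κ i)), IsRatPoint res P →
        (∀ i, centre (O i) (hAO i) ≤ P →
          ∃ hA : ∀ a : A, algebraMap A F a ∈ compositeSubring (O i) (red i) (hred i) (Vs i),
            pointIdeal (O i) (red i) (hred i) (Vs i) hA = P) →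
        ∀ u h : F, u ∈ pointRing F P → u⁻¹ ∈ pointRing F P → f = u * h ^ m →
        ∀ (a : ι → k) (c₀ : k), c₀ ≠ 0 →
          (∀ i, centre (O i) (hAO i) ≤ P →
            HasVal res (compositeSubring (O i) (red i) (hred i) (Vs i)) h (a i)) →
          (∀ i, centre (O i) (hAO i) ≤ P → a i ^ e = ρ i * c₀) →
          ∀ u₁ h₁ : F, u₁ ∈ pointRing F P → u₁⁻¹ ∈ pointRing F P →
            f ^ e * φ ^ m = u₁ * h₁ ^ m →
            ∃ c : F, c ∈ pointRing F P ∧ ∀ i, centre (O i) (hAO i) ≤ P →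
              h₁⁻¹ - c ∈ (compositeSubring (O i) (red i) (hred i) (Vs i)).nonunits := by
  obtain ⟨φ, hφ0, hφ⟩ := exists_hasVal_family res O hO hres happrox (fun i => (ρ i)⁻¹)
    (fun i => inv_ne_zero (hρ i))
  refine ⟨φ, hφ0, hφ, fun i => pow_mul_sub_one_mem res O hO m e f φ hf (fun i => (ρ i)⁻¹)
    (fun i => by rw [inv_pow, hρm i, inv_one]) hφ i, ?_⟩
  intro P _ Vs hP hbr u h hu hu' hfuh a c₀ hc₀ ha hc u₁ h₁ hu₁ hu₁' hfuh₁
  obtain ⟨c, hcR, hcg⟩ := glue_pow_mul res O hAO red hred P Vs hP hres hbr e h φ ρ a c₀ hc₀ hρ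
    hφ ha hc
  have hu0 : u ≠ 0 := by
    rintro rfl
    rw [zero_mul] at hfuh
    exact hf0 hfuh
  have hfac : f ^ e * φ ^ m = u ^ e * (h ^ e * φ) ^ m := by
    rw [hfuh]
    ring
  exact LStart.glue_of_factor_indep O hAO P red hred Vs hbr m hm (f ^ e * φ ^ m)
    (mul_ne_zero (pow_ne_zero e hf0) (pow_ne_zero m hφ0)) (u ^ e) (h ^ e * φ)
    ((pointRing F P).pow_mem hu e) (by rw [← inv_pow]; exact (pointRing F P).pow_mem hu' e)
    hfac u₁ h₁ hu₁ hu₁' hfuh₁ c hcR hcg

include hAO in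
/-- **(NN-6) KILLING, packaged.**  `f ≡ 1` modulo every `𝔪 (O i)`; constants `ρ i ∈ kˣ`,
normalised by `ρ i₀ = 1`.  There is `φ ≠ 0`, a unit of every `O i` with constant reductions,
such that `f₄ := f ^ e * φ ^ m ≡ 1` modulo every `𝔪 (O i)` and, at EVERY multiple point
(`KillPoint`), every factorisation `f₄ = u₁ * h₁ ^ m` has trivial gluing datum — the literal
`hglue` binder of `LStart.hlocal_at_point` / `LStart.hlocalV_at_point` for `f₄`. -/
theorem exists_kill [IsIntegrallyClosed A] (hO : ∀ i, IsOver res (O i))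
    (hres : Function.Surjective res) (happrox : JointApprox O) (m e : ℕ) (hm : m ≠ 0) (f : F)
    (hf0 : f ≠ 0) (hf : ∀ i, f - 1 ∈ (O i).nonunits) (ρ : ι → k) (hρ : ∀ i, ρ i ≠ 0)
    (i₀ : ι) (hρ₀ : ρ i₀ = 1) :
    ∃ φ : F, φ ≠ 0 ∧ (∀ i, φ ∈ O i ∧ φ⁻¹ ∈ O i) ∧
      (∀ i, f ^ e * φ ^ m - 1 ∈ (O i).nonunits) ∧
      ∀ (P : Ideal A) [P.IsPrime] (Vs : ∀ i, ValuationSubring (κ i)),
        KillPoint res O red hred P Vs m e f ρ →
        ∀ u₁ h₁ : F, u₁ ∈ pointRing F P → u₁⁻¹ ∈ pointRing F P →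
          f ^ e * φ ^ m = u₁ * h₁ ^ m →
          ∃ c : F, c ∈ pointRing F P ∧ ∀ i, centre (O i) (hAO i) ≤ P →
            h₁⁻¹ - c ∈ (compositeSubring (O i) (red i) (hred i) (Vs i)).nonunits := by
  by_cases hex : ∃ (P : Ideal A) (_ : P.IsPrime) (Vs : ∀ i, ValuationSubring (κ i)),
      KillPoint res O red hred P Vs m e f ρ
  · -- one multiple point gives `ρ i ^ m = 1`
    obtain ⟨P₀, hP₀prime, Vs₀, hP₀, hbr₀, ⟨u₀, h₀, hu₀, hu₀', hfuh₀⟩, hval₀⟩ := hex
    obtain ⟨a₀, c₀, ha₀, hc₀⟩ := hval₀ u₀ h₀ hu₀ hu₀' hfuh₀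
    have hρm : ∀ i, ρ i ^ m = 1 :=
      (pow_eq_one_of_point res O red hred P₀ Vs₀ hP₀ hres hbr₀ m e hm f hf u₀ h₀ hu₀ hu₀'
        hfuh₀ ρ a₀ c₀ i₀ hρ₀ ha₀ hc₀).1
    obtain ⟨φ, hφ0, hφ, hφ1, hφg⟩ := exists_kill_of_pow res O hAO red hred hO hres happrox m e
      hm f hf0 hf ρ hρ hρm
    refine ⟨φ, hφ0, fun i => ?_, hφ1, ?_⟩
    · have h1 : φ ∈ O i := (hφ i).mem (hO i)
      have h2 : φ ∉ (O i).nonunits := fun hn =>
        inv_ne_zero (hρ i) (((hφ i).eq_zero_iff (hO i)).2 hn)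
      exact ⟨h1, NodeUnits.inv_mem_of_notMem_nonunits h2⟩
    · intro P _ Vs hKP u₁ h₁ hu₁ hu₁' hfuh₁
      obtain ⟨hP, hbr, ⟨u, h, hu, hu', hfuh⟩, hval⟩ := hKP
      obtain ⟨a, c, ha, hc⟩ := hval u h hu hu' hfuh
      have hc0 : c ≠ 0 :=
        (pow_eq_one_of_point res O red hred P Vs hP hres hbr m e hm f hf u h hu hu'
          hfuh ρ a c i₀ hρ₀ ha hc).2.2
      exact hφg P Vs hP (fun i _ => hbr i) u h hu hu' hfuh a c hc0 (fun i _ => ha i)
        (fun i _ => hc i) u₁ h₁ hu₁ hu₁' hfuh₁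
  · -- no multiple point: `φ = 1`
    refine ⟨1, one_ne_zero, fun i => ⟨(O i).one_mem, by rw [inv_one]; exact (O i).one_mem⟩,
      fun i => ?_, ?_⟩
    · rw [one_pow, mul_one]
      have h1 : HasVal res (O i) f 1 := (hasVal_one_iff (hO i)).2 (hf i)
      have h2 := h1.pow (hO i) e
      rw [one_pow] at h2
      exact (hasVal_one_iff (hO i)).1 h2
    · intro P hPprime Vs hKP
      exact absurd ⟨P, hPprime, Vs, hKP⟩ hex

end Main

/-! ### One factorisation suffices -/

section One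

variable {W k A F : Type*} [CommRing W] [Field k] (res : W →+* k) [CommRing A] [IsDomain A]
  [Field F] [Algebra A F] [IsFractionRing A F] [Algebra W A] [Algebra W F] [IsScalarTower W A F]
  {ι : Type*} (O : ι → ValuationSubring F) (hAO : ∀ i a, algebraMap A F a ∈ O i)
  {κ : ι → Type*} [∀ i, Field (κ i)] (red : ∀ i, O i →+* κ i)
  (hred : ∀ i, ∀ x : O i, red i x = 0 ↔ x ∈ maximalIdeal (O i))

/-- A multiple point with ONE factorisation `f = u * h ^ m` whose values satisfy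
`a i ^ e = ρ i * c₀` (weaker than `KillPoint`; it is all that `exists_kill_one` needs). -/
def KillPointOne (P : Ideal A) [P.IsPrime] (Vs : ∀ i, ValuationSubring (κ i)) (m e : ℕ) (f : F)
    (ρ : ι → k) : Prop :=
  IsRatPoint res P ∧
  (∀ i, ∃ hA : ∀ a : A, algebraMap A F a ∈ compositeSubring (O i) (red i) (hred i) (Vs i),
    pointIdeal (O i) (red i) (hred i) (Vs i) hA = P) ∧
  ∃ (u h : F) (a : ι → k) (c₀ : k), u ∈ pointRing F P ∧ u⁻¹ ∈ pointRing F P ∧ f = u * h ^ m ∧
    (∀ i, HasVal res (compositeSubring (O i) (red i) (hred i) (Vs i)) h (a i)) ∧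
    ∀ i, a i ^ e = ρ i * c₀

omit [IsScalarTower W A F] in
theorem KillPoint.one {P : Ideal A} [P.IsPrime] {Vs : ∀ i, ValuationSubring (κ i)} {m e : ℕ}
    {f : F} {ρ : ι → k} (h : KillPoint res O red hred P Vs m e f ρ) :
    KillPointOne res O red hred P Vs m e f ρ := by
  obtain ⟨hP, hbr, ⟨u, h', hu, hu', hfuh⟩, hval⟩ := h
  obtain ⟨a, c₀, ha, hc⟩ := hval u h' hu hu' hfuh
  exact ⟨hP, hbr, u, h', a, c₀, hu, hu', hfuh, ha, hc⟩

include hAO in
/-- **(NN-6) KILLING, packaged, one factorisation per point.**  Same conclusion as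
`exists_kill`, with `KillPointOne` at the multiple points. -/
theorem exists_kill_one [IsIntegrallyClosed A] (hO : ∀ i, IsOver res (O i))
    (hres : Function.Surjective res) (happrox : JointApprox O) (m e : ℕ) (hm : m ≠ 0) (f : F)
    (hf0 : f ≠ 0) (hf : ∀ i, f - 1 ∈ (O i).nonunits) (ρ : ι → k) (hρ : ∀ i, ρ i ≠ 0)
    (i₀ : ι) (hρ₀ : ρ i₀ = 1) :
    ∃ φ : F, φ ≠ 0 ∧ (∀ i, φ ∈ O i ∧ φ⁻¹ ∈ O i) ∧
      (∀ i, f ^ e * φ ^ m - 1 ∈ (O i).nonunits) ∧
      ∀ (P : Ideal A) [P.IsPrime] (Vs : ∀ i, ValuationSubring (κ i)),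
        KillPointOne res O red hred P Vs m e f ρ →
        ∀ u₁ h₁ : F, u₁ ∈ pointRing F P → u₁⁻¹ ∈ pointRing F P →
          f ^ e * φ ^ m = u₁ * h₁ ^ m →
          ∃ c : F, c ∈ pointRing F P ∧ ∀ i, centre (O i) (hAO i) ≤ P →
            h₁⁻¹ - c ∈ (compositeSubring (O i) (red i) (hred i) (Vs i)).nonunits := by
  by_cases hex : ∃ (P : Ideal A) (_ : P.IsPrime) (Vs : ∀ i, ValuationSubring (κ i)),
      KillPointOne res O red hred P Vs m e f ρ
  · obtain ⟨P₀, hP₀prime, Vs₀, hP₀, hbr₀, u₀, h₀, a₀, c₀, hu₀, hu₀', hfuh₀, ha₀, hc₀⟩ := hex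
    have hρm : ∀ i, ρ i ^ m = 1 :=
      (pow_eq_one_of_point res O red hred P₀ Vs₀ hP₀ hres hbr₀ m e hm f hf u₀ h₀ hu₀ hu₀'
        hfuh₀ ρ a₀ c₀ i₀ hρ₀ ha₀ hc₀).1
    obtain ⟨φ, hφ0, hφ, hφ1, hφg⟩ := exists_kill_of_pow res O hAO red hred hO hres happrox m e
      hm f hf0 hf ρ hρ hρm
    refine ⟨φ, hφ0, fun i => ?_, hφ1, ?_⟩
    · have h1 : φ ∈ O i := (hφ i).mem (hO i)
      have h2 : φ ∉ (O i).nonunits := fun hn =>
        inv_ne_zero (hρ i) (((hφ i).eq_zero_iff (hO i)).2 hn)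
      exact ⟨h1, NodeUnits.inv_mem_of_notMem_nonunits h2⟩
    · intro P _ Vs hKP u₁ h₁ hu₁ hu₁' hfuh₁
      obtain ⟨hP, hbr, u, h, a, c, hu, hu', hfuh, ha, hc⟩ := hKP
      have hc0 : c ≠ 0 :=
        (pow_eq_one_of_point res O red hred P Vs hP hres hbr m e hm f hf u h hu hu'
          hfuh ρ a c i₀ hρ₀ ha hc).2.2
      exact hφg P Vs hP (fun i _ => hbr i) u h hu hu' hfuh a c hc0 (fun i _ => ha i)
        (fun i _ => hc i) u₁ h₁ hu₁ hu₁' hfuh₁
  · refine ⟨1, one_ne_zero, fun i => ⟨(O i).one_mem, by rw [inv_one]; exact (O i).one_mem⟩,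
      fun i => ?_, ?_⟩
    · rw [one_pow, mul_one]
      have h1 : HasVal res (O i) f 1 := (hasVal_one_iff (hO i)).2 (hf i)
      have h2 := h1.pow (hO i) e
      rw [one_pow] at h2
      exact (hasVal_one_iff (hO i)).1 h2
    · intro P hPprime Vs hKP
      exact absurd ⟨P, hPprime, Vs, hKP⟩ hex

end One

/-! ### From `NodeNorm.glue_ratio_pow` to the hypothesis of `KillPoint` -/

section Fin3

variable {k : Type*} [Field k]

/-- The constants of the three branches `(inf, mid, 0)` from the outputs of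
`NodeNorm.glue_ratio_pow` (`q = n + 1`, `e = n (n + 2) = q² − 1`, `Rα = γα₁ / γα₂`,
`Rβ = γβ₁ / γβ₂`). -/
def rho3 (n : ℕ) (Rα Rβ : k) : Fin 3 → k := ![(Rα * Rβ) ^ n, Rα ^ (n + 1) / Rβ, 1]

theorem rho3_two (n : ℕ) (Rα Rβ : k) : rho3 n Rα Rβ 2 = 1 := rfl

theorem rho3_ne_zero (n : ℕ) {Rα Rβ : k} (hα : Rα ≠ 0) (hβ : Rβ ≠ 0) (i : Fin 3) :
    rho3 n Rα Rβ i ≠ 0 := by
  fin_cases i
  · exact pow_ne_zero n (mul_ne_zero hα hβ)
  · exact div_ne_zero (pow_ne_zero _ hα) hβ
  · exact one_ne_zero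

/-- If `a, b, c` are the values of `h` on the branches `inf, mid, 0` and satisfy the two
relations of `NodeNorm.glue_ratio_pow`, then `(![a, b, c] i) ^ e = rho3 n Rα Rβ i * c ^ e` with
`e = n * (n + 2)`. -/
theorem fin3_ratio (n : ℕ) {a b c Rα Rβ : k} (hβ : Rβ ≠ 0)
    (h1 : a ^ (n + 2) = Rα * Rβ * c ^ (n + 2))
    (h2 : Rβ * b ^ (n * (n + 2)) = Rα ^ (n + 1) * c ^ (n * (n + 2))) (i : Fin 3) :
    (![a, b, c] : Fin 3 → k) i ^ (n * (n + 2)) = rho3 n Rα Rβ i * c ^ (n * (n + 2)) := by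
  fin_cases i
  · show a ^ (n * (n + 2)) = (Rα * Rβ) ^ n * c ^ (n * (n + 2))
    rw [mul_comm n (n + 2), pow_mul, h1, mul_pow, ← pow_mul]
  · show b ^ (n * (n + 2)) = Rα ^ (n + 1) / Rβ * c ^ (n * (n + 2))
    field_simp
    linear_combination h2
  · show c ^ (n * (n + 2)) = 1 * c ^ (n * (n + 2))
    rw [one_mul]

end Fin3

end Fermat.Agent.CAR.Glue.Kill
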