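/-
CAR (helper52) — the local gluing core, in concrete form inside the function field.

`F` a field, `C ≤ O` subrings of `F` (`C = R ∩ O` a chart ring of the model, `O` the ring of
integral functions), `𝔪` a prime ideal of `C` (a closed point `P` of the special fibre).

* `locAt C 𝔪 O hCO` : the subring `O[(C ∖ 𝔪)⁻¹] = {z | ∃ d ∈ C ∖ 𝔪, d z ∈ O}` of `F`;
  `locAt C 𝔪 C le_rfl` is the local ring `C_𝔪` of the point (`isLocalRing_locAt`), with maximal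
  ideal `maxAt C 𝔪 = {t | ∃ d ∈ C ∖ 𝔪, d t ∈ 𝔪}` (`mem_maximalIdeal_locAt`).
* `locAtHom` : a ring homomorphism `ρ : O → κ` to a field which does not vanish on `C ∖ 𝔪`
  (a branch through `P`) extends to `O[(C ∖ 𝔪)⁻¹]`.
* `exists_approx_locAt` : **the local step of `hP2`**, i.e. the hypothesis `hloc` of
  `ChartSetup.lift_P2_of_local` at the point `𝔪`.  Data: branches `ρ i : O → κ i` through `P`
  with `ρ i ϖ = 0`, jointly detecting `ϖ`-divisibility up to nilpotents near `P`; the Kummer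
  generator `g ≡ 1 mod ϖ`; a local generator `h'` of `O(D)` at `P` (`h' ^ m * g = u ∈ C_𝔪ˣ`);
  the gluing condition: `h' ≡ c + t_i` on the branch `i`, `c ∈ C_𝔪`, `t_i ∈ 𝔪 C_𝔪`.
  Conclusion: every local section `s = a h'` (`a ∈ C_𝔪`) satisfies `d s ≡ b mod ϖ O` for some
  `d ∈ C ∖ 𝔪`, `b ∈ C`.
  This is `LocalCore.exists_sub_mem_span_of_glue_section` for `R = C_𝔪`, `S = O[(C ∖ 𝔪)⁻¹]`
  with the denominators cleared.
-/
import Mathlib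
import Fermat.Agent.CAR.Glue.LocalCore

set_option autoImplicit false

namespace Fermat.Agent.CAR.Glue

open IsLocalRing

variable {F : Type*} [Field F]

/-- `O[(C ∖ 𝔪)⁻¹]` as a subring of `F`. -/
def locAt (C : Subring F) (𝔪 : Ideal ↥C) [𝔪.IsPrime] (O : Subring F) (hCO : C ≤ O) :
    Subring F where
  carrier := {z | ∃ d : ↥C, d ∉ 𝔪 ∧ (d : F) * z ∈ O}
  mul_mem' := by
    rintro z₁ z₂ ⟨d₁, hd₁, h₁⟩ ⟨d₂, hd₂, h₂⟩
    refine ⟨d₁ * d₂, fun h => (Ideal.IsPrime.mem_or_mem ‹_› h).elim hd₁ hd₂, ?_⟩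
    have e : ((d₁ * d₂ : ↥C) : F) * (z₁ * z₂) = ((d₁ : F) * z₁) * ((d₂ : F) * z₂) := by
      push_cast; ring
    rw [e]
    exact O.mul_mem h₁ h₂
  one_mem' := ⟨1, (Ideal.ne_top_iff_one 𝔪).1 (Ideal.IsPrime.ne_top ‹_›), by
    rw [Subring.coe_one, one_mul]; exact O.one_mem⟩
  add_mem' := by
    rintro z₁ z₂ ⟨d₁, hd₁, h₁⟩ ⟨d₂, hd₂, h₂⟩
    refine ⟨d₁ * d₂, fun h => (Ideal.IsPrime.mem_or_mem ‹_› h).elim hd₁ hd₂, ?_⟩
    have e : ((d₁ * d₂ : ↥C) : F) * (z₁ + z₂)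
        = (d₂ : F) * ((d₁ : F) * z₁) + (d₁ : F) * ((d₂ : F) * z₂) := by
      push_cast; ring
    rw [e]
    exact O.add_mem (O.mul_mem (hCO d₂.2) h₁) (O.mul_mem (hCO d₁.2) h₂)
  zero_mem' := ⟨1, (Ideal.ne_top_iff_one 𝔪).1 (Ideal.IsPrime.ne_top ‹_›), by
    rw [mul_zero]; exact O.zero_mem⟩
  neg_mem' := by
    rintro z ⟨d, hd, h⟩
    exact ⟨d, hd, by rw [mul_neg]; exact O.neg_mem h⟩

/-- The maximal ideal of `C_𝔪`, as a subset of `F`. -/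
def maxAt (C : Subring F) (𝔪 : Ideal ↥C) : Set F :=
  {t | ∃ d : ↥C, d ∉ 𝔪 ∧ ∃ τ : ↥C, τ ∈ 𝔪 ∧ (d : F) * t = (τ : F)}

section Basic

variable (C : Subring F) (𝔪 : Ideal ↥C) [𝔪.IsPrime] (O : Subring F) (hCO : C ≤ O)

theorem mem_locAt {z : F} : z ∈ locAt C 𝔪 O hCO ↔ ∃ d : ↥C, d ∉ 𝔪 ∧ (d : F) * z ∈ O := Iff.rfl

theorem one_notMem_prime : (1 : ↥C) ∉ 𝔪 := (Ideal.ne_top_iff_one 𝔪).1 (Ideal.IsPrime.ne_top ‹_›)

theorem le_locAt : O ≤ locAt C 𝔪 O hCO := fun z hz =>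
  ⟨1, one_notMem_prime C 𝔪, by rw [Subring.coe_one, one_mul]; exact hz⟩

theorem locAt_le_locAt : locAt C 𝔪 C le_rfl ≤ locAt C 𝔪 O hCO := by
  rintro z ⟨d, hd, h⟩
  exact ⟨d, hd, hCO h⟩

/-- The inverse of an element of `C ∖ 𝔪` lies in `C_𝔪`. -/
theorem inv_mem_locAt (d : ↥C) (hd : d ∉ 𝔪) : (d : F)⁻¹ ∈ locAt C 𝔪 C le_rfl := by
  have hd0 : (d : F) ≠ 0 := by
    intro h0
    apply hd
    have : d = 0 := Subtype.ext h0
    rw [this]; exact 𝔪.zero_mem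
  exact ⟨d, hd, by rw [mul_inv_cancel₀ hd0]; exact C.one_mem⟩

theorem maxAt_subset_locAt {t : F} (ht : t ∈ maxAt C 𝔪) : t ∈ locAt C 𝔪 C le_rfl := by
  obtain ⟨d, hd, τ, -, h⟩ := ht
  exact ⟨d, hd, by rw [h]; exact τ.2⟩

/-- An element of `C_𝔪` with a numerator outside `𝔪` is a unit. -/
theorem isUnit_locAt_of_num (z : ↥(locAt C 𝔪 C le_rfl)) (d b : ↥C) (hb : b ∉ 𝔪)
    (h : (d : F) * (z : F) = (b : F)) : IsUnit z := by
  have hb0 : (b : F) ≠ 0 := by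
    intro h0
    apply hb
    have : b = 0 := Subtype.ext h0
    rw [this]; exact 𝔪.zero_mem
  have hz0 : (z : F) ≠ 0 := by
    intro h0
    rw [h0, mul_zero] at h
    exact hb0 h.symm
  have hinv : (z : F)⁻¹ ∈ locAt C 𝔪 C le_rfl :=
    ⟨b, hb, by
      rw [← h, mul_assoc, mul_inv_cancel₀ hz0, mul_one]; exact d.2⟩
  exact IsUnit.of_mul_eq_one ⟨(z : F)⁻¹, hinv⟩ (Subtype.ext (mul_inv_cancel₀ hz0))

/-- A unit of `C_𝔪` has all its numerators outside `𝔪`. -/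
theorem num_notMem_of_isUnit (z : ↥(locAt C 𝔪 C le_rfl)) (hz : IsUnit z) (d b : ↥C) (hd : d ∉ 𝔪)
    (h : (d : F) * (z : F) = (b : F)) : b ∉ 𝔪 := by
  obtain ⟨w, hw⟩ := hz.exists_right_inv
  obtain ⟨d', hd', b', hb'⟩ : ∃ d' : ↥C, d' ∉ 𝔪 ∧ ∃ b' : ↥C, (d' : F) * (w : F) = (b' : F) := by
    obtain ⟨d', hd', h'⟩ := w.2
    exact ⟨d', hd', ⟨_, h'⟩, rfl⟩
  have hwF : (z : F) * (w : F) = 1 := by
    have := congrArg (Subtype.val : ↥(locAt C 𝔪 C le_rfl) → F) hw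
    push_cast at this
    exact this
  have e : b * b' = d * d' := by
    apply Subtype.ext
    push_cast
    rw [← h, ← hb']
    calc (d : F) * (z : F) * ((d' : F) * (w : F)) = (d : F) * (d' : F) * ((z : F) * (w : F)) := by
          ring
      _ = (d : F) * (d' : F) := by rw [hwF, mul_one]
  intro hb
  have : d * d' ∈ 𝔪 := by rw [← e]; exact 𝔪.mul_mem_right _ hb
  exact (Ideal.IsPrime.mem_or_mem ‹_› this).elim hd hd'

theorem isUnit_or_isUnit_locAt {a b : ↥(locAt C 𝔪 C le_rfl)} (hab : a + b = 1) :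
    IsUnit a ∨ IsUnit b := by
  obtain ⟨d₁, hd₁, h₁⟩ := a.2
  obtain ⟨d₂, hd₂, h₂⟩ := b.2
  have habF : (a : F) + (b : F) = 1 := by
    have := congrArg (Subtype.val : ↥(locAt C 𝔪 C le_rfl) → F) hab
    push_cast at this
    exact this
  have e : d₂ * ⟨_, h₁⟩ + d₁ * ⟨_, h₂⟩ = d₁ * d₂ := by
    apply Subtype.ext
    push_cast
    calc (d₂ : F) * ((d₁ : F) * (a : F)) + (d₁ : F) * ((d₂ : F) * (b : F))
        = (d₁ : F) * (d₂ : F) * ((a : F) + (b : F)) := by ring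
      _ = (d₁ : F) * (d₂ : F) := by rw [habF, mul_one]
  have hnot : d₁ * d₂ ∉ 𝔪 := fun h => (Ideal.IsPrime.mem_or_mem ‹_› h).elim hd₁ hd₂
  by_cases ha : (⟨_, h₁⟩ : ↥C) ∈ 𝔪
  · right
    refine isUnit_locAt_of_num C 𝔪 b d₂ ⟨_, h₂⟩ ?_ rfl
    intro hb
    apply hnot
    rw [← e]
    exact 𝔪.add_mem (𝔪.mul_mem_left _ ha) (𝔪.mul_mem_left _ hb)
  · left
    exact isUnit_locAt_of_num C 𝔪 a d₁ ⟨_, h₁⟩ ha rfl

instance isLocalRing_locAt : IsLocalRing ↥(locAt C 𝔪 C le_rfl) where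
  isUnit_or_isUnit_of_add_one := isUnit_or_isUnit_locAt C 𝔪

/-- The maximal ideal of `C_𝔪` is `maxAt C 𝔪`. -/
theorem mem_maximalIdeal_locAt (z : ↥(locAt C 𝔪 C le_rfl)) :
    z ∈ maximalIdeal ↥(locAt C 𝔪 C le_rfl) ↔ (z : F) ∈ maxAt C 𝔪 := by
  rw [IsLocalRing.mem_maximalIdeal, mem_nonunits_iff]
  constructor
  · intro hz
    obtain ⟨d, hd, h⟩ := z.2
    refine ⟨d, hd, ⟨_, h⟩, ?_, rfl⟩
    by_contra hb
    exact hz (isUnit_locAt_of_num C 𝔪 z d ⟨_, h⟩ hb rfl)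
  · rintro ⟨d, hd, τ, hτ, h⟩ hz
    exact num_notMem_of_isUnit C 𝔪 z hz d τ hd h hτ

end Basic

section Hom

variable {C : Subring F} {𝔪 : Ideal ↥C} [𝔪.IsPrime] {O : Subring F} {hCO : C ≤ O}
  {κ : Type*} [Field κ] (ρ : ↥O →+* κ)
  (hρ : ∀ d : ↥C, d ∉ 𝔪 → ρ (Subring.inclusion hCO d) ≠ 0)

/-- The value of the extension of `ρ` to `O[(C ∖ 𝔪)⁻¹]`. -/
noncomputable def locAtFun (z : ↥(locAt C 𝔪 O hCO)) : κ :=
  ρ ⟨_, (Classical.choose_spec z.2).2⟩ / ρ (Subring.inclusion hCO (Classical.choose z.2))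

include hρ in
theorem locAtFun_eq (z : ↥(locAt C 𝔪 O hCO)) (d : ↥C) (hd : d ∉ 𝔪) (h : (d : F) * (z : F) ∈ O) :
    locAtFun ρ z = ρ ⟨_, h⟩ / ρ (Subring.inclusion hCO d) := by
  unfold locAtFun
  set d₀ := Classical.choose z.2
  have hd₀ : d₀ ∉ 𝔪 := (Classical.choose_spec z.2).1
  have h₀ : (d₀ : F) * (z : F) ∈ O := (Classical.choose_spec z.2).2
  rw [div_eq_div_iff (hρ d₀ hd₀) (hρ d hd), ← map_mul, ← map_mul]
  congr 1
  apply Subtype.ext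
  show (d₀ : F) * (z : F) * (d : F) = (d : F) * (z : F) * (d₀ : F)
  ring

/-- The extension of `ρ : O → κ` to `O[(C ∖ 𝔪)⁻¹]`. -/
noncomputable def locAtHom : ↥(locAt C 𝔪 O hCO) →+* κ where
  toFun := locAtFun ρ
  map_one' := by
    have h1 : ((1 : ↥C) : F) * ((1 : ↥(locAt C 𝔪 O hCO)) : F) ∈ O := by
      push_cast; rw [mul_one]; exact O.one_mem
    rw [locAtFun_eq ρ hρ 1 1 (one_notMem_prime C 𝔪) h1]
    have e1 : (⟨_, h1⟩ : ↥O) = 1 := Subtype.ext (by push_cast; rw [mul_one])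
    have e2 : Subring.inclusion hCO (1 : ↥C) = 1 := rfl
    rw [e1, e2, map_one, div_one]
  map_mul' := by
    intro z₁ z₂
    obtain ⟨d₁, hd₁, h₁⟩ := z₁.2
    obtain ⟨d₂, hd₂, h₂⟩ := z₂.2
    have hd : d₁ * d₂ ∉ 𝔪 := fun h => (Ideal.IsPrime.mem_or_mem ‹_› h).elim hd₁ hd₂
    have h12 : ((d₁ * d₂ : ↥C) : F) * ((z₁ * z₂ : ↥(locAt C 𝔪 O hCO)) : F) ∈ O := by
      have e : ((d₁ * d₂ : ↥C) : F) * ((z₁ * z₂ : ↥(locAt C 𝔪 O hCO)) : F)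
          = ((d₁ : F) * (z₁ : F)) * ((d₂ : F) * (z₂ : F)) := by push_cast; ring
      rw [e]; exact O.mul_mem h₁ h₂
    rw [locAtFun_eq ρ hρ _ _ hd h12, locAtFun_eq ρ hρ z₁ d₁ hd₁ h₁,
      locAtFun_eq ρ hρ z₂ d₂ hd₂ h₂]
    have e1 : (⟨_, h12⟩ : ↥O) = ⟨_, h₁⟩ * ⟨_, h₂⟩ := by
      apply Subtype.ext; push_cast; ring
    have e2 : Subring.inclusion hCO (d₁ * d₂) = Subring.inclusion hCO d₁ * Subring.inclusion hCO d₂ :=
      map_mul _ _ _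
    rw [e1, e2, map_mul, map_mul, mul_div_mul_comm]
  map_zero' := by
    have h1 : ((1 : ↥C) : F) * ((0 : ↥(locAt C 𝔪 O hCO)) : F) ∈ O := by
      push_cast; rw [mul_zero]; exact O.zero_mem
    rw [locAtFun_eq ρ hρ 0 1 (one_notMem_prime C 𝔪) h1]
    have e1 : (⟨_, h1⟩ : ↥O) = 0 := Subtype.ext (by push_cast; rw [mul_zero])
    rw [e1, map_zero, zero_div]
  map_add' := by
    intro z₁ z₂
    obtain ⟨d₁, hd₁, h₁⟩ := z₁.2
    obtain ⟨d₂, hd₂, h₂⟩ := z₂.2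
    have hd : d₁ * d₂ ∉ 𝔪 := fun h => (Ideal.IsPrime.mem_or_mem ‹_› h).elim hd₁ hd₂
    have h12 : ((d₁ * d₂ : ↥C) : F) * ((z₁ + z₂ : ↥(locAt C 𝔪 O hCO)) : F) ∈ O := by
      have e : ((d₁ * d₂ : ↥C) : F) * ((z₁ + z₂ : ↥(locAt C 𝔪 O hCO)) : F)
          = (d₂ : F) * ((d₁ : F) * (z₁ : F)) + (d₁ : F) * ((d₂ : F) * (z₂ : F)) := by
        push_cast; ring
      rw [e]; exact O.add_mem (O.mul_mem (hCO d₂.2) h₁) (O.mul_mem (hCO d₁.2) h₂)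
    rw [locAtFun_eq ρ hρ _ _ hd h12, locAtFun_eq ρ hρ z₁ d₁ hd₁ h₁,
      locAtFun_eq ρ hρ z₂ d₂ hd₂ h₂]
    have e1 : (⟨_, h12⟩ : ↥O) = Subring.inclusion hCO d₂ * ⟨_, h₁⟩
        + Subring.inclusion hCO d₁ * ⟨_, h₂⟩ := by
      apply Subtype.ext; push_cast; simp only [Subring.coe_inclusion]; ring
    have e2 : Subring.inclusion hCO (d₁ * d₂) = Subring.inclusion hCO d₁ * Subring.inclusion hCO d₂ :=
      map_mul _ _ _
    rw [e1, e2, map_add, map_mul, map_mul, map_mul]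
    field_simp [hρ d₁ hd₁, hρ d₂ hd₂]

theorem locAtHom_eq (z : ↥(locAt C 𝔪 O hCO)) (d : ↥C) (hd : d ∉ 𝔪) (h : (d : F) * (z : F) ∈ O) :
    locAtHom ρ hρ z = ρ ⟨_, h⟩ / ρ (Subring.inclusion hCO d) :=
  locAtFun_eq ρ hρ z d hd h

theorem locAtHom_of_mem (z : F) (hz : z ∈ O) :
    locAtHom ρ hρ ⟨z, le_locAt C 𝔪 O hCO hz⟩ = ρ ⟨z, hz⟩ := by
  have h1 : ((1 : ↥C) : F) * z ∈ O := by push_cast; rw [one_mul]; exact hz
  rw [locAtHom_eq ρ hρ _ 1 (one_notMem_prime C 𝔪) h1]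
  have e1 : (⟨_, h1⟩ : ↥O) = ⟨z, hz⟩ := Subtype.ext (by push_cast; rw [one_mul])
  have e2 : Subring.inclusion hCO (1 : ↥C) = 1 := rfl
  rw [e1, e2, map_one, div_one]

/-- `ρ' z = 0` iff `ρ (d z) = 0` for one (any) denominator `d`. -/
theorem locAtHom_eq_zero_iff (z : ↥(locAt C 𝔪 O hCO)) (d : ↥C) (hd : d ∉ 𝔪)
    (h : (d : F) * (z : F) ∈ O) : locAtHom ρ hρ z = 0 ↔ ρ ⟨_, h⟩ = 0 := by
  rw [locAtHom_eq ρ hρ z d hd h, div_eq_zero_iff]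
  constructor
  · rintro (h' | h')
    · exact h'
    · exact absurd h' (hρ d hd)
  · exact Or.inl

end Hom

/-- **The local step of `hP2`.**  See the file header. -/
theorem exists_approx_locAt
    (C O : Subring F) (hCO : C ≤ O) (𝔪 : Ideal ↥C) [𝔪.IsPrime]
    {ι : Type*} [Finite ι] [Nonempty ι] {κ : ι → Type*} [∀ i, Field (κ i)]
    (ρ : ∀ i, ↥O →+* κ i)
    (hρ : ∀ i, ∀ d : ↥C, d ∉ 𝔪 → ρ i (Subring.inclusion hCO d) ≠ 0)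
    (ϖ : ↥C) (hρϖ : ∀ i, ρ i (Subring.inclusion hCO ϖ) = 0)
    (hnil : ∀ z : ↥O, (∀ i, ρ i z = 0) →
      ∃ N : ℕ, ∃ w ∈ locAt C 𝔪 O hCO, (z : F) ^ N = (ϖ : F) * w)
    (m : ℕ) (hm : (m : ↥C) ∉ 𝔪)
    (g h' u c : F)
    (hg : ∃ w ∈ locAt C 𝔪 O hCO, g - 1 = (ϖ : F) * w)
    (hgh : h' ^ m * g = u)
    (hu : u ∈ locAt C 𝔪 C le_rfl) (hu' : u⁻¹ ∈ locAt C 𝔪 C le_rfl) (hu0 : u ≠ 0)
    (hh' : h' ∈ locAt C 𝔪 O hCO)
    (hc : c ∈ locAt C 𝔪 C le_rfl)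
    (hglue : ∀ i, ∃ t ∈ maxAt C 𝔪, ∃ d : ↥C, d ∉ 𝔪 ∧
      ∃ hmem : (d : F) * (h' - c - t) ∈ O, ρ i ⟨_, hmem⟩ = 0)
    (s a : F) (ha : a ∈ locAt C 𝔪 C le_rfl) (hs : s = a * h') :
    ∃ d : ↥C, d ∉ 𝔪 ∧ ∃ b : ↥C, ∃ o ∈ O, (d : F) * s - (b : F) = (ϖ : F) * o := by
  classical
  set Cm : Subring F := locAt C 𝔪 C le_rfl with hCm
  set Om : Subring F := locAt C 𝔪 O hCO with hOm
  have hle : Cm ≤ Om := locAt_le_locAt C 𝔪 O hCO
  let _ : Algebra ↥Cm ↥Om := (Subring.inclusion hle).toAlgebra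
  have halg : ∀ r : ↥Cm, ((algebraMap ↥Cm ↥Om r : ↥Om) : F) = (r : F) := fun r => rfl
  let ρ' : ∀ i, ↥Om →+* κ i := fun i => locAtHom (ρ i) (hρ i)
  have hϖCm : (ϖ : F) ∈ Cm := le_locAt C 𝔪 C le_rfl ϖ.2
  have hgOm : g ∈ Om := by
    obtain ⟨w, hw, hgw⟩ := hg
    have e : g = 1 + (ϖ : F) * w := by rw [← hgw]; ring
    rw [e]
    exact Om.add_mem Om.one_mem (Om.mul_mem (hle hϖCm) hw)
  have hspan : ∀ z : ↥Om, z ∈ Ideal.span {algebraMap ↥Cm ↥Om ⟨ϖ, hϖCm⟩} ↔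
      ∃ w ∈ Om, (z : F) = (ϖ : F) * w := by
    intro z
    rw [Ideal.mem_span_singleton']
    constructor
    · rintro ⟨w, rfl⟩
      refine ⟨w, w.2, ?_⟩
      push_cast
      rw [halg, mul_comm]
    · rintro ⟨w, hw, h⟩
      refine ⟨⟨w, hw⟩, Subtype.ext ?_⟩
      push_cast
      rw [halg, h, mul_comm]
  have hm0 : ((m : ↥C) : F) ≠ 0 := by
    intro h0
    apply hm
    have : (m : ↥C) = 0 := Subtype.ext h0
    rw [this]; exact 𝔪.zero_mem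
  obtain ⟨r, hr⟩ := exists_sub_mem_span_of_glue_section (R := ↥Cm) (S := ↥Om) ρ'
    ⟨ϖ, hϖCm⟩
    (by
      intro i
      have : algebraMap ↥Cm ↥Om ⟨ϖ, hϖCm⟩ = ⟨(ϖ : F), le_locAt C 𝔪 O hCO (hCO ϖ.2)⟩ := rfl
      rw [this]
      show locAtHom (ρ i) (hρ i) _ = 0
      rw [locAtHom_of_mem (ρ i) (hρ i) (ϖ : F) (hCO ϖ.2)]
      exact hρϖ i)
    (by
      intro z hz
      obtain ⟨d, hd, hdz⟩ := z.2
      have hz0 : ∀ i, ρ i ⟨_, hdz⟩ = 0 := fun i =>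
        (locAtHom_eq_zero_iff (ρ i) (hρ i) z d hd hdz).1 (hz i)
      obtain ⟨N, w, hw, hN⟩ := hnil ⟨_, hdz⟩ hz0
      refine ⟨N, (hspan _).2 ⟨((d : F)⁻¹) ^ N * w, Om.mul_mem
        (Om.pow_mem (hle (inv_mem_locAt C 𝔪 d hd)) _) hw, ?_⟩⟩
      have hd0 : (d : F) ≠ 0 := by
        intro h0
        apply hd
        have : d = 0 := Subtype.ext h0
        rw [this]; exact 𝔪.zero_mem
      have e1 : ((d : F) * (z : F)) ^ N = (ϖ : F) * w := hN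
      push_cast
      calc (z : F) ^ N = ((d : F)⁻¹) ^ N * (((d : F) * (z : F)) ^ N) := by
            rw [mul_pow, ← mul_assoc, ← mul_pow, inv_mul_cancel₀ hd0, one_pow, one_mul]
        _ = (ϖ : F) * (((d : F)⁻¹) ^ N * w) := by rw [e1]; ring)
    m
    (by
      have hminv : ((m : ↥C) : F)⁻¹ ∈ Cm := inv_mem_locAt C 𝔪 (m : ↥C) hm
      refine IsUnit.of_mul_eq_one ⟨_, hminv⟩ (Subtype.ext ?_)
      push_cast
      have : ((m : ↥C) : F) = (m : F) := by push_cast; rfl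
      rw [← this, mul_inv_cancel₀ hm0])
    ⟨g, hgOm⟩ ⟨h', hh'⟩ ⟨u, hu⟩
    (IsUnit.of_mul_eq_one ⟨u⁻¹, hu'⟩ (Subtype.ext (mul_inv_cancel₀ hu0)))
    (by
      obtain ⟨w, hw, hgw⟩ := hg
      exact (hspan _).2 ⟨w, hw, by push_cast; exact hgw⟩)
    (by
      apply Subtype.ext
      push_cast
      rw [halg]
      exact hgh)
    ⟨c, hc⟩
    (by
      intro i
      obtain ⟨t, ht, d, hd, hmem, h0⟩ := hglue i
      have htCm : t ∈ Cm := maxAt_subset_locAt C 𝔪 ht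
      refine ⟨⟨t, htCm⟩, (mem_maximalIdeal_locAt C 𝔪 _).2 ht, ?_⟩
      have hdiff : h' - c - t ∈ Om := Om.sub_mem (Om.sub_mem hh' (hle hc)) (hle htCm)
      have h1 : ρ' i ⟨_, hdiff⟩ = 0 :=
        (locAtHom_eq_zero_iff (ρ i) (hρ i) ⟨_, hdiff⟩ d hd hmem).2 h0
      have e : (⟨h', hh'⟩ : ↥Om) = ⟨_, hdiff⟩ + algebraMap ↥Cm ↥Om (⟨c, hc⟩ + ⟨t, htCm⟩) := by
        apply Subtype.ext
        show h' = (h' - c - t) + (c + t)
        ring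
      rw [e, map_add, h1, zero_add])
    ⟨s, by rw [hs]; exact Om.mul_mem (hle ha) hh'⟩ ⟨a, ha⟩
    (by
      apply Subtype.ext
      push_cast
      rw [halg]
      exact hs)
  -- clear the denominators
  obtain ⟨w, hw, hsw⟩ := (hspan _).1 hr
  obtain ⟨d₁, hd₁, h₁⟩ := r.2
  obtain ⟨d₂, hd₂, h₂⟩ := hw
  refine ⟨d₁ * d₂, fun h => (Ideal.IsPrime.mem_or_mem ‹_› h).elim hd₁ hd₂,
    d₂ * ⟨_, h₁⟩, (d₁ : F) * ((d₂ : F) * w), O.mul_mem (hCO d₁.2) h₂, ?_⟩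
  have e : s - (r : F) = (ϖ : F) * w := by
    have := hsw
    push_cast at this
    rw [halg] at this
    exact this
  push_cast
  calc (d₁ : F) * (d₂ : F) * s - (d₂ : F) * ((d₁ : F) * (r : F))
      = (d₁ : F) * (d₂ : F) * (s - (r : F)) := by ring
    _ = (ϖ : F) * ((d₁ : F) * ((d₂ : F) * w)) := by rw [e]; ring

end Fermat.Agent.CAR.Glue
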