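/-
CAR-13 (helper75), addendum: the local pair at a point of a chart in the VALUATION FORM of
helper18's Newton–Čech theorem — the hypothesis `hlocal` of
`Glob.exists_global_root_of_valuations` (and of `exists_global_root_of_valuations_inf`):

  `∃ h : R, h ∉ Q ∧ ∃ s : F, s ^ m * f ∈ R ∧ ∀ i, s - h ∈ (V i).nonunits`.

* `LStart.local_pair_valuations` : conversion from the output of `exists_local_pair` (with
  `A := ↥R`).
* `LStart.hlocalV_at_point` : (b) + (c) + (d) at a point `Q ∋ q` of the chart `R` whose local ring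
  is factorial, with trivial gluing datum.
* `LStart.hlocalV_at_point_of_unique_branch` : the same at a point lying on one component only
  (no gluing condition).
* `LStart.hlocalV_at_point_of_mem` : (e), the trivial case `f ∈ R_Q`.
-/
import Mathlib
import Fermat.Agent.CAR.Glue.LocalStart

set_option autoImplicit false

namespace Fermat.Agent.CAR.Glue.LStart

open IsLocalRing Fermat.Agent.CAR.Local

section SubalgebraV

variable {W F : Type*} [CommRing W] [Field F] [Algebra W F]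

/-- The local pair in the shape of the hypothesis `hlocal` of helper18's
`Glob.exists_global_root_of_valuations`. -/
theorem local_pair_valuations (R : Subalgebra W F) {ι : Type*} (Os : ι → ValuationSubring F)
    (Q : Ideal R) (m : ℕ) (f : F)
    (hpair : ∃ g : R, g ∉ Q ∧ ∃ s : F, (∃ a : R, s ^ m * f = algebraMap R F a) ∧
      (∀ i, s ∈ Os i) ∧ ∀ i, s - algebraMap R F g ∈ (Os i).nonunits) :
    ∃ h : R, h ∉ Q ∧ ∃ s : F, s ^ m * f ∈ R ∧ ∀ i, s - h ∈ (Os i).nonunits := by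
  obtain ⟨g, hg, s, ⟨a, ha⟩, -, hsg⟩ := hpair
  refine ⟨g, hg, s, ?_, fun i => hsg i⟩
  rw [ha]
  exact a.2

/-- **(b) + (c) + (d) at a point of a chart, valuation form of `hlocal`.**  `R` a subalgebra of
`F` with `Frac R = F`, `Os i` the vertical valuation rings, `f ≡ 1` modulo every `𝔪 (Os i)`,
`m ∣ ord_V f` for the horizontal discrete valuation rings `V` (`hhor`).  Let `Q ∋ q` be a prime
of `R` with `m ∉ Q` whose local ring is factorial, with its branch data `Vs`, LIFT, and trivial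
gluing datum for (every) factorisation `f = u * h ^ m`.  Then the local pair of the Newton–Čech
theorem exists at `Q`. -/
theorem hlocalV_at_point (q : W) (m : ℕ) (R : Subalgebra W F) [IsFractionRing R F]
    {ι : Type*} [Finite ι] (Os : ι → ValuationSubring F)
    (hAO : ∀ i (a : R), algebraMap R F a ∈ Os i)
    {κ : ι → Type*} [∀ i, Field (κ i)] (red : ∀ i, Os i →+* κ i)
    (hred : ∀ i, ∀ x : Os i, red i x = 0 ↔ x ∈ maximalIdeal (Os i))
    (f : F) (hf : ∀ i, f - 1 ∈ (Os i).nonunits)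
    (hq0 : algebraMap W R q ≠ 0)
    (hmin : ∀ 𝔮 ∈ (Ideal.span {algebraMap W R q}).minimalPrimes,
      ∃ i, 𝔮 = centre (Os i) (hAO i))
    (hhor : ∀ (V : ValuationSubring F) (t : F), Formal.IsUnif V t →
      (∀ a : R, algebraMap R F a ∈ V) → (algebraMap R F (algebraMap W R q))⁻¹ ∈ V →
      ∃ g : F, g ≠ 0 ∧ g ^ m * f ∈ V ∧ (g ^ m * f)⁻¹ ∈ V)
    (Q : Ideal R) [Q.IsPrime] (hqQ : algebraMap W R q ∈ Q) (hmQ : (m : R) ∉ Q)
    (hUFM : UniqueFactorizationMonoid (pointRing F Q))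
    (Vs : ∀ i, ValuationSubring (κ i))
    (hbr : ∀ i, centre (Os i) (hAO i) ≤ Q →
      ∃ hA : ∀ a : R, algebraMap R F a ∈ compositeSubring (Os i) (red i) (hred i) (Vs i),
        pointIdeal (Os i) (red i) (hred i) (Vs i) hA = Q)
    (hlift : ∀ i, centre (Os i) (hAO i) ≤ Q → ∀ c ∈ Vs i, ∃ a b : R,
      redOn (Os i) (red i) (hAO i) b ∉ (Vs i).nonunits ∧
      redOn (Os i) (red i) (hAO i) a = c * redOn (Os i) (red i) (hAO i) b)
    (hglue : ∀ u h : F, u ∈ pointRing F Q → u⁻¹ ∈ pointRing F Q → f = u * h ^ m →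
      ∃ c : F, c ∈ pointRing F Q ∧ ∀ i, centre (Os i) (hAO i) ≤ Q →
        h⁻¹ - c ∈ (compositeSubring (Os i) (red i) (hred i) (Vs i)).nonunits) :
    ∃ h : R, h ∉ Q ∧ ∃ s : F, s ^ m * f ∈ R ∧ ∀ i, s - h ∈ (Os i).nonunits := by
  have hfn : ∀ i, f ∉ (Os i).nonunits := by
    intro i hfn
    have h1 : (1 : F) ∈ (Os i).nonunits := by
      have e : (1 : F) = f - (f - 1) := by ring
      rw [e]
      exact sub_mem_nonunits (Os i) hfn (hf i)
    rw [ValuationSubring.mem_nonunits_iff, map_one] at h1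
    exact lt_irrefl _ h1
  obtain ⟨i₁, hi₁⟩ := exists_centre_le_of_mem Os hAO (algebraMap W R q) hmin Q hqQ
  have hf0 : f ≠ 0 := fun h0 => hfn i₁ (h0 ▸ zero_mem_nonunits (Os i₁))
  obtain ⟨u, h, hu, hu', -, hfuh⟩ := exists_factor Os hAO Q hUFM hq0
    (fun 𝔮 h𝔮 _ => hmin 𝔮 h𝔮) m f hf0
    (fun i _ => ⟨by
      have e : f = (f - 1) + 1 := by ring
      rw [e]
      exact (Os i).add_mem _ _ (mem_of_mem_nonunits _ (hf i)) (Os i).one_mem,
      inv_mem_of_notMem_nonunits (Os i) (hfn i)⟩) hhor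
  obtain ⟨c, hcR, hc⟩ := hglue u h hu hu' hfuh
  exact local_pair_valuations R Os Q m f
    (exists_local_pair Os hAO Q red hred Vs hbr hlift ⟨i₁, hi₁⟩ m hmQ f hf
      u h hu hu' hfuh c hcR hc)

/-- **(b) + (c) + (d) at a point of a chart lying on one component only, valuation form of
`hlocal`** (no gluing condition). -/
theorem hlocalV_at_point_of_unique_branch (q : W) (m : ℕ) (R : Subalgebra W F)
    [IsFractionRing R F] {ι : Type*} [Finite ι] (Os : ι → ValuationSubring F)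
    (hAO : ∀ i (a : R), algebraMap R F a ∈ Os i)
    {κ : ι → Type*} [∀ i, Field (κ i)] (red : ∀ i, Os i →+* κ i)
    (hred : ∀ i, ∀ x : Os i, red i x = 0 ↔ x ∈ maximalIdeal (Os i))
    (f : F) (hf : ∀ i, f - 1 ∈ (Os i).nonunits)
    (hq0 : algebraMap W R q ≠ 0)
    (hmin : ∀ 𝔮 ∈ (Ideal.span {algebraMap W R q}).minimalPrimes,
      ∃ i, 𝔮 = centre (Os i) (hAO i))
    (hhor : ∀ (V : ValuationSubring F) (t : F), Formal.IsUnif V t →
      (∀ a : R, algebraMap R F a ∈ V) → (algebraMap R F (algebraMap W R q))⁻¹ ∈ V →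
      ∃ g : F, g ≠ 0 ∧ g ^ m * f ∈ V ∧ (g ^ m * f)⁻¹ ∈ V)
    (Q : Ideal R) [Q.IsPrime] (hmQ : (m : R) ∉ Q)
    (hUFM : UniqueFactorizationMonoid (pointRing F Q))
    (Vs : ∀ i, ValuationSubring (κ i))
    (hbr : ∀ i, centre (Os i) (hAO i) ≤ Q →
      ∃ hA : ∀ a : R, algebraMap R F a ∈ compositeSubring (Os i) (red i) (hred i) (Vs i),
        pointIdeal (Os i) (red i) (hred i) (Vs i) hA = Q)
    (hlift : ∀ i, centre (Os i) (hAO i) ≤ Q → ∀ c ∈ Vs i, ∃ a b : R,
      redOn (Os i) (red i) (hAO i) b ∉ (Vs i).nonunits ∧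
      redOn (Os i) (red i) (hAO i) a = c * redOn (Os i) (red i) (hAO i) b)
    (i₀ : ι) (hi₀ : centre (Os i₀) (hAO i₀) ≤ Q)
    (hone : ∀ i, centre (Os i) (hAO i) ≤ Q → i = i₀) :
    ∃ h : R, h ∉ Q ∧ ∃ s : F, s ^ m * f ∈ R ∧ ∀ i, s - h ∈ (Os i).nonunits := by
  have hfn : ∀ i, f ∉ (Os i).nonunits := by
    intro i hfn
    have h1 : (1 : F) ∈ (Os i).nonunits := by
      have e : (1 : F) = f - (f - 1) := by ring
      rw [e]
      exact sub_mem_nonunits (Os i) hfn (hf i)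
    rw [ValuationSubring.mem_nonunits_iff, map_one] at h1
    exact lt_irrefl _ h1
  have hf0 : f ≠ 0 := fun h0 => hfn i₀ (h0 ▸ zero_mem_nonunits (Os i₀))
  obtain ⟨u, h, hu, hu', -, hfuh⟩ := exists_factor Os hAO Q hUFM hq0
    (fun 𝔮 h𝔮 _ => hmin 𝔮 h𝔮) m f hf0
    (fun i _ => ⟨by
      have e : f = (f - 1) + 1 := by ring
      rw [e]
      exact (Os i).add_mem _ _ (mem_of_mem_nonunits _ (hf i)) (Os i).one_mem,
      inv_mem_of_notMem_nonunits (Os i) (hfn i)⟩) hhor
  exact local_pair_valuations R Os Q m f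
    (exists_local_pair_of_unique_branch Os hAO Q red hred Vs hbr hlift i₀ hi₀ hone m hmQ
      f hf u h hu hu' hfuh)

/-- **(e) at a point of a chart, valuation form of `hlocal`**: the trivial case `f ∈ R_Q`. -/
theorem hlocalV_at_point_of_mem (m : ℕ) (hm0 : m ≠ 0) (R : Subalgebra W F)
    [IsFractionRing R F] {ι : Type*} (Os : ι → ValuationSubring F)
    (hAO : ∀ i (a : R), algebraMap R F a ∈ Os i) (f : F)
    (Q : Ideal R) [Q.IsPrime] (hfQ : f ∈ pointRing F Q) :
    ∃ h : R, h ∉ Q ∧ ∃ s : F, s ^ m * f ∈ R ∧ ∀ i, s - h ∈ (Os i).nonunits :=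
  local_pair_valuations R Os Q m f (exists_local_pair_of_mem_pointRing Os hAO Q m hm0 f hfQ)

end SubalgebraV

end Fermat.Agent.CAR.Glue.LStart
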