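/-
CAR (helper52) — Phase 2, abstract assembly: a torsion divisor class which is trivial on the
(non-reduced) special fibre is trivial.

`exists_common_of_charts` = `Glue.DeformRed.exists_common_of_redLe` with its four special-fibre
hypotheses discharged by `Glue.Charts`:

* `hH2`, `hH2'` : from the chart set-up alone (`ChartSetup.redSub_H2`, `redSub_H2'`);
* `hH3` : from cohomological flatness `hflat` (`ChartSetup.redSub_H3`; `Glue.CohFlat.cohFlat`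
  proves `hflat` for a fibre with reduced components and one multiple component);
* `hP2` : from the approximation property `happ` of the sections of `V1 n₁ n₂` on the two charts.

`exists_common_of_local` : the same with `happ` replaced by the LOCAL statements at the closed
points of the two charts (`ChartSetup.lift_P2_of_local`); each of them is the conclusion of
`Glue.LocAt.exists_approx_locAt`.

`chartSetup_of_sat_charts` : the chart set-up from the hypotheses of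
`BAD.Saturation.sat_charts`.
-/
import Mathlib
import Fermat.Agent.BAD.Saturation
import Fermat.Agent.CAR.Glue.DeformRed
import Fermat.Agent.CAR.Glue.Charts

set_option autoImplicit false

namespace Fermat.Agent.CAR.Glue

open Polynomial Fermat.Agent.Lib.Red.Deform Fermat.Agent.Lib.Red.CoordLat

variable {L F : Type*} [Field L] [Field F] [Algebra L F]
variable {A : ValuationSubring L} {O : Subring F}
variable {k Ft : Type*} [Field k] [CommRing Ft] [Algebra k Ft]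

/-- The chart set-up from the hypotheses of `BAD.Saturation.sat_charts` (for `n₀ ≥ d - 1`). -/
theorem chartSetup_of_sat_charts (hOA : ∀ x : L, algebraMap L F x ∈ O ↔ x ∈ A)
    (red : O →+* Ft) (hker : ∀ y : O, red y = 0 ↔ Small A O (y : F))
    (x α : F) (hx0 : x ≠ 0) (hxO : x ∈ O) (hxO' : x⁻¹ ∈ O)
    (hαO : α ∈ O) (hy0 : x - α ≠ 0) (hyO' : (x - α)⁻¹ ∈ O)
    (R Rinf : Subring F)
    (hAR : ∀ a ∈ A, algebraMap L F a ∈ R) (hARinf : ∀ a ∈ A, algebraMap L F a ∈ Rinf)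
    (hxR : x ∈ R) (hxRinf : x⁻¹ ∈ Rinf) (hαR : α ∈ R) (hαRinf : α ∈ Rinf)
    {r : ℕ} (β : Fin r → F) (hβO : ∀ i, β i ∈ O) (hβR : ∀ i, β i ∈ R)
    (hgen : ∀ v ∈ O, v ∈ R →
      ∃ e : Fin r → L[X], (∀ i j, (e i).coeff j ∈ A) ∧ v = ∑ i, aeval x (e i) * β i)
    (d : ℕ) (hd : ∀ i, x⁻¹ ^ d * β i ∈ Rinf)
    (hinf : ∀ b ∈ O, b ∈ Rinf → ∃ k : ℕ, x ^ k * b ∈ R)
    (hsat : ∀ f ∈ O, ∀ a : L, a ≠ 0 → (∃ k : ℕ, x ^ k * (algebraMap L F a * f) ∈ R) →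
      ∃ k : ℕ, x ^ k * f ∈ R)
    (V0 : ℕ → ℕ → Submodule L F)
    (hV0 : ∀ n₁ n₂ z, z ∈ V0 n₁ n₂ ↔
      (x - α) ^ n₂ * z ∈ R ∧ x⁻¹ ^ (n₁ + n₂) * ((x - α) ^ n₂ * z) ∈ Rinf)
    (n₀ : ℕ) (hn₀ : d ≤ n₀ + 1) :
    ChartSetup A O red x α R Rinf V0 n₀ where
  hOA := hOA
  hker := hker
  hx0 := hx0
  hxO := hxO
  hxO' := hxO'
  hαO := hαO
  hy0 := hy0
  hyO' := hyO'
  hxR := hxR
  hαR := hαR
  hxRinf := hxRinf
  hαRinf := hαRinf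
  hV0 := hV0
  hsat := fun n hn f₁ f₂ h₁ h₂ h₁₂ =>
    BAD.Saturation.sat_charts hOA red hker x hx0 hxO hxO' R Rinf hAR hARinf hxR hxRinf β hβO hβR
      hgen d hd hinf hsat n (by omega) f₁ f₂ h₁ h₂ (h₁₂ hxO)

/-- **Phase 2, abstract assembly (chart form).**  See the file header. -/
theorem exists_common_of_charts
    (hOA : ∀ x : L, algebraMap L F x ∈ O ↔ x ∈ A)
    (hval : ∀ y : F, y ≠ 0 → ∃ c : L, c ≠ 0 ∧ algebraMap L F c * y ∈ O ∧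
      ¬ Small A O (algebraMap L F c * y))
    (harch : ∀ a Δ : L, A.valuation a < 1 → Δ ≠ 0 →
      ∃ n : ℕ, A.valuation (a ^ n) < A.valuation Δ)
    (red : O →+* Ft) (π : A →+* k) (hπ : Function.Surjective π)
    (hπker : ∀ a : A, π a = 0 ↔ A.valuation (a : L) < 1)
    (hconst : ∀ a : A, red ⟨algebraMap L F (a : L), (hOA _).2 a.2⟩ = algebraMap k Ft (π a))
    (hker : ∀ y : O, red y = 0 ↔ Small A O (y : F))
    (m : ℕ) (hm : A.valuation (m : L) = 1) (n₀ : ℕ)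
    -- the two families of Riemann–Roch spaces
    (V0 V1 : ℕ → ℕ → Submodule L F)
    (hmono0 : ∀ n₁ n₂ n₁' n₂', n₁ ≤ n₁' → n₂ ≤ n₂' → V0 n₁ n₂ ≤ V0 n₁' n₂')
    (hmono1 : ∀ n₁ n₂ n₁' n₂', n₁ ≤ n₁' → n₂ ≤ n₂' → V1 n₁ n₂ ≤ V1 n₁' n₂')
    (hone : (1 : F) ∈ V0 0 0)
    (hlat0 : ∀ n₁ n₂, HasOrtho A O (V0 n₁ n₂))
    (hlat1 : ∀ n₁ n₂, HasOrtho A O (V1 n₁ n₂))
    (hRR1 : ∀ n₁ n₂, n₀ ≤ n₁ + n₂ →
      Module.finrank L (V1 n₁ n₂) = Module.finrank L (V0 n₁ n₂))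
    (hmul10 : ∀ n₁ n₂ n₁' n₂', ∀ s ∈ V1 n₁ n₂, ∀ η ∈ V0 n₁' n₂',
      s * η ∈ V1 (n₁ + n₁') (n₂ + n₂'))
    -- the Kummer generator
    (f1 : F) (hf1 : Small A O (f1 - 1))
    (hpow1 : ∀ n₁ n₂, ∀ s ∈ V1 n₁ n₂, s ^ m * f1 ∈ V0 (m * n₁) (m * n₂))
    -- the charts
    (x α : F) (R Rinf : Subring F) (hcs : ChartSetup A O red x α R Rinf V0 n₀)
    -- cohomological flatness of the special fibre
    (hflat : ∀ b b' : O, (b : F) ∈ R → (b' : F) ∈ Rinf → red b = red b' →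
      ∃ c : A, red b = red ⟨algebraMap L F (c : L), (hOA _).2 c.2⟩)
    -- sections of `O(D)` are regular functions modulo `𝔪_A`, on both charts
    (happ : ∀ n₁ n₂, n₀ ≤ n₁ + n₂ → ∀ s : O, (s : F) ∈ V1 n₁ n₂ →
      ∃ f₁ f₂ : O, (f₁ : F) ∈ R ∧ (f₂ : F) ∈ Rinf ∧
        Small A O ((x - α) ^ n₂ * (s : F) - (f₁ : F)) ∧
        Small A O (x⁻¹ ^ (n₁ + n₂) * ((x - α) ^ n₂ * (s : F)) - (f₂ : F))) :
    ∃ s ∈ V1 n₀ 0, s ∈ V1 0 n₀ ∧ s ≠ 0 :=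
  exists_common_of_redLe hOA hval harch red π hπ hπker hconst hker m hm n₀ V0 V1 hmono0 hmono1
    hone hlat0 hlat1 hRR1 hmul10 f1 hf1 hpow1
    (fun K _ => hcs.redSub_H2 π hπ hconst K)
    (fun K _ => hcs.redSub_H2' π hπ hconst K)
    (fun n => hcs.redSub_H3 π hπ hconst hflat n)
    (fun n₁ n₂ hn => hcs.redSub_P2 π hπ hconst (V1 n₁ n₂) n₁ n₂ hn (happ n₁ n₂ hn))

/-- **Phase 2, abstract assembly (local form).**  The approximation property is only required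
locally: at every maximal ideal `𝔪 ∋ ϖ` of `R ∩ O`, and at every maximal ideal `𝔪 ∋ ϖ, x⁻¹` of
`R∞ ∩ O` (each instance is the conclusion of `exists_approx_locAt`). -/
theorem exists_common_of_local
    (hOA : ∀ x : L, algebraMap L F x ∈ O ↔ x ∈ A)
    (hval : ∀ y : F, y ≠ 0 → ∃ c : L, c ≠ 0 ∧ algebraMap L F c * y ∈ O ∧
      ¬ Small A O (algebraMap L F c * y))
    (harch : ∀ a Δ : L, A.valuation a < 1 → Δ ≠ 0 →
      ∃ n : ℕ, A.valuation (a ^ n) < A.valuation Δ)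
    (red : O →+* Ft) (π : A →+* k) (hπ : Function.Surjective π)
    (hπker : ∀ a : A, π a = 0 ↔ A.valuation (a : L) < 1)
    (hconst : ∀ a : A, red ⟨algebraMap L F (a : L), (hOA _).2 a.2⟩ = algebraMap k Ft (π a))
    (hker : ∀ y : O, red y = 0 ↔ Small A O (y : F))
    (m : ℕ) (hm : A.valuation (m : L) = 1) (n₀ : ℕ)
    (V0 V1 : ℕ → ℕ → Submodule L F)
    (hmono0 : ∀ n₁ n₂ n₁' n₂', n₁ ≤ n₁' → n₂ ≤ n₂' → V0 n₁ n₂ ≤ V0 n₁' n₂')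
    (hmono1 : ∀ n₁ n₂ n₁' n₂', n₁ ≤ n₁' → n₂ ≤ n₂' → V1 n₁ n₂ ≤ V1 n₁' n₂')
    (hone : (1 : F) ∈ V0 0 0)
    (hlat0 : ∀ n₁ n₂, HasOrtho A O (V0 n₁ n₂))
    (hlat1 : ∀ n₁ n₂, HasOrtho A O (V1 n₁ n₂))
    (hRR1 : ∀ n₁ n₂, n₀ ≤ n₁ + n₂ →
      Module.finrank L (V1 n₁ n₂) = Module.finrank L (V0 n₁ n₂))
    (hmul10 : ∀ n₁ n₂ n₁' n₂', ∀ s ∈ V1 n₁ n₂, ∀ η ∈ V0 n₁' n₂',
      s * η ∈ V1 (n₁ + n₁') (n₂ + n₂'))
    (f1 : F) (hf1 : Small A O (f1 - 1))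
    (hpow1 : ∀ n₁ n₂, ∀ s ∈ V1 n₁ n₂, s ^ m * f1 ∈ V0 (m * n₁) (m * n₂))
    (x α : F) (R Rinf : Subring F) (hcs : ChartSetup A O red x α R Rinf V0 n₀)
    (hflat : ∀ b b' : O, (b : F) ∈ R → (b' : F) ∈ Rinf → red b = red b' →
      ∃ c : A, red b = red ⟨algebraMap L F (c : L), (hOA _).2 c.2⟩)
    (hfin : ∀ b ∈ R, b ∈ O → ∃ k : ℕ, x⁻¹ ^ k * b ∈ Rinf)
    (ϖ : L) (hϖ : A.valuation ϖ < 1)
    (hloc : ∀ n₁ n₂, n₀ ≤ n₁ + n₂ → ∀ s : O, (s : F) ∈ V1 n₁ n₂ →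
      ∀ 𝔪 : Ideal ↥(R ⊓ O), 𝔪.IsMaximal →
      (∀ e : ↥(R ⊓ O), (e : F) = algebraMap L F ϖ → e ∈ 𝔪) →
      ∃ d : ↥(R ⊓ O), d ∉ 𝔪 ∧ ∃ b : ↥(R ⊓ O),
        Small A O ((d : F) * ((x - α) ^ n₂ * (s : F)) - (b : F)))
    (hlocinf : ∀ n₁ n₂, n₀ ≤ n₁ + n₂ → ∀ s : O, (s : F) ∈ V1 n₁ n₂ →
      ∀ 𝔪 : Ideal ↥(Rinf ⊓ O), 𝔪.IsMaximal →
      (∀ e : ↥(Rinf ⊓ O), (e : F) = algebraMap L F ϖ → e ∈ 𝔪) →
      (∀ e : ↥(Rinf ⊓ O), (e : F) = x⁻¹ → e ∈ 𝔪) →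
      ∃ d : ↥(Rinf ⊓ O), d ∉ 𝔪 ∧ ∃ b : ↥(Rinf ⊓ O),
        Small A O ((d : F) * (x⁻¹ ^ (n₁ + n₂) * ((x - α) ^ n₂ * (s : F))) - (b : F))) :
    ∃ s ∈ V1 n₀ 0, s ∈ V1 0 n₀ ∧ s ≠ 0 := by
  refine exists_common_of_redLe hOA hval harch red π hπ hπker hconst hker m hm n₀ V0 V1 hmono0
    hmono1 hone hlat0 hlat1 hRR1 hmul10 f1 hf1 hpow1
    (fun K _ => hcs.redSub_H2 π hπ hconst K)
    (fun K _ => hcs.redSub_H2' π hπ hconst K)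
    (fun n => hcs.redSub_H3 π hπ hconst hflat n) ?_
  rintro n₁ n₂ hn t ⟨s, hs, rfl⟩
  obtain ⟨r, hr, hred⟩ := hcs.lift_P2_of_local hfin ϖ hϖ n₁ n₂ hn s
    (hloc n₁ n₂ hn s hs) (hlocinf n₁ n₂ hn s hs)
  exact ⟨r, hr, hred⟩

end Fermat.Agent.CAR.Glue
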