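/-
CAR-14 (NN-5), packaged: the relation between the gluing values at a triple point, one side
(`α` or `β`).

Lower level: `A₀ ⊆ K`, a node `Q` (a `k`-rational maximal ideal), two branches through it:
* the PAIR branch `v` (a discrete valuation ring of `K`), with place `V₁ ⊆ v` centred at `Q`,
  above which lie exactly two branches `w₁ ≠ w₂` of the upper level with `e₁ + e₂ = [E : K]`,
  with places `W₁ ⊆ w₁`, `W₂ ⊆ w₂`;
* the SINGLE branch `v'` with place `V₂ ⊆ v'` centred at `Q`, above which lies exactly one branch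
  `w₀` of the upper level, with place `W₀ ⊆ w₀`.
Upper level: `A ⊆ E` integral over `A₀`, `P` the only maximal ideal over `Q` (the triple point),
centre of `W₀` (and of `W₁`, `W₂`).

If `f = u h ^ m` with `u` a unit of the local ring at `P`, `N f = c₀ g ^ m` with `c₀` a unit of
the local ring at `Q`, `h` has the values `a, b, c ≠ 0` at `W₁, W₂, W₀` and `g` the values `γ₁`,
`γ₂` at `V₁`, `V₂`, then

  `γ₁ * c ^ [E : K] = γ₂ * (a ^ e₁ * b ^ e₂)`.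

* `glue_relation_pair_single`  : with `W_i ∩ K = V₁` as hypotheses;
* `glue_relation_pair_single'` : with (LIFT) at the lower level instead (`hfrac₁`).
No residue field, no Frobenius twist `ψ` appears: the single branch is treated by
`NodeUniq.composite_unique` ((LIFT) at the upper level, `hfrac`).

For `α`: pair = `(inf, mid)` over `inf_N`, `(e₁, e₂) = (1, q - 1)`, single = `0` over `0_N`:
`γ_inf * c ^ q = γ_0 * (a * b ^ (q - 1))`.  For `β`: pair = `(mid, 0)` over `0_N`,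
`(e₁, e₂) = (q - 1, 1)`, single = `inf` over `inf_N`: `γ_0 * a ^ q = γ_inf * (b ^ (q - 1) * c)`.
These are the hypotheses `hα`, `hβ` of `glue_ratio_pow`.
-/
import Mathlib
import Fermat.Agent.CAR.Glue.NodeUniq

set_option autoImplicit false

namespace Fermat.Agent.CAR.Glue.NodeGlue

open IsLocalRing Fermat.Agent.CAR.Local Fermat.Agent.CAR.Formal Module

variable {W k A₀ K A E : Type*} [CommRing W] [Field k] {res : W →+* k}
  [CommRing A₀] [IsDomain A₀] [Field K] [Algebra A₀ K] [IsFractionRing A₀ K]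
  [CommRing A] [IsDomain A] [Field E] [Algebra A E] [IsFractionRing A E]
  [Algebra K E] [Algebra A₀ A] [Algebra A₀ E] [IsScalarTower A₀ A E] [IsScalarTower A₀ K E]
  [Algebra.IsIntegral A₀ A] [IsIntegrallyClosed A₀]
  [Algebra W A₀] [Algebra W K] [IsScalarTower W A₀ K] [Algebra W E] [IsScalarTower W K E]
  [FiniteDimensional K E] [Algebra.IsSeparable K E]
  (Q : Ideal A₀) [Q.IsMaximal] (P : Ideal A) [P.IsPrime]

/-- **(NN-5), one side.**  See the header. -/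
theorem glue_relation_pair_single (hQ : NodeUnits.IsRatPoint res Q)
    (hres : Function.Surjective res)
    (huniq : ∀ P' : Ideal A, P'.IsMaximal → P'.comap (algebraMap A₀ A) = Q → P' = P)
    {m : ℕ} (hm : m ≠ 0) {f u h : E} {g c₀ : K}
    (hu : u ∈ pointRing E P) (hu' : u⁻¹ ∈ pointRing E P) (hf : f = u * h ^ m) (hh : h ≠ 0)
    (hc : c₀ ∈ pointRing K Q) (hc' : c₀⁻¹ ∈ pointRing K Q) (hc0 : c₀ ≠ 0) (hg : g ≠ 0)
    (hN : Algebra.norm K f = c₀ * g ^ m)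
    -- the pair branch
    {v : ValuationSubring K} {t : K} (hv : IsUnif v t) {w₁ w₂ : ValuationSubring E} {π₁ π₂ : E}
    (h₁ : IsUnif w₁ π₁) (h₂ : IsUnif w₂ π₂) (hne : w₁ ≠ w₂)
    (ho₁ : w₁.comap (algebraMap K E) = v) (ho₂ : w₂.comap (algebraMap K E) = v)
    (hall : ∀ w' : ValuationSubring E, w'.comap (algebraMap K E) = v → w' = w₁ ∨ w' = w₂)
    (e₁ e₂ : ℕ) (he₁ : h₁.ord (algebraMap K E t) = e₁) (he₂ : h₂.ord (algebraMap K E t) = e₂)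
    (hsum : e₁ + e₂ = finrank K E)
    (V₁ : ValuationSubring K) (hV₁v : ∀ x ∈ v.nonunits, x ∈ V₁.nonunits)
    (W₁ W₂ : ValuationSubring E) (hW₁ : ∀ x ∈ w₁.nonunits, x ∈ W₁.nonunits)
    (hW₂ : ∀ x ∈ w₂.nonunits, x ∈ W₂.nonunits)
    (hc₁ : W₁.comap (algebraMap K E) = V₁) (hc₂ : W₂.comap (algebraMap K E) = V₁)
    (hV₁ : ∀ a : A₀, algebraMap A₀ K a ∈ V₁) (hQ₁ : centre V₁ hV₁ = Q)
    -- the single branch
    (v' : ValuationSubring K) (w₀ : ValuationSubring E)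
    (hall' : ∀ w' : ValuationSubring E, w'.comap (algebraMap K E) = v' → w' = w₀)
    (V₂ : ValuationSubring K) (hV₂v : ∀ x ∈ v'.nonunits, x ∈ V₂.nonunits)
    (W₀ : ValuationSubring E) (hW₀ : ∀ x ∈ w₀.nonunits, x ∈ W₀.nonunits)
    (hV₂ : ∀ a : A₀, algebraMap A₀ K a ∈ V₂) (hQ₂ : centre V₂ hV₂ = Q)
    (hA : ∀ a : A, algebraMap A E a ∈ W₀) (hP : centre W₀ hA = P)
    (hfrac : ∀ x ∈ W₀, ∃ a s : A, s ∉ P ∧
      x - algebraMap A E a * (algebraMap A E s)⁻¹ ∈ w₀.nonunits)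
    -- the values
    {a b c γ₁ γ₂ : k} (ha : NodeUnits.HasVal res W₁ h a) (hb : NodeUnits.HasVal res W₂ h b)
    (hcv : NodeUnits.HasVal res W₀ h c) (ha0 : a ≠ 0) (hb0 : b ≠ 0) (hcv0 : c ≠ 0)
    (hγ₁ : NodeUnits.HasVal res V₁ g γ₁) (hγ₂ : NodeUnits.HasVal res V₂ g γ₂) :
    γ₁ * c ^ finrank K E = γ₂ * (a ^ e₁ * b ^ e₂) := by
  have hWV₁ : ∀ w : W, algebraMap W K w ∈ V₁ := fun w => by
    rw [IsScalarTower.algebraMap_apply W A₀ K]
    exact hV₁ _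
  have hWV₂ : ∀ w : W, algebraMap W K w ∈ V₂ := fun w => by
    rw [IsScalarTower.algebraMap_apply W A₀ K]
    exact hV₂ _
  have hn₁ : NodeUnits.HasVal res V₁ (Algebra.norm K h) (a ^ e₁ * b ^ e₂) :=
    hasVal_norm_pair res hv h₁ h₂ hne ho₁ ho₂ hall e₁ e₂ he₁ he₂ hsum V₁ hV₁v hWV₁ W₁ W₂ hW₁ hW₂
      hc₁ hc₂ ha hb
  have hn₂ : NodeUnits.HasVal res V₂ (Algebra.norm K h) (c ^ finrank K E) :=
    NodeUniq.hasVal_norm_single_of_uniq res v' w₀ hall' V₂ hV₂v hWV₂ W₀ hW₀ hV₂ Q hQ₂ hA P hP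
      huniq hfrac hcv
  exact glue_relation Q P hQ hres huniq hm hu hu' hf hh hc hc' hc0 hg hN V₁ V₂ hV₁ hV₂ hQ₁ hQ₂
    hn₁ hn₂ (mul_ne_zero (pow_ne_zero _ ha0) (pow_ne_zero _ hb0)) (pow_ne_zero _ hcv0) hγ₁ hγ₂

/-- **(NN-5), one side, from (LIFT) at both levels.**  As `glue_relation_pair_single`, with the
identities `W_i ∩ K = V₁` replaced by: `W₁`, `W₂` are centred at `P`, `P` lies over `Q`, and `V₁`
is the local ring of `A₀` at `Q` modulo the maximal ideal of `v` (`hfrac₁`). -/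
theorem glue_relation_pair_single' (hQ : NodeUnits.IsRatPoint res Q)
    (hres : Function.Surjective res)
    (huniq : ∀ P' : Ideal A, P'.IsMaximal → P'.comap (algebraMap A₀ A) = Q → P' = P)
    (hPQ : P.comap (algebraMap A₀ A) = Q)
    {m : ℕ} (hm : m ≠ 0) {f u h : E} {g c₀ : K}
    (hu : u ∈ pointRing E P) (hu' : u⁻¹ ∈ pointRing E P) (hf : f = u * h ^ m) (hh : h ≠ 0)
    (hc : c₀ ∈ pointRing K Q) (hc' : c₀⁻¹ ∈ pointRing K Q) (hc0 : c₀ ≠ 0) (hg : g ≠ 0)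
    (hN : Algebra.norm K f = c₀ * g ^ m)
    -- the pair branch
    {v : ValuationSubring K} {t : K} (hv : IsUnif v t) {w₁ w₂ : ValuationSubring E} {π₁ π₂ : E}
    (h₁ : IsUnif w₁ π₁) (h₂ : IsUnif w₂ π₂) (hne : w₁ ≠ w₂)
    (ho₁ : w₁.comap (algebraMap K E) = v) (ho₂ : w₂.comap (algebraMap K E) = v)
    (hall : ∀ w' : ValuationSubring E, w'.comap (algebraMap K E) = v → w' = w₁ ∨ w' = w₂)
    (e₁ e₂ : ℕ) (he₁ : h₁.ord (algebraMap K E t) = e₁) (he₂ : h₂.ord (algebraMap K E t) = e₂)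
    (hsum : e₁ + e₂ = finrank K E)
    (V₁ : ValuationSubring K) (hV₁v : ∀ x ∈ v.nonunits, x ∈ V₁.nonunits)
    (W₁ W₂ : ValuationSubring E) (hW₁ : ∀ x ∈ w₁.nonunits, x ∈ W₁.nonunits)
    (hW₂ : ∀ x ∈ w₂.nonunits, x ∈ W₂.nonunits)
    (hV₁ : ∀ a : A₀, algebraMap A₀ K a ∈ V₁) (hQ₁ : centre V₁ hV₁ = Q)
    (hA₁ : ∀ a : A, algebraMap A E a ∈ W₁) (hP₁ : centre W₁ hA₁ = P)
    (hA₂ : ∀ a : A, algebraMap A E a ∈ W₂) (hP₂ : centre W₂ hA₂ = P)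
    (hfrac₁ : ∀ x ∈ V₁, ∃ a s : A₀, s ∉ Q ∧
      x - algebraMap A₀ K a * (algebraMap A₀ K s)⁻¹ ∈ v.nonunits)
    -- the single branch
    (v' : ValuationSubring K) (w₀ : ValuationSubring E)
    (hall' : ∀ w' : ValuationSubring E, w'.comap (algebraMap K E) = v' → w' = w₀)
    (V₂ : ValuationSubring K) (hV₂v : ∀ x ∈ v'.nonunits, x ∈ V₂.nonunits)
    (W₀ : ValuationSubring E) (hW₀ : ∀ x ∈ w₀.nonunits, x ∈ W₀.nonunits)
    (hV₂ : ∀ a : A₀, algebraMap A₀ K a ∈ V₂) (hQ₂ : centre V₂ hV₂ = Q)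
    (hA : ∀ a : A, algebraMap A E a ∈ W₀) (hP : centre W₀ hA = P)
    (hfrac : ∀ x ∈ W₀, ∃ a s : A, s ∉ P ∧
      x - algebraMap A E a * (algebraMap A E s)⁻¹ ∈ w₀.nonunits)
    -- the values
    {a b c γ₁ γ₂ : k} (ha : NodeUnits.HasVal res W₁ h a) (hb : NodeUnits.HasVal res W₂ h b)
    (hcv : NodeUnits.HasVal res W₀ h c) (ha0 : a ≠ 0) (hb0 : b ≠ 0) (hcv0 : c ≠ 0)
    (hγ₁ : NodeUnits.HasVal res V₁ g γ₁) (hγ₂ : NodeUnits.HasVal res V₂ g γ₂) :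
    γ₁ * c ^ finrank K E = γ₂ * (a ^ e₁ * b ^ e₂) := by
  have hfr : ∀ x ∈ V₁, ∃ a s : A₀, s ∉ centre V₁ hV₁ ∧
      x - algebraMap A₀ K a * (algebraMap A₀ K s)⁻¹ ∈ v.nonunits := by
    rw [hQ₁]
    exact hfrac₁
  have hc₁ : W₁.comap (algebraMap K E) = V₁ :=
    NodeUniq.comap_eq_of_centre v V₁ hV₁v w₁ W₁ ho₁ hW₁ hV₁ hA₁ (by rw [hP₁, hPQ, hQ₁]) hfr
  have hc₂ : W₂.comap (algebraMap K E) = V₁ :=
    NodeUniq.comap_eq_of_centre v V₁ hV₁v w₂ W₂ ho₂ hW₂ hV₁ hA₂ (by rw [hP₂, hPQ, hQ₁]) hfr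
  exact glue_relation_pair_single Q P hQ hres huniq hm hu hu' hf hh hc hc' hc0 hg hN hv h₁ h₂ hne
    ho₁ ho₂ hall e₁ e₂ he₁ he₂ hsum V₁ hV₁v W₁ W₂ hW₁ hW₂ hc₁ hc₂ hV₁ hQ₁ v' w₀ hall' V₂ hV₂v W₀
    hW₀ hV₂ hQ₂ hA hP hfrac ha hb hcv ha0 hb0 hcv0 hγ₁ hγ₂

end Fermat.Agent.CAR.Glue.NodeGlue
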