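/-
CAR-35 / CAR-36 seam (helper64): from the gluing relations at the triple points of a contract
(`NodeData.triple_ratio_pow_of_contract`) to the hypothesis `KillPointOne` of helper82's
`Kill.exists_kill_one`, and to the literal `hglue` of `LInst.hlocal_of_contract` for the killed
function `f₄ = f ^ (q² - 1) * φ ^ m`.

* `exists_algebraMap_eq_of_pow`, `hasVal_of_pow` : over an algebraically closed constant field, a
  function of a vertical valuation ring whose `m`-th power has a constant reduction has a constant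
  reduction.  (So the functions `gα, gβ` of the norm equations `N f = c g ^ m` have constant
  values on the branches of the lower level, and the ratios `Rα, Rβ` of `Kill.rho3` do not
  depend on the triple point.)
* `exists_hasVal_composite` : every element of the composite ring of a branch at a point of the
  contract has a value (the residue field of the point is `k`).
* `killPointOne_of_contract` : `Kill.KillPointOne` at the triple point `Meet.pt H 1 Vs hVs` from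
  ONE factorisation `f = u h ^ m` and the branch values of `gα, gβ`.
* `exists_kill_of_contract` : the function `φ` and the literal `hglue` for `f ^ (n (n + 2)) *
  φ ^ m` at every supersingular place, from the norm equations with unit constants.
* `exists_kill_of_contract_hor` : the same with the factorisations produced by
  `LStart.exists_factor` (`hell`, `hhor` in the shapes of `LInst.exists_local_pair_of_contract`).
-/
import Mathlib
import Fermat.Agent.CAR.Glue.NodeData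
import Fermat.Agent.CAR.Glue.Kill
import Fermat.Agent.CAR.Local.Inst.Points

set_option autoImplicit false
set_option linter.style.haveILetI false

namespace Fermat.Agent.CAR.Glue.NodeKill

open IsLocalRing Fermat.Agent.CAR.Local Fermat.Agent.CAR.Formal Module
open Fermat.Agent.CAR.Glob.Charts

/-! ### Constant reductions of `m`-th roots -/

section Pow

variable {W k F κ : Type*} [CommRing W] [Field k] {res : W →+* k} [Field F] [Algebra W F]
  [Field κ] [Algebra k κ] [IsAlgClosed k]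

omit [CommRing W] [Field F] in
/-- In an extension of an algebraically closed field `k`, an element whose `m`-th power is a
constant is a constant. -/
theorem exists_algebraMap_eq_of_pow {z : κ} {m : ℕ} (hm : m ≠ 0) {c : k}
    (hz : z ^ m = algebraMap k κ c) : ∃ γ : k, γ ^ m = c ∧ algebraMap k κ γ = z := by
  have hint : IsIntegral k z := by
    refine IsIntegral.of_pow (Nat.pos_of_ne_zero hm) ?_
    rw [hz]
    exact isIntegral_algebraMap
  have hdeg : (minpoly k z).degree = 1 :=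
    IsAlgClosed.degree_eq_one_of_irreducible k (minpoly.irreducible hint)
  obtain ⟨γ, hγ⟩ := minpoly.mem_range_of_degree_eq_one k z hdeg
  refine ⟨γ, ?_, hγ⟩
  apply (algebraMap k κ).injective
  rw [map_pow, hγ, hz]

/-- **Constant reduction of an `m`-th root.**  `V` a valuation ring over `(W, res)` with a
residue map `r : V → κ ⊇ k` under which the constants reduce through `res`, `k` algebraically
closed.  If `g ^ m` takes the value `c ∈ k` at `V`, then `g` takes a value `γ` with `γ ^ m = c`. -/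
theorem hasVal_of_pow (hres : Function.Surjective res) {V : ValuationSubring F}
    (hV : NodeUnits.IsOver res V) (r : V →+* κ) (hr : ∀ y : V, r y = 0 ↔ y ∈ maximalIdeal V)
    (hconst : ∀ w : W, r ⟨algebraMap W F w, hV.mem w⟩ = algebraMap k κ (res w))
    {m : ℕ} (hm : m ≠ 0) {g : F} {c : k} (hg : NodeUnits.HasVal res V (g ^ m) c) :
    ∃ γ : k, γ ^ m = c ∧ NodeUnits.HasVal res V g γ := by
  have hgm : g ^ m ∈ V := hg.mem hV
  have hgV : g ∈ V := by
    rw [← ValuationSubring.valuation_le_one_iff] at hgm ⊢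
    rw [map_pow] at hgm
    exact (pow_le_one_iff hm).1 hgm
  obtain ⟨w, hw, hgw⟩ := hg
  have hmem0 : g ^ m - algebraMap W F w ∈ V := NodeUnits.mem_of_mem_nonunits hgw
  have h0 : r ⟨g ^ m - algebraMap W F w, hmem0⟩ = 0 :=
    (hr _).2 (ValuationSubring.coe_mem_nonunits_iff.1 hgw)
  have h1 : r ⟨g, hgV⟩ ^ m = algebraMap k κ c := by
    have e1 : (⟨g, hgV⟩ : V) ^ m =
        ⟨algebraMap W F w, hV.mem w⟩ + ⟨g ^ m - algebraMap W F w, hmem0⟩ := by
      apply Subtype.ext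
      show g ^ m = algebraMap W F w + (g ^ m - algebraMap W F w)
      ring
    rw [← map_pow, e1, map_add, hconst, hw, h0, add_zero]
  obtain ⟨γ, hγ, hγz⟩ := exists_algebraMap_eq_of_pow hm h1
  obtain ⟨w', hw'⟩ := hres γ
  refine ⟨γ, hγ, w', hw', ?_⟩
  have hmem : g - algebraMap W F w' ∈ V := V.sub_mem hgV (hV.mem w')
  have h2 : r ⟨g - algebraMap W F w', hmem⟩ = 0 := by
    have e2 : (⟨g - algebraMap W F w', hmem⟩ : V) =
        ⟨g, hgV⟩ - ⟨algebraMap W F w', hV.mem w'⟩ := rfl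
    rw [e2, map_sub, hconst, hw', hγz, sub_self]
  exact ValuationSubring.coe_mem_nonunits_iff.2 ((hr _).1 h2)

end Pow

/-! ### Small complements on `IsOver` -/

section Over

variable {W k F : Type*} [CommRing W] [Field k] {res : W →+* k} [Field F] [Algebra W F]

/-- The trace of a valuation ring over `(W, res)` along a `W`-linear field homomorphism lies over
`(W, res)`. -/
theorem isOver_comap {K : Type*} [Field K] [Algebra W K] {V : ValuationSubring F}
    (hV : NodeUnits.IsOver res V) (φ : K →+* F)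
    (hφ : ∀ w : W, φ (algebraMap W K w) = algebraMap W F w) :
    NodeUnits.IsOver res (V.comap φ) where
  mem w := by
    rw [ValuationSubring.mem_comap, hφ]
    exact hV.mem w
  nonunits_iff w := by
    rw [NodeUnits.mem_nonunits_comap_iff', hφ]
    exact hV.nonunits_iff w

/-- A vertical valuation ring `O` of a chart ring `A` lies over `(W, res)` as soon as the
constants reduce through `res`. -/
theorem isOver_of_hconst {A κ : Type*} [CommRing A] [Algebra A F] [Algebra W A]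
    [IsScalarTower W A F] [Field κ] [Algebra k κ] (O : ValuationSubring F) (red : O →+* κ)
    (hred : ∀ y : O, red y = 0 ↔ y ∈ maximalIdeal O) (hAO : ∀ a : A, algebraMap A F a ∈ O)
    (hconst : ∀ w : W, redOn O red hAO (algebraMap W A w) = algebraMap k κ (res w)) :
    NodeUnits.IsOver res O where
  mem w := by
    rw [IsScalarTower.algebraMap_apply W A F]
    exact hAO _
  nonunits_iff w := by
    rw [IsScalarTower.algebraMap_apply W A F, ← mem_centre_iff O hAO,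
      ← redOn_eq_zero_iff O red hred hAO, hconst]
    exact map_eq_zero_iff _ (algebraMap k κ).injective

end Over

/-! ### The triple points of a contract -/

section Contract

open Fermat.Agent.CAR.Local.Inst

variable {W k FN F : Type*} [CommRing W] [Field k] {res : W →+* k} [Field FN] [Field F]
  [CharZero FN] [Algebra W FN] [Algebra W F] (Φα Φβ : FN →+* F)
  (hΦα : ∀ w : W, Φα (algebraMap W FN w) = algebraMap W F w)
  (hΦβ : ∀ w : W, Φβ (algebraMap W FN w) = algebraMap W F w) {xN : FN} {x : F}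
  [IsFractionRing (chart W xN) FN] [IsFractionRing (chart W x) F]
  [IsIntegrallyClosed (chart W xN)] [IsNoetherianRing (chart W x)]
  {κ B' : Type*} [Field κ] [CommRing B'] [Algebra k κ]
  {O : Fin 3 → ValuationSubring F} {red : ∀ i, O i →+* κ}
  {hred : ∀ i, ∀ y : O i, red i y = 0 ↔ y ∈ maximalIdeal (O i)}
  {hBO : ∀ i, ∀ b : chart W x, algebraMap (chart W x) F b ∈ O i}
  {red' : B' →+* κ} {π₀ π₂ : B' →+* chart W x} {Dκ : κ → κ}
  {qW : W} {x' : B'} {u₀ u₁ v₁ h₀ : chart W x} {Db G : κ} {N e : ℕ}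

omit [IsNoetherianRing (chart W x)] [Algebra k κ] in
/-- **The residue field of a rational point of the contract is `k` on every branch**: every
element of the composite ring `(O i, Vs)` is congruent to a constant, if the point
`Meet.pt H i Vs hVs` is `k`-rational ((LIFT) of the contract). -/
theorem exists_sub_algebraMap_mem_composite (hres : Function.Surjective res)
    (H : Contract O red hred hBO red' π₀ π₂ Dκ (algebraMap W (chart W x) qW) x' u₀ u₁ v₁ h₀ Db G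
      N e)
    (i : Fin 3) (Vs : ValuationSubring κ) (hVs : IsFinPlace red' Vs)
    (hP : NodeUnits.IsRatPoint res (Meet.pt H i Vs hVs)) :
    ∀ y ∈ compositeSubring (O i) (red i) (hred i) Vs, ∃ w : W,
      y - algebraMap W F w ∈ (compositeSubring (O i) (red i) (hred i) Vs).nonunits := by
  intro y hy
  obtain ⟨a, s, hs, hys⟩ := NodeUniq.hfrac_of_lift (O i) (red i) (hred i) (hBO i) Vs
    (Meet.hA_of_isFinPlace H i Vs hVs) (H.toV3Base.lift i Vs hVs.1 (H.fin i Vs hVs)) y hy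
  have hsP : s ∉ Meet.pt H i Vs hVs := hs
  have hξ : algebraMap (chart W x) F a * (algebraMap (chart W x) F s)⁻¹
      ∈ pointRing F (Meet.pt H i Vs hVs) :=
    (pointRing F (Meet.pt H i Vs hVs)).mul_mem
      ((pointRing F (Meet.pt H i Vs hVs)).algebraMap_mem a)
      (NodeUnits.inv_algebraMap_mem_pointRing (Meet.pt H i Vs hVs) hsP)
  obtain ⟨c, hc⟩ := NodeUnits.exists_hasVal_pointRing hP hres hξ
  obtain ⟨w, -, hw⟩ := hc (compositeSubring (O i) (red i) (hred i) Vs)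
    (Meet.hA_of_isFinPlace H i Vs hVs) rfl
  refine ⟨w, ?_⟩
  have e : y - algebraMap W F w =
      (y - algebraMap (chart W x) F a * (algebraMap (chart W x) F s)⁻¹) +
        (algebraMap (chart W x) F a * (algebraMap (chart W x) F s)⁻¹ - algebraMap W F w) := by
    ring
  rw [e]
  exact NodeUnits.add_mem_nonunits
    (nonunits_le_nonunits_compositeSubring (O i) (red i) (hred i) Vs _ hys) hw

/-- **`KillPointOne` at the triple point of a contract.**  Setting of
`NodeData.triple_ratio_pow_of_contract`; `f ≡ 1` on the three components, ONE factorisation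
`f = u h ^ m` at `P = Meet.pt H 1 Vs hVs`, norm equations `N_α f = cα gα ^ m`,
`N_β f = cβ gβ ^ m` (`cα, cβ` units at the nodes below `P`), and BRANCH values
`γαA, γαC` of `gα` and `γβA, γβC` of `gβ` on the two branches `PA, PC` of the lower level.
Then the hypothesis `Kill.KillPointOne` of `Kill.exists_kill_one` holds at `P` with
`e = n (n + 2) = q² - 1` and the point-independent constants
`ρ = Kill.rho3 n (γαA / γαC) (γβA / γβC)`; moreover the four branch values are non-zero. -/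
theorem killPointOne_of_contract (hres : Function.Surjective res) {q n : ℕ} (hqn : q = n + 1)
    (H : Contract O red hred hBO red' π₀ π₂ Dκ (algebraMap W (chart W x) qW) x' u₀ u₁ v₁ h₀ Db G
      N e)
    {PA PC : ValuationSubring FN} {ϖN : FN} {ϖ d : F}
    (D : NF.Data Φα Φβ q PA PC (O 0) (O 1) (O 2) ϖN ϖ d)
    -- the charts
    (h1α : Φα xN ∈ chart W x) (h2α : IsIntegral (Algebra.adjoin W {Φα xN}) x)
    (h1β : Φβ xN ∈ chart W x) (h2β : IsIntegral (Algebra.adjoin W {Φβ xN}) x)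
    -- residue maps of the lower level
    (rA : PA →+* κ) (hrA : ∀ y : PA, rA y = 0 ↔ y ∈ maximalIdeal PA)
    (rC : PC →+* κ) (hrC : ∀ y : PC, rC y = 0 ↔ y ∈ maximalIdeal PC)
    (hcαa : ∀ (y : FN) (hy : y ∈ PA) (hy' : Φα y ∈ O 0), red 0 ⟨Φα y, hy'⟩ = rA ⟨y, hy⟩)
    (hcαb : ∀ (y : FN) (hy : y ∈ PA) (hy' : Φα y ∈ O 1), red 1 ⟨Φα y, hy'⟩ = rA ⟨y, hy⟩)
    (hcβc : ∀ (y : FN) (hy : y ∈ PC) (hy' : Φβ y ∈ O 2), red 2 ⟨Φβ y, hy'⟩ = rC ⟨y, hy⟩)
    (hcβb : ∀ (y : FN) (hy : y ∈ PC) (hy' : Φβ y ∈ O 1), red 1 ⟨Φβ y, hy'⟩ = rC ⟨y, hy⟩)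
    -- the constants
    (i₀ : Fin 3)
    (hconst : ∀ w : W, redOn (O i₀) (red i₀) (hBO i₀) (algebraMap W (chart W x) w)
      = algebraMap k κ (res w))
    -- (UNIQ)
    (π₁ : B' →+* chart W x) (ψ : κ →+* κ) {nψ : ℕ} (hnψ : nψ ≠ 0)
    (hψ : ∀ z : κ, ∃ z' : κ, ψ z' = z ^ nψ)
    (zero_π₁ : ∀ y : B', redOn (O 2) (red 2) (hBO 2) (π₁ y) = ψ (red' y))
    (inf_π₁ : ∀ y : B', redOn (O 0) (red 0) (hBO 0) (π₁ y) = ψ (red' y))
    (p₀ p₁ : B' →+* chart W xN)
    (hα₀ : ∀ y, NodeInst.chartMap Φα hΦα h1α (p₀ y) = π₀ y)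
    (hα₁ : ∀ y, NodeInst.chartMap Φα hΦα h1α (p₁ y) = π₁ y)
    (hβ₁ : ∀ y, NodeInst.chartMap Φβ hΦβ h1β (p₀ y) = π₁ y)
    (hβ₂ : ∀ y, NodeInst.chartMap Φβ hΦβ h1β (p₁ y) = π₂ y)
    -- the supersingular place
    (Vs : ValuationSubring κ) (hVs : IsFinPlace red' Vs) (hDb : Db ∈ Vs.nonunits)
    (hk : ∀ v ∈ Vs, ∃ c : k, v - algebraMap k κ c ∈ Vs.nonunits)
    -- the functions
    {m : ℕ} (hm : m ≠ 0) {f : F} (hf : ∀ i, f - 1 ∈ (O i).nonunits)
    (hfac : ∃ u h : F, u ∈ pointRing F (Meet.pt H 1 Vs hVs) ∧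
      u⁻¹ ∈ pointRing F (Meet.pt H 1 Vs hVs) ∧ f = u * h ^ m)
    {gα cα gβ cβ : FN}
    (hcα : cα ∈ pointRing FN ((Meet.pt H 1 Vs hVs).comap (NodeInst.chartMap Φα hΦα h1α)))
    (hcα' : cα⁻¹ ∈ pointRing FN ((Meet.pt H 1 Vs hVs).comap (NodeInst.chartMap Φα hΦα h1α)))
    (hcα0 : cα ≠ 0) (hgα : gα ≠ 0)
    (hNα : (letI : Algebra FN F := Φα.toAlgebra; Algebra.norm FN f) = cα * gα ^ m)
    (hcβ : cβ ∈ pointRing FN ((Meet.pt H 1 Vs hVs).comap (NodeInst.chartMap Φβ hΦβ h1β)))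
    (hcβ' : cβ⁻¹ ∈ pointRing FN ((Meet.pt H 1 Vs hVs).comap (NodeInst.chartMap Φβ hΦβ h1β)))
    (hcβ0 : cβ ≠ 0) (hgβ : gβ ≠ 0)
    (hNβ : (letI : Algebra FN F := Φβ.toAlgebra; Algebra.norm FN f) = cβ * gβ ^ m)
    {γαA γαC γβA γβC : k}
    (hγαA : NodeUnits.HasVal res PA gα γαA) (hγαC : NodeUnits.HasVal res PC gα γαC)
    (hγβA : NodeUnits.HasVal res PA gβ γβA) (hγβC : NodeUnits.HasVal res PC gβ γβC) :
    Kill.KillPointOne (κ := fun _ => κ) res O red hred (Meet.pt H 1 Vs hVs) (fun _ => Vs) m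
        (n * (n + 2)) f (Kill.rho3 n (γαA / γαC) (γβA / γβC)) ∧
      γαA ≠ 0 ∧ γαC ≠ 0 ∧ γβA ≠ 0 ∧ γβC ≠ 0 := by
  have hP : NodeUnits.IsRatPoint res (Meet.pt H 1 Vs hVs) :=
    NodeData.isRatPoint_pt hres H i₀ hconst Vs hVs hDb hk 1
  obtain ⟨u, h, hu, hu', hfuh⟩ := hfac
  -- the three composite rings are centred at the point
  have hA : ∀ i, ∀ b : chart W x,
      algebraMap (chart W x) F b ∈ compositeSubring (O i) (red i) (hred i) Vs :=
    fun i => Meet.hA_of_isFinPlace H i Vs hVs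
  have hcen : ∀ i, centre (compositeSubring (O i) (red i) (hred i) Vs) (hA i)
      = Meet.pt H 1 Vs hVs := fun i => Meet.pt_eq_pt H Vs hVs hDb i 1
  have hov : ∀ i, NodeUnits.IsOver res (compositeSubring (O i) (red i) (hred i) Vs) :=
    fun i => NodeUnits.isOver_of_centre hP _ (hA i) (hcen i)
  have hf1 : ∀ i, NodeUnits.HasVal res (compositeSubring (O i) (red i) (hred i) Vs) f 1 :=
    fun i => ⟨1, map_one _, by
      rw [map_one]
      exact nonunits_le_nonunits_compositeSubring (O i) (red i) (hred i) Vs _ (hf i)⟩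
  have hf0 : f ≠ 0 := (NF.pu_unit (O 0) (hf 0)).1
  have hu0 : u ≠ 0 := by
    rintro rfl
    rw [zero_mul] at hfuh
    exact hf0 hfuh
  have hh0 : h ≠ 0 := by
    rintro rfl
    rw [zero_pow hm, mul_zero] at hfuh
    exact hf0 hfuh
  obtain ⟨cu, hcu0, hcu⟩ := NodeUnits.exists_hasVal_unit_pointRing hP hres hu hu' hu0
  -- the value of `h ^ m` on the three branches
  have hhm : ∀ i, NodeUnits.HasVal res (compositeSubring (O i) (red i) (hred i) Vs) (h ^ m)
      (1 / cu) := by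
    intro i
    have e : h ^ m = f / u := by
      rw [hfuh]
      field_simp
    rw [e]
    exact (hf1 i).div (hov i) hres (hcu _ (hA i) (hcen i)) hcu0
  have hhV : ∀ i, h ∈ compositeSubring (O i) (red i) (hred i) Vs := by
    intro i
    have h1 := (hhm i).mem (hov i)
    rw [← ValuationSubring.valuation_le_one_iff] at h1 ⊢
    rw [map_pow] at h1
    exact (pow_le_one_iff hm).1 h1
  have hPi : ∀ i, NodeUnits.IsRatPoint res (Meet.pt H i Vs hVs) := fun i => by
    rw [Meet.pt_eq_pt H Vs hVs hDb i 1]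
    exact hP
  have hex : ∀ i : Fin 3, ∃ c : k,
      NodeUnits.HasVal res (compositeSubring (O i) (red i) (hred i) Vs) h c := fun i =>
    NodeUnits.exists_hasVal (exists_sub_algebraMap_mem_composite hres H i Vs hVs (hPi i)) (hhV i)
  choose val hval using hex
  have hval0 : ∀ i, val i ≠ 0 := by
    intro i hz
    have h1 := ((hval i).pow (hov i) m).unique (hov i) (hhm i)
    rw [hz, zero_pow hm] at h1
    exact one_div_ne_zero hcu0 h1.symm
  -- the values of `Φα gα`, `Φβ gβ` on the branches `inf`, `zero`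
  have hγα₁ : NodeUnits.HasVal res (compositeSubring (O 0) (red 0) (hred 0) Vs) (Φα gα) γαA := by
    have h1 : NodeUnits.HasVal res ((O 0).comap Φα) gα γαA := by rw [D.αa]; exact hγαA
    exact Kill.hasVal_mono (nonunits_le_nonunits_compositeSubring (O 0) (red 0) (hred 0) Vs)
      ((NodeUnits.hasVal_comap_iff Φα hΦα gα γαA).1 h1)
  have hγα₂ : NodeUnits.HasVal res (compositeSubring (O 2) (red 2) (hred 2) Vs) (Φα gα) γαC := by
    have h1 : NodeUnits.HasVal res ((O 2).comap Φα) gα γαC := by rw [D.αc]; exact hγαC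
    exact Kill.hasVal_mono (nonunits_le_nonunits_compositeSubring (O 2) (red 2) (hred 2) Vs)
      ((NodeUnits.hasVal_comap_iff Φα hΦα gα γαC).1 h1)
  have hγβ₁ : NodeUnits.HasVal res (compositeSubring (O 0) (red 0) (hred 0) Vs) (Φβ gβ) γβA := by
    have h1 : NodeUnits.HasVal res ((O 0).comap Φβ) gβ γβA := by rw [D.βa]; exact hγβA
    exact Kill.hasVal_mono (nonunits_le_nonunits_compositeSubring (O 0) (red 0) (hred 0) Vs)
      ((NodeUnits.hasVal_comap_iff Φβ hΦβ gβ γβA).1 h1)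
  have hγβ₂ : NodeUnits.HasVal res (compositeSubring (O 2) (red 2) (hred 2) Vs) (Φβ gβ) γβC := by
    have h1 : NodeUnits.HasVal res ((O 2).comap Φβ) gβ γβC := by rw [D.βc]; exact hγβC
    exact Kill.hasVal_mono (nonunits_le_nonunits_compositeSubring (O 2) (red 2) (hred 2) Vs)
      ((NodeUnits.hasVal_comap_iff Φβ hΦβ gβ γβC).1 h1)
  obtain ⟨⟨h1, h2⟩, hγ1, hγ2, hγ3, hγ4⟩ := NodeData.triple_ratio_pow_of_contract Φα Φβ hΦα hΦβ
    hres hqn H D h1α h2α h1β h2β rA hrA rC hrC hcαa hcαb hcβc hcβb i₀ hconst π₁ ψ hnψ hψ zero_π₁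
    inf_π₁ p₀ p₁ hα₀ hα₁ hβ₁ hβ₂ Vs hVs hDb hk hm hu hu' hfuh hh0 hcα hcα' hcα0 hgα hNα hcβ hcβ'
    hcβ0 hgβ hNβ (hval 0) (hval 1) (hval 2) (hval0 0) (hval0 1) (hval0 2) hγα₁ hγα₂ hγβ₁ hγβ₂
  refine ⟨?_, hγ1, hγ2, hγ3, hγ4⟩
  have hrat : ∀ i, val i ^ (n * (n + 2)) =
      Kill.rho3 n (γαA / γαC) (γβA / γβC) i * val 2 ^ (n * (n + 2)) := by
    intro i
    have h3 := Kill.fin3_ratio n (div_ne_zero hγ3 hγ4) h1 h2 i
    have e : (![val 0, val 1, val 2] : Fin 3 → k) i = val i := by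
      fin_cases i <;> rfl
    rw [e] at h3
    exact h3
  exact ⟨hP, fun i => ⟨hA i, hcen i⟩, u, h, val, val 2 ^ (n * (n + 2)), hu, hu', hfuh, hval,
    hrat⟩

omit [IsIntegrallyClosed (chart W xN)] in
/-- A unit constant is a unit of every point ring of the chart `chart W xN`. -/
theorem algebraMap_unit_mem_pointRing (Q : Ideal (chart W xN)) [Q.IsPrime] {w : W}
    (hw : IsUnit w) :
    algebraMap W FN w ∈ pointRing FN Q ∧ (algebraMap W FN w)⁻¹ ∈ pointRing FN Q ∧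
      algebraMap W FN w ≠ 0 := by
  obtain ⟨v, rfl⟩ := hw
  have hmem : ∀ w' : W, algebraMap W FN w' ∈ pointRing FN Q := fun w' => by
    rw [IsScalarTower.algebraMap_apply W (chart W xN) FN]
    exact (pointRing FN Q).algebraMap_mem _
  have h1 : algebraMap W FN (v : W) * algebraMap W FN ((v⁻¹ : Wˣ) : W) = 1 := by
    rw [← map_mul, Units.mul_inv, map_one]
  have h0 : algebraMap W FN (v : W) ≠ 0 := fun h => by
    rw [h, zero_mul] at h1
    exact zero_ne_one h1
  refine ⟨hmem _, ?_, h0⟩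
  rw [← eq_inv_of_mul_eq_one_right h1]
  exact hmem _

/-- **The killing function and `hglue` at the supersingular places of a contract.**
`H` the contract of the finite chart `chart W x`, `D` the normal-form record of the degeneracy
maps `Φα, Φβ` (`q = n + 1`), `k` algebraically closed with the constants reducing through `res` on
the three components, every finite place of `κ` with residue field `k`.  Let `f ≡ 1` on the three
components with `N_α f = wα gα ^ m`, `N_β f = wβ gβ ^ m`, `wα, wβ` unit constants, and assume that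
`f` has ONE factorisation `f = u h ^ m` (`u` a unit) at every triple point.  Then there is `φ`, a
unit of the three components, such that `f₄ := f ^ (n (n + 2)) * φ ^ m` is `≡ 1` on the three
components and satisfies the LITERAL hypothesis `hglue` of `LInst.hlocal_of_contract` /
`LInst.exists_local_pair_of_contract`. -/
theorem exists_kill_of_contract [IsAlgClosed k] [IsIntegrallyClosed (chart W x)]
    (hres : Function.Surjective res) {q n : ℕ} (hqn : q = n + 1)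
    (H : Contract O red hred hBO red' π₀ π₂ Dκ (algebraMap W (chart W x) qW) x' u₀ u₁ v₁ h₀ Db G
      N e)
    {PA PC : ValuationSubring FN} {ϖN : FN} {ϖ d : F}
    (D : NF.Data Φα Φβ q PA PC (O 0) (O 1) (O 2) ϖN ϖ d)
    -- the charts
    (h1α : Φα xN ∈ chart W x) (h2α : IsIntegral (Algebra.adjoin W {Φα xN}) x)
    (h1β : Φβ xN ∈ chart W x) (h2β : IsIntegral (Algebra.adjoin W {Φβ xN}) x)
    -- residue maps of the lower level
    (rA : PA →+* κ) (hrA : ∀ y : PA, rA y = 0 ↔ y ∈ maximalIdeal PA)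
    (rC : PC →+* κ) (hrC : ∀ y : PC, rC y = 0 ↔ y ∈ maximalIdeal PC)
    (hcαa : ∀ (y : FN) (hy : y ∈ PA) (hy' : Φα y ∈ O 0), red 0 ⟨Φα y, hy'⟩ = rA ⟨y, hy⟩)
    (hcαb : ∀ (y : FN) (hy : y ∈ PA) (hy' : Φα y ∈ O 1), red 1 ⟨Φα y, hy'⟩ = rA ⟨y, hy⟩)
    (hcβc : ∀ (y : FN) (hy : y ∈ PC) (hy' : Φβ y ∈ O 2), red 2 ⟨Φβ y, hy'⟩ = rC ⟨y, hy⟩)
    (hcβb : ∀ (y : FN) (hy : y ∈ PC) (hy' : Φβ y ∈ O 1), red 1 ⟨Φβ y, hy'⟩ = rC ⟨y, hy⟩)
    -- the constants
    (hconst : ∀ i, ∀ w : W, redOn (O i) (red i) (hBO i) (algebraMap W (chart W x) w)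
      = algebraMap k κ (res w))
    -- (UNIQ)
    (π₁ : B' →+* chart W x) (ψ : κ →+* κ) {nψ : ℕ} (hnψ : nψ ≠ 0)
    (hψ : ∀ z : κ, ∃ z' : κ, ψ z' = z ^ nψ)
    (zero_π₁ : ∀ y : B', redOn (O 2) (red 2) (hBO 2) (π₁ y) = ψ (red' y))
    (inf_π₁ : ∀ y : B', redOn (O 0) (red 0) (hBO 0) (π₁ y) = ψ (red' y))
    (p₀ p₁ : B' →+* chart W xN)
    (hα₀ : ∀ y, NodeInst.chartMap Φα hΦα h1α (p₀ y) = π₀ y)
    (hα₁ : ∀ y, NodeInst.chartMap Φα hΦα h1α (p₁ y) = π₁ y)
    (hβ₁ : ∀ y, NodeInst.chartMap Φβ hΦβ h1β (p₀ y) = π₁ y)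
    (hβ₂ : ∀ y, NodeInst.chartMap Φβ hΦβ h1β (p₁ y) = π₂ y)
    -- the finite places are `k`-rational
    (hk : ∀ Vs : ValuationSubring κ, IsFinPlace red' Vs →
      ∀ v ∈ Vs, ∃ c : k, v - algebraMap k κ c ∈ Vs.nonunits)
    -- the function
    {m : ℕ} (hm : m ≠ 0) (f : F) (hf : ∀ i, f - 1 ∈ (O i).nonunits)
    (hfac : ∀ (Vs : ValuationSubring κ) (hVs : IsFinPlace red' Vs), Db ∈ Vs.nonunits →
      ∃ u h : F, u ∈ pointRing F (Meet.pt H 1 Vs hVs) ∧
        u⁻¹ ∈ pointRing F (Meet.pt H 1 Vs hVs) ∧ f = u * h ^ m)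
    {wα wβ : W} (hwα : IsUnit wα) (hwβ : IsUnit wβ) {gα gβ : FN}
    (hNα : (letI : Algebra FN F := Φα.toAlgebra; Algebra.norm FN f)
      = algebraMap W FN wα * gα ^ m)
    (hNβ : (letI : Algebra FN F := Φβ.toAlgebra; Algebra.norm FN f)
      = algebraMap W FN wβ * gβ ^ m) :
    ∃ φ : F, φ ≠ 0 ∧ (∀ i, φ ∈ O i ∧ φ⁻¹ ∈ O i) ∧
      (∀ i, f ^ (n * (n + 2)) * φ ^ m - 1 ∈ (O i).nonunits) ∧
      ∀ (Vs : ValuationSubring κ) (hVs : IsFinPlace red' Vs), Db ∈ Vs.nonunits →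
        ∀ u₁ h₁ : F, u₁ ∈ pointRing F (Meet.pt H 1 Vs hVs) →
          u₁⁻¹ ∈ pointRing F (Meet.pt H 1 Vs hVs) →
          f ^ (n * (n + 2)) * φ ^ m = u₁ * h₁ ^ m →
          ∃ c : F, c ∈ pointRing F (Meet.pt H 1 Vs hVs) ∧
            ∀ i, h₁⁻¹ - c ∈ (compositeSubring (O i) (red i) (hred i) Vs).nonunits := by
  -- the components and the lower branches lie over `(W, res)`
  have hO : ∀ i, NodeUnits.IsOver res (O i) := fun i =>
    isOver_of_hconst (O i) (red i) (hred i) (hBO i) (hconst i)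
  have hOA : NodeUnits.IsOver res PA := by
    have h1 := isOver_comap (hO 0) Φα hΦα
    rwa [D.αa] at h1
  have hOC : NodeUnits.IsOver res PC := by
    have h1 := isOver_comap (hO 2) Φβ hΦβ
    rwa [D.βc] at h1
  -- the constants reduce through `res` on the lower branches
  have hconstA : ∀ w : W, rA ⟨algebraMap W FN w, hOA.mem w⟩ = algebraMap k κ (res w) := by
    intro w
    have hy' : Φα (algebraMap W FN w) ∈ O 0 := by
      rw [hΦα]
      exact (hO 0).mem w
    rw [← hcαa (algebraMap W FN w) (hOA.mem w) hy', ← hconst 0 w, redOn_apply]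
    congr 1
    exact Subtype.ext (hΦα w)
  have hconstC : ∀ w : W, rC ⟨algebraMap W FN w, hOC.mem w⟩ = algebraMap k κ (res w) := by
    intro w
    have hy' : Φβ (algebraMap W FN w) ∈ O 2 := by
      rw [hΦβ]
      exact (hO 2).mem w
    rw [← hcβc (algebraMap W FN w) (hOC.mem w) hy', ← hconst 2 w, redOn_apply]
    congr 1
    exact Subtype.ext (hΦβ w)
  -- `f` is a unit of the three components
  obtain ⟨hf0, hfa, hfa'⟩ := NF.pu_unit (O 0) (hf 0)
  obtain ⟨-, hfb, hfb'⟩ := NF.pu_unit (O 1) (hf 1)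
  obtain ⟨-, hfc, hfc'⟩ := NF.pu_unit (O 2) (hf 2)
  -- the norms of `f` are `≡ 1` on the lower branches
  have hone : ∀ (φ : FN →+* F) (V : ValuationSubring F), f - 1 ∈ V.nonunits →
      f - φ 1 ∈ V.nonunits := fun φ V h => by rwa [map_one]
  have honeq : ∀ (φ : FN →+* F) (V : ValuationSubring F), f - 1 ∈ V.nonunits →
      f ^ q - φ 1 ∈ V.nonunits := fun φ V h => by
    rw [map_one]
    exact NF.pu_pow V h q
  have hNαA : NF.normOf Φα f - 1 ∈ PA.nonunits := by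
    have h1 := D.point_αA (W := PA) (Wa := O 0) (Wb := O 1) le_rfl le_rfl D.αa D.αb hf0 hfa hfa'
      hfb hfb' (c₁ := 1) (c₂ := 1) PA.one_mem PA.one_mem (hone Φα _ (hf 0)) (hone Φα _ (hf 1))
    rwa [one_pow, mul_one] at h1
  have hNαC : NF.normOf Φα f - 1 ∈ PC.nonunits :=
    D.point_αC (W := PC) (Wc := O 2) le_rfl D.αc hf0 hfc hfc' (c := 1) (honeq Φα _ (hf 2))
  have hNβA : NF.normOf Φβ f - 1 ∈ PA.nonunits :=
    D.point_βA (W := PA) (Wa := O 0) le_rfl D.βa hf0 hfa hfa' (c := 1) (honeq Φβ _ (hf 0))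
  have hNβC : NF.normOf Φβ f - 1 ∈ PC.nonunits := by
    have h1 := D.point_βC (W := PC) (Wb := O 1) (Wc := O 2) le_rfl le_rfl D.βb D.βc hf0 hfb hfb'
      hfc hfc' (c₁ := 1) (c₂ := 1) PC.one_mem PC.one_mem (hone Φβ _ (hf 1)) (hone Φβ _ (hf 2))
    rwa [one_pow, mul_one] at h1
  -- constant values of `gα`, `gβ` on the lower branches
  have key : ∀ (φ : FN →+* F) (w : W) (g : FN), IsUnit w →
      NF.normOf φ f = algebraMap W FN w * g ^ m →
      ∀ (V : ValuationSubring FN) (hV : NodeUnits.IsOver res V) (r : V →+* κ),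
        (∀ y : V, r y = 0 ↔ y ∈ maximalIdeal V) →
        (∀ w' : W, r ⟨algebraMap W FN w', hV.mem w'⟩ = algebraMap k κ (res w')) →
        NF.normOf φ f - 1 ∈ V.nonunits →
        ∃ γ : k, γ ≠ 0 ∧ NodeUnits.HasVal res V g γ := by
    intro φ w g hw hN V hV r hr hc hN1
    have hrw : res w ≠ 0 := (hw.map res).ne_zero
    have hw0 : algebraMap W FN w ≠ 0 := fun h0 =>
      hrw ((hV.nonunits_iff w).1 (h0 ▸ NodeUnits.zero_mem_nonunits))
    have hval : NodeUnits.HasVal res V (g ^ m) (1 / res w) := by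
      have e : g ^ m = NF.normOf φ f / algebraMap W FN w := by
        rw [hN]
        field_simp
      rw [e]
      exact NodeUnits.HasVal.div hV hres ⟨1, map_one _, by rwa [map_one]⟩
        (NodeUnits.hasVal_algebraMap w) hrw
    obtain ⟨γ, hγm, hγ⟩ := hasVal_of_pow hres hV r hr hc hm hval
    refine ⟨γ, fun h0 => ?_, hγ⟩
    rw [h0, zero_pow hm] at hγm
    exact one_div_ne_zero hrw hγm.symm
  obtain ⟨γαA, hγαA0, hγαA⟩ := key Φα wα gα hwα hNα PA hOA rA hrA hconstA hNαA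
  obtain ⟨γαC, hγαC0, hγαC⟩ := key Φα wα gα hwα hNα PC hOC rC hrC hconstC hNαC
  obtain ⟨γβA, hγβA0, hγβA⟩ := key Φβ wβ gβ hwβ hNβ PA hOA rA hrA hconstA hNβA
  obtain ⟨γβC, hγβC0, hγβC⟩ := key Φβ wβ gβ hwβ hNβ PC hOC rC hrC hconstC hNβC
  have hgα : gα ≠ 0 := fun h0 =>
    hγαA0 ((hγαA.eq_zero_iff hOA).2 (h0 ▸ NodeUnits.zero_mem_nonunits))
  have hgβ : gβ ≠ 0 := fun h0 =>
    hγβA0 ((hγβA.eq_zero_iff hOA).2 (h0 ▸ NodeUnits.zero_mem_nonunits))
  -- the killing function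
  have happrox : Kill.JointApprox O := by
    have h3 := Kill.jointApprox3 D.ha D.hb D.hc D.ne_ab D.ne_bc D.ne_ac
    have e : (![O 0, O 1, O 2] : Fin 3 → ValuationSubring F) = O := by
      funext i
      fin_cases i <;> rfl
    rwa [e] at h3
  obtain ⟨φ, hφ0, hφ, hφ1, hφg⟩ := Kill.exists_kill_one (κ := fun _ => κ) res O hBO red hred hO
    hres happrox m (n * (n + 2)) hm f hf0 hf (Kill.rho3 n (γαA / γαC) (γβA / γβC))
    (Kill.rho3_ne_zero n (div_ne_zero hγαA0 hγαC0) (div_ne_zero hγβA0 hγβC0)) 2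
    (Kill.rho3_two n _ _)
  refine ⟨φ, hφ0, hφ, hφ1, fun Vs hVs hDb u₁ h₁ hu₁ hu₁' hfac₁ => ?_⟩
  obtain ⟨hcα, hcα', hcα0⟩ := algebraMap_unit_mem_pointRing
    ((Meet.pt H 1 Vs hVs).comap (NodeInst.chartMap Φα hΦα h1α)) hwα
  obtain ⟨hcβ, hcβ', hcβ0⟩ := algebraMap_unit_mem_pointRing
    ((Meet.pt H 1 Vs hVs).comap (NodeInst.chartMap Φβ hΦβ h1β)) hwβ
  have hKP := (killPointOne_of_contract Φα Φβ hΦα hΦβ hres hqn H D h1α h2α h1β h2β rA hrA rC hrC
    hcαa hcαb hcβc hcβb 1 (hconst 1) π₁ ψ hnψ hψ zero_π₁ inf_π₁ p₀ p₁ hα₀ hα₁ hβ₁ hβ₂ Vs hVs hDb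
    (hk Vs hVs) hm hf (hfac Vs hVs hDb) hcα hcα' hcα0 hgα hNα hcβ hcβ' hcβ0 hgβ hNβ hγαA hγαC
    hγβA hγβC).1
  obtain ⟨c, hc, hcc⟩ := hφg (Meet.pt H 1 Vs hVs) (fun _ => Vs) hKP u₁ h₁ hu₁ hu₁' hfac₁
  refine ⟨c, hc, fun i => hcc i ?_⟩
  rw [← Meet.pt_eq_pt H Vs hVs hDb i 1]
  exact Meet.centre_le_pt H i Vs hVs

/-- **The killing function and `hglue`, with the factorisations produced by `hell` and `hhor`.**
As `exists_kill_of_contract`, the factorisation of `f` at each triple point coming from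
`LStart.exists_factor` (the local rings at the points of the special fibre are factorial:
`Contract.ufm_pointRing`, hypothesis `hell`; the horizontal divisor of `f` is divisible by `m`:
hypothesis `hhor`) — both in the literal shapes of `LInst.exists_local_pair_of_contract`. -/
theorem exists_kill_of_contract_hor [IsAlgClosed k] [IsIntegrallyClosed (chart W x)]
    (hres : Function.Surjective res) {q n : ℕ} (hqn : q = n + 1)
    (H : Contract O red hred hBO red' π₀ π₂ Dκ (algebraMap W (chart W x) qW) x' u₀ u₁ v₁ h₀ Db G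
      N e)
    {PA PC : ValuationSubring FN} {ϖN : FN} {ϖ d : F}
    (D : NF.Data Φα Φβ q PA PC (O 0) (O 1) (O 2) ϖN ϖ d)
    -- the charts
    (h1α : Φα xN ∈ chart W x) (h2α : IsIntegral (Algebra.adjoin W {Φα xN}) x)
    (h1β : Φβ xN ∈ chart W x) (h2β : IsIntegral (Algebra.adjoin W {Φβ xN}) x)
    -- residue maps of the lower level
    (rA : PA →+* κ) (hrA : ∀ y : PA, rA y = 0 ↔ y ∈ maximalIdeal PA)
    (rC : PC →+* κ) (hrC : ∀ y : PC, rC y = 0 ↔ y ∈ maximalIdeal PC)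
    (hcαa : ∀ (y : FN) (hy : y ∈ PA) (hy' : Φα y ∈ O 0), red 0 ⟨Φα y, hy'⟩ = rA ⟨y, hy⟩)
    (hcαb : ∀ (y : FN) (hy : y ∈ PA) (hy' : Φα y ∈ O 1), red 1 ⟨Φα y, hy'⟩ = rA ⟨y, hy⟩)
    (hcβc : ∀ (y : FN) (hy : y ∈ PC) (hy' : Φβ y ∈ O 2), red 2 ⟨Φβ y, hy'⟩ = rC ⟨y, hy⟩)
    (hcβb : ∀ (y : FN) (hy : y ∈ PC) (hy' : Φβ y ∈ O 1), red 1 ⟨Φβ y, hy'⟩ = rC ⟨y, hy⟩)
    -- the constants
    (hconst : ∀ i, ∀ w : W, redOn (O i) (red i) (hBO i) (algebraMap W (chart W x) w)
      = algebraMap k κ (res w))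
    -- (UNIQ)
    (π₁ : B' →+* chart W x) (ψ : κ →+* κ) {nψ : ℕ} (hnψ : nψ ≠ 0)
    (hψ : ∀ z : κ, ∃ z' : κ, ψ z' = z ^ nψ)
    (zero_π₁ : ∀ y : B', redOn (O 2) (red 2) (hBO 2) (π₁ y) = ψ (red' y))
    (inf_π₁ : ∀ y : B', redOn (O 0) (red 0) (hBO 0) (π₁ y) = ψ (red' y))
    (p₀ p₁ : B' →+* chart W xN)
    (hα₀ : ∀ y, NodeInst.chartMap Φα hΦα h1α (p₀ y) = π₀ y)
    (hα₁ : ∀ y, NodeInst.chartMap Φα hΦα h1α (p₁ y) = π₁ y)
    (hβ₁ : ∀ y, NodeInst.chartMap Φβ hΦβ h1β (p₀ y) = π₁ y)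
    (hβ₂ : ∀ y, NodeInst.chartMap Φβ hΦβ h1β (p₁ y) = π₂ y)
    -- the finite places are `k`-rational
    (hk : ∀ Vs : ValuationSubring κ, IsFinPlace red' Vs →
      ∀ v ∈ Vs, ∃ c : k, v - algebraMap k κ c ∈ Vs.nonunits)
    -- factoriality and the horizontal divisor
    (hell : ∀ Vs : ValuationSubring κ, IsFinPlace red' Vs →
      ∃ y : B', Dκ (red' y) ≠ 0 ∧ Dκ (red' y) ^ 12 * G ∉ Vs.nonunits)
    {m : ℕ} (hm : m ≠ 0) (f : F) (hf : ∀ i, f - 1 ∈ (O i).nonunits)
    (hhor : ∀ (V : ValuationSubring F) (t : F), Formal.IsUnif V t →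
      (∀ a : chart W x, algebraMap (chart W x) F a ∈ V) →
      (algebraMap (chart W x) F (algebraMap W (chart W x) qW))⁻¹ ∈ V →
      ∃ g : F, g ≠ 0 ∧ g ^ m * f ∈ V ∧ (g ^ m * f)⁻¹ ∈ V)
    {wα wβ : W} (hwα : IsUnit wα) (hwβ : IsUnit wβ) {gα gβ : FN}
    (hNα : (letI : Algebra FN F := Φα.toAlgebra; Algebra.norm FN f)
      = algebraMap W FN wα * gα ^ m)
    (hNβ : (letI : Algebra FN F := Φβ.toAlgebra; Algebra.norm FN f)
      = algebraMap W FN wβ * gβ ^ m) :
    ∃ φ : F, φ ≠ 0 ∧ (∀ i, φ ∈ O i ∧ φ⁻¹ ∈ O i) ∧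
      (∀ i, f ^ (n * (n + 2)) * φ ^ m - 1 ∈ (O i).nonunits) ∧
      ∀ (Vs : ValuationSubring κ) (hVs : IsFinPlace red' Vs), Db ∈ Vs.nonunits →
        ∀ u₁ h₁ : F, u₁ ∈ pointRing F (Meet.pt H 1 Vs hVs) →
          u₁⁻¹ ∈ pointRing F (Meet.pt H 1 Vs hVs) →
          f ^ (n * (n + 2)) * φ ^ m = u₁ * h₁ ^ m →
          ∃ c : F, c ∈ pointRing F (Meet.pt H 1 Vs hVs) ∧
            ∀ i, h₁⁻¹ - c ∈ (compositeSubring (O i) (red i) (hred i) Vs).nonunits := by
  refine exists_kill_of_contract Φα Φβ hΦα hΦβ hres hqn H D h1α h2α h1β h2β rA hrA rC hrC hcαa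
    hcαb hcβc hcβb hconst π₁ ψ hnψ hψ zero_π₁ inf_π₁ p₀ p₁ hα₀ hα₁ hβ₁ hβ₂ hk hm f hf
    (fun Vs hVs _ => ?_) hwα hwβ hNα hNβ
  have hUFM : UniqueFactorizationMonoid (pointRing F (Meet.pt H 1 Vs hVs)) :=
    H.ufm_pointRing hell (Meet.pt H 1 Vs hVs) (Meet.q_mem_pt H 1 Vs hVs)
  obtain ⟨u, h, hu, hu', -, hfuh⟩ := LStart.exists_factor O hBO (Meet.pt H 1 Vs hVs) hUFM H.q_ne
    (fun 𝔮 h𝔮 _ => H.hmin 𝔮 h𝔮) m f (NF.pu_unit (O 0) (hf 0)).1
    (fun i _ => (NF.pu_unit (O i) (hf i)).2) hhor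
  exact ⟨u, h, hu, hu', hfuh⟩

end Contract

end Fermat.Agent.CAR.Glue.NodeKill
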