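/-
CAR-35, seam to ROUTE B (helper64): the two point-level binders `hrat` and `htriple` of helper73's
`WireB.chainB` (`CAR/WireB.lean`), in their LITERAL shapes, at the supersingular points of a
contract on the chart ring `chart W x`, from `NodeData.isRatPoint_pt` and
`NodeData.triple_ratio_pow_of_contract`.

* `hrat_of_contract` : `∀ Vs hVs, Db ∈ Vs.nonunits → IsRatPoint res (Meet.pt H 1 Vs hVs)`.
* `tripleRatio_of_contract` : `WireB.TripleRatio res (q - 1) m Φα Φβ O (pointRing F (Meet.pt H 1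
  Vs hVs)).toSubring (fun i => compositeSubring (O i) (red i) (hred i) Vs)` at one supersingular
  place.
* `htriple_of_contract` : the binder `htriple` of `WireB.chainB` (all supersingular places).
* `chainB_of_contract` : `WireB.chainB` for `R = chart W x` with `hrat`, `htriple` discharged.
-/
import Mathlib
import Fermat.Agent.CAR.WireB
import Fermat.Agent.CAR.Glue.NodeKill

set_option autoImplicit false
set_option linter.style.haveILetI false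

namespace Fermat.Agent.CAR.Glue.NodeWireB

open IsLocalRing Fermat.Agent.CAR.Local Fermat.Agent.CAR.Formal Module
open Fermat.Agent.CAR.Glob.Charts Fermat.Agent.CAR.Local.Inst

section Contract

variable {W k FN F : Type*} [CommRing W] [Field k] {res : W →+* k} [Field FN] [Field F]
  [CharZero FN] [Algebra W FN] [Algebra W F] (Φα Φβ : FN →+* F)
  (hΦα : ∀ w : W, Φα (algebraMap W FN w) = algebraMap W F w)
  (hΦβ : ∀ w : W, Φβ (algebraMap W FN w) = algebraMap W F w) {xN : FN} {x : F}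
  [IsFractionRing (chart W xN) FN] [IsFractionRing (chart W x) F]
  [IsIntegrallyClosed (chart W xN)] [IsNoetherianRing (chart W x)]
  {κ B' : Type*} [Field κ] [CommRing B'] [Algebra k κ]
  {O : Fin 3 → ValuationSubring F} {red : ∀ i, O i →+* κ}
  {hred : ∀ i, ∀ y : O i, red i y = 0 ↔ y ∈ maximalIdeal (O i)}
  {hBO : ∀ i, ∀ b : chart W x, algebraMap (chart W x) F b ∈ O i}
  {red' : B' →+* κ} {π₀ π₂ : B' →+* chart W x} {Dκ : κ → κ}
  {qW : W} {x' : B'} {u₀ u₁ v₁ h₀ : chart W x} {Db G : κ} {N e : ℕ}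

omit [CharZero FN] [Algebra W FN] [IsFractionRing (chart W xN) FN]
  [IsIntegrallyClosed (chart W xN)] [IsFractionRing (chart W x) F] in
/-- **The binder `hrat` of `WireB.chainB`**: the supersingular points of a contract on
`chart W x` are `k`-rational, if the constants reduce through `res` on ONE component `i₀` and
every finite place of `κ` has residue field `k`. -/
theorem hrat_of_contract (hres : Function.Surjective res)
    (H : Contract O red hred hBO red' π₀ π₂ Dκ (algebraMap W (chart W x) qW) x' u₀ u₁ v₁ h₀ Db G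
      N e)
    (i₀ : Fin 3)
    (hconst : ∀ w : W, redOn (O i₀) (red i₀) (hBO i₀) (algebraMap W (chart W x) w)
      = algebraMap k κ (res w))
    (hk : ∀ Vs : ValuationSubring κ, IsFinPlace red' Vs →
      ∀ v ∈ Vs, ∃ c : k, v - algebraMap k κ c ∈ Vs.nonunits) :
    ∀ (Vs : ValuationSubring κ) (hVs : IsFinPlace red' Vs), Db ∈ Vs.nonunits →
      NodeUnits.IsRatPoint res (Meet.pt H 1 Vs hVs) :=
  fun Vs hVs hDb => NodeData.isRatPoint_pt hres H i₀ hconst Vs hVs hDb (hk Vs hVs) 1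

/-- **`WireB.TripleRatio` at a supersingular point of a contract** (the literal conclusion of
`NodeData.triple_ratio_pow_of_contract`, with the constants `cα, cβ` of the norm equations units
of `W`). -/
theorem tripleRatio_of_contract (hres : Function.Surjective res) {q : ℕ}
    (H : Contract O red hred hBO red' π₀ π₂ Dκ (algebraMap W (chart W x) qW) x' u₀ u₁ v₁ h₀ Db G
      N e)
    {PA PC : ValuationSubring FN} {ϖN : FN} {ϖ d : F}
    (D : NF.Data Φα Φβ q PA PC (O 0) (O 1) (O 2) ϖN ϖ d)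
    -- the charts
    (h1α : Φα xN ∈ chart W x) (h2α : IsIntegral (Algebra.adjoin W {Φα xN}) x)
    (h1β : Φβ xN ∈ chart W x) (h2β : IsIntegral (Algebra.adjoin W {Φβ xN}) x)
    -- residue maps of the lower level
    (rA : PA →+* κ) (hrA : ∀ y : PA, rA y = 0 ↔ y ∈ maximalIdeal PA)
    (rC : PC →+* κ) (hrC : ∀ y : PC, rC y = 0 ↔ y ∈ maximalIdeal PC)
    (hcαa : ∀ (y : FN) (hy : y ∈ PA) (hy' : Φα y ∈ O 0), red 0 ⟨Φα y, hy'⟩ = rA ⟨y, hy⟩)
    (hcαb : ∀ (y : FN) (hy : y ∈ PA) (hy' : Φα y ∈ O 1), red 1 ⟨Φα y, hy'⟩ = rA ⟨y, hy⟩)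
    (hcβc : ∀ (y : FN) (hy : y ∈ PC) (hy' : Φβ y ∈ O 2), red 2 ⟨Φβ y, hy'⟩ = rC ⟨y, hy⟩)
    (hcβb : ∀ (y : FN) (hy : y ∈ PC) (hy' : Φβ y ∈ O 1), red 1 ⟨Φβ y, hy'⟩ = rC ⟨y, hy⟩)
    -- the constants
    (i₀ : Fin 3)
    (hconst : ∀ w : W, redOn (O i₀) (red i₀) (hBO i₀) (algebraMap W (chart W x) w)
      = algebraMap k κ (res w))
    -- (UNIQ)
    (π₁ : B' →+* chart W x) (ψ : κ →+* κ) {nψ : ℕ} (hnψ : nψ ≠ 0)
    (hψ : ∀ z : κ, ∃ z' : κ, ψ z' = z ^ nψ)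
    (zero_π₁ : ∀ y : B', redOn (O 2) (red 2) (hBO 2) (π₁ y) = ψ (red' y))
    (inf_π₁ : ∀ y : B', redOn (O 0) (red 0) (hBO 0) (π₁ y) = ψ (red' y))
    (p₀ p₁ : B' →+* chart W xN)
    (hα₀ : ∀ y, NodeInst.chartMap Φα hΦα h1α (p₀ y) = π₀ y)
    (hα₁ : ∀ y, NodeInst.chartMap Φα hΦα h1α (p₁ y) = π₁ y)
    (hβ₁ : ∀ y, NodeInst.chartMap Φβ hΦβ h1β (p₀ y) = π₁ y)
    (hβ₂ : ∀ y, NodeInst.chartMap Φβ hΦβ h1β (p₁ y) = π₂ y)
    -- the supersingular place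
    (Vs : ValuationSubring κ) (hVs : IsFinPlace red' Vs) (hDb : Db ∈ Vs.nonunits)
    (hk : ∀ v ∈ Vs, ∃ c : k, v - algebraMap k κ c ∈ Vs.nonunits)
    {m : ℕ} (hm : m ≠ 0) :
    WireB.TripleRatio res (q - 1) m Φα Φβ O (pointRing F (Meet.pt H 1 Vs hVs)).toSubring
      (fun i => compositeSubring (O i) (red i) (hred i) Vs) := by
  intro f u h gα gβ cα cβ a b c γα₁ γα₂ γβ₁ γβ₂ _ hu hu' hfuh hh hcα hgα hNα hcβ hgβ hNβ ha hb hc
    ha0 hb0 hc0 hγα₁ hγα₂ hγβ₁ hγβ₂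
  have hqn : q = (q - 1) + 1 := by
    have := D.hq.one_lt
    omega
  obtain ⟨hcα1, hcα2, hcα3⟩ := NodeKill.algebraMap_unit_mem_pointRing
    ((Meet.pt H 1 Vs hVs).comap (NodeInst.chartMap Φα hΦα h1α)) hcα
  obtain ⟨hcβ1, hcβ2, hcβ3⟩ := NodeKill.algebraMap_unit_mem_pointRing
    ((Meet.pt H 1 Vs hVs).comap (NodeInst.chartMap Φβ hΦβ h1β)) hcβ
  exact (NodeData.triple_ratio_pow_of_contract Φα Φβ hΦα hΦβ hres hqn H D h1α h2α h1β h2β rA hrA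
    rC hrC hcαa hcαb hcβc hcβb i₀ hconst π₁ ψ hnψ hψ zero_π₁ inf_π₁ p₀ p₁ hα₀ hα₁ hβ₁ hβ₂ Vs hVs
    hDb hk hm hu hu' hfuh hh hcα1 hcα2 hcα3 hgα hNα hcβ1 hcβ2 hcβ3 hgβ hNβ ha hb hc ha0 hb0 hc0
    hγα₁ hγα₂ hγβ₁ hγβ₂).1

/-- **The binder `htriple` of `WireB.chainB`**: `WireB.TripleRatio` at every supersingular point
of a contract on `chart W x`. -/
theorem htriple_of_contract (hres : Function.Surjective res) {q : ℕ}
    (H : Contract O red hred hBO red' π₀ π₂ Dκ (algebraMap W (chart W x) qW) x' u₀ u₁ v₁ h₀ Db G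
      N e)
    {PA PC : ValuationSubring FN} {ϖN : FN} {ϖ d : F}
    (D : NF.Data Φα Φβ q PA PC (O 0) (O 1) (O 2) ϖN ϖ d)
    (h1α : Φα xN ∈ chart W x) (h2α : IsIntegral (Algebra.adjoin W {Φα xN}) x)
    (h1β : Φβ xN ∈ chart W x) (h2β : IsIntegral (Algebra.adjoin W {Φβ xN}) x)
    (rA : PA →+* κ) (hrA : ∀ y : PA, rA y = 0 ↔ y ∈ maximalIdeal PA)
    (rC : PC →+* κ) (hrC : ∀ y : PC, rC y = 0 ↔ y ∈ maximalIdeal PC)
    (hcαa : ∀ (y : FN) (hy : y ∈ PA) (hy' : Φα y ∈ O 0), red 0 ⟨Φα y, hy'⟩ = rA ⟨y, hy⟩)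
    (hcαb : ∀ (y : FN) (hy : y ∈ PA) (hy' : Φα y ∈ O 1), red 1 ⟨Φα y, hy'⟩ = rA ⟨y, hy⟩)
    (hcβc : ∀ (y : FN) (hy : y ∈ PC) (hy' : Φβ y ∈ O 2), red 2 ⟨Φβ y, hy'⟩ = rC ⟨y, hy⟩)
    (hcβb : ∀ (y : FN) (hy : y ∈ PC) (hy' : Φβ y ∈ O 1), red 1 ⟨Φβ y, hy'⟩ = rC ⟨y, hy⟩)
    (i₀ : Fin 3)
    (hconst : ∀ w : W, redOn (O i₀) (red i₀) (hBO i₀) (algebraMap W (chart W x) w)
      = algebraMap k κ (res w))
    (π₁ : B' →+* chart W x) (ψ : κ →+* κ) {nψ : ℕ} (hnψ : nψ ≠ 0)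
    (hψ : ∀ z : κ, ∃ z' : κ, ψ z' = z ^ nψ)
    (zero_π₁ : ∀ y : B', redOn (O 2) (red 2) (hBO 2) (π₁ y) = ψ (red' y))
    (inf_π₁ : ∀ y : B', redOn (O 0) (red 0) (hBO 0) (π₁ y) = ψ (red' y))
    (p₀ p₁ : B' →+* chart W xN)
    (hα₀ : ∀ y, NodeInst.chartMap Φα hΦα h1α (p₀ y) = π₀ y)
    (hα₁ : ∀ y, NodeInst.chartMap Φα hΦα h1α (p₁ y) = π₁ y)
    (hβ₁ : ∀ y, NodeInst.chartMap Φβ hΦβ h1β (p₀ y) = π₁ y)
    (hβ₂ : ∀ y, NodeInst.chartMap Φβ hΦβ h1β (p₁ y) = π₂ y)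
    (hk : ∀ Vs : ValuationSubring κ, IsFinPlace red' Vs →
      ∀ v ∈ Vs, ∃ c : k, v - algebraMap k κ c ∈ Vs.nonunits)
    {m : ℕ} (hm : m ≠ 0) :
    ∀ (Vs : ValuationSubring κ) (hVs : IsFinPlace red' Vs), Db ∈ Vs.nonunits →
      WireB.TripleRatio res (q - 1) m Φα Φβ O (pointRing F (Meet.pt H 1 Vs hVs)).toSubring
        (fun i => compositeSubring (O i) (red i) (hred i) Vs) :=
  fun Vs hVs hDb => tripleRatio_of_contract Φα Φβ hΦα hΦβ hres H D h1α h2α h1β h2β rA hrA rC hrC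
    hcαa hcαb hcβc hcβb i₀ hconst π₁ ψ hnψ hψ zero_π₁ inf_π₁ p₀ p₁ hα₀ hα₁ hβ₁ hβ₂ Vs hVs hDb
    (hk Vs hVs) hm

end Contract

/-! ### Route B with the point-level binders discharged -/

section Chain

variable {W k K0 FN F : Type*} [CommRing W] [Field k] [Field K0] [Field FN] [Field F]
  [Algebra W K0] [Algebra K0 FN] [Algebra K0 F] [Algebra W FN] [Algebra W F]
  [IsScalarTower W K0 FN] [IsScalarTower W K0 F] [CharZero FN]
  {xN : FN} {x : F}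
  [IsFractionRing (chart W xN) FN] [IsFractionRing (chart W x) F]
  [IsIntegrallyClosed (chart W xN)] [IsNoetherianRing (chart W x)]
  [IsIntegrallyClosed (chart W x)]
  {κ B' : Type*} [Field κ] [CommRing B'] [Algebra k κ]

/-- **`WireB.chainB` on the chart ring `R = chart W x`, with `hrat` and `htriple` discharged**
from the contract: the remaining point-level inputs are the chart block (`h1α h2α h1β h2β`), the
residue maps `rA, rC` of the lower branches with the four untwisted compatibilities, the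
reduction of the constants on one component, the (UNIQ) block and the `k`-rationality of the
finite places of `κ`. -/
theorem chainB_of_contract [IsAlgClosed k]
    (res : W →+* k) (hres : Function.Surjective res) (q₀ : W)
    (hker : ∀ w : W, res w = 0 → q₀ ∣ w)
    (hunit : ∀ w : W, res w ≠ 0 → IsUnit w)
    (hK0 : ∀ a : K0, a ≠ 0 → ∃ (n : ℤ) (w : W), IsUnit w ∧
      a = algebraMap W K0 q₀ ^ n * algebraMap W K0 w)
    (m q : ℕ) (hcop : Nat.Coprime m q) (m' : W) (hmm : (m : W) * m' = 1)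
    (α β : FN →+* F) (hαK : ∀ a : K0, α (algebraMap K0 FN a) = algebraMap K0 F a)
    (hβK : ∀ a : K0, β (algebraMap K0 FN a) = algebraMap K0 F a)
    (hαW : ∀ w : W, α (algebraMap W FN w) = algebraMap W F w)
    (hβW : ∀ w : W, β (algebraMap W FN w) = algebraMap W F w)
    (PA PC : ValuationSubring FN) (O : Fin 3 → ValuationSubring F) (ϖ d : F)
    (D : NF.Data α β q PA PC (O 0) (O 1) (O 2) (algebraMap W FN q₀) ϖ d)
    (hWA : ∀ w : W, algebraMap W FN w ∈ PA) (hWC : ∀ w : W, algebraMap W FN w ∈ PC)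
    -- the finite chart
    {red : ∀ i, O i →+* κ}
    {hred : ∀ i, ∀ y : O i, red i y = 0 ↔ y ∈ maximalIdeal (O i)}
    {hBO : ∀ i, ∀ b : chart W x, algebraMap (chart W x) F b ∈ O i}
    {red' : B' →+* κ} {π₀ π₂ : B' →+* chart W x} {Dd : κ → κ}
    {x' : B'} {u u₁ v₁ h : chart W x} {Db G : κ} {N e : ℕ}
    (H : Contract O red hred hBO red' π₀ π₂ Dd (algebraMap W (chart W x) q₀) x' u u₁ v₁ h Db G
      N e)
    (hell : ∀ Vs : ValuationSubring κ, IsFinPlace red' Vs →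
      ∃ y : B', Dd (red' y) ≠ 0 ∧ Dd (red' y) ^ 12 * G ∉ Vs.nonunits)
    -- the node block
    (h1α : α xN ∈ chart W x) (h2α : IsIntegral (Algebra.adjoin W {α xN}) x)
    (h1β : β xN ∈ chart W x) (h2β : IsIntegral (Algebra.adjoin W {β xN}) x)
    (rA : PA →+* κ) (hrA : ∀ y : PA, rA y = 0 ↔ y ∈ maximalIdeal PA)
    (rC : PC →+* κ) (hrC : ∀ y : PC, rC y = 0 ↔ y ∈ maximalIdeal PC)
    (hcαa : ∀ (y : FN) (hy : y ∈ PA) (hy' : α y ∈ O 0), red 0 ⟨α y, hy'⟩ = rA ⟨y, hy⟩)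
    (hcαb : ∀ (y : FN) (hy : y ∈ PA) (hy' : α y ∈ O 1), red 1 ⟨α y, hy'⟩ = rA ⟨y, hy⟩)
    (hcβc : ∀ (y : FN) (hy : y ∈ PC) (hy' : β y ∈ O 2), red 2 ⟨β y, hy'⟩ = rC ⟨y, hy⟩)
    (hcβb : ∀ (y : FN) (hy : y ∈ PC) (hy' : β y ∈ O 1), red 1 ⟨β y, hy'⟩ = rC ⟨y, hy⟩)
    (i₀ : Fin 3)
    (hconst : ∀ w : W, redOn (O i₀) (red i₀) (hBO i₀) (algebraMap W (chart W x) w)
      = algebraMap k κ (res w))
    (π₁ : B' →+* chart W x) (ψ : κ →+* κ) {nψ : ℕ} (hnψ : nψ ≠ 0)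
    (hψ : ∀ z : κ, ∃ z' : κ, ψ z' = z ^ nψ)
    (zero_π₁ : ∀ y : B', redOn (O 2) (red 2) (hBO 2) (π₁ y) = ψ (red' y))
    (inf_π₁ : ∀ y : B', redOn (O 0) (red 0) (hBO 0) (π₁ y) = ψ (red' y))
    (p₀ p₁ : B' →+* chart W xN)
    (hα₀ : ∀ y, NodeInst.chartMap α hαW h1α (p₀ y) = π₀ y)
    (hα₁ : ∀ y, NodeInst.chartMap α hαW h1α (p₁ y) = π₁ y)
    (hβ₁ : ∀ y, NodeInst.chartMap β hβW h1β (p₀ y) = π₁ y)
    (hβ₂ : ∀ y, NodeInst.chartMap β hβW h1β (p₁ y) = π₂ y)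
    (hk : ∀ Vs : ValuationSubring κ, IsFinPlace red' Vs →
      ∀ v ∈ Vs, ∃ c : k, v - algebraMap k κ c ∈ Vs.nonunits)
    -- the chart at infinity
    (R' : Subalgebra W F) (cusp : Ideal R' → Prop)
    (hcusp : ∀ f : F, (∀ i, f - 1 ∈ (O i).nonunits) →
      Fermat.Agent.CAR.Inst.Hor.HHor (B := R') (algebraMap W R' q₀) m f →
      ∀ Q : Ideal R', Q.IsMaximal → algebraMap W R' q₀ ∈ Q → cusp Q →
        ∃ h : R', h ∉ Q ∧ ∃ s : F, s ^ m * f ∈ R' ∧ ∀ i, s - h ∈ (O i).nonunits)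
    -- the chart theorem
    (hglob : ∀ f : F, (∀ i, f - 1 ∈ (O i).nonunits) →
      (∀ Q : Ideal (chart W x), Q.IsMaximal → algebraMap W (chart W x) q₀ ∈ Q →
        ∃ h : chart W x, h ∉ Q ∧ ∃ s : F, s ^ m * f ∈ chart W x ∧
          ∀ i, s - h ∈ (O i).nonunits) →
      (∀ Q : Ideal R', Q.IsMaximal → algebraMap W R' q₀ ∈ Q → cusp Q →
        ∃ h : R', h ∉ Q ∧ ∃ s : F, s ^ m * f ∈ R' ∧ ∀ i, s - h ∈ (O i).nonunits) →
      ∃ (c : W) (τ : F), τ ≠ 0 ∧ algebraMap W F c ≠ 0 ∧ f = algebraMap W F c * τ ^ m)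
    (f : F) (hf0 : f ≠ 0)
    (hhorR : Fermat.Agent.CAR.Inst.Hor.HHor (B := chart W x) (algebraMap W (chart W x) q₀) m f)
    (hhorR' : Fermat.Agent.CAR.Inst.Hor.HHor (B := R') (algebraMap W R' q₀) m f)
    (hNα : ∃ (a : K0) (g : FN), a ≠ 0 ∧ NF.normOf α f = algebraMap K0 FN a * g ^ m)
    (hNβ : ∃ (a : K0) (g : FN), a ≠ 0 ∧ NF.normOf β f = algebraMap K0 FN a * g ^ m) :
    ∃ (b : K0) (h : F), b ≠ 0 ∧ h ≠ 0 ∧
      f ^ ((q - 1) * (q + 1) * ((q - 1) * (q + 1))) = algebraMap K0 F b * h ^ m := by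
  have hm : m ≠ 0 := by
    rintro rfl
    rw [Nat.coprime_zero_left] at hcop
    exact D.hq.one_lt.ne' hcop
  exact WireB.chainB res hres q₀ hker hunit hK0 m q hcop m' hmm α β hαK hβK PA PC O ϖ d D hWA hWC
    (chart W x) H hell
    (hrat_of_contract hres H i₀ hconst hk)
    (htriple_of_contract α β hαW hβW hres H D h1α h2α h1β h2β rA hrA rC hrC hcαa hcαb hcβc hcβb
      i₀ hconst π₁ ψ hnψ hψ zero_π₁ inf_π₁ p₀ p₁ hα₀ hα₁ hβ₁ hβ₂ hk hm)
    R' cusp hcusp hglob f hf0 hhorR hhorR' hNα hNβ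

end Chain

end Fermat.Agent.CAR.Glue.NodeWireB
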