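/-
CAR (helper52) — normalising a Kummer generator modulo `ϖ`.

On a non-reduced special fibre (`O / ϖ O` has nilpotents: the component `C_mid` of `X₀(q² M')`
has multiplicity `q - 1`) a Kummer generator `g` of an `m`-torsion class whose reductions on the
reduced components are `1` is only congruent to `1` modulo the RADICAL of `ϖ O`.  Since `m` is
invertible, `g` is an `m`-th power modulo `ϖ O` (Newton's method in `O / ϖ O`, Mathlib's
`Polynomial.existsUnique_nilpotent_sub_and_aeval_eq_zero`):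

* `exists_pow_eq_of_isNilpotent_sub_one` : in a commutative ring with `m` invertible, every
  `a ≡ 1` modulo nilpotents is `r ^ m` with `r ≡ 1` modulo nilpotents.
* `exists_pow_sub_mem_span` : `(g - 1)^N ∈ ϖ O` ⟹ `∃ G`, `(G - 1)^N' ∈ ϖ O`, `G^m ≡ g mod ϖ O`.
* `exists_unit_mul_pow_sub_one_mem_span` : if moreover `1 + rad(ϖ O) ⊆ Oˣ` (e.g. `O` semilocal
  with `ϖ` in all maximal ideals), then `G` is a unit and `g * G⁻¹ ^ m ≡ 1 mod ϖ O`: the
  hypothesis `hf1` of `Glue.DeformRed.exists_common_of_redLe` after replacing the divisor `D` by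
  the linearly equivalent divisor `D - div G`.
-/
import Mathlib

set_option autoImplicit false

namespace Fermat.Agent.CAR.Glue

open Polynomial

/-- `m`-th roots of elements congruent to `1` modulo nilpotents, `m` invertible. -/
theorem exists_pow_eq_of_isNilpotent_sub_one {S : Type*} [CommRing S] (m : ℕ)
    (hm : IsUnit (m : S)) (a : S) (ha : IsNilpotent (a - 1)) :
    ∃ r : S, IsNilpotent (r - 1) ∧ r ^ m = a := by
  have h1 : IsNilpotent (aeval (1 : S) (X ^ m - C a : S[X])) := by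
    have e : aeval (1 : S) (X ^ m - C a : S[X]) = -(a - 1) := by
      simp
    rw [e]
    exact ha.neg
  have h2 : IsUnit (aeval (1 : S) (derivative (X ^ m - C a : S[X]))) := by
    have e : aeval (1 : S) (derivative (X ^ m - C a : S[X])) = (m : S) := by
      rw [derivative_sub, derivative_C, sub_zero, derivative_X_pow, map_mul, map_pow, aeval_X,
        one_pow, mul_one, aeval_C]
      simp
    rw [e]
    exact hm
  obtain ⟨r, ⟨hr1, hr2⟩, -⟩ := existsUnique_nilpotent_sub_and_aeval_eq_zero h1 h2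
  refine ⟨r, ?_, ?_⟩
  · have e : r - 1 = -(1 - r) := by ring
    rw [e]
    exact hr1.neg
  · have e : aeval r (X ^ m - C a : S[X]) = r ^ m - a := by simp
    rw [e, sub_eq_zero] at hr2
    exact hr2

/-- A Kummer generator congruent to `1` modulo the radical of `ϖ O` is an `m`-th power modulo
`ϖ O`, if `m` is invertible modulo `ϖ`. -/
theorem exists_pow_sub_mem_span {O : Type*} [CommRing O] (ϖ : O) (m : ℕ)
    (hm : ∃ m' : O, (m : O) * m' - 1 ∈ Ideal.span {ϖ}) (g : O) (N : ℕ)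
    (hg : (g - 1) ^ N ∈ Ideal.span {ϖ}) :
    ∃ G : O, (∃ N' : ℕ, (G - 1) ^ N' ∈ Ideal.span {ϖ}) ∧ G ^ m - g ∈ Ideal.span {ϖ} := by
  set I : Ideal O := Ideal.span {ϖ} with hI
  obtain ⟨m', hm'⟩ := hm
  have hmI : IsUnit ((m : ℕ) : O ⧸ I) := by
    refine IsUnit.of_mul_eq_one (Ideal.Quotient.mk I m') ?_
    have e : ((m : ℕ) : O ⧸ I) = Ideal.Quotient.mk I (m : O) := by simp
    rw [e, ← map_mul, ← map_one (Ideal.Quotient.mk I), ← sub_eq_zero, ← map_sub,
      Ideal.Quotient.eq_zero_iff_mem]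
    exact hm'
  have hgI : IsNilpotent (Ideal.Quotient.mk I g - 1) := by
    refine ⟨N, ?_⟩
    rw [← map_one (Ideal.Quotient.mk I), ← map_sub, ← map_pow, Ideal.Quotient.eq_zero_iff_mem]
    exact hg
  obtain ⟨r, ⟨N', hN'⟩, hr⟩ := exists_pow_eq_of_isNilpotent_sub_one m hmI _ hgI
  obtain ⟨G, rfl⟩ := Ideal.Quotient.mk_surjective r
  refine ⟨G, ⟨N', ?_⟩, ?_⟩
  · rw [← map_one (Ideal.Quotient.mk I), ← map_sub, ← map_pow,
      Ideal.Quotient.eq_zero_iff_mem] at hN'
    exact hN'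
  · rw [← map_pow, ← sub_eq_zero, ← map_sub, Ideal.Quotient.eq_zero_iff_mem] at hr
    exact hr

/-- **Normalisation.**  If `1 + rad(ϖ O)` consists of units, a Kummer generator `g` congruent to
`1` modulo `rad(ϖ O)` becomes congruent to `1` modulo `ϖ O` after division by the `m`-th power
of a unit `G ≡ 1 mod rad(ϖ O)`. -/
theorem exists_unit_mul_pow_sub_one_mem_span {O : Type*} [CommRing O] (ϖ : O) (m : ℕ)
    (hm : ∃ m' : O, (m : O) * m' - 1 ∈ Ideal.span {ϖ})
    (hrad : ∀ z : O, (∃ N : ℕ, z ^ N ∈ Ideal.span {ϖ}) → IsUnit (1 + z))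
    (g : O) (N : ℕ) (hg : (g - 1) ^ N ∈ Ideal.span {ϖ}) :
    ∃ G : Oˣ, (∃ N' : ℕ, ((G : O) - 1) ^ N' ∈ Ideal.span {ϖ}) ∧
      g * ((G⁻¹ : Oˣ) : O) ^ m - 1 ∈ Ideal.span {ϖ} := by
  obtain ⟨G, hG, hGg⟩ := exists_pow_sub_mem_span ϖ m hm g N hg
  have hGu : IsUnit G := by
    have := hrad (G - 1) hG
    rwa [add_sub_cancel] at this
  refine ⟨hGu.unit, hG, ?_⟩
  have e : g * ((hGu.unit⁻¹ : Oˣ) : O) ^ m - 1
      = -(((hGu.unit⁻¹ : Oˣ) : O) ^ m * (G ^ m - g)) := by
    have h1 : ((hGu.unit⁻¹ : Oˣ) : O) ^ m * G ^ m = 1 := by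
      rw [← mul_pow]
      have : ((hGu.unit⁻¹ : Oˣ) : O) * G = 1 := by
        have := hGu.unit.inv_mul
        rwa [IsUnit.unit_spec] at this
      rw [this, one_pow]
    linear_combination (1 : O) * h1
  rw [e]
  exact neg_mem (Ideal.mul_mem_left _ _ hGg)

end Fermat.Agent.CAR.Glue
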